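import Mathlib
import Fermat.Prelude.Def_ModularCurve_X0
import Fermat.Prelude.Def_ModularCurve_LaurentCoeff

/-!
Transport of integrality over one-generator algebras; Laurent series.
-/

set_option autoImplicit false

noncomputable section

open ModularCurve

namespace FLTAgent.Good

section Transport

variable {R R' E E' : Type*} [CommRing R] [CommRing R'] [CommRing E] [CommRing E'] [Algebra R E]
  [Algebra R' E'] (φ : R →+* R') (ψ : E →+* E')
  (hcomp : ∀ r, ψ (algebraMap R E r) = algebraMap R' E' (φ r)) {s : E}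

include hcomp in
theorem map_mem_adjoin_single {a : E} (ha : a ∈ Algebra.adjoin R ({s} : Set E)) :
    ψ a ∈ Algebra.adjoin R' ({ψ s} : Set E') := by
  induction ha using Algebra.adjoin_induction with
  | mem y hy =>
    rw [Set.mem_singleton_iff] at hy
    subst hy
    exact Algebra.self_mem_adjoin_singleton _ _
  | algebraMap r => rw [hcomp]; exact Subalgebra.algebraMap_mem _ _
  | add a b _ _ ha hb => rw [map_add]; exact add_mem ha hb
  | mul a b _ _ ha hb => rw [map_mul]; exact mul_mem ha hb

include hcomp in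
theorem isIntegral_adjoin_map {x : E}
    (hx : IsIntegral (Algebra.adjoin R ({s} : Set E)) x) :
    IsIntegral (Algebra.adjoin R' ({ψ s} : Set E')) (ψ x) := by
  refine hx.map_of_comp_eq
    ((ψ.comp (Algebra.adjoin R ({s} : Set E)).val.toRingHom).codRestrict
      (Algebra.adjoin R' ({ψ s} : Set E')).toSubring fun a =>
        map_mem_adjoin_single φ ψ hcomp a.2) ψ ?_
  ext a
  rfl

end Transport

section Transport'

variable {R E E' : Type*} [CommRing R] [CommRing E] [CommRing E'] [Algebra R E] [Algebra R E']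
  (ψ : E →+* E') (hcomp : ∀ r, ψ (algebraMap R E r) = algebraMap R E' r) {s : E}

include hcomp in
theorem isIntegral_adjoin_of_map (hψ : Function.Injective ψ) {x : E}
    (hx : IsIntegral (Algebra.adjoin R ({ψ s} : Set E')) (ψ x)) :
    IsIntegral (Algebra.adjoin R ({s} : Set E)) x := by
  let ψ' : E →ₐ[R] E' := { ψ with commutes' := hcomp }
  let g : Algebra.adjoin R ({s} : Set E) →+* Algebra.adjoin R ({ψ s} : Set E') :=
    (ψ.comp (Algebra.adjoin R ({s} : Set E)).val.toRingHom).codRestrict
      (Algebra.adjoin R ({ψ s} : Set E')).toSubring fun a =>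
        map_mem_adjoin_single (RingHom.id R) ψ hcomp a.2
  have hg : Function.Surjective g := by
    rintro ⟨b, hb⟩
    have hb' : b ∈ (Algebra.adjoin R ({s} : Set E)).map ψ' := by
      rw [AlgHom.map_adjoin_singleton]; exact hb
    obtain ⟨a, ha, rfl⟩ := hb'
    exact ⟨⟨a, ha⟩, rfl⟩
  obtain ⟨p, hp, hpx⟩ := hx
  obtain ⟨q, hq, -, hqm⟩ := Polynomial.lifts_and_natDegree_eq_and_monic
    ((Polynomial.lifts_iff_coeff_lifts _).mpr fun n => hg (p.coeff n)) hp
  refine ⟨q, hqm, hψ ?_⟩
  rw [map_zero, Polynomial.hom_eval₂, ← hpx, ← hq, Polynomial.eval₂_map]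
  rfl

end Transport'

section Pow

variable {R K : Type*} [CommRing R] [Field K] [Algebra R K] {s : K}

theorem exists_pow_mul_mem_adjoin_single (hs : s ≠ 0) {a : K}
    (ha : a ∈ Algebra.adjoin R ({s⁻¹} : Set K)) :
    ∃ n : ℕ, ∀ m : ℕ, n ≤ m → s ^ m * a ∈ Algebra.adjoin R ({s} : Set K) := by
  have hself : ∀ m : ℕ, s ^ m ∈ Algebra.adjoin R ({s} : Set K) := fun m =>
    pow_mem (Algebra.self_mem_adjoin_singleton R s) m
  induction ha using Algebra.adjoin_induction with
  | mem y hy =>
    rw [Set.mem_singleton_iff] at hy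
    subst hy
    refine ⟨1, fun m hm => ?_⟩
    obtain ⟨k, rfl⟩ := Nat.exists_eq_add_of_le' hm
    rw [pow_succ, mul_assoc, mul_inv_cancel₀ hs, mul_one]
    exact hself k
  | algebraMap r => exact ⟨0, fun m _ => mul_mem (hself m) (Subalgebra.algebraMap_mem _ _)⟩
  | add a b _ _ ha hb =>
    obtain ⟨n, hn⟩ := ha
    obtain ⟨n', hn'⟩ := hb
    exact ⟨max n n', fun m hm => by
      rw [mul_add]
      exact add_mem (hn m (le_of_max_le_left hm)) (hn' m (le_of_max_le_right hm))⟩
  | mul a b _ _ ha hb =>
    obtain ⟨n, hn⟩ := ha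
    obtain ⟨n', hn'⟩ := hb
    refine ⟨n + n', fun m hm => ?_⟩
    obtain ⟨k, rfl⟩ := Nat.exists_eq_add_of_le hm
    rw [show s ^ (n + n' + k) * (a * b) = (s ^ n * a) * ((s ^ (n' + k)) * b) by ring]
    exact mul_mem (hn n le_rfl) (hn' _ (Nat.le_add_right _ _))

theorem exists_pow_mul_isIntegral (hs : s ≠ 0) {x : K}
    (hx : IsIntegral (Algebra.adjoin R ({s⁻¹} : Set K)) x) :
    ∃ n : ℕ, ∀ m : ℕ, n ≤ m → IsIntegral (Algebra.adjoin R ({s} : Set K)) (s ^ m * x) := by
  obtain ⟨p, hp, hpx⟩ := hx
  set B := Algebra.adjoin R ({s} : Set K)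
  choose e he using fun i : ℕ => exists_pow_mul_mem_adjoin_single (R := R) hs (p.coeff i).2
  refine ⟨(Finset.range (p.natDegree + 1)).sup e, fun m hm => ?_⟩
  set P : Polynomial K := p.map (algebraMap (Algebra.adjoin R ({s⁻¹} : Set K)) K) with hP
  have hPm : P.Monic := hp.map _
  set Q := P.scaleRoots (s ^ m) with hQ
  have hQm : Q.Monic := (Polynomial.monic_scaleRoots_iff _).mpr hPm
  have hQc : ∀ i, Q.coeff i ∈ B := by
    intro i
    rw [hQ, Polynomial.coeff_scaleRoots]
    rcases Nat.lt_or_ge i P.natDegree with hi | hi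
    · obtain ⟨d, hd⟩ := Nat.exists_eq_add_of_lt hi
      have hdeg : P.natDegree = p.natDegree := hp.natDegree_map _
      have hmi : e i ≤ m :=
        le_trans (Finset.le_sup (f := e) (Finset.mem_range.mpr (by omega))) hm
      rw [show P.natDegree - i = d + 1 by omega, pow_succ, hP, Polynomial.coeff_map, ← pow_mul,
        ← mul_assoc, mul_comm _ (s ^ (m * d)), mul_assoc]
      refine mul_mem (pow_mem (Algebra.self_mem_adjoin_singleton R s) _) ?_
      rw [mul_comm]
      exact he i m hmi
    · rcases eq_or_lt_of_le hi with h | h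
      · rw [← h, Nat.sub_self, pow_zero, mul_one, hPm.coeff_natDegree]
        exact one_mem B
      · rw [Polynomial.coeff_eq_zero_of_natDegree_lt h, zero_mul]
        exact zero_mem B
  have hl : Q ∈ Polynomial.lifts (algebraMap B K) :=
    (Polynomial.lifts_iff_coeff_lifts _).mpr fun i => ⟨⟨_, hQc i⟩, rfl⟩
  obtain ⟨q, hq, -, hqm⟩ := Polynomial.lifts_and_natDegree_eq_and_monic hl hQm
  refine ⟨q, hqm, ?_⟩
  rw [Polynomial.eval₂_eq_eval_map, hq, hQ, Polynomial.scaleRoots_eval_mul, hP,
    ← Polynomial.eval₂_eq_eval_map, hpx, mul_zero]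

end Pow

section Series

variable {K : Type*} [Field K]

/-- nonnegative order -/
def NoPole (x : LaurentSeries K) : Prop := ∀ n < (0 : ℤ), x.coeff n = 0

theorem noPole_iff {x : LaurentSeries K} : NoPole x ↔ x = 0 ∨ 0 ≤ x.order := by
  constructor
  · intro h
    by_cases hx : x = 0
    · exact Or.inl hx
    refine Or.inr (le_of_not_gt fun hlt => ?_)
    exact HahnSeries.leadingCoeff_ne_zero.mpr hx (by
      rw [HahnSeries.leadingCoeff_eq]; exact h _ hlt)
  · rintro (rfl | h) n hn
    · simp
    · exact HahnSeries.coeff_eq_zero_of_lt_order (by omega)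

/-- the series without pole -/
def noPoleAlg (K : Type*) [Field K] : Subalgebra K (LaurentSeries K) where
  carrier := {x | NoPole x}
  mul_mem' := by
    intro a b ha hb
    rw [Set.mem_ofPred_eq, noPole_iff] at *
    by_cases hab : a * b = 0
    · exact Or.inl hab
    obtain ⟨h1, h2⟩ := mul_ne_zero_iff.mp hab
    exact Or.inr (by rw [HahnSeries.order_mul h1 h2]; linarith [ha.resolve_left h1, hb.resolve_left h2])
  one_mem' n hn := by simp [HahnSeries.coeff_one, hn.ne]
  add_mem' := fun {a b} ha hb n hn => by simp [ha n hn, hb n hn]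
  zero_mem' n _ := by simp
  algebraMap_mem' c n hn := by
    rw [algebraMap_laurentSeries_eq_single, HahnSeries.coeff_single_of_ne hn.ne]

/-- series integral over series without pole have no pole -/
theorem noPole_of_isIntegral {B : Subalgebra K (LaurentSeries K)} (hB : B ≤ noPoleAlg K)
    {x : LaurentSeries K} (hx : IsIntegral B x) : NoPole x := by
  obtain ⟨p, hp, hpx⟩ := hx
  by_contra hcon
  rw [noPole_iff] at hcon
  push Not at hcon
  obtain ⟨hx0, hneg⟩ := hcon
  set d := p.natDegree
  have hpow : ∀ i : ℕ, (x ^ i).order = i * x.order := fun i => by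
    rw [HahnSeries.order_pow, nsmul_eq_mul]
  have h := congrArg (fun z : LaurentSeries K => z.coeff (d * x.order)) hpx
  rw [Polynomial.eval₂_eq_sum_range, HahnSeries.coeff_zero, HahnSeries.coeff_sum,
    Finset.sum_range_succ, Finset.sum_eq_zero, zero_add] at h
  · rw [show p.coeff d = 1 from hp.coeff_natDegree, map_one, one_mul, ← hpow] at h
    exact HahnSeries.leadingCoeff_ne_zero.mpr (pow_ne_zero d hx0)
      (by rw [HahnSeries.leadingCoeff_eq]; exact h)
  · intro i hi
    have hi' := Finset.mem_range.mp hi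
    by_cases hc : algebraMap B (LaurentSeries K) (p.coeff i) = 0
    · simp [hc]
    refine HahnSeries.coeff_eq_zero_of_lt_order ?_
    rw [HahnSeries.order_mul hc (pow_ne_zero _ hx0), hpow]
    have h0 := (noPole_iff.mp (hB (p.coeff i).2)).resolve_left hc
    have h1 : (d : ℤ) * x.order < (i : ℤ) * x.order :=
      mul_lt_mul_of_neg_right (by exact_mod_cast hi') hneg
    have h2 : (0 : ℤ) ≤ (algebraMap B (LaurentSeries K) (p.coeff i)).order := h0
    linarith

end Series

section Contract

variable {R S : Type*} [CommRing R] [CommRing S]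

/-- a series whose image is an expansion is an expansion -/
theorem exists_qExpand_eq (f : R →+* S) (hf : Function.Injective f) (M : ℕ) [NeZero M]
    {s : LaurentSeries R} {g : LaurentSeries S} (h : coeffMap f s = qExpand S M g) :
    ∃ b : LaurentSeries R, qExpand R M b = s ∧ coeffMap f b = g := by
  have hM : (0 : ℤ) < M := by exact_mod_cast Nat.pos_of_ne_zero (NeZero.ne M)
  let b : LaurentSeries R :=
    HahnSeries.ofSuppBddBelow (fun n => s.coeff ((M : ℤ) * n))
      ⟨g.order, fun n hn => le_of_not_gt fun hlt => hn (hf (by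
        rw [map_zero, ← coeffMap_coeff, h, qExpand_coeff_mul]
        exact HahnSeries.coeff_eq_zero_of_lt_order hlt))⟩
  have hb : ∀ n, b.coeff n = s.coeff ((M : ℤ) * n) := fun n => rfl
  refine ⟨b, ?_, ?_⟩
  · ext k
    by_cases hd : (M : ℤ) ∣ k
    · obtain ⟨c, rfl⟩ := hd
      rw [qExpand_coeff_mul, hb]
    · rw [qExpand_coeff_of_not_dvd _ _ hd]
      refine hf ?_
      rw [map_zero, ← coeffMap_coeff, h, qExpand_coeff_of_not_dvd _ _ hd]
  · ext n
    rw [coeffMap_coeff, hb, ← coeffMap_coeff, h, qExpand_coeff_mul]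

end Contract

end FLTAgent.Good
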