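import Fermat.Agent.Good.Irred
import Fermat.Agent.Good.IntegralAux

/-!
The chart at infinity in level `M`: pole orders at the cusps, and their correction modulo `ℓ`.
-/

set_option autoImplicit false

noncomputable section

open UpperHalfPlane ModularCurve CongruenceSubgroup
open scoped MatrixGroups Manifold Topology Real

namespace FLTAgent.Good

open ModFun

namespace Lev

variable (S : Lev)

/-- poles of order at most `R` at every cusp -/
def Pole (x : S.LF) (R : ℤ) : Prop := ∀ γ : SL(2, ℤ), ∀ i < -R, (S.expA (act γ x)).coeff i = 0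

variable {S}

theorem act_act (γ δ : SL(2, ℤ)) (x : S.LF) : act γ (act δ x) = act (γ * δ) x := by
  rw [← mkG_smul, ← mkG_smul, ← mkG_smul, mkG_mul, mul_smul]

theorem Pole.mono {x : S.LF} {R R' : ℤ} (h : S.Pole x R) (hR : R ≤ R') : S.Pole x R' :=
  fun γ i hi => h γ i (by omega)

theorem Pole.add {x y : S.LF} {R : ℤ} (hx : S.Pole x R) (hy : S.Pole y R) : S.Pole (x + y) R :=
  fun γ i hi => by rw [map_add, map_add, HahnSeries.coeff_add, hx γ i hi, hy γ i hi, add_zero]

theorem Pole.act {x : S.LF} {R : ℤ} (hx : S.Pole x R) (γ : SL(2, ℤ)) : S.Pole (act γ x) R :=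
  fun δ i hi => by rw [act_act]; exact hx _ i hi

theorem Pole.smul {x : S.LF} {R : ℤ} (hx : S.Pole x R) (g : S.G) : S.Pole (g • x) R := by
  obtain ⟨γ, rfl⟩ := S.mkG_surjective g
  exact hx.act γ

theorem pole_algebraMap (a : S.A) {R : ℤ} (hR : 0 ≤ R) : S.Pole (algebraMap S.A S.LF a) R :=
  fun γ i hi => by
    rw [act_algebraMap, expA_algebraMap, HahnSeries.C_apply,
      HahnSeries.coeff_single_of_ne (by omega)]

theorem Pole.mul {x y : S.LF} {R R' : ℤ} (hx : S.Pole x R) (hy : S.Pole y R') :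
    S.Pole (x * y) (R + R') := by
  intro γ i hi
  rw [map_mul, map_mul, HahnSeries.coeff_mul]
  refine Finset.sum_eq_zero fun ij hij => ?_
  rw [Finset.mem_antidiagonal] at hij
  obtain ⟨h1, h2, h3⟩ := hij
  rcases lt_or_ge ij.1 (-R) with h | h
  · rw [hx γ _ h, zero_mul]
  · rw [hy γ _ (by omega), mul_zero]

theorem pole_one : S.Pole (1 : S.LF) 0 := by
  simpa using pole_algebraMap (S := S) 1 le_rfl

theorem Pole.prod {ι : Type*} {T : Finset ι} {x : ι → S.LF} {R : ℤ}
    (h : ∀ i ∈ T, S.Pole (x i) R) : S.Pole (∏ i ∈ T, x i) (T.card * R) := by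
  classical
  induction T using Finset.induction_on with
  | empty => simpa using pole_one
  | insert a T ha ih =>
    rw [Finset.prod_insert ha, Finset.card_insert_of_notMem ha]
    refine ((h a (Finset.mem_insert_self a T)).mul
      (ih fun i hi => h i (Finset.mem_insert_of_mem hi))).mono ?_
    push_cast
    linarith

variable (S)

theorem exists_pole (x : S.LF) : ∃ R : ℕ, S.Pole x R := by
  classical
  have := Fintype.ofFinite S.G
  refine ⟨Finset.univ.sup fun g : S.G => (-(S.expA (g • x)).order).toNat, fun γ i hi => ?_⟩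
  refine HahnSeries.coeff_eq_zero_of_lt_order ?_
  have h := Finset.le_sup (f := fun g : S.G => (-(S.expA (g • x)).order).toNat)
    (Finset.mem_univ (S.mkG γ))
  simp only [mkG_smul] at h
  omega

theorem pole_jL : S.Pole S.jL S.M := fun γ i hi => by
  rw [S.act_jL, ← pow_one (S.expA S.jL)]
  exact S.coeff_jM_pow_of_lt (by simpa using hi)

/-- translations act on coefficients by units -/
theorem exists_twist_unit (k : ℤ) (n : ℤ) :
    ∃ u : S.Aˣ, ∀ x : S.LF, (S.expA (act (ModularGroup.T ^ k) x)).coeff n =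
      (u : S.A) * (S.expA x).coeff n := by
  induction k using Int.induction_on with
  | zero => exact ⟨1, fun x => by simp [← actHom_apply]⟩
  | succ k ih =>
    obtain ⟨u, hu⟩ := ih
    refine ⟨(S.tUnit ^ n)⁻¹ * u, fun x => ?_⟩
    have h := hu x
    rw [show act (ModularGroup.T ^ (k : ℤ)) x =
      act ModularGroup.T⁻¹ (act (ModularGroup.T ^ ((k : ℤ) + 1)) x) by
        rw [act_act, zpow_add_one]
        congr 2
        rw [(Commute.self_zpow ModularGroup.T (k : ℤ)).eq.symm, inv_mul_cancel_left],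
      S.expA_act_T_inv, coeff_twist] at h
    rw [Units.val_mul, mul_assoc, ← h, upow, Units.inv_mul_cancel_left]
  | pred k ih =>
    obtain ⟨u, hu⟩ := ih
    refine ⟨S.tUnit ^ n * u, fun x => ?_⟩
    rw [show act (ModularGroup.T ^ (-(k : ℤ) - 1)) x =
      act ModularGroup.T⁻¹ (act (ModularGroup.T ^ (-(k : ℤ))) x) by
        rw [act_act, sub_eq_add_neg, add_comm, zpow_add, zpow_neg_one],
      S.expA_act_T_inv, coeff_twist, hu, Units.val_mul, upow, mul_assoc]

/-- lowering the poles without changing the reduction -/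
theorem exists_corrected (R0 : ℕ)
    (hdom : ∀ R : ℕ, R0 ≤ R → ∃ f : S.LF, HasLead (S.expA f) (-(R : ℤ)) ∧
      ∀ γ : SL(2, ℤ), (∀ k : ℤ, S.mkG γ ≠ S.mkG (ModularGroup.T ^ k)) →
        ∀ n : ℤ, n ≤ -(R : ℤ) → (S.expA (act γ f)).coeff n = 0)
    (R : ℕ) (hR : R0 ≤ R) (c : S.LF)
    (hc : ∀ γ : SL(2, ℤ), ∀ i < -(R : ℤ), (S.resA (act γ c)).coeff i = 0) :
    ∃ c' : S.LF, S.resA c' = S.resA c ∧ S.Pole c' R := by
  classical
  obtain ⟨R1, hR1⟩ := S.exists_pole c
  suffices key : ∀ d : ℕ, ∀ c0 : S.LF, S.resA c0 = S.resA c → S.Pole c0 ((R + d : ℕ) : ℤ) →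
      ∃ c' : S.LF, S.resA c' = S.resA c ∧ S.Pole c' R from
    key R1 c rfl (hR1.mono (by push_cast; omega))
  intro d
  induction d with
  | zero => exact fun c0 h0 hp => ⟨c0, h0, by simpa using hp⟩
  | succ d ih =>
    intro c0 h0 hp
    obtain ⟨f, hf, hf'⟩ := hdom (R + d + 1) (by omega)
    set m : ℤ := -((R + d + 1 : ℕ) : ℤ) with hm
    have hfp : S.Pole f ((R + d + 1 : ℕ) : ℤ) := fun γ i hi => by
      by_cases h : ∀ k : ℤ, S.mkG γ ≠ S.mkG (ModularGroup.T ^ k)
      · exact hf' γ h i hi.le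
      · push Not at h
        obtain ⟨k, hk⟩ := h
        obtain ⟨u, hu⟩ := S.exists_twist_unit k i
        rw [← mkG_smul, hk, mkG_smul, hu, hf.zero i hi, mul_zero]
    obtain ⟨e, he⟩ := hf.unit
    set Tz : Subgroup S.G := Subgroup.zpowers (S.mkG ModularGroup.T)
    have := Fintype.ofFinite S.G
    have := Fintype.ofFinite (S.G ⧸ Tz)
    choose rep hrep using fun q : S.G ⧸ Tz => S.mkG_surjective q.out
    set a : S.G ⧸ Tz → S.A := fun q => (S.expA (act (rep q)⁻¹ c0)).coeff m * ↑e⁻¹
    have hTk : ∀ k : ℤ, S.mkG (ModularGroup.T ^ k) = S.mkG ModularGroup.T ^ k := fun k =>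
      Subtype.ext (map_zpow S.actHom ModularGroup.T k)
    have ha : ∀ q, a q ∈ IsLocalRing.maximalIdeal S.A := by
      intro q
      refine Ideal.mul_mem_right _ _ ?_
      rw [← IsLocalRing.residue_eq_zero_iff]
      have h1 := hc (rep q)⁻¹ m (by rw [hm]; push_cast; omega)
      rw [← S.resA_act_congr h0, resA, RingHom.comp_apply, coeffMap_coeff] at h1
      exact h1
    set c1 := c0 - ∑ q, algebraMap S.A S.LF (a q) * act (rep q) f with hc1
    have hres : S.resA c1 = S.resA c := by
      rw [hc1, map_sub, map_sum, Finset.sum_eq_zero, sub_zero, h0]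
      intro q _
      rw [map_mul, resA_algebraMap, (IsLocalRing.residue_eq_zero_iff _).mpr (ha q), map_zero,
        zero_mul]
    refine ih c1 hres fun δ i hi => ?_
    have hexp : (S.expA (act δ c1)).coeff i = (S.expA (act δ c0)).coeff i -
        ∑ q, a q * (S.expA (act (δ * rep q) f)).coeff i := by
      rw [hc1, map_sub, map_sub, map_sum, map_sum, HahnSeries.coeff_sub, HahnSeries.coeff_sum]
      congr 1
      refine Finset.sum_congr rfl fun q _ => ?_
      rw [map_mul, map_mul, act_algebraMap, expA_algebraMap, act_act, HahnSeries.C_apply,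
        HahnSeries.coeff_single_zero_mul]
    rw [hexp]
    rcases lt_or_eq_of_le (show i ≤ m by rw [hm]; push_cast at hi ⊢; omega) with him | him
    · rw [hp δ i (by rw [hm] at him; push_cast at him ⊢; omega), Finset.sum_eq_zero, sub_zero]
      intro q _
      rw [hfp (δ * rep q) i (by rw [hm] at him; omega), mul_zero]
    subst him
    set q0 : S.G ⧸ Tz := QuotientGroup.mk (S.mkG δ)⁻¹
    rw [Finset.sum_eq_single q0]
    · have hmem : (q0.out)⁻¹ * (S.mkG δ)⁻¹ ∈ Tz :=
        QuotientGroup.eq.mp (QuotientGroup.out_eq' q0)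
      obtain ⟨k, hk⟩ := Subgroup.mem_zpowers_iff.mp hmem
      have hprod : S.mkG (δ * rep q0) = S.mkG (ModularGroup.T ^ (-k)) := by
        rw [hTk, zpow_neg, hk, mul_inv_rev, inv_inv, inv_inv, mkG_mul, hrep]
      obtain ⟨u, hu⟩ := S.exists_twist_unit (-k) m
      have h1 : act δ c0 = act (ModularGroup.T ^ (-k)) (act (rep q0)⁻¹ c0) := by
        rw [act_act, ← mkG_smul, ← mkG_smul, mkG_mul, ← hprod, mkG_mul, mul_assoc, mkG_inv,
          mul_inv_cancel, mul_one]
      have h2 : act (δ * rep q0) f = act (ModularGroup.T ^ (-k)) f := by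
        rw [← mkG_smul, hprod, mkG_smul]
      rw [h1, h2, hu, hu]
      simp only [a]
      rw [← he]
      linear_combination ((u : S.A) * (S.expA (act (rep q0)⁻¹ c0)).coeff m) * (Units.inv_mul e).symm
    · intro q _ hq
      rw [hf' (δ * rep q) (fun k hk => hq ?_) m le_rfl, mul_zero]
      rw [mkG_mul, hrep, hTk] at hk
      rw [← QuotientGroup.out_eq' q]
      exact QuotientGroup.eq.mpr (by
        rw [show (q.out)⁻¹ * (S.mkG δ)⁻¹ = (S.mkG ModularGroup.T ^ k)⁻¹ by rw [← hk, mul_inv_rev]]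
        exact inv_mem (zpow_mem (Subgroup.mem_zpowers _) k))
    · intro h; exact absurd (Finset.mem_univ q0) h

/-- residual elements integral over `k[1/j]` have no pole at any cusp -/
theorem noPole_of_isIntegral_inv {z : LaurentSeries S.k}
    (hz : IsIntegral (Algebra.adjoin S.k ({(S.resA S.jL)⁻¹} : Set (LaurentSeries S.k))) z) :
    NoPole z := by
  refine noPole_of_isIntegral (Algebra.adjoin_le ?_) hz
  rintro x hx
  rw [Set.mem_singleton_iff] at hx
  subst hx
  have hlead : HasLead (S.resA S.jL) (-(S.M : ℤ)) := by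
    refine HasLead.map _ ⟨fun n hn => ?_, ?_⟩
    · rw [← pow_one (S.expA S.jL)]
      exact S.coeff_jM_pow_of_lt (by simpa using hn)
    · have h := S.coeff_jM_pow_self 1
      rw [one_mul, pow_one] at h
      rw [h]
      exact isUnit_one
  obtain ⟨t, ht, htl⟩ := hlead.exists_inv
  rw [← eq_inv_of_mul_eq_one_right ht]
  intro n hn
  exact htl.zero n (by have : (0 : ℤ) ≤ S.M := Int.natCast_nonneg _; omega)

end Lev

end FLTAgent.Good
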