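import Mathlib

/-!
A subalgebra containing all norms from a Galois extension of curves over an algebraically closed
field contains the invariant integral functions.
-/

set_option autoImplicit false
set_option linter.all false

noncomputable section

namespace FLTAgent.Good

open IntermediateField Polynomial
open scoped IntermediateField.algebraAdjoinAdjoin

attribute [local instance] FractionRing.liftAlgebra FractionRing.isScalarTower_liftAlgebra

theorem quotient_surjective {k : Type*} [Field k] [IsAlgClosed k] {R C : Type*} [CommRing R]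
    [CommRing C] [Algebra k R] [Algebra k C] [Algebra R C] [IsScalarTower k R C]
    [Algebra.IsIntegral R C] (t : R) (hgen : Algebra.adjoin k {t} = (⊤ : Subalgebra k R))
    (ht : ∀ I : Ideal C, I.IsMaximal → ∃ p : k[X], p ≠ 0 ∧ algebraMap R C (aeval t p) ∈ I)
    (I : Ideal C) [I.IsMaximal] : Function.Surjective (algebraMap k (C ⧸ I)) := by
  obtain ⟨p, hp0, hp⟩ := ht I inferInstance
  letI : Field (C ⧸ I) := Ideal.Quotient.field I
  set τ : C ⧸ I := Ideal.Quotient.mk I (algebraMap R C t) with hτ
  have halg : IsAlgebraic k τ := by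
    refine ⟨p, hp0, ?_⟩
    have e : ((Ideal.Quotient.mkₐ k I).comp (IsScalarTower.toAlgHom k R C)) t = τ := rfl
    rw [← e, aeval_algHom_apply]
    exact Ideal.Quotient.eq_zero_iff_mem.2 hp
  have hbig : ∀ r : R, IsIntegral k (Ideal.Quotient.mk I (algebraMap R C r)) := by
    intro r
    have hr : r ∈ Algebra.adjoin k {t} := hgen ▸ Algebra.mem_top
    induction hr using Algebra.adjoin_induction with
    | mem x hx =>
      rw [Set.mem_singleton_iff] at hx; subst hx
      exact halg.isIntegral
    | algebraMap c =>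
      rw [← IsScalarTower.algebraMap_apply]
      exact isIntegral_algebraMap
    | add x y _ _ hx hy => simp only [map_add]; exact hx.add hy
    | mul x y _ _ hx hy => simp only [map_mul]; exact hx.mul hy
  haveI : Algebra.IsIntegral R (C ⧸ I) := ⟨fun z => by
    obtain ⟨c, rfl⟩ := Ideal.Quotient.mk_surjective z
    exact (Algebra.IsIntegral.isIntegral (R := R) c).map (Ideal.Quotient.mkₐ R I)⟩
  have hint : ∀ z : C ⧸ I, IsIntegral k z := by
    intro z
    set D := integralClosure k (C ⧸ I)
    obtain ⟨g, hg, hz⟩ := Algebra.IsIntegral.isIntegral (R := R) z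
    let f : R →+* D := (algebraMap R (C ⧸ I)).codRestrict D.toSubsemiring hbig
    have hzD : IsIntegral D z := ⟨g.map f, hg.map f, by rw [eval₂_map]; exact hz⟩
    exact isIntegral_trans z hzD
  haveI : Algebra.IsIntegral k (C ⧸ I) := ⟨hint⟩
  exact IsAlgClosed.algebraMap_bijective_of_isIntegral.2

theorem subalgebra_eq_top_of_intNorm_mem {k R N C : Type*} [Field k] [CommRing R] [Algebra k R]
    [CommRing N] [IsDedekindDomain N] [Algebra k N] [Algebra R N] [IsScalarTower k R N]
    [Module.Finite R N] [CommRing C] [IsDedekindDomain C] [Algebra k C] [Algebra N C]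
    [IsScalarTower k N C] [Module.Finite N C] [Module.IsTorsionFree N C]
    [IsGalois (FractionRing N) (FractionRing C)] (hN : ¬ IsField N)
    (hresN : ∀ Q : Ideal N, Q.IsMaximal → Function.Surjective (algebraMap k (N ⧸ Q)))
    (hresC : ∀ P : Ideal C, P.IsMaximal → Function.Surjective (algebraMap k (C ⧸ P)))
    (B : Subalgebra k N) (hR : ∀ r, algebraMap R N r ∈ B)
    (hB : ∀ x : C, Algebra.intNorm N C x ∈ B) : B = ⊤ := by
  let fR : R →+* B := (algebraMap R N).codRestrict B.toSubsemiring hR
  letI : Algebra R B := fR.toAlgebra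
  haveI : IsScalarTower R B N := IsScalarTower.of_algebraMap_eq fun _ => rfl
  haveI : Module.Finite B N := Module.Finite.of_restrictScalars_finite R B N
  haveI : Algebra.IsIntegral B N := inferInstance
  haveI : Algebra.IsIntegral N C := inferInstance
  have hinj : Function.Injective (algebraMap N C) := FaithfulSMul.algebraMap_injective N C
  have sep : ∀ Q Q' : Ideal N, Q.IsMaximal → Q'.IsMaximal → Q ≠ Q' →
      ∃ y ∈ B, y ∈ Q ∧ y ∉ Q' := by
    intro Q Q' hQ hQ' hne
    obtain ⟨P, hP, hPQ⟩ := Ideal.exists_ideal_over_maximal_of_isIntegral (S := C) Q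
      (by rw [(RingHom.injective_iff_ker_eq_bot _).1 hinj]; exact bot_le)
    have htop : P ⊔ Q'.map (algebraMap N C) = ⊤ := by
      by_contra hh
      obtain ⟨M, hM, hle⟩ := Ideal.exists_le_maximal _ hh
      have e1 : P = M := hP.eq_of_le hM.ne_top (le_sup_left.trans hle)
      have e2 : Q' ≤ Q := by
        rw [← hPQ, e1]; exact Ideal.map_le_iff_le_comap.1 (le_sup_right.trans hle)
      exact hne (hQ'.eq_of_le hQ.ne_top e2).symm
    obtain ⟨x, hx, z, hz, hxz⟩ := Submodule.mem_sup.1 (htop ▸ Submodule.mem_top : (1 : C) ∈ _)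
    refine ⟨_, hB x, ?_, ?_⟩
    · rw [← hPQ, Ideal.mem_comap]
      exact P.mem_of_dvd (Algebra.dvd_algebraMap_intNorm_self _ _ x) hx
    · intro hy
      obtain ⟨P', hP', hPQ'⟩ := Ideal.exists_ideal_over_maximal_of_isIntegral (S := C) Q'
        (by rw [(RingHom.injective_iff_ker_eq_bot _).1 hinj]; exact bot_le)
      have hy' : algebraMap N C (Algebra.intNorm N C x) ∈ P' := by rwa [← hPQ'] at hy
      rw [Algebra.algebraMap_intNorm_of_isGalois] at hy'
      obtain ⟨σ, -, hσ⟩ := (@Ideal.IsPrime.prod_mem_iff _ _ _ _ _ _ hP'.isPrime).1 hy'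
      have hz' : σ z ∈ P' := by
        have h1 : σ z ∈ (Q'.map (algebraMap N C)).map (σ : C →+* C) := Ideal.mem_map_of_mem _ hz
        rw [Ideal.map_map] at h1
        have e : ((σ : C →+* C).comp (algebraMap N C)) = algebraMap N C :=
          RingHom.ext fun n => σ.commutes n
        rw [e] at h1
        exact (Ideal.map_le_iff_le_comap.2 hPQ'.ge) h1
      apply hP'.ne_top
      rw [Ideal.eq_top_iff_one, ← map_one σ, ← hxz, map_add]
      exact P'.add_mem hσ hz'
  have ord : ∀ Q : Ideal N, Q.IsMaximal → ∃ y ∈ B, y ∈ Q ∧ y ∉ Q ^ 2 := by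
    intro Q hQ
    obtain ⟨P, hP, hPQ⟩ := Ideal.exists_ideal_over_maximal_of_isIntegral (S := C) Q
      (by rw [(RingHom.injective_iff_ker_eq_bot _).1 hinj]; exact bot_le)
    haveI : P.LiesOver Q := ⟨hPQ.symm⟩
    haveI := hP.isPrime
    have hdeg : P.inertiaDeg N = 1 := by
      rw [Ideal.inertiaDeg_eq_of_isMaximal Q P]
      letI : Field (N ⧸ Q) := Ideal.Quotient.field Q
      have hsur : Function.Surjective (algebraMap (N ⧸ Q) (C ⧸ P)) := by
        intro z
        obtain ⟨c, hc⟩ := hresC P hP z
        refine ⟨algebraMap k (N ⧸ Q) c, ?_⟩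
        rw [← hc, show algebraMap k (N ⧸ Q) c = Ideal.Quotient.mk Q (algebraMap k N c) from rfl,
          Ideal.Quotient.algebraMap_mk_of_liesOver, ← IsScalarTower.algebraMap_apply]
        rfl
      rw [← (AlgEquiv.ofBijective (Algebra.ofId (N ⧸ Q) (C ⧸ P))
          ⟨(algebraMap (N ⧸ Q) (C ⧸ P)).injective, hsur⟩).toLinearEquiv.finrank_eq,
        Module.finrank_self]
    have hrel : Ideal.relNorm N P = Q := by
      rw [Ideal.relNorm_eq_pow_of_isPrime_isGalois P Q, hdeg, pow_one]
    by_contra hcon
    push Not at hcon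
    have hle : Q ≤ Q ^ 2 := by
      conv_lhs => rw [← hrel, Ideal.relNorm_apply]
      rw [Ideal.span_le]
      rintro _ ⟨x, hx, rfl⟩
      refine hcon _ (hB x) ?_
      rw [← hPQ, Ideal.mem_comap]
      exact P.mem_of_dvd (Algebra.dvd_algebraMap_intNorm_self _ _ x) hx
    have hQ0 : Q ≠ ⊥ := Ring.ne_bot_of_isMaximal_of_not_isField hQ hN
    exact absurd hle (not_le_of_gt (Ideal.pow_lt_self Q hQ0 hQ.ne_top 2 le_rfl))
  set S1 : Submodule B N := Submodule.span B {(1 : N)} with hS1
  have key : ∀ m : Ideal B, m.IsMaximal → (⊤ : Submodule B N) ≤ S1 ⊔ m • ⊤ := by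
    intro m hm
    obtain ⟨Q, hQ, hQm⟩ := Ideal.exists_ideal_over_maximal_of_isIntegral (S := N) m
      (by rw [(RingHom.injective_iff_ker_eq_bot _).1 Subtype.val_injective]; exact bot_le)
    obtain ⟨y, hyB, hyQ, hyQ2⟩ := ord Q hQ
    set I := m.map (algebraMap B N) with hI
    have hIQ : ∀ M : Ideal N, M.IsMaximal → I ≤ M → M = Q := by
      intro M hM hle
      by_contra hne
      obtain ⟨w, hwB, hwQ, hwM⟩ := sep Q M hQ hM (Ne.symm hne)
      apply hwM
      refine hle (Ideal.mem_map_of_mem (algebraMap B N) (x := (⟨w, hwB⟩ : B)) ?_)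
      rw [← hQm]; exact hwQ
    have hyI : y ∈ I := by
      refine Ideal.mem_map_of_mem (algebraMap B N) (x := (⟨y, hyB⟩ : B)) ?_
      rw [← hQm]; exact hyQ
    obtain ⟨J, hJ⟩ := Ideal.dvd_iff_le.2 ((Ideal.span_singleton_le_iff_mem Q).2 hyQ)
    have hQI : Q ≤ I := by
      intro z hz
      let T : Ideal N :=
        { carrier := {c | c * z ∈ I}
          zero_mem' := by simp
          add_mem' := fun {a b} ha hb => by
            simp only [Set.mem_setOf_eq, add_mul] at *; exact I.add_mem ha hb
          smul_mem' := fun c a ha => by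
            simp only [Set.mem_setOf_eq, smul_eq_mul, mul_assoc] at *; exact I.mul_mem_left _ ha }
      suffices hT : T = ⊤ by
        have : (1 : N) * z ∈ I := (hT ▸ Submodule.mem_top : (1 : N) ∈ T)
        rwa [one_mul] at this
      by_contra hT
      obtain ⟨M, hM, hle⟩ := Ideal.exists_le_maximal T hT
      obtain rfl : M = Q := hIQ M hM fun a ha => hle (I.mul_mem_right _ ha)
      have hJM : J ≤ M := by
        intro j hj
        refine hle ?_
        show j * z ∈ I
        have : j * z ∈ Ideal.span {y} := by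
          rw [hJ, mul_comm j z]; exact Ideal.mul_mem_mul hz hj
        exact (Ideal.span_singleton_le_iff_mem I).2 hyI this
      apply hyQ2
      rw [pow_two]
      exact Ideal.mul_mono_right hJM (hJ ▸ Ideal.mem_span_singleton_self y)
    intro z _
    obtain ⟨c, hc⟩ := hresN Q hQ (Ideal.Quotient.mk Q z)
    have hzc : z - algebraMap k N c ∈ Q :=
      (Ideal.Quotient.eq).1 hc.symm
    rw [← sub_add_cancel z (algebraMap k N c)]
    refine Submodule.add_mem _ (Submodule.mem_sup_right ?_) (Submodule.mem_sup_left ?_)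
    · rw [Ideal.smul_top_eq_map]
      exact hQI hzc
    · exact Submodule.mem_span_singleton.2 ⟨algebraMap k B c, by
        rw [Algebra.smul_def, mul_one]; rfl⟩
  have hS : S1 = ⊤ := by
    let ann : Ideal B :=
      { carrier := {r | ∀ z : N, r • z ∈ S1}
        zero_mem' := fun z => by simp
        add_mem' := fun {a b} ha hb z => by rw [add_smul]; exact S1.add_mem (ha z) (hb z)
        smul_mem' := fun c a ha z => by
          rw [smul_eq_mul, mul_smul]; exact S1.smul_mem c (ha z) }
    suffices hann : ann = ⊤ by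
      rw [eq_top_iff]
      intro z _
      have h1 : (1 : B) ∈ ann := hann ▸ Submodule.mem_top
      simpa using h1 z
    by_contra hann
    obtain ⟨m, hm, hle⟩ := Ideal.exists_le_maximal ann hann
    have hfg : (⊤ : Submodule B (N ⧸ S1)).FG := Module.Finite.fg_top
    have hsm : (⊤ : Submodule B (N ⧸ S1)) ≤ m • ⊤ := by
      have h := Submodule.map_mono (f := S1.mkQ) (key m hm)
      rw [Submodule.map_top, Submodule.range_mkQ, Submodule.map_sup, Submodule.map_smul'',
        Submodule.map_top, Submodule.range_mkQ] at h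
      have h0 : S1.map S1.mkQ = ⊥ := by
        rw [eq_bot_iff]
        rintro _ ⟨w, hw, rfl⟩
        exact (Submodule.Quotient.mk_eq_zero S1).2 hw
      rwa [h0, bot_sup_eq] at h
    obtain ⟨r, hr, hr0⟩ := Submodule.exists_sub_one_mem_and_smul_eq_zero_of_fg_of_le_smul m ⊤ hfg hsm
    apply hm.ne_top
    rw [Ideal.eq_top_iff_one, ← sub_sub_cancel r 1]
    refine m.sub_mem (hle fun z => ?_) hr
    rw [← Submodule.Quotient.mk_eq_zero, Submodule.Quotient.mk_smul]
    exact hr0 _ Submodule.mem_top
  rw [eq_top_iff]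
  intro z _
  obtain ⟨r, rfl⟩ := Submodule.mem_span_singleton.1 (hS ▸ Submodule.mem_top : z ∈ S1)
  rw [Algebra.smul_def, mul_one]
  exact r.2

theorem subalgebra_eq_top_of_norm_mem {k R N C L K : Type*} [Field k] [CommRing R] [Algebra k R]
    [CommRing N] [IsDedekindDomain N] [Algebra k N] [Algebra R N] [IsScalarTower k R N]
    [Module.Finite R N] [CommRing C] [IsDedekindDomain C] [Algebra k C] [Algebra N C]
    [IsScalarTower k N C] [Module.Finite N C] [Module.IsTorsionFree N C]
    [Field L] [Field K] [Algebra N L] [IsFractionRing N L] [Algebra C K] [IsFractionRing C K]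
    [Algebra L K] [Algebra N K] [IsScalarTower N L K] [IsScalarTower N C K]
    [IsGalois L K] [FiniteDimensional L K] [IsIntegralClosure C N K]
    (hN : ¬ IsField N)
    (hresN : ∀ Q : Ideal N, Q.IsMaximal → Function.Surjective (algebraMap k (N ⧸ Q)))
    (hresC : ∀ P : Ideal C, P.IsMaximal → Function.Surjective (algebraMap k (C ⧸ P)))
    (B : Subalgebra k N) (hR : ∀ r, algebraMap R N r ∈ B)
    (hB : ∀ (c : C) (n : N), algebraMap N L n = Algebra.norm L (algebraMap C K c) → n ∈ B) :
    B = ⊤ := by
  haveI : IsGalois (FractionRing N) (FractionRing C) :=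
    IsGalois.of_equiv_equiv (F := L) (E := K)
      (f := (FractionRing.algEquiv N L).symm.toRingEquiv)
      (g := (FractionRing.algEquiv C K).symm.toRingEquiv)
      (IsLocalization.ringHom_ext (nonZeroDivisors N) (RingHom.ext fun z => by
        show algebraMap (FractionRing N) (FractionRing C)
            ((FractionRing.algEquiv N L).symm (algebraMap N L z)) =
          (FractionRing.algEquiv C K).symm (algebraMap L K (algebraMap N L z))
        rw [AlgEquiv.commutes, ← IsScalarTower.algebraMap_apply,
          ← IsScalarTower.algebraMap_apply N L K, IsScalarTower.algebraMap_apply N C K,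
          AlgEquiv.commutes, ← IsScalarTower.algebraMap_apply]))
  exact subalgebra_eq_top_of_intNorm_mem (C := C) hN hresN hresC B hR fun c =>
    hB c _ (Algebra.algebraMap_intNorm c)

end FLTAgent.Good
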