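import Mathlib
import Fermat.Agent.Good.NormCore

/-!
The norm criterion for an abstract tower over a one-variable polynomial ring.
-/

set_option autoImplicit false
set_option linter.all false

noncomputable section

namespace FLTAgent.Good

open Polynomial

theorem exists_poly_mem {k R D : Type*} [Field k] [CommRing R] [Algebra k R] (e : k[X] ≃ₐ[k] R)
    [CommRing D] [IsDomain D] [Algebra R D] [Algebra.IsIntegral R D]
    (I : Ideal D) (hI : I.IsMaximal) :
    ∃ p : k[X], p ≠ 0 ∧ algebraMap R D (aeval (e X) p) ∈ I := by
  haveI : Nontrivial R := e.injective.nontrivial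
  have hne : I.comap (algebraMap R D) ≠ ⊥ := by
    intro hb
    have hmax : (I.comap (algebraMap R D)).IsMaximal :=
      Ideal.isMaximal_comap_of_isIntegral_of_isMaximal I
    rw [hb] at hmax
    exact Polynomial.not_isField k
      (MulEquiv.isField (Ring.isField_iff_maximal_bot.2 hmax) e.toMulEquiv)
  obtain ⟨r, hr, hr0⟩ := Submodule.exists_mem_ne_zero_of_ne_bot hne
  refine ⟨e.symm r, fun h => hr0 (e.symm.injective (by rw [h, map_zero])), ?_⟩
  rw [show e X = e.toAlgHom X from rfl, aeval_algHom_apply, aeval_X_left_apply,
    AlgEquiv.toAlgHom_eq_coe, AlgEquiv.coe_toAlgHom, e.apply_symm_apply]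
  exact hr

theorem mem_of_norm_mem_aux {k R F L K : Type*} [Field k] [IsAlgClosed k] [CommRing R]
    [IsDomain R] [Algebra k R] [Field F] [Algebra R F] [IsFractionRing R F] [Field L] [Algebra F L]
    [Algebra R L] [IsScalarTower R F L] [Algebra k L] [IsScalarTower k R L]
    [FiniteDimensional F L] [Algebra.IsSeparable F L] [Field K] [Algebra L K] [Algebra R K]
    [IsScalarTower R L K] [Algebra k K] [IsScalarTower k L K] [FiniteDimensional L K]
    [IsGalois L K] (e : k[X] ≃ₐ[k] R) (B : Subalgebra k K) (hRB : ∀ r, algebraMap R K r ∈ B)
    (hnorm : ∀ c : K, IsIntegral R c → algebraMap L K (Algebra.norm L c) ∈ B) {x : L}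
    (hx : IsIntegral R x) : algebraMap L K x ∈ B := by
  haveI : IsPrincipalIdealRing R := IsPrincipalIdealRing.of_surjective e.toRingHom e.surjective
  haveI : IsDedekindDomain R := inferInstance
  let N := integralClosure R L
  haveI : IsDedekindDomain N := integralClosure.isDedekindDomain R F L
  haveI : Module.Finite R N := IsIntegralClosure.finite R F L N
  haveI : IsFractionRing N L := integralClosure.isFractionRing_of_finite_extension F L
  let C := integralClosure N K
  haveI : IsDedekindDomain C := integralClosure.isDedekindDomain N L K
  haveI : Module.Finite N C := IsIntegralClosure.finite N L K C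
  haveI : IsFractionRing C K := integralClosure.isFractionRing_of_finite_extension L K
  have hRL : Function.Injective (algebraMap R L) := by
    rw [IsScalarTower.algebraMap_eq R F L]
    exact (algebraMap F L).injective.comp (IsFractionRing.injective R F)
  have hinjN : Function.Injective (algebraMap R N) := fun a b h =>
    hRL (congrArg (fun z : N => (z : L)) h)
  have hR : ¬ IsField R := fun h =>
    Polynomial.not_isField k (MulEquiv.isField h e.toMulEquiv)
  have hNfield : ¬ IsField N := fun h => hR ((Algebra.IsIntegral.isField_iff_isField hinjN).2 h)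
  letI algRC : Algebra R C := ((algebraMap N C).comp (algebraMap R N)).toAlgebra
  haveI : IsScalarTower R N C := IsScalarTower.of_algebraMap_eq fun _ => rfl
  haveI : Algebra.IsIntegral R C := Algebra.IsIntegral.trans N
  letI algkC : Algebra k C := ((algebraMap N C).comp (algebraMap k N)).toAlgebra
  haveI : IsScalarTower k N C := IsScalarTower.of_algebraMap_eq fun _ => rfl
  haveI : IsScalarTower k R C := IsScalarTower.of_algebraMap_eq fun z => by
    show algebraMap N C (algebraMap k N z) = algebraMap N C (algebraMap R N (algebraMap k R z))
    exact congrArg _ (IsScalarTower.algebraMap_apply k R N z)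
  have hgen : Algebra.adjoin k {e X} = (⊤ : Subalgebra k R) := by
    rw [show ({e X} : Set R) = e.toAlgHom '' {X} by simp, ← AlgHom.map_adjoin, Polynomial.adjoin_X,
      Algebra.map_top, AlgHom.range_eq_top]
    exact e.surjective
  let g : N →ₐ[k] K := (IsScalarTower.toAlgHom k L K).comp (N.val.restrictScalars k)
  have hB' : B.comap g = ⊤ := by
    refine subalgebra_eq_top_of_norm_mem (C := C) (R := R) (L := L) (K := K) hNfield
      (fun Q hQ => quotient_surjective (e X) hgen (fun I hI => exists_poly_mem e I hI) Q)
      (fun P hP => quotient_surjective (e X) hgen (fun I hI => exists_poly_mem e I hI) P)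
      (B.comap g) ?_ ?_
    · intro r
      show algebraMap L K (algebraMap R L r) ∈ B
      rw [← IsScalarTower.algebraMap_apply]; exact hRB r
    · intro c n h1
      show algebraMap L K (n : L) ∈ B
      rw [show (n : L) = Algebra.norm L (c : K) from h1]
      refine hnorm _ ?_
      obtain ⟨f, hf, hf0⟩ := Algebra.IsIntegral.isIntegral (R := R) c
      refine ⟨f, hf, ?_⟩
      have := congrArg (algebraMap C K) hf0
      rw [hom_eval₂, map_zero] at this
      rw [show algebraMap R K = (algebraMap C K).comp (algebraMap R C) from
        RingHom.ext fun r => IsScalarTower.algebraMap_apply R L K r]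
      exact this
  have hxB : (⟨x, hx⟩ : N) ∈ B.comap g := hB' ▸ Algebra.mem_top
  exact hxB

end FLTAgent.Good
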