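import Mathlib
import Fermat.Agent.Good.NormAux

/-!
The invariant integral functions lie in any subalgebra containing the norms.
-/

set_option autoImplicit false
set_option linter.all false

noncomputable section

namespace FLTAgent.Good

open IntermediateField Polynomial
open scoped IntermediateField.algebraAdjoinAdjoin

theorem mem_of_norm_mem {k K : Type*} [Field k] [IsAlgClosed k] [Field K] [Algebra k K] (s : K)
    (hs : Transcendental k s) {G : Type*} [Group G] [Fintype G] [MulSemiringAction G K]
    [FaithfulSMul G K] [SMulCommClass G k K] [FiniteDimensional (k⟮s⟯) K]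
    [Algebra.IsSeparable (k⟮s⟯) K] (hsG : ∀ g : G, g • s = s) (B : Subalgebra k K) (hsB : s ∈ B)
    (hnorm : ∀ x : K, IsIntegral (Algebra.adjoin k {s}) x → ∏ g : G, g • x ∈ B) {x : K}
    (hx : IsIntegral (Algebra.adjoin k {s}) x) (hxG : ∀ g : G, g • x = x) : x ∈ B := by
  classical
  let R := Algebra.adjoin k ({s} : Set K)
  let F := k⟮s⟯
  let e : k[X] ≃ₐ[k] R := (AlgEquiv.ofInjective (aeval s) (transcendental_iff_injective.1 hs)).trans
    (Subalgebra.equivOfEq _ _ (Algebra.adjoin_singleton_eq_range_aeval k s).symm)
  haveI : SMulCommClass G F K := ⟨fun g c z => by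
    have hc : g • (c : K) = (c : K) := by
      obtain ⟨c, hc⟩ := c
      show g • c = c
      induction hc using IntermediateField.adjoin_induction with
      | mem x hx => rw [Set.mem_singleton_iff] at hx; subst hx; exact hsG g
      | algebraMap a => exact smul_algebraMap g a
      | add x y _ _ hx hy => rw [smul_add, hx, hy]
      | inv x _ hx => rw [smul_inv'', hx]
      | mul x y _ _ hx hy => rw [smul_mul', hx, hy]
    show g • ((c : K) * z) = (c : K) * g • z
    rw [smul_mul', hc]⟩
  let L : IntermediateField F K := FixedPoints.intermediateField G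
  haveI hG : IsGaloisGroup G L K :=
    { faithful := inferInstance
      commutes := ⟨fun g c z => by
        show g • ((c : K) * z) = (c : K) * g • z
        rw [smul_mul', c.2 g]⟩
      isInvariant := ⟨fun b hb => ⟨⟨b, hb⟩, rfl⟩⟩ }
  haveI : IsGalois L K := IsGaloisGroup.isGalois G L K
  haveI : Algebra.IsSeparable F L := Algebra.isSeparable_tower_bot_of_isSeparable F L K
  letI algRL : Algebra R L := ((algebraMap F L).comp (algebraMap R F)).toAlgebra
  haveI : IsScalarTower R F L := IsScalarTower.of_algebraMap_eq fun _ => rfl
  haveI : IsScalarTower R L K := IsScalarTower.of_algebraMap_eq fun _ => rfl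
  haveI : IsScalarTower k R L := IsScalarTower.of_algebraMap_eq fun _ => Subtype.ext rfl
  haveI : IsScalarTower k L K := IsScalarTower.of_algebraMap_eq fun _ => rfl
  refine mem_of_norm_mem_aux (F := F) e B ?_ ?_ (x := (⟨x, hxG⟩ : L))
    ((isIntegral_algebraMap_iff (A := L) (B := K) (algebraMap L K).injective).1 hx)
  · exact fun r => Algebra.adjoin_le (Set.singleton_subset_iff.2 hsB) r.2
  · intro c hc
    rw [Algebra.norm_eq_prod_automorphisms,
      ← Fintype.prod_equiv (IsGaloisGroup.mulEquivAlgEquiv G L K).toEquiv (fun g => g • c) _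
        fun g => rfl]
    exact hnorm c hc

end FLTAgent.Good
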