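import Fermat.Agent.Good.Fields
import Fermat.Agent.Good.Cusps
import Fermat.Agent.Good.NormLemma

/-!
The charts of the good model of level `N`, from level `M`.
-/

set_option autoImplicit false

noncomputable section

open UpperHalfPlane ModularCurve CongruenceSubgroup IntermediateField
open scoped MatrixGroups Manifold Topology Real

namespace FLTAgent.Good

open ModFun

set_option synthInstance.maxHeartbeats 400000
set_option maxHeartbeats 1000000

theorem residueField_isAlgClosed (A : ValuationSubring (AlgebraicClosure ℚ)) :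
    IsAlgClosed (IsLocalRing.ResidueField A) := by
  refine IsAlgClosed.of_exists_root _ fun p hm hirr => ?_
  obtain ⟨q, hq, hdeg, hqm⟩ := Polynomial.lifts_and_natDegree_eq_and_monic
    ((Polynomial.lifts_iff_coeff_lifts _).mpr fun n => IsLocalRing.residue_surjective (p.coeff n)) hm
  obtain ⟨z, hz⟩ := IsAlgClosed.exists_root (q.map A.subtype) (by
    rw [Polynomial.degree_map_eq_of_injective (Subtype.val_injective : Function.Injective A.subtype),
      Polynomial.degree_eq_natDegree hqm.ne_zero, hdeg]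
    intro h
    exact (Irreducible.natDegree_pos hirr).ne' (by exact_mod_cast h))
  have hzA : z ∈ A := by
    obtain ⟨y, hy⟩ := IsIntegrallyClosed.algebraMap_eq_of_integral (R := A)
      (K := AlgebraicClosure ℚ) (x := z) ⟨q, hqm, by rw [Polynomial.eval₂_eq_eval_map]; exact hz⟩
    exact hy ▸ y.2
  refine ⟨IsLocalRing.residue A ⟨z, hzA⟩, ?_⟩
  have h0 : q.eval (⟨z, hzA⟩ : A) = 0 := A.subtype_injective (by
    rw [← Polynomial.eval_map_apply, map_zero]; exact hz)
  rw [← hq, Polynomial.eval_map_apply, h0, map_zero]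

/-- an embedding of `ℚ̄` in `ℂ` -/
def qbarToC : AlgebraicClosure ℚ →+* ℂ :=
  haveI : Algebra.IsAlgebraic ℚ (AlgebraicClosure ℚ) := AlgebraicClosure.isAlgebraic ℚ
  (IsAlgClosed.lift (R := ℚ) (S := AlgebraicClosure ℚ) (M := ℂ)).toRingHom

/-- integrality over one generator descends to intermediate fields -/
theorem isIntegral_val {k L : Type*} [Field k] [Field L] [Algebra k L] (F : IntermediateField k L)
    {s x : F} (h : IsIntegral (Algebra.adjoin k ({(s : L)} : Set L)) (x : L)) :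
    IsIntegral (Algebra.adjoin k ({s} : Set F)) x :=
  isIntegral_adjoin_of_map (R := k) (E := F) (E' := L) F.val.toRingHom (fun r => F.val.commutes r)
    (s := s) Subtype.val_injective (x := x) h

theorem isIntegral_val_map {k L : Type*} [Field k] [Field L] [Algebra k L] (F : IntermediateField k L)
    (σ : F ≃ₐ[k] F) {s x : F} {s' : L} (hs : ((σ s : F) : L) = s')
    (h : IsIntegral (Algebra.adjoin k ({s} : Set F)) x) :
    IsIntegral (Algebra.adjoin k ({s'} : Set L)) ((σ x : F) : L) := by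
  subst hs
  exact isIntegral_adjoin_map (RingHom.id k) (F.val.comp σ.toAlgHom).toRingHom
    (fun r => (F.val.comp σ.toAlgHom).commutes r) h

/-- a level adapted to `N` and `ℓ` -/
theorem exists_levDvd (A : ValuationSubring (AlgebraicClosure ℚ)) (N : ℕ) [NeZero N] {ℓ : ℕ}
    (hℓ : ℓ.Prime) (hℓN : ¬ ℓ ∣ N) (hA : A.LiesOverPrime ℓ) :
    ∃ S : Lev, S.A = A ∧ N ∣ S.M := by
  have hN : 0 < N := Nat.pos_of_ne_zero (NeZero.ne N)
  by_cases h2 : ℓ = 2
  · refine ⟨⟨A, ℓ, hℓ, hA, qbarToC,
      N * 3, 3, Or.inr rfl, dvd_mul_left 3 N, by omega, ?_⟩, rfl, dvd_mul_right N 3⟩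
    rw [hℓ.dvd_mul, not_or]
    exact ⟨hℓN, by subst h2; decide⟩
  · refine ⟨⟨A, ℓ, hℓ, hA, qbarToC,
      N * 4, 2, Or.inl rfl, dvd_mul_of_dvd_right (by norm_num) N, by omega, ?_⟩, rfl,
      dvd_mul_right N 4⟩
    rw [hℓ.dvd_mul, not_or]
    refine ⟨hℓN, fun h => h2 ?_⟩
    rw [show (4 : ℕ) = 2 ^ 2 by norm_num] at h
    exact (Nat.prime_dvd_prime_iff_eq hℓ Nat.prime_two).mp (hℓ.dvd_of_dvd_pow h)

namespace Lev

variable (S : Lev) {N : ℕ} [NeZero N]

theorem coe_toKk (x : S.LF) : (S.toKk x : LaurentSeries S.k) = S.resA x := rfl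

/-- `toKk` as a ring homomorphism -/
def toKkHom : S.LF →+* S.Kk where
  toFun := S.toKk
  map_one' := Subtype.ext (map_one S.resA)
  map_mul' x y := Subtype.ext (map_mul S.resA x y)
  map_zero' := Subtype.ext (map_zero S.resA)
  map_add' x y := Subtype.ext (map_add S.resA x y)

theorem toKk_algebraMap (a : S.A) :
    S.toKkHom (algebraMap S.A S.LF a) = algebraMap S.k S.Kk (IsLocalRing.residue S.A a) :=
  Subtype.ext (by
    show S.resA (algebraMap S.A S.LF a) = algebraMap S.k (LaurentSeries S.k) _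
    rw [resA_algebraMap, algebraMap_laurentSeries_eq_single, HahnSeries.C_apply])

theorem resA_jL_eq : S.resA S.jL = qExpand S.k S.M (jqModC S.k) := by
  rw [resA, RingHom.comp_apply, expA_jL, ModularCurve.coeffMap_qExpand, ModularCurve.coeffMap_jqModC]

theorem expQ_jL : S.expQ S.jL = qExpand (AlgebraicClosure ℚ) S.M jBarSeries := by
  rw [expQ, RingHom.comp_apply, expA_jL, ModularCurve.coeffMap_qExpand, ModularCurve.coeffMap_jqModC,
    jBarSeries, coeffEmb, ← jqModC_rat, ModularCurve.coeffMap_jqModC]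

theorem resA_jL_ne_zero : S.resA S.jL ≠ 0 := by
  rw [resA_jL_eq, Ne, map_eq_zero_iff _ (qExpand_injective S.M)]
  exact jqModC_ne_zero_of_nontrivial S.k

theorem jk_ne_zero : S.jk ≠ 0 := fun h => S.resA_jL_ne_zero (congrArg Subtype.val h)

theorem transcendental_resA_jL : Transcendental S.k (S.resA S.jL) := fun h => by
  have hint : IsIntegral (⊥ : Subalgebra S.k (LaurentSeries S.k)) (S.resA S.jL) :=
    h.isIntegral.tower_top
  have hp := noPole_of_isIntegral bot_le hint
  have h1 := hp (-(S.M : ℤ)) (by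
    have := NeZero.ne S.M
    omega)
  have h2 := S.coeff_jM_pow_self 1
  rw [one_mul, pow_one] at h2
  rw [resA, RingHom.comp_apply, coeffMap_coeff, h2, map_one] at h1
  exact one_ne_zero h1

/-- the action of the image of `Γ₀(N)` modulo `ℓ` -/
abbrev hAct (N : ℕ) : MulSemiringAction (S.Hgrp N) S.Kk :=
  MulSemiringAction.compHom S.Kk (S.actK.comp (S.Hgrp N).subtype)

theorem smul_toKk_prod (x : S.LF) (N : ℕ) [Fintype (S.Hgrp N)] :
    ∏ g : S.Hgrp N, S.actK (g : S.G) (S.toKk x) = S.toKkHom (∏ g : S.Hgrp N, (g : S.G) • x) := by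
  rw [map_prod]
  exact Finset.prod_congr rfl fun g _ => S.actK_toKk _ _

theorem smul_prod_eq (x : S.LF) (N : ℕ) [Fintype (S.Hgrp N)] :
    ∀ g ∈ S.Hgrp N, g • ∏ h : S.Hgrp N, (h : S.G) • x = ∏ h : S.Hgrp N, (h : S.G) • x := by
  intro g hg
  rw [Finset.smul_prod']
  refine Fintype.prod_equiv (Equiv.mulLeft (⟨g, hg⟩ : S.Hgrp N)) _ _ fun h => ?_
  rw [Equiv.coe_mulLeft, Subgroup.coe_mul, mul_smul]

/-- the finite chart modulo `ℓ` of level `N`, lifted -/
theorem exists_invariant_lift (hN : N ∣ S.M) {z : S.Kk}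
    (hz : IsIntegral (Algebra.adjoin S.k ({S.jk} : Set S.Kk)) z)
    (hinv : ∀ g ∈ S.Hgrp N, S.actK g z = z) :
    ∃ y : S.LF, (∀ g ∈ S.Hgrp N, g • y = y) ∧ S.toKk y = z := by
  classical
  have := residueField_isAlgClosed S.A
  have := S.finiteDimensional_Kk
  have := S.isSeparable_Kk
  have := Fintype.ofFinite (S.Hgrp N)
  letI := S.hAct N
  have : FaithfulSMul (S.Hgrp N) S.Kk := ⟨fun h => Subtype.ext (S.actK_injective (AlgEquiv.ext h))⟩
  have : SMulCommClass (S.Hgrp N) S.k S.Kk := ⟨fun g a x => map_smul (S.actK (g : S.G)) a x⟩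
  let B : Subalgebra S.k S.Kk :=
    { carrier := {w | ∃ y : S.LF, (∀ g ∈ S.Hgrp N, g • y = y) ∧ S.toKkHom y = w}
      mul_mem' := fun ⟨y, hy, e⟩ ⟨y', hy', e'⟩ =>
        ⟨y * y', fun g hg => by rw [smul_mul', hy g hg, hy' g hg], by rw [map_mul, e, e']⟩
      add_mem' := fun ⟨y, hy, e⟩ ⟨y', hy', e'⟩ =>
        ⟨y + y', fun g hg => by rw [smul_add, hy g hg, hy' g hg], by rw [map_add, e, e']⟩
      algebraMap_mem' := fun c => by
        obtain ⟨a, rfl⟩ := IsLocalRing.residue_surjective c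
        exact ⟨algebraMap S.A S.LF a, fun g _ => smul_algebraMap g a, S.toKk_algebraMap a⟩ }
  have hjB : S.jk ∈ B := ⟨S.jL, fun g _ => S.smul_jL g, rfl⟩
  have htr : Transcendental S.k S.jk := fun h => S.transcendental_resA_jL (h.algHom S.Kk.val)
  have hfix : ∀ g : S.Hgrp N, g • S.jk = S.jk := fun g => by
    show S.actK (g : S.G) (S.toKk S.jL) = _
    rw [S.actK_toKk, S.smul_jL]
    rfl
  obtain ⟨y, hy, hyz⟩ := mem_of_norm_mem S.jk htr hfix B hjB (fun x hx => by
    obtain ⟨w, rfl⟩ := S.exists_LF_of_isIntegral x hx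
    exact ⟨_, S.smul_prod_eq w N, (S.smul_toKk_prod w N).symm⟩) hz (fun g => hinv g g.2)
  exact ⟨y, hy, hyz⟩

theorem algebraMap_A_eq (r : S.A) :
    algebraMap S.A (LaurentSeries (AlgebraicClosure ℚ)) r =
      HahnSeries.single 0 (r : AlgebraicClosure ℚ) := by
  rw [HahnSeries.algebraMap_apply', PowerSeries.algebraMap_apply, HahnSeries.ofPowerSeries_C,
    HahnSeries.C_apply]
  rfl

/-- a lift whose expansion is one in `q` -/
theorem exists_series (y : S.LF) {f : LaurentSeries (AlgebraicClosure ℚ)}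
    (h : S.expQ y = qExpand (AlgebraicClosure ℚ) S.M f) :
    ∃ b : LaurentSeries S.A, toBar S.A b = f ∧ qExpand S.k S.M (toRes S.A b) = S.resA y := by
  obtain ⟨b, hb, hb'⟩ := exists_qExpand_eq S.A.subtype Subtype.val_injective S.M h
  refine ⟨b, hb', ?_⟩
  rw [resA, RingHom.comp_apply, ← hb, ModularCurve.coeffMap_qExpand]

theorem isIntegral_expQ (y : S.LF) {f : LaurentSeries (AlgebraicClosure ℚ)}
    (h : S.expQ y = qExpand (AlgebraicClosure ℚ) S.M f) :
    IsIntegral (Algebra.adjoin S.A ({jBarSeries} : Set _)) f := by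
  refine isIntegral_adjoin_of_map (qExpand (AlgebraicClosure ℚ) S.M) (fun r => ?_)
    (qExpand_injective S.M) ?_
  · rw [algebraMap_A_eq, qExpand_single, mul_zero]
  · rw [← h, ← expQ_jL]
    refine isIntegral_adjoin_map (RingHom.id S.A) S.expQ (fun r => ?_) (S.isIntegral_adjoin_jL y)
    rw [expQ, RingHom.comp_apply, expA_algebraMap, HahnSeries.C_apply, coeffMap_single,
      RingHom.id_apply, algebraMap_A_eq]
    rfl

theorem toBar_algebraMap (r : S.A) :
    toBar S.A (algebraMap S.A (LaurentSeries S.A) r) =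
      algebraMap S.A (LaurentSeries (AlgebraicClosure ℚ)) r := by
  rw [algebraMap_A_eq, HahnSeries.algebraMap_apply', PowerSeries.algebraMap_apply,
    HahnSeries.ofPowerSeries_C, HahnSeries.C_apply, coeffMap_single]
  rfl

theorem isIntegral_res (b : LaurentSeries S.A)
    (hb : IsIntegral (Algebra.adjoin S.A ({jBarSeries} : Set _)) (toBar S.A b)) :
    IsIntegral (Algebra.adjoin S.k ({jqModC S.k} : Set _)) (toRes S.A b) := by
  have hj : toBar S.A (jqModC S.A) = jBarSeries := by
    rw [ModularCurve.coeffMap_jqModC, jBarSeries, coeffEmb, ← jqModC_rat,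
      ModularCurve.coeffMap_jqModC]
  rw [← ModularCurve.coeffMap_jqModC (IsLocalRing.residue S.A)]
  refine isIntegral_adjoin_map (IsLocalRing.residue S.A) (toRes S.A) (fun r => ?_) ?_
  · rw [HahnSeries.algebraMap_apply', PowerSeries.algebraMap_apply, HahnSeries.ofPowerSeries_C,
      HahnSeries.C_apply, coeffMap_single, algebraMap_laurentSeries_eq_single]
    rfl
  · refine isIntegral_adjoin_of_map (toBar S.A) S.toBar_algebraMap ?_ (hj ▸ hb)
    intro x y h
    ext n
    simpa using congrArg (fun z : LaurentSeries (AlgebraicClosure ℚ) => z.coeff n) h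

theorem exists_series_inFin (hN : N ∣ S.M) {f : LaurentSeries (AlgebraicClosure ℚ)}
    (hf : InFin S.A N f) :
    ∃ b : LaurentSeries S.A, toBar S.A b = f ∧ InFinRes S.A N (toRes S.A b) := by
  obtain ⟨y, hy, hyf⟩ := S.exists_LF_of_inFin hN hf
  obtain ⟨b, hb, hb'⟩ := S.exists_series y hyf
  refine ⟨b, hb, ?_, S.isIntegral_res b (hb ▸ hf.2)⟩
  obtain ⟨x, hx, hx'⟩ := (S.mem_fullC_iff hN (S.toKk y)).mpr fun g hg => by
    rw [S.actK_toKk, hy g hg]
  rw [qExpand_injective S.M (hb'.trans hx'.symm)]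
  exact hx

theorem algebraMap_k_qExpand (r : S.k) :
    qExpand S.k S.M (algebraMap S.k (LaurentSeries S.k) r) = algebraMap S.k (LaurentSeries S.k) r := by
  rw [algebraMap_laurentSeries_eq_single, qExpand_single, mul_zero]

theorem exists_lift_finRes (hN : N ∣ S.M) {x : LaurentSeries S.k} (hx : InFinRes S.A N x) :
    ∃ b : LaurentSeries S.A, InFin S.A N (toBar S.A b) ∧ toRes S.A b = x := by
  obtain ⟨hxF, hxi⟩ := hx
  set z : S.Kk := ⟨qExpand S.k S.M x, S.qExpand_mem_Kk hN hxF⟩
  have hz : IsIntegral (Algebra.adjoin S.k ({S.jk} : Set S.Kk)) z := by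
    refine isIntegral_val S.Kk ?_
    have h := isIntegral_adjoin_map (RingHom.id S.k) (qExpand S.k S.M) S.algebraMap_k_qExpand hxi
    rw [← resA_jL_eq] at h
    exact h
  have hinv := (S.mem_fullC_iff hN z).mp ⟨x, hxF, rfl⟩
  obtain ⟨y, hy, hyz⟩ := S.exists_invariant_lift hN hz hinv
  obtain ⟨f, hf, hfy⟩ := (S.expQ_mem_iff hN y).mpr hy
  obtain ⟨b, hb, hb'⟩ := S.exists_series y hfy.symm
  refine ⟨b, ⟨hb ▸ hf, hb ▸ S.isIntegral_expQ y hfy.symm⟩, qExpand_injective S.M ?_⟩
  rw [hb', ← coe_toKk, hyz]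

/-! ### the chart at infinity -/

theorem hasLead_jqModC (R : Type*) [CommRing R] : HasLead (jqModC R) (-1) :=
  ⟨fun _ hn => coeff_jqModC_of_lt R hn, by rw [coeff_jqModC_neg_one]; exact isUnit_one⟩

theorem toBar_jqModC : toBar S.A (jqModC S.A) = jBarSeries := by
  rw [ModularCurve.coeffMap_jqModC, jBarSeries, coeffEmb, ← jqModC_rat, ModularCurve.coeffMap_jqModC]

theorem jBar_ne_zero : (jBarSeries : LaurentSeries (AlgebraicClosure ℚ)) ≠ 0 := by
  rw [jBarSeries, coeffEmb, ← jqModC_rat, ModularCurve.coeffMap_jqModC]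
  exact jqModC_ne_zero_of_nontrivial _

theorem algebraMap_A_series (r : S.A) :
    toRes S.A (algebraMap S.A (LaurentSeries S.A) r) =
      algebraMap S.k (LaurentSeries S.k) (IsLocalRing.residue S.A r) := by
  rw [algebraMap_laurentSeries_eq_single, HahnSeries.algebraMap_apply', PowerSeries.algebraMap_apply,
    HahnSeries.ofPowerSeries_C, HahnSeries.C_apply, coeffMap_single]
  rfl

theorem exists_series_inInf (hN : N ∣ S.M) {f : LaurentSeries (AlgebraicClosure ℚ)}
    (hf : InInf S.A N f) :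
    ∃ b : LaurentSeries S.A, toBar S.A b = f ∧ InInfRes S.A N (toRes S.A b) := by
  obtain ⟨n, hn⟩ := exists_pow_mul_isIntegral jBar_ne_zero hf.2
  have hjF : (jBarSeries : LaurentSeries (AlgebraicClosure ℚ)) ∈ modularFunctionFieldBar N :=
    (coeffEmb_mem_laurentBaseChange _ (modularFunctionField_le_full N (jq_mem N)))
  obtain ⟨b, hb, hbF, -⟩ := S.exists_series_inFin hN
    (f := jBarSeries ^ n * f) ⟨mul_mem (pow_mem hjF n) hf.1, hn n le_rfl⟩
  obtain ⟨t, ht, -⟩ := (hasLead_jqModC S.A).exists_inv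
  have htb : toBar S.A t = (jBarSeries : LaurentSeries (AlgebraicClosure ℚ))⁻¹ := by
    refine eq_inv_of_mul_eq_one_right ?_
    rw [← S.toBar_jqModC, ← map_mul, ht, map_one]
  have htr : toRes S.A t = (jqModC S.k)⁻¹ := by
    refine eq_inv_of_mul_eq_one_right ?_
    rw [← ModularCurve.coeffMap_jqModC (IsLocalRing.residue S.A), ← map_mul, ht, map_one]
  have hbar : toBar S.A (t ^ n * b) = f := by
    rw [map_mul, map_pow, htb, hb, ← mul_assoc, ← mul_pow, inv_mul_cancel₀ jBar_ne_zero, one_pow,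
      one_mul]
  refine ⟨t ^ n * b, hbar, ?_, ?_⟩
  · rw [map_mul, map_pow, htr]
    exact mul_mem (pow_mem (inv_mem (jqModC_mem_full S.k N)) n) hbF
  · rw [← htr]
    refine isIntegral_adjoin_map (IsLocalRing.residue S.A) (toRes S.A) S.algebraMap_A_series ?_
    refine isIntegral_adjoin_of_map (toBar S.A) S.toBar_algebraMap ?_ ?_
    · intro x y h
      ext k
      simpa using congrArg (fun z : LaurentSeries (AlgebraicClosure ℚ) => z.coeff k) h
    · rw [htb, hbar]
      exact hf.2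

theorem resA_smul_pow_jL (n : ℕ) : S.resA (S.jL ^ n) = (S.resA S.jL) ^ n := map_pow _ _ _

/-- elements of the chart at infinity modulo `ℓ` come from elements with bounded poles -/
theorem exists_pole_lift (R0 : ℕ)
    (hdom : ∀ R : ℕ, R0 ≤ R → ∃ f : S.LF, HasLead (S.expA f) (-(R : ℤ)) ∧
      ∀ γ : SL(2, ℤ), (∀ k : ℤ, S.mkG γ ≠ S.mkG (ModularGroup.T ^ k)) →
        ∀ n : ℤ, n ≤ -(R : ℤ) → (S.expA (act γ f)).coeff n = 0)
    {z : S.Kk} (hz : IsIntegral (Algebra.adjoin S.k ({S.jk⁻¹} : Set S.Kk)) z) :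
    ∃ (y : S.LF) (n : ℕ), S.Pole y ((n * S.M : ℕ) : ℤ) ∧ S.toKkHom y = S.jk ^ n * z := by
  obtain ⟨n0, hn0⟩ := exists_pow_mul_isIntegral S.jk_ne_zero hz
  set n := max n0 R0
  obtain ⟨c, hc⟩ := S.exists_LF_of_isIntegral _ (hn0 n (le_max_left _ _))
  have hR : R0 ≤ n * S.M :=
    (le_max_right n0 R0).trans (Nat.le_mul_of_pos_right _ (Nat.pos_of_ne_zero (NeZero.ne S.M)))
  have hpole : ∀ γ : SL(2, ℤ), ∀ i < -((n * S.M : ℕ) : ℤ), (S.resA (act γ c)).coeff i = 0 := by
    intro γ i hi
    have hval : S.resA (act γ c) =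
        (S.resA S.jL) ^ n * ((S.actK (S.mkG γ) z : S.Kk) : LaurentSeries S.k) := by
      have h1 := S.actK_toKk (S.mkG γ) c
      rw [hc, map_mul, map_pow] at h1
      rw [show S.actK (S.mkG γ) S.jk = S.jk by rw [jk, S.actK_toKk, S.smul_jL]] at h1
      have h2 := congrArg Subtype.val h1
      simp only [MulMemClass.coe_mul, SubmonoidClass.coe_pow, coe_toKk, mkG_smul] at h2
      exact h2.symm
    have hnp : NoPole ((S.actK (S.mkG γ) z : S.Kk) : LaurentSeries S.k) := by
      refine S.noPole_of_isIntegral_inv ?_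
      refine isIntegral_val_map S.Kk (S.actK (S.mkG γ)) ?_ hz
      rw [map_inv₀, jk, S.actK_toKk, S.smul_jL]
      rfl
    rw [hval, resA, RingHom.comp_apply, ← map_pow, HahnSeries.coeff_mul]
    refine Finset.sum_eq_zero fun ij hij => ?_
    rw [Finset.mem_antidiagonal] at hij
    obtain ⟨-, -, h3⟩ := hij
    rcases lt_or_ge ij.1 (-((n * S.M : ℕ) : ℤ)) with h | h
    · rw [coeffMap_coeff, S.coeff_jM_pow_of_lt h, map_zero, zero_mul]
    · rw [hnp ij.2 (by omega), mul_zero]
  obtain ⟨c', hc', hp⟩ := S.exists_corrected R0 hdom _ hR c hpole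
  refine ⟨c', n, hp, ?_⟩
  rw [← hc]
  exact Subtype.ext hc'

theorem isIntegral_div (y : S.LF) (n : ℕ) (hy : S.Pole y ((n * S.M : ℕ) : ℤ)) :
    IsIntegral (Algebra.adjoin S.A ({(S.expQ S.jL)⁻¹} : Set (LaurentSeries (AlgebraicClosure ℚ))))
      (S.expQ y * ((S.expQ S.jL)⁻¹) ^ n) := by
  classical
  have := Fintype.ofFinite S.G
  set j' := S.expQ S.jL
  have hj : j' ≠ 0 := by
    rw [show j' = qExpand (AlgebraicClosure ℚ) S.M jBarSeries from S.expQ_jL, Ne,
      map_eq_zero_iff _ (qExpand_injective S.M)]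
    exact jBar_ne_zero
  set B := Algebra.adjoin S.A ({j'⁻¹} : Set (LaurentSeries (AlgebraicClosure ℚ)))
  set Q : Polynomial S.LF := ∏ g : S.G, (Polynomial.X - Polynomial.C (g • y)) with hQ
  set d := Fintype.card S.G
  have hQm : Q.Monic := Polynomial.monic_prod_of_monic _ _ fun g _ => Polynomial.monic_X_sub_C _
  have hQd : Q.natDegree = d := by
    rw [hQ, Polynomial.natDegree_prod _ _ fun g _ => Polynomial.X_sub_C_ne_zero _]
    simp [d]
  have hQy : Q.eval y = 0 := by
    rw [hQ, Polynomial.eval_prod]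
    exact Finset.prod_eq_zero (Finset.mem_univ 1) (by simp)
  set P := (Q.map S.expQ).scaleRoots (j'⁻¹ ^ n)
  have hPm : P.Monic := (Polynomial.monic_scaleRoots_iff _).mpr (hQm.map _)
  have hc : ∀ i, P.coeff i ∈ B := by
    intro i
    rw [Polynomial.coeff_scaleRoots, Polynomial.coeff_map, hQm.natDegree_map, hQd]
    rcases Nat.lt_or_ge d i with hi | hi
    · rw [Polynomial.coeff_eq_zero_of_natDegree_lt (by omega), map_zero, zero_mul]
      exact zero_mem B
    have hinv : ∀ γ, act γ (Q.coeff i) = Q.coeff i := by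
      intro γ
      have h1 : Q.map (act γ : S.LF ≃+* S.LF).toRingHom = Q := by
        rw [hQ, Polynomial.map_prod]
        refine Fintype.prod_equiv (Equiv.mulLeft (S.mkG γ)) _ _ fun g => ?_
        simp only [Polynomial.map_sub, Polynomial.map_X, Polynomial.map_C, Equiv.coe_mulLeft, mul_smul]
        rfl
      conv_rhs => rw [← h1, Polynomial.coeff_map]
      rfl
    have hQneg : Q = ∏ g : S.G, (Polynomial.X + Polynomial.C (-(g • y))) := by
      simp [hQ, sub_eq_add_neg]
    have hpole : S.Pole (Q.coeff i) (((d - i) * n * S.M : ℕ) : ℤ) := by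
      rw [hQneg, Finset.prod_X_add_C_coeff _ _ (by simpa [d] using hi)]
      intro γ k hk
      rw [map_sum, map_sum, HahnSeries.coeff_sum]
      refine Finset.sum_eq_zero fun T hT => ?_
      have hcard : T.card = d - i := by
        simpa [d] using (Finset.mem_powersetCard.mp hT).2
      refine Pole.prod (R := ((n * S.M : ℕ) : ℤ)) (fun g _ => ?_) γ k ?_
      · exact fun δ m hm => by rw [map_neg, map_neg, HahnSeries.coeff_neg, (hy.smul g) δ m hm, neg_zero]
      · rw [hcard]
        push_cast at hk ⊢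
        linarith
    obtain ⟨R, hR, hRQ⟩ := S.exists_poly_of_invariant _ hinv ((d - i) * n) (fun k hk => by
      have := hpole 1 k (by exact_mod_cast hk)
      rwa [show act (1 : SL(2, ℤ)) (Q.coeff i) = Q.coeff i from hinv 1] at this)
    rw [hRQ, Polynomial.aeval_def, Polynomial.hom_eval₂, Polynomial.eval₂_eq_sum_range,
      Finset.sum_mul]
    refine sum_mem fun l hl => ?_
    have hl' : l ≤ n * (d - i) := by
      have := Finset.mem_range.mp hl
      rw [mul_comm]
      omega
    rw [RingHom.comp_apply, ← pow_mul, mul_assoc]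
    refine mul_mem ?_ ?_
    · rw [expQ, RingHom.comp_apply, expA_algebraMap, HahnSeries.C_apply, coeffMap_single,
        show (S.A.subtype (R.coeff l)) = ((R.coeff l : S.A) : AlgebraicClosure ℚ) from rfl,
        ← algebraMap_A_eq]
      exact Subalgebra.algebraMap_mem _ _
    · obtain ⟨e, he⟩ := Nat.exists_eq_add_of_le hl'
      rw [he, pow_add, ← mul_assoc, ← mul_pow, mul_inv_cancel₀ hj, one_pow, one_mul]
      exact pow_mem (Algebra.self_mem_adjoin_singleton S.A j'⁻¹) _
  obtain ⟨q, hq, -, hqm⟩ := Polynomial.lifts_and_natDegree_eq_and_monic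
    ((Polynomial.lifts_iff_coeff_lifts (f := algebraMap B (LaurentSeries (AlgebraicClosure ℚ))) P).mpr
      fun i => ⟨⟨_, hc i⟩, rfl⟩) hPm
  refine ⟨q, hqm, ?_⟩
  rw [Polynomial.eval₂_eq_eval_map, hq, mul_comm, Polynomial.scaleRoots_eval_mul,
    Polynomial.eval_map_apply, hQy, map_zero, mul_zero]

theorem exists_lift_infRes (hN : N ∣ S.M) {x : LaurentSeries S.k} (hx : InInfRes S.A N x) :
    ∃ b : LaurentSeries S.A, InInf S.A N (toBar S.A b) ∧ toRes S.A b = x := by
  classical
  obtain ⟨hxF, hxi⟩ := hx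
  obtain ⟨R0, hdom⟩ := S.exists_dominant
  have := residueField_isAlgClosed S.A
  have := Fintype.ofFinite (S.Hgrp N)
  letI := S.hAct N
  have : FaithfulSMul (S.Hgrp N) S.Kk := ⟨fun h => Subtype.ext (S.actK_injective (AlgEquiv.ext h))⟩
  have : SMulCommClass (S.Hgrp N) S.k S.Kk := ⟨fun g a x => map_smul (S.actK (g : S.G)) a x⟩
  have hfix : ∀ g : S.G, S.actK g S.jk = S.jk := fun g => by rw [jk, S.actK_toKk, S.smul_jL]
  have hadj : S.k⟮S.jk⁻¹⟯ = S.k⟮S.jk⟯ := by
    refine le_antisymm ?_ ?_ <;> rw [IntermediateField.adjoin_simple_le_iff]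
    · exact inv_mem (IntermediateField.mem_adjoin_simple_self _ _)
    · simpa using inv_mem (IntermediateField.mem_adjoin_simple_self S.k S.jk⁻¹)
  have hfd : FiniteDimensional (S.k⟮S.jk⁻¹⟯) S.Kk := by
    rw [hadj]; exact S.finiteDimensional_Kk
  have hsep : Algebra.IsSeparable (S.k⟮S.jk⁻¹⟯) S.Kk := by
    rw [hadj]; exact S.isSeparable_Kk
  have htr : Transcendental S.k S.jk⁻¹ := fun h =>
    S.transcendental_resA_jL ((inv_inv S.jk ▸ h.inv).algHom S.Kk.val)
  let B : Subalgebra S.k S.Kk :=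
    { carrier := {w | ∃ (y : S.LF) (n : ℕ), (∀ g ∈ S.Hgrp N, g • y = y) ∧
        S.Pole y ((n * S.M : ℕ) : ℤ) ∧ S.toKkHom y = S.jk ^ n * w}
      mul_mem' := fun ⟨y, n, hy, hp, e⟩ ⟨y', n', hy', hp', e'⟩ =>
        ⟨y * y', n + n', fun g hg => by rw [smul_mul', hy g hg, hy' g hg],
          by rw [add_mul, Nat.cast_add]; exact hp.mul hp',
          by rw [map_mul, e, e', pow_add]; ring⟩
      add_mem' := fun {w w'} ⟨y, n, hy, hp, e⟩ ⟨y', n', hy', hp', e'⟩ =>
        ⟨S.jL ^ n' * y + S.jL ^ n * y', n + n',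
          fun g hg => by
            rw [smul_add, smul_mul', smul_mul', smul_pow', smul_pow', S.smul_jL, hy g hg, hy' g hg],
          by
            have h1 := (Pole.prod (T := Finset.range n') (x := fun _ => S.jL)
              fun _ _ => S.pole_jL).mul hp
            have h2 := (Pole.prod (T := Finset.range n) (x := fun _ => S.jL)
              fun _ _ => S.pole_jL).mul hp'
            simp only [Finset.prod_const, Finset.card_range] at h1 h2
            exact (h1.mono (by push_cast; linarith)).add (h2.mono (by push_cast; linarith)),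
          by
            rw [map_add, map_mul, map_mul, map_pow, map_pow, e, e',
              show S.toKkHom S.jL = S.jk from rfl]
            ring⟩
      algebraMap_mem' := fun c => by
        obtain ⟨a, rfl⟩ := IsLocalRing.residue_surjective c
        refine ⟨algebraMap S.A S.LF a, 0, fun g _ => smul_algebraMap g a, ?_, ?_⟩
        · simpa using pole_algebraMap (S := S) a le_rfl
        · rw [pow_zero, one_mul]; exact S.toKk_algebraMap a }
  have hjB : S.jk⁻¹ ∈ B := ⟨1, 1, fun g _ => smul_one g, (pole_one (S := S)).mono (Int.natCast_nonneg _), by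
    rw [map_one, pow_one, mul_inv_cancel₀ S.jk_ne_zero]⟩
  have hnorm : ∀ w : S.Kk, IsIntegral (Algebra.adjoin S.k ({S.jk⁻¹} : Set S.Kk)) w →
      ∏ g : S.Hgrp N, g • w ∈ B := by
    intro w hw
    obtain ⟨c, n, hp, hc⟩ := S.exists_pole_lift R0 hdom hw
    refine ⟨∏ g : S.Hgrp N, (g : S.G) • c, Fintype.card (S.Hgrp N) * n, S.smul_prod_eq c N, ?_, ?_⟩
    · have h := Pole.prod (T := Finset.univ) (x := fun g : S.Hgrp N => (g : S.G) • c)
        fun g _ => hp.smul _
      rw [Finset.card_univ] at h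
      rw [mul_assoc]
      exact_mod_cast h
    · rw [← S.smul_toKk_prod c N, mul_comm (Fintype.card (S.Hgrp N)) n, pow_mul, ← Finset.card_univ,
        ← Finset.prod_const, ← Finset.prod_mul_distrib]
      refine Finset.prod_congr rfl fun g _ => ?_
      show S.actK (g : S.G) (S.toKkHom c) = S.jk ^ n * S.actK (g : S.G) w
      rw [hc, map_mul, map_pow, hfix]
  set z : S.Kk := ⟨qExpand S.k S.M x, S.qExpand_mem_Kk hN hxF⟩
  have hz : IsIntegral (Algebra.adjoin S.k ({S.jk⁻¹} : Set S.Kk)) z := by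
    refine isIntegral_val S.Kk ?_
    have h := isIntegral_adjoin_map (RingHom.id S.k) (qExpand S.k S.M) S.algebraMap_k_qExpand hxi
    rw [map_inv₀, ← resA_jL_eq] at h
    exact h
  have hinv := (S.mem_fullC_iff hN z).mp ⟨x, hxF, rfl⟩
  obtain ⟨y, n, hy, hp, hyz⟩ := mem_of_norm_mem S.jk⁻¹ htr
    (fun g => by show S.actK (g : S.G) S.jk⁻¹ = _; rw [map_inv₀, hfix]) B hjB hnorm hz
    (fun g => hinv g g.2)
  obtain ⟨g, hg, hgy⟩ := (S.expQ_mem_iff hN y).mpr hy
  obtain ⟨b, hb, hb'⟩ := S.exists_series y hgy.symm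
  obtain ⟨t, ht, -⟩ := (hasLead_jqModC S.A).exists_inv
  have htb : toBar S.A t = (jBarSeries : LaurentSeries (AlgebraicClosure ℚ))⁻¹ := by
    refine eq_inv_of_mul_eq_one_right ?_
    rw [← S.toBar_jqModC, ← map_mul, ht, map_one]
  have htr' : toRes S.A t = (jqModC S.k)⁻¹ := by
    refine eq_inv_of_mul_eq_one_right ?_
    rw [← ModularCurve.coeffMap_jqModC (IsLocalRing.residue S.A), ← map_mul, ht, map_one]
  refine ⟨t ^ n * b, ⟨?_, ?_⟩, ?_⟩
  · rw [map_mul, map_pow, htb, hb]
    exact mul_mem (pow_mem (inv_mem (coeffEmb_mem_laurentBaseChange _ (modularFunctionField_le_full N (jq_mem N)))) n) hg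
  · refine isIntegral_adjoin_of_map (qExpand (AlgebraicClosure ℚ) S.M) (fun r => ?_)
      (qExpand_injective S.M) ?_
    · rw [algebraMap_A_eq, qExpand_single, mul_zero]
    · rw [map_inv₀, ← expQ_jL, map_mul, map_pow, htb, hb, map_mul, map_pow, map_inv₀, ← expQ_jL,
        hgy, mul_comm]
      exact S.isIntegral_div y n hp
  · refine qExpand_injective S.M ?_
    rw [map_mul, map_pow, htr', map_mul, map_pow, map_inv₀, hb', ← resA_jL_eq]
    have h := congrArg Subtype.val hyz
    simp only [MulMemClass.coe_mul, SubmonoidClass.coe_pow] at h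
    change S.resA y = _ at h
    rw [h, ← mul_assoc, ← mul_pow, show ((S.jk : S.Kk) : LaurentSeries S.k) = S.resA S.jL from rfl,
      inv_mul_cancel₀ S.resA_jL_ne_zero, one_pow, one_mul]

end Lev

end FLTAgent.Good
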