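import Fermat.Prelude.Def_ModularCurve_X0ModL

/-!
Interpolation on the orbit of an element under a finite group, and some lemmas on Laurent series:
roots in characteristic `ℓ` of polynomials in `j`, twist invariance, transcendence.
-/

set_option autoImplicit false

noncomputable section

open Polynomial ModularCurve

namespace FLTAgent.Good

section Orbit

variable {G R : Type*} [Group G] [Fintype G] [CommRing R] [IsDomain R] [MulSemiringAction G R]

/-- the orbit -/
def orbitFin (G : Type*) {R : Type*} [Group G] [Fintype G] [CommRing R] [MulSemiringAction G R]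
    (w : R) : Finset R :=
  open Classical in Finset.univ.image fun g : G => g • w

omit [IsDomain R] in
theorem mem_orbitFin {w o : R} : o ∈ orbitFin G w ↔ ∃ g : G, g • w = o := by
  classical
  simp [orbitFin]

omit [IsDomain R] in
theorem smul_mem_orbitFin {w o : R} (g : G) : g • o ∈ orbitFin G w ↔ o ∈ orbitFin G w := by
  simp only [mem_orbitFin]
  refine ⟨fun ⟨h, hh⟩ => ⟨g⁻¹ * h, by rw [mul_smul, hh, inv_smul_smul]⟩,
    fun ⟨h, hh⟩ => ⟨g * h, by rw [mul_smul, hh]⟩⟩

/-- Lagrange interpolation on the orbit of `w` -/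
theorem exists_orbit_poly (w x : R) (hx : ∀ g : G, g • w = w → g • x = x) :
    ∃ Q Φ : R[X], (∀ (g : G) i, g • Q.coeff i = Q.coeff i) ∧
      (∀ (g : G) i, g • Φ.coeff i = Φ.coeff i) ∧ Φ.Monic ∧
      Φ.natDegree = (orbitFin G w).card ∧ Φ.eval w = 0 ∧ Φ.derivative.eval w ≠ 0 ∧
      Q.eval w = x * Φ.derivative.eval w := by
  classical
  set O := orbitFin G w with hO
  let gg : R → G := fun o => if h : ∃ g : G, g • w = o then h.choose else 1
  have hgg : ∀ o ∈ O, gg o • w = o := fun o ho => by
    simp only [gg, dif_pos (mem_orbitFin.mp ho)]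
    exact (mem_orbitFin.mp ho).choose_spec
  have hw : w ∈ O := mem_orbitFin.mpr ⟨1, one_smul _ _⟩
  have hv : ∀ (g : G), ∀ o ∈ O, gg (g • o) • x = g • gg o • x := by
    intro g o ho
    have h1 := hx ((gg (g • o))⁻¹ * g * gg o) (by
      rw [mul_smul, mul_smul, hgg o ho, inv_smul_eq_iff, hgg _ ((smul_mem_orbitFin g).mpr ho)])
    rw [mul_smul, mul_smul, inv_smul_eq_iff] at h1
    exact h1.symm
  let Q : R[X] := ∑ o ∈ O, C (gg o • x) * ∏ o' ∈ O.erase o, (X - C o')
  let Φ : R[X] := ∏ o ∈ O, (X - C o)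
  have hf : ∀ g : G, ∀ r, (MulSemiringAction.toRingHom G R g) r = g • r := fun _ _ => rfl
  have hmapO : ∀ g : G, O.image (g • ·) = O := by
    intro g
    ext o
    simp only [Finset.mem_image]
    refine ⟨fun ⟨o', ho', e⟩ => e ▸ (smul_mem_orbitFin g).mpr ho', fun ho =>
      ⟨g⁻¹ • o, (smul_mem_orbitFin g⁻¹).mpr ho, smul_inv_smul g o⟩⟩
  have hQ : ∀ g : G, Q.map (MulSemiringAction.toRingHom G R g) = Q := by
    intro g
    simp only [Q, Polynomial.map_sum, Polynomial.map_mul, Polynomial.map_prod, Polynomial.map_sub,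
      Polynomial.map_X, Polynomial.map_C, hf]
    conv_rhs => rw [← hmapO g, Finset.sum_image (fun a _ b _ h => MulAction.injective g h)]
    refine Finset.sum_congr rfl fun o ho => ?_
    rw [hv g o ho, ← Finset.image_erase (MulAction.injective g),
      Finset.prod_image (fun a _ b _ h => MulAction.injective g h)]
  have hΦ : ∀ g : G, Φ.map (MulSemiringAction.toRingHom G R g) = Φ := by
    intro g
    simp only [Φ, Polynomial.map_prod, Polynomial.map_sub, Polynomial.map_X, Polynomial.map_C, hf]
    conv_rhs => rw [← hmapO g, Finset.prod_image (fun a _ b _ h => MulAction.injective g h)]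
  have hder : Φ.derivative.eval w = ∏ o' ∈ O.erase w, (w - o') := by
    simp only [Φ]
    rw [← Finset.mul_prod_erase O _ hw]
    simp [Polynomial.derivative_mul, Polynomial.eval_prod]
  refine ⟨Q, Φ, fun g i => ?_, fun g i => ?_, monic_prod_of_monic _ _ fun o _ => monic_X_sub_C o,
    ?_, ?_, ?_, ?_⟩
  · rw [← hf, ← Polynomial.coeff_map, hQ]
  · rw [← hf, ← Polynomial.coeff_map, hΦ]
  · simp only [Φ]
    exact natDegree_finsetProd_X_sub_C_eq_card O id
  · simp only [Φ, Polynomial.eval_prod, Polynomial.eval_sub, Polynomial.eval_X, Polynomial.eval_C]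
    exact Finset.prod_eq_zero hw (sub_self w)
  · rw [hder]
    exact Finset.prod_ne_zero_iff.mpr fun o ho => sub_ne_zero.mpr (Finset.ne_of_mem_erase ho).symm
  · rw [hder]
    simp only [Q, Polynomial.eval_finsetSum, Polynomial.eval_mul, Polynomial.eval_C,
      Polynomial.eval_prod, Polynomial.eval_sub, Polynomial.eval_X]
    rw [Finset.sum_eq_single w]
    · rw [hx _ (hgg w hw)]
    · intro o _ hne
      rw [Finset.prod_eq_zero (Finset.mem_erase.mpr ⟨hne.symm, hw⟩) (sub_self w), mul_zero]
    · exact fun h => absurd hw h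

/-- an invariant polynomial vanishing at `w` of degree below the orbit vanishes -/
theorem eq_zero_of_invariant (w : R) (P : R[X]) (hP : ∀ (g : G) i, g • P.coeff i = P.coeff i)
    (hw : P.eval w = 0) (hd : P.natDegree < (orbitFin G w).card) : P = 0 := by
  refine Polynomial.eq_zero_of_natDegree_lt_card_of_eval_eq_zero' P _ (fun o ho => ?_) hd
  obtain ⟨g, rfl⟩ := mem_orbitFin.mp ho
  have h1 : P.map (MulSemiringAction.toRingHom G R g) = P := by
    ext i; rw [Polynomial.coeff_map]; exact hP g i
  rw [← h1, Polynomial.eval_map, show g • w = MulSemiringAction.toRingHom G R g w from rfl,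
    Polynomial.eval₂_hom, hw, map_zero]

end Orbit

section Series

variable (F : Type*) [Field F]

theorem coeff_aeval_jq_top (R : F[X]) :
    (Polynomial.aeval (jqModC F) R).coeff (-(R.natDegree : ℤ)) = R.leadingCoeff := by
  rw [Polynomial.aeval_eq_sum_range, HahnSeries.coeff_sum, Finset.sum_eq_single R.natDegree]
  · rw [Algebra.smul_def, algebraMap_laurentSeries_eq_single, HahnSeries.coeff_single_zero_mul,
      coeff_jqModC_pow_self, mul_one, Polynomial.leadingCoeff]
  · intro i hi hne
    have hi' : i < R.natDegree := by have := Finset.mem_range.mp hi; omega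
    rw [Algebra.smul_def, algebraMap_laurentSeries_eq_single, HahnSeries.coeff_single_zero_mul,
      coeff_jqModC_pow_of_lt F (by omega), mul_zero]
  · intro h; exact absurd (Finset.mem_range.mpr (Nat.lt_succ_self _)) h

theorem coeff_aeval_jq_low (R : F[X]) {m : ℤ} (hm : m < -(R.natDegree : ℤ)) :
    (Polynomial.aeval (jqModC F) R).coeff m = 0 := by
  rw [Polynomial.aeval_eq_sum_range, HahnSeries.coeff_sum]
  refine Finset.sum_eq_zero fun i hi => ?_
  have hi' : i ≤ R.natDegree := Nat.lt_succ_iff.mp (Finset.mem_range.mp hi)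
  rw [Algebra.smul_def, algebraMap_laurentSeries_eq_single, HahnSeries.coeff_single_zero_mul,
    coeff_jqModC_pow_of_lt F (by omega), mul_zero]

theorem aeval_jq_ne_zero {R : F[X]} (hR : R ≠ 0) : Polynomial.aeval (jqModC F) R ≠ 0 := fun h =>
  hR (Polynomial.leadingCoeff_eq_zero.mp (by rw [← coeff_aeval_jq_top, h, HahnSeries.coeff_zero]))

variable {F}

/-- an `ℓ`-th root of a polynomial in `j` is one -/
theorem exists_poly_of_pow_char {ℓ : ℕ} [Fact ℓ.Prime] [CharP F ℓ]
    (hroot : ∀ c : F, ∃ d, d ^ ℓ = c) (R : F[X]) (u : LaurentSeries F)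
    (hu : u ^ ℓ = Polynomial.aeval (jqModC F) R) :
    ∃ P : F[X], u = Polynomial.aeval (jqModC F) P := by
  haveI : CharP (LaurentSeries F) ℓ :=
    charP_of_injective_algebraMap (algebraMap F (LaurentSeries F)).injective ℓ
  induction hn : R.natDegree using Nat.strong_induction_on generalizing R u with
  | _ n ih =>
    obtain ⟨d, hd⟩ := hroot R.leadingCoeff
    rcases eq_or_ne R 0 with rfl | hR
    · exact ⟨0, by rw [map_zero] at hu ⊢; exact eq_zero_of_pow_eq_zero hu⟩
    have hu0 : u ≠ 0 := fun h => aeval_jq_ne_zero F hR (by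
      rw [← hu, h, zero_pow (NeZero.ne ℓ)])
    have hord : (ℓ : ℤ) * u.order = -(n : ℤ) := by
      rw [← hn, ← nsmul_eq_mul, ← HahnSeries.order_pow, hu]
      refine le_antisymm (HahnSeries.order_le_of_coeff_ne_zero ?_) ?_
      · rw [coeff_aeval_jq_top]; exact Polynomial.leadingCoeff_ne_zero.mpr hR
      · by_contra hlt
        push Not at hlt
        exact HahnSeries.leadingCoeff_ne_zero.mpr (aeval_jq_ne_zero F hR)
          (by rw [HahnSeries.leadingCoeff_eq]; exact coeff_aeval_jq_low F R hlt)
    obtain ⟨e, he⟩ : ℓ ∣ n := by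
      have : (ℓ : ℤ) ∣ (n : ℤ) := ⟨-u.order, by linarith⟩
      exact_mod_cast this
    have hR' : (u - algebraMap F _ d * jqModC F ^ e) ^ ℓ =
        Polynomial.aeval (jqModC F) (R - C R.leadingCoeff * X ^ n) := by
      rw [sub_pow_char, hu, mul_pow, ← map_pow, hd, ← pow_mul, map_sub, map_mul,
        Polynomial.aeval_C, map_pow, Polynomial.aeval_X, mul_comm e ℓ, he]
    rcases Nat.eq_zero_or_pos n with h0 | hpos
    · refine ⟨C d * X ^ e, ?_⟩
      have hz : R - C R.leadingCoeff * X ^ n = 0 := by
        subst h0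
        obtain ⟨c, rfl⟩ := Polynomial.natDegree_eq_zero.mp hn
        simp
      rw [hz, map_zero] at hR'
      rw [map_mul, Polynomial.aeval_C, map_pow, Polynomial.aeval_X]
      exact sub_eq_zero.mp (eq_zero_of_pow_eq_zero hR')
    · have hlt : (R - C R.leadingCoeff * X ^ n).natDegree < n := by
        refine lt_of_le_of_lt ?_ (Nat.sub_lt hpos one_pos)
        rw [Polynomial.natDegree_le_iff_coeff_eq_zero]
        intro i hi
        rw [Polynomial.coeff_sub, Polynomial.coeff_C_mul_X_pow]
        split_ifs with h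
        · subst h; rw [Polynomial.leadingCoeff, hn, sub_self]
        · rw [Polynomial.coeff_eq_zero_of_natDegree_lt (by omega), sub_zero]
      obtain ⟨P, hP⟩ := ih _ hlt _ _ hR' rfl
      refine ⟨P + C d * X ^ e, ?_⟩
      rw [map_add, map_mul, Polynomial.aeval_C, map_pow, Polynomial.aeval_X, ← hP, sub_add_cancel]

/-- series supported on multiples of `M` -/
theorem exists_qExpand_of_support {R : Type*} [CommRing R] (M : ℕ) [NeZero M]
    (w : LaurentSeries R) (h : ∀ n : ℤ, ¬ (M : ℤ) ∣ n → w.coeff n = 0) :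
    ∃ w0 : LaurentSeries R, qExpand R M w0 = w := by
  have hsupp : BddBelow (Function.support fun n : ℤ => w.coeff ((M : ℤ) * n)) := by
    refine ⟨min w.order 0, fun n hn => ?_⟩
    simp only [Function.mem_support] at hn
    have h1 := HahnSeries.order_le_of_coeff_ne_zero hn
    rcases le_or_gt 0 n with hn0 | hn0
    · exact le_trans (min_le_right _ _) hn0
    · have hM : (1 : ℤ) ≤ M := by exact_mod_cast Nat.one_le_iff_ne_zero.mpr (NeZero.ne M)
      have : (M : ℤ) * n ≤ n := by nlinarith
      exact le_trans (min_le_left _ _) (h1.trans this)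
  refine ⟨⟨_, Set.IsWF.isPWO hsupp.isWF⟩, ?_⟩
  ext n
  by_cases hn : (M : ℤ) ∣ n
  · obtain ⟨c, rfl⟩ := hn
    rw [qExpand_coeff_mul]
  · rw [qExpand_coeff_of_not_dvd _ _ hn, h n hn]

/-- a series of positive order is transcendental -/
theorem eval₂_pos_order_ne_zero {R : Type*} [CommRing R] [IsDomain R] {u : LaurentSeries R}
    (hu : u ≠ 0) (hpos : 0 < u.order) {P : R[X]} (hP : P ≠ 0) :
    P.eval₂ HahnSeries.C u ≠ 0 := by
  obtain ⟨Q, hPQ, hQ⟩ := Polynomial.exists_eq_pow_rootMultiplicity_mul_and_not_dvd P hP 0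
  rw [map_zero, sub_zero] at hPQ hQ
  rw [hPQ, Polynomial.eval₂_mul, Polynomial.eval₂_pow, Polynomial.eval₂_X]
  refine mul_ne_zero (pow_ne_zero _ hu) fun h => hQ ?_
  rw [Polynomial.X_dvd_iff]
  have h0 := congrArg (fun s : LaurentSeries R => s.coeff 0) h
  simp only [Polynomial.eval₂_eq_sum_range, HahnSeries.coeff_sum, HahnSeries.coeff_zero] at h0
  rw [Finset.sum_eq_single 0] at h0
  · simpa [HahnSeries.C_apply] using h0
  · intro i _ hi
    rw [HahnSeries.C_apply, HahnSeries.coeff_single_zero_mul]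
    refine mul_eq_zero_of_right _ (HahnSeries.coeff_eq_zero_of_lt_order ?_)
    rw [HahnSeries.order_pow, nsmul_eq_mul]
    have : (0 : ℤ) < i := by exact_mod_cast Nat.pos_of_ne_zero hi
    positivity
  · simp

end Series

end FLTAgent.Good
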