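import Fermat.Prelude.Def_ModularCurve_ReductionModL
import Fermat.Prelude.Def_ModularCurve_IgusaScheme

/-!
The charts of the good model of `X₀(N)` at a prime `ℓ ∤ N`.

`A` is a place of `ℚ̄` above `ℓ`, `k` its residue field.  The two charts are the elements of the
function field which are integral over `A[j]`, resp. `A[1/j]`.
-/

set_option autoImplicit false

noncomputable section

open ModularCurve IntermediateField

namespace FLTAgent.Good

variable (A : ValuationSubring (AlgebraicClosure ℚ)) (N : ℕ)

/-- the coefficient ring maps into `ℚ̄((q))` -/
abbrev toBar : LaurentSeries A →+* LaurentSeries (AlgebraicClosure ℚ) := coeffMap A.subtype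

/-- reduction of coefficients -/
abbrev toRes : LaurentSeries A →+* LaurentSeries (IsLocalRing.ResidueField A) :=
  coeffMap (IsLocalRing.residue A)

/-- `jq` with coefficients in `ℚ̄` -/
abbrev jBarSeries : LaurentSeries (AlgebraicClosure ℚ) := coeffEmb (AlgebraicClosure ℚ) jq

/-- the finite chart: elements of the function field integral over `A[j]` -/
def InFin (f : LaurentSeries (AlgebraicClosure ℚ)) : Prop :=
  f ∈ modularFunctionFieldBar N ∧ IsIntegral (Algebra.adjoin A ({jBarSeries} : Set _)) f

/-- the chart at infinity: elements of the function field integral over `A[1/j]` -/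
def InInf (f : LaurentSeries (AlgebraicClosure ℚ)) : Prop :=
  f ∈ modularFunctionFieldBar N ∧ IsIntegral (Algebra.adjoin A ({jBarSeries⁻¹} : Set _)) f

/-- the finite chart of the special fibre -/
def InFinRes (x : LaurentSeries (IsLocalRing.ResidueField A)) : Prop :=
  x ∈ modularFunctionFieldFullC (IsLocalRing.ResidueField A) N ∧
    IsIntegral (Algebra.adjoin (IsLocalRing.ResidueField A)
      ({jqModC (IsLocalRing.ResidueField A)} : Set _)) x

/-- the chart at infinity of the special fibre -/
def InInfRes (x : LaurentSeries (IsLocalRing.ResidueField A)) : Prop :=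
  x ∈ modularFunctionFieldFullC (IsLocalRing.ResidueField A) N ∧
    IsIntegral (Algebra.adjoin (IsLocalRing.ResidueField A)
      ({(jqModC (IsLocalRing.ResidueField A))⁻¹} : Set _)) x

end FLTAgent.Good
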