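import Fermat.Agent.Good.LevelSeries

/-!
Differences of Weierstrass `℘` at `M`-torsion points, as modular forms of weight 2 on `Γ(M)` with
integral `q`-expansions.
-/

set_option autoImplicit false

noncomputable section

open UpperHalfPlane Complex Filter
open scoped MatrixGroups Manifold Topology Real

open PeriodPair

namespace FLTAgent.Good

variable (M : ℕ) [NeZero M]

theorem torsPt_congr (A B : ℤ) (τ : ℍ) :
    ((A : ℂ) * (τ : ℂ) + B) / M - torsPt M ((A : ZMod M), (B : ZMod M)) τ ∈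
      (periodPairAt τ).lattice := by
  rw [mem_lattice_periodPairAt]
  refine ⟨A / M, B / M, ?_⟩
  simp only [torsPt]
  have hA := Int.emod_add_mul_ediv A M
  have hB := Int.emod_add_mul_ediv B M
  rw [← ZMod.val_intCast (n := M) A] at hA
  rw [← ZMod.val_intCast (n := M) B] at hB
  have hA' := congrArg (fun z : ℤ => (z : ℂ)) hA
  have hB' := congrArg (fun z : ℤ => (z : ℂ)) hB
  push_cast at hA' hB'
  field_simp [M_ne M]
  linear_combination (τ : ℂ) * hA' + hB'

theorem torsPt_sub_mem_iff (v w : Lbl M) (τ : ℍ) :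
    torsPt M v τ - torsPt M w τ ∈ (periodPairAt τ).lattice ↔ v = w := by
  constructor
  · intro h
    by_contra hne
    have h1 := torsPt_congr M ((v.1.val : ℤ) - w.1.val) ((v.2.val : ℤ) - w.2.val) τ
    have e : ((((v.1.val : ℤ) - w.1.val : ℤ) : ZMod M), (((v.2.val : ℤ) - w.2.val : ℤ) : ZMod M)) =
        v - w := by
      push_cast
      ext <;> simp
    have e2 : ((((v.1.val : ℤ) - w.1.val : ℤ) : ℂ) * (τ : ℂ) + (((v.2.val : ℤ) - w.2.val : ℤ) : ℂ)) / M =
        torsPt M v τ - torsPt M w τ := by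
      simp only [torsPt]; push_cast; field_simp [M_ne M]; ring
    rw [e, e2] at h1
    exact torsPt_notMem M (sub_ne_zero.mpr hne) τ (by simpa using sub_mem h h1)
  · rintro rfl; simp

theorem torsPt_add_mem_iff (v w : Lbl M) (τ : ℍ) :
    torsPt M v τ + torsPt M w τ ∈ (periodPairAt τ).lattice ↔ v = -w := by
  have h1 := torsPt_congr M (-(w.1.val : ℤ)) (-(w.2.val : ℤ)) τ
  have e : (((-(w.1.val : ℤ) : ℤ) : ZMod M), ((-(w.2.val : ℤ) : ℤ) : ZMod M)) = -w := by
    push_cast
    ext <;> simp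
  have e2 : (((-(w.1.val : ℤ) : ℤ) : ℂ) * (τ : ℂ) + ((-(w.2.val : ℤ) : ℤ) : ℂ)) / M =
      -torsPt M w τ := by
    simp only [torsPt]; push_cast; field_simp [M_ne M]; ring
  rw [e, e2] at h1
  rw [← torsPt_sub_mem_iff M v (-w) τ]
  constructor
  · intro h
    convert add_mem h h1 using 1
    ring
  · intro h
    convert sub_mem h h1 using 1
    ring

theorem pDiff_eq_zero_iff {v w : Lbl M} (hv : v ≠ 0) (hw : w ≠ 0) (τ : ℍ) :
    pDiff M v w τ = 0 ↔ w = v ∨ w = -v := by
  rw [pDiff, div_eq_zero_iff, or_iff_left (pow_ne_zero 2 Complex.two_pi_I_ne_zero), sub_eq_zero,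
    weierstrassP_eq_iff _ (torsPt_notMem M hv τ) (torsPt_notMem M hw τ), torsPt_sub_mem_iff,
    torsPt_add_mem_iff]
  refine or_congr eq_comm ⟨fun h => ?_, fun h => ?_⟩
  · rw [h, neg_neg]
  · rw [h, neg_neg]

theorem pDiff_smul {v w : Lbl M} (hv : v ≠ 0) (hw : w ≠ 0) (γ : SL(2, ℤ)) (τ : ℍ) :
    pDiff M v w (γ • τ) =
      (((γ.1 1 0 : ℤ) : ℂ) * (τ : ℂ) + ((γ.1 1 1 : ℤ) : ℂ)) ^ 2 *
        pDiff M (lblAct M v γ) (lblAct M w γ) τ := by
  set a := γ.1 0 0
  set b := γ.1 0 1
  set c := γ.1 1 0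
  set d := γ.1 1 1
  have hdet : (a : ℂ) * d - b * c = 1 := by
    have := γ.2; rw [Matrix.det_fin_two] at this; exact_mod_cast this
  set D : ℂ := (c : ℂ) * (τ : ℂ) + d with hD
  have hD0 : D ≠ 0 := by
    intro h0
    have hi := congrArg Complex.im h0
    simp [hD] at hi
    rcases hi with hi | hi
    · have hd : (d : ℂ) = 0 := by rw [hD, hi] at h0; simpa using h0
      rw [hi, hd] at hdet; simp at hdet
    · exact τ.im_ne_zero hi
  have hcoe : ((γ • τ : ℍ) : ℂ) = ((a : ℂ) * (τ : ℂ) + b) / D := by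
    rw [UpperHalfPlane.coe_specialLinearGroup_apply]
    simp [hD, a, b, c, d]
  have hmem : ∀ x, x ∈ (periodPairAt (γ • τ)).lattice ↔ D * x ∈ (periodPairAt τ).lattice := by
    intro x
    rw [mem_lattice_periodPairAt, mem_lattice_periodPairAt]
    constructor
    · rintro ⟨m, n, rfl⟩
      refine ⟨m * a + n * c, m * b + n * d, ?_⟩
      rw [hcoe]; push_cast; field_simp; ring
    · rintro ⟨m, n, h⟩
      refine ⟨m * d - n * c, n * a - m * b, ?_⟩
      apply mul_left_cancel₀ hD0
      rw [← h, hcoe]; push_cast; field_simp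
      rw [hD]
      linear_combination ((m : ℂ) * (τ : ℂ) + n) * hdet
  have hP : ∀ u : Lbl M, ℘[periodPairAt (γ • τ)] (torsPt M u (γ • τ)) =
      D ^ 2 * ℘[periodPairAt τ] (torsPt M (lblAct M u γ) τ) := by
    intro u
    have h := weierstrassP_scale _ _ hD0 hmem (torsPt M u (γ • τ))
    have he : D * torsPt M u (γ • τ) =
        ((((u.1.val : ℤ) * a + (u.2.val : ℤ) * c : ℤ) : ℂ) * (τ : ℂ) +
          (((u.1.val : ℤ) * b + (u.2.val : ℤ) * d : ℤ) : ℂ)) / M := by
      simp only [torsPt, hcoe]; push_cast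
      field_simp [M_ne M]
      rw [hD]; ring
    have hl : lblAct M u γ = ((((u.1.val : ℤ) * a + (u.2.val : ℤ) * c : ℤ) : ZMod M),
        (((u.1.val : ℤ) * b + (u.2.val : ℤ) * d : ℤ) : ZMod M)) := by
      simp [lblAct, a, b, c, d]
    have hper := weierstrassP_add_period (periodPairAt τ)
      (torsPt_congr M ((u.1.val : ℤ) * a + (u.2.val : ℤ) * c)
        ((u.1.val : ℤ) * b + (u.2.val : ℤ) * d) τ) (torsPt M (lblAct M u γ) τ)
    rw [← hl, add_sub_cancel, ← he] at hper
    rw [← hper, h, mul_inv_cancel_left₀ (pow_ne_zero 2 hD0)]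
  simp only [pDiff, hP]
  ring

theorem hasSum_pDiff {v w : Lbl M} (hv : v ≠ 0) (hw : w ≠ 0) (τ : ℍ) :
    HasSum (fun n : ℕ =>
        ((PowerSeries.coeff n (lblSeries M v - lblSeries M w) : coeffRing M) : ℂ) * tq M τ ^ n)
      (pDiff M v w τ) := by
  set L := periodPairAt τ with hL
  set z := torsPt M v τ
  set z' := torsPt M w τ
  set K : ℂ := (2 * π * Complex.I) ^ 2 with hK
  have h1 : HasSum (fun l : L.lattice => 1 / (z - l) ^ 2 - 1 / (z' - l) ^ 2) (℘[L] z - ℘[L] z') := by
    refine ((L.hasSum_weierstrassP z).sub (L.hasSum_weierstrassP z')).congr_fun fun l => ?_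
    ring
  have h2 := L.latticeEquivProd.symm.toEquiv.hasSum_iff.mpr h1
  have h3 : HasSum (fun p : ℤ × ℤ =>
      1 / ((z - p.1 * (τ : ℂ)) - p.2) ^ 2 - 1 / ((z' - p.1 * (τ : ℂ)) - p.2) ^ 2)
      (℘[L] z - ℘[L] z') := by
    refine h2.congr_fun fun p => ?_
    simp only [Function.comp_apply, LinearEquiv.coe_toEquiv, PeriodPair.latticeEquiv_symm_apply]
    simp only [hL, periodPairAt, mul_one]
    ring
  have h4 := h3.prod_fiberwise (fun m =>
    (hasSum_row (x := z - m * (τ : ℂ)) (torsPt_sub_ne_int M hv τ m)).sub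
      (hasSum_row (x := z' - m * (τ : ℂ)) (torsPt_sub_ne_int M hw τ m)))
  have h5 := ((hasSum_rows M hv τ).sub (hasSum_rows M hw τ)).mul_left K
  have e : ℘[L] z - ℘[L] z' = K * _ := h4.unique (h5.congr_fun fun m => by rw [mul_sub])
  have h6 := (hasSum_lblSeries M v τ).sub (hasSum_lblSeries M w τ)
  have hval : pDiff M v w τ =
      ((cst M v : ℂ) + ∑' p : Idx M v, (termC M v p : ℂ) * tq M τ ^ termE M v p) -
      ((cst M w : ℂ) + ∑' p : Idx M w, (termC M w p : ℂ) * tq M τ ^ termE M w p) := by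
    rw [pDiff, show PeriodPair.weierstrassP (periodPairAt τ) (torsPt M v τ) -
      PeriodPair.weierstrassP (periodPairAt τ) (torsPt M w τ) = ℘[L] z - ℘[L] z' from rfl, e]
    exact mul_div_cancel_left₀ _ (pow_ne_zero 2 Complex.two_pi_I_ne_zero)
  rw [hval]
  refine h6.congr_fun fun n => ?_
  simp [sub_mul]

theorem val_lt_int (a : ZMod M) : (a.val : ℤ) < M := by exact_mod_cast ZMod.val_lt a

theorem absVal_le_natAbs (v : Lbl M) (m : ℤ) : absVal M v.1 ≤ (eIdx M v m).natAbs := by
  have h1 := val_lt_int M v.1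
  have h2 : (absVal M v.1 : ℤ) ≤ v.1.val ∧ (absVal M v.1 : ℤ) ≤ M - v.1.val := by
    simp only [absVal]; omega
  zify
  simp only [eIdx]
  rcases le_or_gt m 0 with hm | hm
  · have h0 : (v.1.val : ℤ) ≤ v.1.val - m * M := by nlinarith
    exact h2.1.trans (h0.trans (le_abs_self _))
  · have h0 : (M : ℤ) - v.1.val ≤ -((v.1.val : ℤ) - m * M) := by nlinarith
    exact h2.2.trans (h0.trans (neg_le_abs _))

theorem absVal_pos {v : Lbl M} (h : v.1 ≠ 0) : 0 < absVal M v.1 := by
  have h1 := ZMod.val_lt v.1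
  have h2 : v.1.val ≠ 0 := by rwa [Ne, ZMod.val_eq_zero]
  simp only [absVal]; omega

theorem two_absVal_le (a : ZMod M) : 2 * absVal M a ≤ M := by
  have h1 := ZMod.val_lt a
  simp only [absVal]; omega

theorem absVal_zero : absVal M (0 : ZMod M) = 0 := by simp [absVal]

theorem coeff_lblSeries_of_lt (v : Lbl M) {n : ℕ} (hn : n < absVal M v.1) :
    PowerSeries.coeff n (lblSeries M v) = 0 := by
  have hv1 : v.1 ≠ 0 := fun h => by rw [h, absVal_zero] at hn; omega
  rw [lblSeries, PowerSeries.coeff_mk, cst, if_neg hv1]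
  haveI : IsEmpty {p : Idx M v // termE M v p = n} := ⟨fun ⟨⟨⟨m, k⟩, hk, he⟩, hp⟩ => by
    simp only [termE] at hp hk
    have := absVal_le_natAbs M v m
    have := Nat.le_mul_of_pos_left (eIdx M v m).natAbs (Nat.pos_of_ne_zero hk)
    omega⟩
  simp

theorem coeff_lblSeries_zero (v : Lbl M) : PowerSeries.coeff 0 (lblSeries M v) = cst M v := by
  rw [lblSeries, PowerSeries.coeff_mk]
  haveI : IsEmpty {p : Idx M v // termE M v p = 0} := ⟨fun ⟨⟨⟨m, k⟩, hk, he⟩, hp⟩ => by
    simp only [termE, mul_eq_zero, Int.natAbs_eq_zero] at hp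
    tauto⟩
  simp

/-- leading coefficient of a label with nonzero first entry -/
def lead (v : Lbl M) : coeffRing M :=
  (if v.1.val ≤ M - v.1.val then zp M v.2 else 0) +
    (if M - v.1.val ≤ v.1.val then zp M (-v.2) else 0)

theorem coeff_lblSeries_absVal {v : Lbl M} (hv : v.1 ≠ 0) :
    PowerSeries.coeff (absVal M v.1) (lblSeries M v) = lead M v := by
  classical
  have hpos := absVal_pos M hv
  set n := absVal M v.1 with hn
  have hlt := ZMod.val_lt v.1
  have hvz : v.1.val ≠ 0 := by rwa [Ne, ZMod.val_eq_zero]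
  rw [lblSeries, PowerSeries.coeff_mk, if_neg (by omega), zero_add]
  have key : ∀ p : {p : Idx M v // termE M v p = n}, p.1.1.2 = 1 ∧ (p.1.1.1 = 0 ∨ p.1.1.1 = 1) ∧
      (eIdx M v p.1.1.1).natAbs = n := by
    rintro ⟨⟨⟨m, k⟩, hk, he⟩, hp⟩
    simp only [termE] at hp hk
    have h1 := absVal_le_natAbs M v m
    rw [← hn] at h1
    have hk1 : k = 1 := by
      by_contra hk1
      have : 2 * (eIdx M v m).natAbs ≤ k * (eIdx M v m).natAbs := Nat.mul_le_mul_right _ (by omega)
      omega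
    subst hk1
    rw [one_mul] at hp
    refine ⟨rfl, ?_, hp⟩
    have h3 : |(v.1.val : ℤ) - m * M| = n := by rw [← hp, Int.abs_eq_natAbs]; rfl
    have h4 : 2 * (n : ℤ) ≤ M := by exact_mod_cast hn ▸ two_absVal_le M v.1
    have h5 := val_lt_int M v.1
    have h6 : (n : ℤ) ≤ v.1.val := by
      have : n ≤ v.1.val := hn ▸ min_le_left _ _
      exact_mod_cast this
    have h7 := abs_le.mp h3.le
    simp only
    by_contra hm
    rw [not_or] at hm
    rcases lt_or_gt_of_ne hm.1 with hh | hh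
    · nlinarith
    · have : (2 : ℤ) ≤ m := by omega
      nlinarith
  have hsum : ∑ p : {p : Idx M v // termE M v p = n}, termC M v p.1 =
      ∑ m ∈ ({0, 1} : Finset ℤ).filter (fun m => (eIdx M v m).natAbs = n),
        zp M (rowLbl M v m) := by
    refine Finset.sum_bij (fun p _ => p.1.1.1) (fun p _ => ?_) (fun p _ q _ h => ?_)
      (fun m hm => ?_) (fun p _ => ?_)
    · obtain ⟨-, h1, h2⟩ := key p
      simp only [Finset.mem_filter, Finset.mem_insert, Finset.mem_singleton]
      exact ⟨h1, h2⟩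
    · exact Subtype.ext (Subtype.ext (Prod.ext h ((key p).1.trans (key q).1.symm)))
    · simp only [Finset.mem_filter] at hm
      exact ⟨⟨⟨(m, 1), one_ne_zero, fun h => by rw [h] at hm; simp at hm; omega⟩,
        by simp [termE, hm.2]⟩, Finset.mem_univ _, rfl⟩
    · rw [termC, (key p).1]; simp
  rw [hsum, Finset.sum_filter, Finset.sum_pair (zero_ne_one (α := ℤ)), lead]
  have e0 : eIdx M v 0 = v.1.val := by simp [eIdx]
  have e1 : eIdx M v 1 = (v.1.val : ℤ) - M := by simp [eIdx]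
  have r0 : rowLbl M v 0 = v.2 := by rw [rowLbl, if_pos]; rw [e0]; omega
  have r1 : rowLbl M v 1 = -v.2 := by rw [rowLbl, if_neg]; rw [e1]; omega
  rw [r0, r1, e0, e1]
  congr 1
  · refine if_congr ?_ rfl rfl
    simp only [hn, absVal]; omega
  · refine if_congr ?_ rfl rfl
    simp only [hn, absVal]; omega

theorem isUnit_zp_sub {b b' : ZMod M} (h : b ≠ b') : IsUnit (zp M b - zp M b') := by
  have e : zp M b - zp M b' = zp M b * (1 - zp M (b' - b)) := by
    rw [mul_sub, mul_one, ← zp_add, add_sub_cancel]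
  rw [e]
  exact (isUnit_zp M b).mul (isUnit_one_sub_zp M (sub_ne_zero.mpr h.symm))

theorem isUnit_cst_sub {v w : Lbl M} (hv : v ≠ 0) (hw : w ≠ 0) (hne : w ≠ v) (hne' : w ≠ -v)
    (hv1 : v.1 = 0) (hw1 : w.1 = 0) : IsUnit (cst M v - cst M w) := by
  have hb : v.2 ≠ 0 := fun h => hv (Prod.ext hv1 h)
  have hb' : w.2 ≠ 0 := fun h => hw (Prod.ext hw1 h)
  have h1 : v.2 ≠ w.2 := fun h => hne (Prod.ext (hw1.trans hv1.symm) h.symm)
  have h2 : v.2 + w.2 ≠ 0 := fun h => hne' (Prod.ext
    (by show w.1 = -v.1; rw [hw1, hv1, neg_zero]) (eq_neg_of_add_eq_zero_right h))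
  obtain ⟨u, hu⟩ := isUnit_one_sub_zp M hb
  obtain ⟨u', hu'⟩ := isUnit_one_sub_zp M hb'
  have hm : (cst M v - cst M w) * ((u : coeffRing M) ^ 2 * (u' : coeffRing M) ^ 2) =
      (zp M v.2 - zp M w.2) * (1 - zp M (v.2 + w.2)) := by
    rw [cst, cst, if_pos hv1, if_pos hw1, zp_add, ← hu, ← hu', Ring.inverse_unit,
      Ring.inverse_unit]
    have i1 : ((u⁻¹ : (coeffRing M)ˣ) : coeffRing M) ^ 2 * (u : coeffRing M) ^ 2 = 1 := by
      rw [← mul_pow, Units.inv_mul, one_pow]
    have i2 : ((u'⁻¹ : (coeffRing M)ˣ) : coeffRing M) ^ 2 * (u' : coeffRing M) ^ 2 = 1 := by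
      rw [← mul_pow, Units.inv_mul, one_pow]
    have k1 : zp M v.2 * ((u' : coeffRing M) ^ 2) - zp M w.2 * ((u : coeffRing M) ^ 2) =
        (zp M v.2 - zp M w.2) * (1 - zp M v.2 * zp M w.2) := by rw [hu, hu']; ring
    linear_combination k1 + zp M v.2 * (u' : coeffRing M) ^ 2 * i1 -
      zp M w.2 * (u : coeffRing M) ^ 2 * i2
  exact isUnit_of_mul_isUnit_left
    (hm ▸ (isUnit_zp_sub M h1).mul (isUnit_one_sub_zp M h2))

theorem isUnit_lead {v : Lbl M} (hv : v.1 ≠ 0) (h : 2 * absVal M v.1 < M) :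
    IsUnit (lead M v) := by
  have h1 := ZMod.val_lt v.1
  simp only [absVal] at h
  rcases le_or_gt v.1.val (M - v.1.val) with h2 | h2
  · rw [lead, if_pos h2, if_neg (by omega), add_zero]; exact isUnit_zp M _
  · rw [lead, if_neg (by omega), if_pos h2.le, zero_add]; exact isUnit_zp M _

theorem isUnit_lead_sub {v w : Lbl M} (hne : w ≠ v) (hne' : w ≠ -v) (hv : v.1 ≠ 0) (hw : w.1 ≠ 0)
    (h : absVal M v.1 = absVal M w.1) : IsUnit (lead M v - lead M w) := by
  have hv' := ZMod.val_lt v.1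
  have hw' := ZMod.val_lt w.1
  have hnegv : (-v.1).val = M - v.1.val := by rw [ZMod.neg_val, if_neg hv]
  simp only [absVal] at h
  rcases lt_trichotomy v.1.val (M - v.1.val) with hv2 | hv2 | hv2 <;>
    rcases lt_trichotomy w.1.val (M - w.1.val) with hw2 | hw2 | hw2
  all_goals try (exfalso; omega)
  · -- both below the middle
    have e : w.1 = v.1 := ZMod.val_injective M (by omega)
    rw [lead, lead, if_pos hv2.le, if_neg (by omega), if_pos hw2.le, if_neg (by omega), add_zero,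
      add_zero]
    exact isUnit_zp_sub M fun hb => hne (Prod.ext e hb.symm)
  · have e : w.1 = -v.1 := ZMod.val_injective M (by rw [hnegv]; omega)
    rw [lead, lead, if_pos hv2.le, if_neg (by omega), if_neg (by omega), if_pos hw2.le, add_zero,
      zero_add]
    exact isUnit_zp_sub M fun hb => hne' (Prod.ext e (by
      show w.2 = -v.2; rw [hb, neg_neg]))
  · -- middle
    have e : w.1 = v.1 := ZMod.val_injective M (by omega)
    have e' : -v.1 = v.1 := ZMod.val_injective M (by rw [hnegv]; omega)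
    have h1 : v.2 ≠ w.2 := fun hb => hne (Prod.ext e hb.symm)
    have h2 : v.2 + w.2 ≠ 0 := fun hb => hne' (Prod.ext (by show w.1 = -v.1; rw [e, e'])
      (eq_neg_of_add_eq_zero_right hb))
    rw [lead, lead, if_pos hv2.le, if_pos hv2.ge, if_pos hw2.le, if_pos hw2.ge]
    have key : zp M v.2 + zp M (-v.2) - (zp M w.2 + zp M (-w.2)) =
        (zp M v.2 - zp M w.2) * (1 - zp M (-v.2 + -w.2)) := by
      have i1 : zp M v.2 * zp M (-v.2) = 1 := by rw [← zp_add, add_neg_cancel, zp_zero]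
      have i2 : zp M w.2 * zp M (-w.2) = 1 := by rw [← zp_add, add_neg_cancel, zp_zero]
      rw [zp_add]
      linear_combination zp M (-w.2) * i1 - zp M (-v.2) * i2
    rw [key]
    refine (isUnit_zp_sub M h1).mul (isUnit_one_sub_zp M ?_)
    rw [← neg_add]; exact neg_ne_zero.mpr h2
  · have e : w.1 = -v.1 := ZMod.val_injective M (by rw [hnegv]; omega)
    rw [lead, lead, if_neg (by omega), if_pos hv2.le, if_pos hw2.le, if_neg (by omega), zero_add,
      add_zero]
    exact isUnit_zp_sub M fun hb => hne' (Prod.ext e (by show w.2 = -v.2; rw [hb]))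
  · have e : w.1 = v.1 := ZMod.val_injective M (by omega)
    rw [lead, lead, if_neg (by omega), if_pos hv2.le, if_neg (by omega), if_pos hw2.le, zero_add,
      zero_add]
    exact isUnit_zp_sub M fun hb => hne (Prod.ext e (neg_injective hb).symm)

/-- integral expansion in `t = q^{1/M}`, order `min |a| |a'|`, unit leading coefficient -/
theorem exists_expansion {v w : Lbl M} (hv : v ≠ 0) (hw : w ≠ 0) (hne : w ≠ v) (hne' : w ≠ -v) :
    ∃ P : PowerSeries (coeffRing M),
      (∀ τ : ℍ, HasSum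
        (fun n : ℕ => ((PowerSeries.coeff n P : coeffRing M) : ℂ) *
          Function.Periodic.qParam M (τ : ℂ) ^ n) (pDiff M v w τ)) ∧
      (∀ n < min (absVal M v.1) (absVal M w.1), PowerSeries.coeff n P = 0) ∧
      IsUnit (PowerSeries.coeff (min (absVal M v.1) (absVal M w.1)) P) := by
  refine ⟨lblSeries M v - lblSeries M w, hasSum_pDiff M hv hw, fun n hn => ?_, ?_⟩
  · rw [map_sub, coeff_lblSeries_of_lt M v (lt_of_lt_of_le hn (min_le_left _ _)),
      coeff_lblSeries_of_lt M w (lt_of_lt_of_le hn (min_le_right _ _)), sub_zero]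
  rw [map_sub]
  by_cases hv1 : v.1 = 0
  · rw [hv1, absVal_zero, Nat.zero_min, coeff_lblSeries_zero, coeff_lblSeries_zero]
    by_cases hw1 : w.1 = 0
    · exact isUnit_cst_sub M hv hw hne hne' hv1 hw1
    · have e : cst M w = 0 := by rw [cst, if_neg hw1]
      rw [e, sub_zero, cst, if_pos hv1]
      exact (isUnit_zp M _).mul
        ((isUnit_one_sub_zp M fun h => hv (Prod.ext hv1 h)).ringInverse.pow 2)
  by_cases hw1 : w.1 = 0
  · rw [hw1, absVal_zero, Nat.min_zero, coeff_lblSeries_zero, coeff_lblSeries_zero]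
    have e : cst M v = 0 := by rw [cst, if_neg hv1]
    rw [e, zero_sub, cst, if_pos hw1]
    exact ((isUnit_zp M _).mul
      ((isUnit_one_sub_zp M fun h => hw (Prod.ext hw1 h)).ringInverse.pow 2)).neg
  rcases lt_trichotomy (absVal M v.1) (absVal M w.1) with h | h | h
  · rw [min_eq_left h.le, coeff_lblSeries_absVal M hv1, coeff_lblSeries_of_lt M w h, sub_zero]
    exact isUnit_lead M hv1 (by have := two_absVal_le M w.1; omega)
  · rw [← h, min_self, coeff_lblSeries_absVal M hv1, h, coeff_lblSeries_absVal M hw1]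
    exact isUnit_lead_sub M hne hne' hv1 hw1 h
  · rw [min_eq_right h.le, coeff_lblSeries_absVal M hw1, coeff_lblSeries_of_lt M v h, zero_sub]
    exact (isUnit_lead M hw1 (by have := two_absVal_le M v.1; omega)).neg

theorem mdiff_pDiff {v w : Lbl M} (hv : v ≠ 0) (hw : w ≠ 0) : MDiff (pDiff M v w) := by
  rw [UpperHalfPlane.mdifferentiable_iff]
  intro z hz
  set c : ℕ → ℂ := fun n =>
    ((PowerSeries.coeff n (lblSeries M v - lblSeries M w) : coeffRing M) : ℂ)
  have hMr : (0 : ℝ) < M := by exact_mod_cast Nat.pos_of_ne_zero (NeZero.ne M)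
  -- a point with smaller imaginary part
  have hz0 : 0 < z.im := hz
  set τ₁ : ℍ := ⟨(z.im / 2 : ℝ) * Complex.I, by simp; linarith⟩ with hτ₁
  set r := ‖tq M τ₁‖ with hr
  have hr0 : 0 < r := norm_pos_iff.mpr (tq_ne_zero M τ₁)
  obtain ⟨C, hC⟩ := ((hasSum_pDiff M hv hw τ₁).summable.tendsto_atTop_zero).norm.bddAbove_range
  set ρ := ‖tq M ⟨(3 * z.im / 4 : ℝ) * Complex.I, by simp; linarith⟩‖ with hρ
  have hρr : ρ / r < 1 := by
    rw [div_lt_one hr0, hρ, hr]
    simp only [tq, Function.Periodic.norm_qParam, hτ₁]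
    refine Real.exp_lt_exp.mpr ?_
    simp
    rw [div_lt_div_iff_of_pos_right hMr]
    nlinarith [Real.pi_pos]
  have hdiff : DifferentiableOn ℂ (fun t => ∑' n, c n * t ^ n) (Metric.ball 0 ρ) := by
    refine differentiableOn_tsum_of_summable_norm (u := fun n => C * (ρ / r) ^ n)
      ((summable_geometric_of_lt_one (by positivity) hρr).mul_left C) (fun n => by fun_prop)
      Metric.isOpen_ball fun n t ht => ?_
    have hc : ‖c n‖ * r ^ n ≤ C := by
      have h1 := hC ⟨n, rfl⟩
      simp only at h1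
      rw [norm_mul, norm_pow] at h1
      exact h1
    rw [norm_mul, norm_pow, div_pow, ← mul_div_assoc, le_div_iff₀ (pow_pos hr0 n)]
    have ht' : ‖t‖ ≤ ρ := le_of_lt (by simpa using ht)
    calc ‖c n‖ * ‖t‖ ^ n * r ^ n = (‖c n‖ * r ^ n) * ‖t‖ ^ n := by ring
      _ ≤ C * ρ ^ n := mul_le_mul hc (pow_le_pow_left₀ (norm_nonneg _) ht' n) (by positivity)
          ((mul_nonneg (norm_nonneg _) (by positivity)).trans hc)
  have hin : Function.Periodic.qParam M z ∈ Metric.ball (0 : ℂ) ρ := by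
    rw [mem_ball_zero_iff, hρ]
    simp only [tq, Function.Periodic.norm_qParam]
    refine Real.exp_lt_exp.mpr ?_
    simp
    rw [div_lt_div_iff_of_pos_right hMr]
    nlinarith [Real.pi_pos]
  have hcomp : DifferentiableAt ℂ ((fun t => ∑' n, c n * t ^ n) ∘ Function.Periodic.qParam M) z :=
    (hdiff.differentiableAt (Metric.isOpen_ball.mem_nhds hin)).comp z
      (Function.Periodic.differentiable_qParam.differentiableAt)
  refine (hcomp.congr_of_eventuallyEq ?_).differentiableWithinAt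
  filter_upwards [UpperHalfPlane.isOpen_upperHalfPlaneSet.mem_nhds hz] with x hx
  simp only [Function.comp_apply]
  rw [UpperHalfPlane.ofComplex_apply_of_im_pos hx]
  exact ((hasSum_pDiff M hv hw ⟨x, hx⟩).tsum_eq).symm

end FLTAgent.Good
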