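import Fermat.Agent.ModFun.J

/-!
Laurent expansions of periodic functions: shifts, and power series given by `HasSum`.
-/

set_option autoImplicit false

noncomputable section

open UpperHalfPlane ModularCurve Filter HahnSeries
open scoped Manifold Topology Real

namespace FLTAgent.Good

open ModFun

section Twist

variable {R S : Type*} [CommRing R] [CommRing S]

/-- `n ↦ η ^ n` -/
def upow (η : Rˣ) (n : ℤ) : R := ((η ^ n : Rˣ) : R)

theorem upow_add (η : Rˣ) (m n : ℤ) : upow η (m + n) = upow η m * upow η n := by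
  simp [upow, zpow_add]

theorem upow_natCast (η : Rˣ) (n : ℕ) : upow η (n : ℤ) = (η : R) ^ n := by
  simp [upow]

theorem map_upow (f : R →+* S) (η : Rˣ) (n : ℤ) :
    f (upow η n) = upow (Units.map (f : R →* S) η) n := by
  simp only [upow, ← map_zpow]
  rfl

/-- `q ↦ η q` -/
def twist (η : Rˣ) : LaurentSeries R →+* LaurentSeries R where
  toFun x :=
    { coeff := fun n => upow η n * x.coeff n
      isPWO_support' := x.isPWO_support.mono fun n hn => by
        simp only [Function.mem_support] at hn ⊢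
        exact right_ne_zero_of_mul hn }
  map_zero' := by ext n; simp
  map_one' := by
    ext n
    rcases eq_or_ne n 0 with rfl | hn
    · simp [upow]
    · simp [HahnSeries.coeff_one, hn]
  map_add' x y := by ext n; simp [mul_add]
  map_mul' x y := by
    ext n
    simp only [HahnSeries.coeff_mul, Finset.mul_sum]
    refine Finset.sum_congr ?_ fun ij hij => ?_
    · ext ij
      simp [HahnSeries.mem_support, upow]
    · simp only [Finset.mem_antidiagonal] at hij
      rw [← hij.2.2, upow_add]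
      ring

@[simp]
theorem coeff_twist (η : Rˣ) (x : LaurentSeries R) (n : ℤ) :
    (twist η x).coeff n = upow η n * x.coeff n := rfl

theorem coeffMap_twist (f : R →+* S) (η : Rˣ) (x : LaurentSeries R) :
    coeffMap f (twist η x) = twist (Units.map (f : R →* S) η) (coeffMap f x) := by
  ext n
  simp [map_upow]

theorem coeff_twist_eq_zero_iff (η : Rˣ) (x : LaurentSeries R) (n : ℤ) :
    (twist η x).coeff n = 0 ↔ x.coeff n = 0 := by
  rw [coeff_twist]
  exact Units.mul_right_eq_zero _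

end Twist

section Shift

/-- `τ + r` -/
def shiftH (r : ℝ) (τ : ℍ) : ℍ := (r : ℝ) +ᵥ τ

theorem coe_shiftH (r : ℝ) (τ : ℍ) : (shiftH r τ : ℂ) = (r : ℂ) + (τ : ℂ) := rfl

theorem qp_shiftH (r : ℝ) (τ : ℍ) :
    qp (shiftH r τ) = Complex.exp (2 * π * Complex.I * r) * qp τ := by
  simp only [qp, Function.Periodic.qParam, Complex.ofReal_one, div_one, coe_shiftH, ← Complex.exp_add]
  ring_nf

/-- the unit `exp (2πir)` -/
def expUnit (r : ℝ) : ℂˣ := Units.mk0 (Complex.exp (2 * π * Complex.I * r)) (Complex.exp_ne_zero _)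

theorem tendsto_shiftH (r : ℝ) : Tendsto (shiftH r) atImInfty atImInfty := by
  rw [atImInfty, tendsto_comap_iff]
  refine tendsto_comap.congr fun τ => ?_
  simp [shiftH]

theorem good_shift {f : ℍ → ℂ} (hf : Good f) (r : ℝ) : Good (fun τ => f (shiftH r τ)) where
  per := periodic_ofComplex_of fun z hz hz' => by
    have h := hf.per ((r : ℂ) + z)
    simp only [Function.comp_apply] at h
    rw [ofComplex_apply_of_im_pos (by simpa using hz), ofComplex_apply_of_im_pos (by simpa using hz)] at h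
    convert h using 2 <;> (apply UpperHalfPlane.ext; simp [coe_shiftH]) <;> ring
  holo := by
    have h := hf.holo
    rw [UpperHalfPlane.mdifferentiable_iff] at h ⊢
    refine (h.comp (f := fun z : ℂ => (r : ℂ) + z) (s := upperHalfPlaneSet) (by fun_prop)
      (fun z hz => by simpa [upperHalfPlaneSet] using hz)).congr fun z (hz : 0 < z.im) => ?_
    simp only [Function.comp_apply]
    rw [ofComplex_apply_of_im_pos hz, ofComplex_apply_of_im_pos (by simpa using hz)]
    congr 1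
  bdd := hf.bdd.comp_tendsto (tendsto_shiftH r)

theorem qx_shift {f : ℍ → ℂ} (hf : Good f) (r : ℝ) :
    qx (fun τ => f (shiftH r τ)) =
      PowerSeries.mk fun n => (Complex.exp (2 * π * Complex.I * r)) ^ n * (qx f).coeff n := by
  refine coeff_unique' (good_shift hf r) fun τ => ?_
  refine (hf.hasSum (shiftH r τ)).congr_fun fun n => ?_
  rw [qp_shiftH, mul_pow]
  ring

theorem twist_ofPowerSeries {R : Type*} [CommRing R] (η : Rˣ) (P : PowerSeries R) :
    twist η (HahnSeries.ofPowerSeries ℤ R P) = HahnSeries.ofPowerSeries ℤ R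
      (PowerSeries.mk fun n => (η : R) ^ n * P.coeff n) := by
  ext k
  rcases lt_or_ge k 0 with hk | hk
  · rw [coeff_twist, ofPowerSeries_coeff_of_neg _ hk, ofPowerSeries_coeff_of_neg _ hk, mul_zero]
  · lift k to ℕ using hk
    rw [coeff_twist, HahnSeries.ofPowerSeries_apply_coeff, HahnSeries.ofPowerSeries_apply_coeff,
      PowerSeries.coeff_mk, upow_natCast]

theorem twist_single {R : Type*} [CommRing R] (η : Rˣ) (m : ℤ) (c : R) :
    twist η (HahnSeries.single m c) = HahnSeries.single m (upow η m * c) := by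
  ext k
  rcases eq_or_ne k m with rfl | hk
  · simp
  · simp [HahnSeries.coeff_single_of_ne hk]

theorem mod1_shift {f : ℍ → ℂ} (hf : Mod1 f) (r : ℝ) : Mod1 (fun τ => f (shiftH r τ)) := by
  obtain ⟨n, hn⟩ := hf.growth
  have hg := good_shift (hf.good_mul hn) r
  have e : (fun τ => f (shiftH r τ)) =
      (fun τ => (f * qp ^ n) (shiftH r τ)) * fun τ => ((qp (shiftH r τ)) ^ n)⁻¹ := by
    funext τ
    have := pow_ne_zero n (qp_ne_zero (shiftH r τ))
    simp [this]
  refine ⟨?_, ?_, n, ?_⟩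
  · rw [e]
    refine hg.per.mul (periodic_ofComplex_of (f := fun τ => (qp (shiftH r τ) ^ n)⁻¹)
      fun z hz hz' => ?_)
    simp only [qp_shiftH]
    rw [show qp ⟨z + 1, hz'⟩ = qp ⟨z, hz⟩ from by
      have h := good_qp.per z
      simp only [Function.comp_apply] at h
      rwa [ofComplex_apply_of_im_pos hz, ofComplex_apply_of_im_pos hz'] at h]
  · rw [e]
    refine hg.holo.mul ?_
    have hq : Good (fun τ => qp (shiftH r τ) ^ n) := good_shift (good_qp.pow n) r
    exact hq.holo.inv fun τ => pow_ne_zero _ (qp_ne_zero _)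
  · have e2 : (fun τ => f (shiftH r τ)) * qp ^ n =
        (fun _ => (Complex.exp (2 * π * Complex.I * r) ^ n)⁻¹) *
          fun τ => (f * qp ^ n) (shiftH r τ) := by
      funext τ
      have := pow_ne_zero n (Complex.exp_ne_zero (2 * π * Complex.I * r))
      simp only [Pi.mul_apply, Pi.pow_apply, qp_shiftH, mul_pow]
      field_simp
    rw [e2]
    exact (Good.const _).bdd.mul hg.bdd

theorem lx_shift (f : M1) (r : ℝ) :
    lx ⟨fun τ => (f : ℍ → ℂ) (shiftH r τ), mod1_shift f.2 r⟩ = twist (expUnit r) (lx f) := by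
  obtain ⟨n, hn⟩ := f.2.growth
  set η := Complex.exp (2 * π * Complex.I * r) with hη
  have hg := good_shift (f.2.good_mul hn) r
  have e2 : (fun τ => (f : ℍ → ℂ) (shiftH r τ)) * qp ^ n =
      (η ^ n)⁻¹ • fun τ => ((f : ℍ → ℂ) * qp ^ n) (shiftH r τ) := by
    funext τ
    have := pow_ne_zero n (Complex.exp_ne_zero (2 * π * Complex.I * r))
    simp only [Pi.smul_apply, smul_eq_mul, Pi.mul_apply, Pi.pow_apply, qp_shiftH, mul_pow, hη]
    field_simp
  rw [lx_apply, lx_apply, Lx_eq _ (n := n) (by rw [e2]; exact (hg.smul _).bdd), Lx_eq f hn, lxAux,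
    lxAux, map_mul, twist_single, twist_ofPowerSeries, e2, Good.qx_smul _ hg,
    qx_shift (f.2.good_mul hn) r]
  have hu : upow (expUnit r) (-(n : ℤ)) = (η ^ n)⁻¹ := by
    simp [upow, expUnit, hη, zpow_neg]
  rw [hu, mul_one, PowerSeries.smul_eq_C_mul, map_mul, HahnSeries.ofPowerSeries_C, ← mul_assoc]
  congr 1
  rw [HahnSeries.C_apply, HahnSeries.single_mul_single, one_mul, add_zero]

end Shift

section HasSum

variable {f : ℍ → ℂ} {c : ℕ → ℂ}

theorem bdd_of_hasSum (h : ∀ τ : ℍ, HasSum (fun n => c n * qp τ ^ n) (f τ)) :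
    ∃ C : ℝ, ∀ τ : ℍ, 1 ≤ τ.im → ‖f τ - c 0‖ ≤ C * ‖qp τ‖ := by
  set τ0 : ℍ := UpperHalfPlane.I
  have hq0 : (0 : ℝ) < ‖qp τ0‖ := norm_pos_iff.mpr (qp_ne_zero _)
  have hs : Summable fun n => ‖c n * qp τ0 ^ n‖ := by
    let τ1 : ℍ := ⟨Complex.I / 2, by simp⟩
    have hb := (h τ1).summable.tendsto_atTop_zero.isBigO_one ℝ
    have hq1 : (0 : ℝ) < ‖qp τ1‖ := norm_pos_iff.mpr (qp_ne_zero _)
    have hlt : ‖qp τ0‖ < ‖qp τ1‖ := by
      rw [norm_qp, norm_qp, Real.exp_lt_exp]
      have : τ1.im = 1 / 2 := by show (Complex.I / 2).im = _; simp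
      have h0 : τ0.im = 1 := UpperHalfPlane.I_im
      rw [this, h0]
      nlinarith [Real.pi_pos]
    refine summable_of_isBigO_nat (summable_geometric_of_lt_one (div_nonneg hq0.le hq1.le)
      ((div_lt_one hq1).mpr hlt)) ?_
    have hmul := hb.norm_left.mul (Asymptotics.isBigO_refl (fun n => (‖qp τ0‖ / ‖qp τ1‖) ^ n) atTop)
    simp only [one_mul] at hmul
    refine hmul.congr_left fun n => ?_
    rw [norm_mul, norm_mul, norm_pow, norm_pow, div_pow, mul_assoc,
      mul_div_cancel₀ _ (pow_ne_zero _ hq1.ne')]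
  have hs' := (summable_nat_add_iff 1).mpr hs
  refine ⟨(∑' n, ‖c (n + 1) * qp τ0 ^ (n + 1)‖) / ‖qp τ0‖, fun τ hτ => ?_⟩
  have hle : ‖qp τ‖ ≤ ‖qp τ0‖ := by
    rw [norm_qp, norm_qp, Real.exp_le_exp]
    have h0 : τ0.im = 1 := UpperHalfPlane.I_im
    rw [h0]
    nlinarith [Real.pi_pos]
  have htail : HasSum (fun n => c (n + 1) * qp τ ^ (n + 1)) (f τ - c 0) := by
    have := (hasSum_nat_add_iff' 1).mpr (h τ)
    simpa using this
  have hbound : ∀ n, ‖c (n + 1) * qp τ ^ (n + 1)‖ ≤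
      ‖c (n + 1) * qp τ0 ^ (n + 1)‖ / ‖qp τ0‖ * ‖qp τ‖ := by
    intro n
    rw [norm_mul, norm_mul, norm_pow, norm_pow, pow_succ, pow_succ, ← mul_assoc, ← mul_assoc,
      mul_div_cancel_right₀ _ hq0.ne']
    gcongr
  rw [← htail.tsum_eq, ← tsum_div_const, ← tsum_mul_right]
  exact tsum_of_norm_bounded ((hs'.div_const _).mul_right _).hasSum hbound

theorem good_of_hasSum (hf : MDiff f) (h : ∀ τ : ℍ, HasSum (fun n => c n * qp τ ^ n) (f τ)) :
    Good f where
  per := periodic_ofComplex_of fun z hz hz' => by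
    have e : qp ⟨z + 1, hz'⟩ = qp ⟨z, hz⟩ := by
      have h := good_qp.per z
      simp only [Function.comp_apply] at h
      rwa [ofComplex_apply_of_im_pos hz, ofComplex_apply_of_im_pos hz'] at h
    exact HasSum.unique (by simpa only [e] using h ⟨z + 1, hz'⟩) (h ⟨z, hz⟩)
  holo := hf
  bdd := by
    obtain ⟨C, hC⟩ := bdd_of_hasSum h
    rw [UpperHalfPlane.isBoundedAtImInfty_iff]
    refine ⟨|C| + ‖c 0‖, 1, fun τ hτ => ?_⟩
    have h1 : ‖qp τ‖ ≤ 1 := by
      rw [norm_qp, Real.exp_le_one_iff]; nlinarith [Real.pi_pos, τ.im_pos]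
    have h2 : C * ‖qp τ‖ ≤ |C| := by
      calc C * ‖qp τ‖ ≤ |C| * ‖qp τ‖ := by gcongr; exact le_abs_self C
        _ ≤ |C| := mul_le_of_le_one_right (abs_nonneg _) h1
    calc ‖f τ‖ = ‖(f τ - c 0) + c 0‖ := by rw [sub_add_cancel]
      _ ≤ ‖f τ - c 0‖ + ‖c 0‖ := norm_add_le _ _
      _ ≤ |C| + ‖c 0‖ := by linarith [hC τ hτ]

theorem qx_of_hasSum (hf : MDiff f) (h : ∀ τ : ℍ, HasSum (fun n => c n * qp τ ^ n) (f τ)) :
    qx f = PowerSeries.mk c :=
  coeff_unique' (good_of_hasSum hf h) h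

end HasSum

section Inverse

/-- the inverse of a function whose expansion has a nonzero coefficient at `m`, and none below -/
theorem mod1_inv {f : ℍ → ℂ} (hf : Mod1 f) (h0 : ∀ τ, f τ ≠ 0) : Mod1 (fun τ => (f τ)⁻¹) := by
  obtain ⟨n, hn⟩ := hf.growth
  have hg := hf.good_mul hn
  set P := qx (f * qp ^ n) with hP
  have hP0 : P ≠ 0 := by
    intro hz
    have := congrFun (Good.qx_inj hg Good.zero (by
      rw [← hP, hz]; exact (UpperHalfPlane.qExpansion_zero 1).symm)) UpperHalfPlane.I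
    simp [h0, qp_ne_zero] at this
  obtain ⟨m, hm, hmin⟩ : ∃ m, P.coeff m ≠ 0 ∧ ∀ i < m, P.coeff i = 0 := by
    classical
    have hex : ∃ m, P.coeff m ≠ 0 := by
      by_contra hcon
      push Not at hcon
      exact hP0 (PowerSeries.ext fun i => by simp [hcon i])
    exact ⟨Nat.find hex, Nat.find_spec hex, fun i hi => not_not.mp (Nat.find_min hex hi)⟩
  have hsum : ∀ τ : ℍ, HasSum (fun i => P.coeff (i + m) * qp τ ^ i) (f τ * qp τ ^ n / qp τ ^ m) := by
    intro τ
    have h1 := (hasSum_nat_add_iff' m).mpr (hg.hasSum τ)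
    rw [Finset.sum_eq_zero (fun i hi => by rw [← hP, hmin i (Finset.mem_range.mp hi), zero_mul]),
      sub_zero] at h1
    have h2 := h1.div_const (qp τ ^ m)
    refine h2.congr_fun fun i => ?_
    rw [_root_.pow_add, ← hP]
    have := pow_ne_zero m (qp_ne_zero τ)
    field_simp
  obtain ⟨C, hC⟩ := bdd_of_hasSum hsum
  refine ⟨fun z => ?_, hf.holo.inv h0, m, ?_⟩
  · simp only [Function.comp_apply]
    exact congrArg (·⁻¹) (hf.per z)
  rw [UpperHalfPlane.isBoundedAtImInfty_iff]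
  obtain ⟨R, hR⟩ : ∃ R : ℝ, ∀ τ : ℍ, R ≤ τ.im → |C| * ‖qp τ‖ ≤ ‖P.coeff m‖ / 2 := by
    have ht : Tendsto (fun τ : ℍ => |C| * ‖qp τ‖) atImInfty (𝓝 0) := by
      simpa [qp] using ((qParam_tendsto_atImInfty one_pos).norm.const_mul |C|)
    have := ht.eventually (eventually_le_nhds (show (0 : ℝ) < ‖P.coeff m‖ / 2 by positivity))
    obtain ⟨R, hR⟩ := (UpperHalfPlane.atImInfty_mem _).mp this
    exact ⟨R, fun τ hτ => hR τ hτ⟩
  refine ⟨2 / ‖P.coeff m‖, max R 1, fun τ hτ => ?_⟩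
  have h1 := hC τ (le_of_max_le_right hτ)
  have h2 := hR τ (le_of_max_le_left hτ)
  rw [zero_add] at h1
  have h3 : ‖P.coeff m‖ / 2 ≤ ‖f τ * qp τ ^ n / qp τ ^ m‖ := by
    have := norm_sub_norm_le (P.coeff m) (f τ * qp τ ^ n / qp τ ^ m)
    rw [norm_sub_rev] at this
    have : C * ‖qp τ‖ ≤ |C| * ‖qp τ‖ := by gcongr; exact le_abs_self C
    linarith
  have hm0 : 0 < ‖P.coeff m‖ := norm_pos_iff.mpr hm
  have hq : ‖qp τ‖ ≤ 1 := by
    rw [norm_qp, Real.exp_le_one_iff]; nlinarith [Real.pi_pos, τ.im_pos]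
  simp only [Pi.mul_apply, Pi.pow_apply]
  have e : (f τ)⁻¹ * qp τ ^ m = qp τ ^ n * (f τ * qp τ ^ n / qp τ ^ m)⁻¹ := by
    have := pow_ne_zero n (qp_ne_zero τ)
    have := h0 τ
    field_simp
  rw [e, norm_mul, norm_inv, norm_pow]
  calc ‖qp τ‖ ^ n * ‖f τ * qp τ ^ n / qp τ ^ m‖⁻¹ ≤ 1 * (‖P.coeff m‖ / 2)⁻¹ := by
        gcongr
        exact pow_le_one₀ (norm_nonneg _) hq
    _ = 2 / ‖P.coeff m‖ := by rw [one_mul, inv_div]

end Inverse

end FLTAgent.Good
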