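import Fermat.Agent.Good.LevRing
import Fermat.Agent.Good.LevelAPI

/-!
The units of the level `M` ring: ratios of differences of `℘` at torsion points.
-/

set_option autoImplicit false

noncomputable section

open UpperHalfPlane ModularCurve CongruenceSubgroup
open scoped MatrixGroups Manifold Topology Real

namespace FLTAgent.Good

open ModFun

/-! ### series with unit leading coefficient -/

section Lead

variable {R : Type*} [CommRing R]

/-- order `m` with a unit coefficient -/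
structure HasLead (s : LaurentSeries R) (m : ℤ) : Prop where
  zero : ∀ n < m, s.coeff n = 0
  unit : IsUnit (s.coeff m)

theorem HasLead.exists_eq {s : LaurentSeries R} {m : ℤ} (h : HasLead s m) :
    ∃ P : PowerSeries R, IsUnit P ∧
      s = HahnSeries.single m 1 * HahnSeries.ofPowerSeries ℤ R P := by
  refine ⟨PowerSeries.mk fun n => s.coeff (m + n), ?_, ?_⟩
  · rw [PowerSeries.isUnit_iff_constantCoeff, ← PowerSeries.coeff_zero_eq_constantCoeff,
      PowerSeries.coeff_mk]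
    simpa using h.unit
  · ext k
    rw [HahnSeries.coeff_single_mul, one_mul]
    rcases lt_or_ge k m with hk | hk
    · rw [h.zero k hk, ofPowerSeries_coeff_of_neg _ (by omega)]
    · obtain ⟨n, rfl⟩ := Int.le.dest hk
      rw [add_sub_cancel_left, HahnSeries.ofPowerSeries_apply_coeff, PowerSeries.coeff_mk]

theorem hasLead_single_mul {m : ℤ} {P : PowerSeries R} (hP : IsUnit P) :
    HasLead (HahnSeries.single m 1 * HahnSeries.ofPowerSeries ℤ R P) m := by
  constructor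
  · intro n hn
    rw [HahnSeries.coeff_single_mul, one_mul, ofPowerSeries_coeff_of_neg _ (by omega)]
  · rw [HahnSeries.coeff_single_mul, one_mul, sub_self,
      show (0 : ℤ) = ((0 : ℕ) : ℤ) from rfl, HahnSeries.ofPowerSeries_apply_coeff,
      PowerSeries.coeff_zero_eq_constantCoeff]
    exact PowerSeries.isUnit_iff_constantCoeff.mp hP

theorem HasLead.mul {s t : LaurentSeries R} {m n : ℤ} (hs : HasLead s m) (ht : HasLead t n) :
    HasLead (s * t) (m + n) := by
  obtain ⟨P, hP, rfl⟩ := hs.exists_eq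
  obtain ⟨Q, hQ, rfl⟩ := ht.exists_eq
  rw [mul_mul_mul_comm, HahnSeries.single_mul_single, mul_one, ← map_mul]
  exact hasLead_single_mul (hP.mul hQ)

theorem hasLead_one : HasLead (1 : LaurentSeries R) 0 := by
  refine ⟨fun n hn => ?_, by simp⟩
  simp [HahnSeries.coeff_one, hn.ne]

theorem HasLead.pow {s : LaurentSeries R} {m : ℤ} (hs : HasLead s m) (e : ℕ) :
    HasLead (s ^ e) (e * m) := by
  induction e with
  | zero => simpa using hasLead_one
  | succ e ih =>
    rw [pow_succ, show ((e + 1 : ℕ) : ℤ) * m = (e : ℤ) * m + m by push_cast; ring]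
    exact ih.mul hs

theorem HasLead.exists_inv {s : LaurentSeries R} {m : ℤ} (hs : HasLead s m) :
    ∃ t : LaurentSeries R, s * t = 1 ∧ HasLead t (-m) := by
  obtain ⟨P, hP, rfl⟩ := hs.exists_eq
  obtain ⟨u, rfl⟩ := hP
  refine ⟨HahnSeries.single (-m) 1 * HahnSeries.ofPowerSeries ℤ R ↑u⁻¹, ?_,
    hasLead_single_mul u⁻¹.isUnit⟩
  rw [mul_mul_mul_comm, HahnSeries.single_mul_single, ← map_mul, Units.mul_inv, map_one, add_neg_cancel,
    mul_one, mul_one]
  rfl

theorem HasLead.map {S : Type*} [CommRing S] (f : R →+* S) {s : LaurentSeries R} {m : ℤ}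
    (hs : HasLead s m) : HasLead (coeffMap f s) m :=
  ⟨fun n hn => by simp [hs.zero n hn], by simpa using hs.unit.map f⟩

theorem HasLead.ne_zero [Nontrivial R] {s : LaurentSeries R} {m : ℤ} (hs : HasLead s m) : s ≠ 0 :=
  fun h => not_isUnit_zero (M₀ := R) (by simpa [h] using hs.unit)

theorem HasLead.order_eq [Nontrivial R] {s : LaurentSeries R} {m : ℤ} (hs : HasLead s m) :
    s.order = m := by
  apply le_antisymm (HahnSeries.order_le_of_coeff_ne_zero hs.unit.ne_zero)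
  by_contra h
  push Not at h
  exact HahnSeries.leadingCoeff_ne_zero.mpr hs.ne_zero
    (by rw [HahnSeries.leadingCoeff_eq]; exact hs.zero _ h)

theorem HasLead.unique [Nontrivial R] {s : LaurentSeries R} {m n : ℤ} (hs : HasLead s m)
    (hs' : HasLead s n) : m = n := hs.order_eq.symm.trans hs'.order_eq

end Lead

/-! ### labels -/

section Labels

variable (M : ℕ)

/-- two labels giving distinct finite values of `℘` -/
def Adm (v w : Lbl M) : Prop := v ≠ 0 ∧ w ≠ 0 ∧ w ≠ v ∧ w ≠ -v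

theorem lblAct_mul (v : Lbl M) (γ δ : SL(2, ℤ)) :
    lblAct M (lblAct M v γ) δ = lblAct M v (γ * δ) := by
  have h : ∀ i j, (γ * δ).1 i j = γ.1 i 0 * δ.1 0 j + γ.1 i 1 * δ.1 1 j := fun i j => by
    simp [Matrix.mul_apply, Fin.sum_univ_two]
  ext <;> simp only [lblAct, h, Int.cast_add, Int.cast_mul] <;> ring

theorem lblAct_one (v : Lbl M) : lblAct M v 1 = v := by
  ext <;> simp [lblAct]

theorem lblAct_neg (v : Lbl M) (γ : SL(2, ℤ)) : lblAct M (-v) γ = -lblAct M v γ := by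
  ext <;> simp [lblAct] <;> ring

theorem lblAct_injective (γ : SL(2, ℤ)) : Function.Injective (fun v => lblAct M v γ) :=
  fun v w h => by
    have := congrArg (fun x => lblAct M x γ⁻¹) h
    simpa [lblAct_mul, lblAct_one] using this

theorem lblAct_zero (γ : SL(2, ℤ)) : lblAct M 0 γ = 0 := by
  ext <;> simp [lblAct]

theorem Adm.act {v w : Lbl M} (h : Adm M v w) (γ : SL(2, ℤ)) :
    Adm M (lblAct M v γ) (lblAct M w γ) := by
  obtain ⟨h1, h2, h3, h4⟩ := h
  refine ⟨fun e => h1 (lblAct_injective M γ (e.trans (lblAct_zero M γ).symm)),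
    fun e => h2 (lblAct_injective M γ (e.trans (lblAct_zero M γ).symm)),
    fun e => h3 (lblAct_injective M γ e),
    fun e => h4 (lblAct_injective M γ (e.trans (lblAct_neg M v γ).symm))⟩

theorem lblAct_gamma (v : Lbl M) {γ : SL(2, ℤ)} (hγ : γ ∈ Gamma M) : lblAct M v γ = v := by
  rw [Gamma_mem] at hγ
  obtain ⟨h1, h2, h3, h4⟩ := hγ
  ext <;> simp [lblAct, h1, h2, h3, h4]

/-- the order of `℘(z_v) - ℘(z_w)` -/
def pOrd (v w : Lbl M) : ℤ := min (absVal M v.1) (absVal M w.1)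

end Labels

namespace Lev

variable (S : Lev)

theorem exists_exp_pDiff {v w : Lbl S.M} (h : Adm S.M v w) :
    ∃ s, S.HasExp (pDiff S.M v w) s ∧ HasLead s (pOrd S.M v w) := by
  obtain ⟨hv, hw, hne, hne'⟩ := h
  obtain ⟨P, hP, hzero, hunit⟩ := exists_expansion S.M hv hw hne hne'
  refine ⟨HahnSeries.ofPowerSeries ℤ S.A (P.map S.rho), ?_, ?_, ?_⟩
  · refine hasExp_of_hasSum (mdiff_pDiff S.M hv hw) fun τ => ?_
    simpa only [PowerSeries.coeff_map, ιA_rho] using hP τ
  · intro n hn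
    rcases lt_or_ge n 0 with hn0 | hn0
    · exact ofPowerSeries_coeff_of_neg _ hn0
    · lift n to ℕ using hn0
      have hn' : n < min (absVal S.M v.1) (absVal S.M w.1) := by
        unfold pOrd at hn; omega
      rw [HahnSeries.ofPowerSeries_apply_coeff, PowerSeries.coeff_map, hzero n hn', map_zero]
  · rw [pOrd, show (min (absVal S.M v.1 : ℤ) (absVal S.M w.1 : ℤ)) =
      ((min (absVal S.M v.1) (absVal S.M w.1) : ℕ) : ℤ) by push_cast; rfl,
      HahnSeries.ofPowerSeries_apply_coeff, PowerSeries.coeff_map]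
    exact hunit.map S.rho

theorem pDiff_ne_zero {v w : Lbl S.M} (h : Adm S.M v w) (τ : ℍ) : pDiff S.M v w τ ≠ 0 := fun e =>
  ((pDiff_eq_zero_iff S.M h.1 h.2.1 τ).mp e).elim h.2.2.1 h.2.2.2

theorem pDiff_div_smul {v w v' w' : Lbl S.M} (h : Adm S.M v w) (h' : Adm S.M v' w') (γ : SL(2, ℤ))
    (τ : ℍ) : pDiff S.M v w (γ • τ) / pDiff S.M v' w' (γ • τ) =
      pDiff S.M (lblAct S.M v γ) (lblAct S.M w γ) τ /
        pDiff S.M (lblAct S.M v' γ) (lblAct S.M w' γ) τ := by
  rw [pDiff_smul S.M h.1 h.2.1, pDiff_smul S.M h'.1 h'.2.1, mul_div_mul_left]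
  refine pow_ne_zero 2 ?_
  have hd := UpperHalfPlane.denom_ne_zero (γ : GL (Fin 2) ℝ) τ
  rwa [denom_SL] at hd

theorem exists_exp_quot {v w v' w' : Lbl S.M} (h : Adm S.M v w) (h' : Adm S.M v' w') :
    ∃ s, S.HasExp (fun τ => pDiff S.M v w τ / pDiff S.M v' w' τ) s ∧
      HasLead s (pOrd S.M v w - pOrd S.M v' w') := by
  obtain ⟨s, hs, hsl⟩ := S.exists_exp_pDiff h
  obtain ⟨s', hs', hsl'⟩ := S.exists_exp_pDiff h'
  obtain ⟨t, hst, htl⟩ := hsl'.exists_inv
  exact ⟨s * t, by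
    simp only [div_eq_mul_inv]
    exact hs.mul (hs'.inv (S.pDiff_ne_zero h') hst),
    by simpa only [sub_eq_add_neg] using hsl.mul htl⟩

theorem pQuot_mem {v w v' w' : Lbl S.M} (h : Adm S.M v w) (h' : Adm S.M v' w') :
    (fun τ => pDiff S.M v w τ / pDiff S.M v' w' τ) ∈ S.levRing := by
  refine ⟨?_, fun γ hγ τ => ?_, fun γ => ?_⟩
  · simp only [div_eq_mul_inv]
    exact (mdiff_pDiff S.M h.1 h.2.1).mul ((mdiff_pDiff S.M h'.1 h'.2.1).inv (S.pDiff_ne_zero h'))
  · show pDiff S.M v w (γ • τ) / pDiff S.M v' w' (γ • τ) = _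
    rw [S.pDiff_div_smul h h' γ τ]
    simp only [lblAct_gamma _ _ hγ]
  · obtain ⟨s, hs, -⟩ := S.exists_exp_quot (h.act S.M γ) (h'.act S.M γ)
    refine ⟨s, ?_⟩
    simpa only [S.pDiff_div_smul h h' γ] using hs

/-- `(℘_v - ℘_w) / (℘_v' - ℘_w')`, with value `1` on inadmissible labels -/
def pQuot (v w v' w' : Lbl S.M) : S.LF :=
  open Classical in
  if h : Adm S.M v w ∧ Adm S.M v' w' then
    ⟨fun τ => pDiff S.M v w τ / pDiff S.M v' w' τ, S.pQuot_mem h.1 h.2⟩ else 1

variable {v w v' w' : Lbl S.M}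

theorem pQuot_apply (h : Adm S.M v w) (h' : Adm S.M v' w') (τ : ℍ) :
    (S.pQuot v w v' w' : ℍ → ℂ) τ = pDiff S.M v w τ / pDiff S.M v' w' τ := by
  rw [pQuot, dif_pos ⟨h, h'⟩]

theorem pQuot_mul_self (h : Adm S.M v w) (h' : Adm S.M v' w') :
    S.pQuot v w v' w' * S.pQuot v' w' v w = 1 :=
  Subtype.ext (funext fun τ => by
    show (S.pQuot v w v' w' : ℍ → ℂ) τ * (S.pQuot v' w' v w : ℍ → ℂ) τ = 1
    rw [S.pQuot_apply h h', S.pQuot_apply h' h]
    field_simp [S.pDiff_ne_zero h τ, S.pDiff_ne_zero h' τ])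

theorem isUnit_pQuot (h : Adm S.M v w) (h' : Adm S.M v' w') : IsUnit (S.pQuot v w v' w') :=
  IsUnit.of_mul_eq_one _ (S.pQuot_mul_self h h')

theorem act_pQuot (h : Adm S.M v w) (h' : Adm S.M v' w') (γ : SL(2, ℤ)) :
    act γ (S.pQuot v w v' w') = S.pQuot (lblAct S.M v γ⁻¹) (lblAct S.M w γ⁻¹)
      (lblAct S.M v' γ⁻¹) (lblAct S.M w' γ⁻¹) :=
  Subtype.ext (funext fun τ => by
    rw [act_apply, S.pQuot_apply h h', S.pQuot_apply (h.act _ _) (h'.act _ _),
      S.pDiff_div_smul h h'])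

theorem hasLead_expA_pQuot (h : Adm S.M v w) (h' : Adm S.M v' w') :
    HasLead (S.expA (S.pQuot v w v' w')) (pOrd S.M v w - pOrd S.M v' w') := by
  obtain ⟨s, hs, hl⟩ := S.exists_exp_quot h h'
  rwa [expA_eq (x := S.pQuot v w v' w') (s := s) (by
    convert hs using 1
    exact funext fun τ => S.pQuot_apply h h' τ)]

theorem hasLead_cusp_pQuot (h : Adm S.M v w) (h' : Adm S.M v' w') (γ : SL(2, ℤ)) :
    HasLead (S.expA (act γ (S.pQuot v w v' w')))
      (pOrd S.M (lblAct S.M v γ⁻¹) (lblAct S.M w γ⁻¹) -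
        pOrd S.M (lblAct S.M v' γ⁻¹) (lblAct S.M w' γ⁻¹)) := by
  rw [S.act_pQuot h h']
  exact S.hasLead_expA_pQuot (h.act _ _) (h'.act _ _)

end Lev

end FLTAgent.Good
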