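import Mathlib

/-!
Definitions: differences of Weierstrass `℘` at `M`-torsion points, as modular forms of weight 2 on
`Γ(M)` with integral `q`-expansions (owner: helper4).
-/

set_option autoImplicit false

noncomputable section

open UpperHalfPlane Complex
open scoped MatrixGroups Manifold Topology Real

namespace FLTAgent.Good

/-- the period lattice `ℤτ + ℤ` -/
def periodPairAt (τ : ℍ) : PeriodPair where
  ω₁ := (τ : ℂ)
  ω₂ := 1
  indep := by
    rw [LinearIndependent.pair_iff]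
    intro s t h
    have hi := congrArg Complex.im h
    simp at hi
    rcases hi with hi | hi
    · subst hi
      simpa using congrArg Complex.re h
    · exact absurd hi τ.im_ne_zero

variable (M : ℕ) [NeZero M]

/-- level `M` torsion labels: row vectors -/
abbrev Lbl := ZMod M × ZMod M

/-- the torsion point `(aτ + b)/M` -/
def torsPt (v : Lbl M) (τ : ℍ) : ℂ := ((v.1.val : ℂ) * (τ : ℂ) + (v.2.val : ℂ)) / M

/-- `℘(z_v) - ℘(z_w)`, divided by `(2πi)²` -/
def pDiff (v w : Lbl M) (τ : ℍ) : ℂ :=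
  (PeriodPair.weierstrassP (periodPairAt τ) (torsPt M v τ) -
    PeriodPair.weierstrassP (periodPairAt τ) (torsPt M w τ)) / (2 * π * Complex.I) ^ 2

/-- right action of `SL(2, ℤ)` on labels -/
def lblAct (v : Lbl M) (γ : SL(2, ℤ)) : Lbl M :=
  (v.1 * ((γ.1 0 0 : ℤ) : ZMod M) + v.2 * ((γ.1 1 0 : ℤ) : ZMod M),
    v.1 * ((γ.1 0 1 : ℤ) : ZMod M) + v.2 * ((γ.1 1 1 : ℤ) : ZMod M))

/-- `|a|`, the distance from `a` to `0` in `ℤ/M` -/
def absVal (a : ZMod M) : ℕ := min a.val (M - a.val)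

/-- `ℤ[ζ_M, 1/M] ⊂ ℂ` -/
def coeffRing : Subalgebra ℤ ℂ :=
  Algebra.adjoin ℤ ({Complex.exp (2 * π * Complex.I / M), (M : ℂ)⁻¹} : Set ℂ)

end FLTAgent.Good
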