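import Mathlib
import Fermat.Agent.Good.LevelDefs

/-!
Subgroups of `SL(2, ℤ)` containing `Γ(M)` and `T`, and the stabiliser of the labels up to sign.
-/

set_option autoImplicit false
set_option linter.all false

noncomputable section

namespace FLTAgent.Good

open scoped MatrixGroups
open Matrix Matrix.SpecialLinearGroup

/-- lower triangular unipotent -/
def lowU (s : ℤ) : SL(2, ℤ) := ⟨!![1, 0; s, 1], by simp⟩

theorem lowU_add (s t : ℤ) : lowU (s + t) = lowU s * lowU t := by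
  apply Subtype.ext
  simp [lowU, Matrix.mul_fin_two]

theorem lowU_zero : lowU 0 = 1 := by
  apply Subtype.ext
  ext i j; fin_cases i <;> fin_cases j <;> simp [lowU]

theorem mem_of_mod_eq {M : ℕ} {G0 : Subgroup SL(2, ℤ)}
    (hΓ : CongruenceSubgroup.Gamma M ≤ G0) {g h : SL(2, ℤ)} (hg : g ∈ G0)
    (he : ∀ i j, ((g.1 i j : ℤ) : ZMod M) = ((h.1 i j : ℤ) : ZMod M)) : h ∈ G0 := by
  have hgh : map (Int.castRingHom (ZMod M)) g = map (Int.castRingHom (ZMod M)) h := by
    apply Subtype.ext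
    ext i j
    exact he i j
  have : h * g⁻¹ ∈ CongruenceSubgroup.Gamma M := by
    show map (Int.castRingHom (ZMod M)) (h * g⁻¹) = 1
    rw [map_mul, map_inv, hgh, mul_inv_cancel]
  simpa using G0.mul_mem (hΓ this) hg

theorem subgroup_eq_top (M : ℕ) [NeZero M] (G0 : Subgroup SL(2, ℤ))
    (hΓ : CongruenceSubgroup.Gamma M ≤ G0) (hT : ModularGroup.T ∈ G0)
    (h : ∀ p : ℕ, p.Prime → p ∣ M → ∃ g ∈ G0, ¬ (p : ℤ) ∣ g.1 1 0) : G0 = ⊤ := by
  let H : AddSubgroup ℤ :=
    { carrier := {s | lowU s ∈ G0}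
      zero_mem' := by simp [lowU_zero]
      add_mem' := fun {s t} hs ht => by
        simp only [Set.mem_setOf_eq, lowU_add]; exact G0.mul_mem hs ht
      neg_mem' := fun {s} hs => by
        have : lowU (-s) = (lowU s)⁻¹ := eq_inv_of_mul_eq_one_left (by
          rw [← lowU_add, neg_add_cancel, lowU_zero])
        simp only [Set.mem_setOf_eq, this]; exact G0.inv_mem hs }
  have hM : (M : ℤ) ∈ H := mem_of_mod_eq hΓ G0.one_mem fun i j => by
    fin_cases i <;> fin_cases j <;> simp [lowU]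
  obtain ⟨d, hd⟩ := Int.subgroup_cyclic H
  have hdM : d ∣ (M : ℤ) := by
    rw [hd] at hM
    exact Int.mem_zmultiples_iff.1 (by rwa [AddSubgroup.zmultiples_eq_closure])
  have hq : ∀ q : ℕ, q.Prime → q ∣ M → ∃ s ∈ H, ¬ (q : ℤ) ∣ s := by
    intro q hq hqM
    obtain ⟨g, hg, hc⟩ := h q hq hqM
    obtain ⟨e, M', hM', he⟩ := Nat.exists_eq_pow_mul_and_not_dvd (NeZero.ne M) q hq.ne_one
    have hcop : IsCoprime (g.1 1 0) ((q : ℤ) ^ e) :=
      (((Nat.prime_iff_prime_int.1 hq).coprime_iff_not_dvd).2 hc).symm.pow_right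
    obtain ⟨u, w, huw⟩ := hcop
    set g' := ModularGroup.T ^ (-(g.1 0 0 * u)) * g with hg'
    have hg'0 : g' ∈ G0 := G0.mul_mem (G0.zpow_mem hT _) hg
    have hdet : g.1 0 0 * g.1 1 1 - g.1 0 1 * g.1 1 0 = 1 := by
      rw [← Matrix.det_fin_two]; exact g.2
    set a := g.1 0 0 with ha
    set b := g.1 0 1
    set c := g.1 1 0
    set dd := g.1 1 1
    have hgm : g.1 = !![a, b; c, dd] := Matrix.eta_fin_two g.1
    have hg'm : g'.1 = !![a * w * (q : ℤ) ^ e, b - a * u * dd; c, dd] := by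
      rw [hg', coe_mul, ModularGroup.coe_T_zpow, hgm, Matrix.mul_fin_two]
      ext i j; fin_cases i <;> fin_cases j <;> simp <;> (first | ring1 | linear_combination a * huw | linear_combination -a * huw)
    set E := g' * ModularGroup.T ^ (M' : ℤ) * g'⁻¹
    have hE : E ∈ G0 := G0.mul_mem (G0.mul_mem hg'0 (G0.zpow_mem hT _)) (G0.inv_mem hg'0)
    refine ⟨-((M' : ℤ) * c ^ 2), mem_of_mod_eq hΓ hE fun i j => ?_, ?_⟩
    · have hEm : E.1 = !![1 - (M' : ℤ) * (q : ℤ) ^ e * (a * w * c),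
          (M' : ℤ) * (q : ℤ) ^ e * ((q : ℤ) ^ e * (a * w) ^ 2);
          -((M' : ℤ) * c ^ 2), 1 + (M' : ℤ) * (q : ℤ) ^ e * (a * w * c)] := by
        have hdet' : a * w * (q : ℤ) ^ e * dd - (b - a * u * dd) * c = 1 := by
          linear_combination hdet + a * dd * huw
        simp only [E, coe_mul, coe_inv, ModularGroup.coe_T_zpow, hg'm,
          Matrix.adjugate_fin_two_of, Matrix.mul_fin_two]
        ext i j; fin_cases i <;> fin_cases j <;> simp <;>
          first | linear_combination hdet' | ring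
      have hz : ((M' : ZMod M)) * (q : ZMod M) ^ e = 0 := by
        rw [← Nat.cast_pow, ← Nat.cast_mul, mul_comm, ← he, ZMod.natCast_self]
      rw [hEm]
      fin_cases i <;> fin_cases j <;> simp [lowU, hz]
    · rw [dvd_neg]
      intro hd'
      rcases (Nat.prime_iff_prime_int.1 hq).dvd_or_dvd hd' with h1 | h1
      · exact hM' (Int.natCast_dvd_natCast.1 h1)
      · exact hc ((Nat.prime_iff_prime_int.1 hq).dvd_of_dvd_pow h1)
  have hd1 : d.natAbs = 1 := by
    by_contra hne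
    obtain ⟨q, hq', hqd⟩ := Nat.exists_prime_and_dvd hne
    have hqd' : (q : ℤ) ∣ d := Int.natCast_dvd.2 hqd
    obtain ⟨s, hs, hns⟩ := hq q hq' (Int.natCast_dvd_natCast.1 (hqd'.trans hdM))
    rw [hd, ← AddSubgroup.zmultiples_eq_closure, Int.mem_zmultiples_iff] at hs
    exact hns (hqd'.trans hs)
  have hL : lowU 1 ∈ G0 := by
    have : (1 : ℤ) ∈ H := by
      rw [hd, ← AddSubgroup.zmultiples_eq_closure, Int.mem_zmultiples_iff]
      exact Int.natAbs_dvd_natAbs.1 (by simp [hd1])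
    exact this
  have hS : ModularGroup.S ∈ G0 := by
    have : ModularGroup.S = ModularGroup.T⁻¹ * lowU 1 * ModularGroup.T⁻¹ := by
      apply Subtype.ext
      simp only [coe_mul, ← _root_.zpow_neg_one, ModularGroup.coe_T_zpow, ModularGroup.coe_S, lowU,
        Matrix.mul_fin_two]
      ext i j; fin_cases i <;> fin_cases j <;> simp
    rw [this]
    exact G0.mul_mem (G0.mul_mem (G0.inv_mem hT) hL) (G0.inv_mem hT)
  rw [eq_top_iff, ← SpecialLinearGroup.SL2Z_generators, Subgroup.closure_le]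
  rintro x (rfl | rfl)
  · exact hS
  · exact hT

variable {M : ℕ} [NeZero M]

theorem two_ne_zero' (hM : 3 ≤ M) : (2 : ZMod M) ≠ 0 := by
  intro h
  have : ((2 : ℕ) : ZMod M) = 0 := by exact_mod_cast h
  rw [ZMod.natCast_eq_zero_iff] at this
  have := Nat.le_of_dvd (by norm_num) this
  omega

theorem one_ne_zero' (hM : 3 ≤ M) : (1 : ZMod M) ≠ 0 := fun h => two_ne_zero' hM (by
  linear_combination 2 * h)

theorem pm_of_entries (γ : SL(2, ℤ)) (h01 : ((γ.1 0 1 : ℤ) : ZMod M) = 0)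
    (h10 : ((γ.1 1 0 : ℤ) : ZMod M) = 0)
    (hd : (((γ.1 0 0 : ℤ) : ZMod M) = 1 ∧ ((γ.1 1 1 : ℤ) : ZMod M) = 1) ∨
      (((γ.1 0 0 : ℤ) : ZMod M) = -1 ∧ ((γ.1 1 1 : ℤ) : ZMod M) = -1)) :
    γ ∈ CongruenceSubgroup.Gamma M ∨ -γ ∈ CongruenceSubgroup.Gamma M := by
  rcases hd with ⟨h00, h11⟩ | ⟨h00, h11⟩
  · left
    rw [CongruenceSubgroup.Gamma_mem]
    exact ⟨h00, h01, h10, h11⟩
  · right
    rw [CongruenceSubgroup.Gamma_mem]
    simp [h00, h01, h10, h11]

theorem pm_of_lblAct (hM : 3 ≤ M) (γ : SL(2, ℤ))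
    (h : ∀ v : Lbl M, lblAct M v γ = v ∨ lblAct M v γ = -v) :
    γ ∈ CongruenceSubgroup.Gamma M ∨ -γ ∈ CongruenceSubgroup.Gamma M := by
  have h2 := two_ne_zero' (M := M) hM
  have e1 := h (1, 0)
  have e2 := h (0, 1)
  have e3 := h (1, 1)
  simp [lblAct, Prod.ext_iff] at e1 e2 e3
  have b0 : ((γ.1 0 1 : ℤ) : ZMod M) = 0 := by rcases e1 with e | e <;> exact e.2
  have c0 : ((γ.1 1 0 : ℤ) : ZMod M) = 0 := by rcases e2 with e | e <;> exact e.1
  refine pm_of_entries γ b0 c0 ?_
  rw [b0, c0, add_zero, zero_add] at e3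
  exact e3

theorem absVal_eq_one (hM : 3 ≤ M) {x : ZMod M} (h : absVal M x = 1) : x = 1 ∨ x = -1 := by
  have hlt := ZMod.val_lt x
  unfold absVal at h
  rcases min_choice x.val (M - x.val) with e | e <;> rw [e] at h
  · left; rw [← ZMod.natCast_zmod_val x, h, Nat.cast_one]
  · right
    have : x.val + 1 = M := by omega
    have e' := congrArg (fun n : ℕ => (n : ZMod M)) this
    simp only [Nat.cast_add, Nat.cast_one, ZMod.natCast_zmod_val, ZMod.natCast_self] at e'
    linear_combination e'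

theorem absVal_eq_zero {x : ZMod M} : absVal M x = 0 ↔ x = 0 := by
  have hlt := ZMod.val_lt x
  constructor
  · intro h
    unfold absVal at h
    rw [← ZMod.val_eq_zero]
    omega
  · rintro rfl; simp [absVal]

theorem lblAct_mul' (v : Lbl M) (g h : SL(2, ℤ)) :
    lblAct M (lblAct M v g) h = lblAct M v (g * h) := by
  simp only [lblAct, coe_mul, Matrix.mul_apply, Fin.sum_univ_two]
  push_cast
  ext <;> ring

theorem lblAct_one' (v : Lbl M) : lblAct M v 1 = v := by
  simp [lblAct]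

theorem lblAct_neg' (v : Lbl M) (g : SL(2, ℤ)) : lblAct M (-v) g = -lblAct M v g := by
  simp [lblAct]
  constructor <;> ring

theorem pm_of_orders (hM : 3 ≤ M) (γ : SL(2, ℤ))
    (h : ∀ σ : SL(2, ℤ), ∀ v w : Lbl M, v ≠ 0 → w ≠ 0 → w ≠ v → w ≠ -v →
      min (absVal M (lblAct M v (γ * σ)).1) (absVal M (lblAct M w (γ * σ)).1) =
        min (absVal M (lblAct M v σ).1) (absVal M (lblAct M w σ).1)) :
    γ ∈ CongruenceSubgroup.Gamma M ∨ -γ ∈ CongruenceSubgroup.Gamma M := by
  have h1 := one_ne_zero' (M := M) hM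
  have h2 := two_ne_zero' (M := M) hM
  have key : ∀ σ : SL(2, ℤ), (lblAct M (0, 1) (σ⁻¹ * γ * σ)).1 = 0 := by
    intro σ
    set v := lblAct M (0, 1) σ⁻¹ with hv
    have hvσ : lblAct M v σ = (0, 1) := by rw [hv, lblAct_mul', inv_mul_cancel, lblAct_one']
    have hv0 : v ≠ 0 := by
      intro e; rw [e] at hvσ; simp [lblAct, Prod.ext_iff] at hvσ; exact h1 hvσ.symm
    have hgoal : lblAct M (0, 1) (σ⁻¹ * γ * σ) = lblAct M v (γ * σ) := by
      rw [hv, lblAct_mul', mul_assoc]
    rw [hgoal]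
    set z := lblAct M v (γ * σ) with hz
    obtain ⟨u, hu0, huz, hunz⟩ : ∃ u : Lbl M, u.1 = 1 ∧ u ≠ z ∧ u ≠ -z := by
      by_cases ha : ((1, 0) : Lbl M) = z ∨ ((1, 0) : Lbl M) = -z
      · refine ⟨(1, 1), rfl, ?_, ?_⟩ <;> intro e <;> rcases ha with ha | ha
        all_goals
          have e1 := congrArg Prod.fst e
          have e2 := congrArg Prod.snd e
          have a1 := congrArg Prod.fst ha
          have a2 := congrArg Prod.snd ha
          simp only [Prod.fst_neg, Prod.snd_neg] at e1 e2 a1 a2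
          first
            | exact h1 (by linear_combination e2 - a2)
            | exact h2 (by linear_combination e1 + a1)
      · exact ⟨(1, 0), rfl, fun e => ha (Or.inl e), fun e => ha (Or.inr e)⟩
    set w := lblAct M u (γ * σ)⁻¹ with hw
    have hwu : lblAct M w (γ * σ) = u := by rw [hw, lblAct_mul', inv_mul_cancel, lblAct_one']
    have hw0 : w ≠ 0 := by
      intro e; rw [e] at hwu; apply h1; rw [← hu0, ← hwu]; simp [lblAct]
    have hwv : w ≠ v := fun e => huz (by rw [← hwu, e])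
    have hwnv : w ≠ -v := fun e => hunz (by rw [← hwu, e, lblAct_neg'])
    have := h σ v w hv0 hw0 hwv hwnv
    rw [hwu, hvσ, ← hz, hu0, show absVal M ((0, 1) : Lbl M).1 = 0 from absVal_eq_zero.2 rfl,
      min_eq_left (Nat.zero_le _), Nat.min_eq_zero_iff, absVal_eq_zero, absVal_eq_zero] at this
    exact this.resolve_right h1
  have c0 : ((γ.1 1 0 : ℤ) : ZMod M) = 0 := by
    have := key 1; simpa [lblAct] using this
  have b0 : ((γ.1 0 1 : ℤ) : ZMod M) = 0 := by
    have := key ModularGroup.S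
    simp [lblAct, Matrix.mul_apply, Matrix.vecMul, dotProduct, Fin.sum_univ_two, ModularGroup.coe_S,
      Matrix.adjugate_fin_two] at this
    first | exact this | linear_combination this | linear_combination -this
  have ad : ((γ.1 0 0 : ℤ) : ZMod M) = ((γ.1 1 1 : ℤ) : ZMod M) := by
    have := key (lowU 1)
    simp [lblAct, Matrix.mul_apply, Matrix.vecMul, dotProduct, Fin.sum_univ_two, lowU, Matrix.adjugate_fin_two] at this
    first
      | linear_combination this - c0 + b0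
      | linear_combination -this + c0 - b0
  refine pm_of_entries γ b0 c0 ?_
  have := h 1 (1, 0) (1, 1) (by simp [Prod.ext_iff, h1]) (by simp [Prod.ext_iff, h1])
    (by simp [Prod.ext_iff, h1]) (by
      simp [Prod.ext_iff]; intro e; exact absurd (by linear_combination e : (2 : ZMod M) = 0) h2)
  have hone : absVal M (1 : ZMod M) = 1 := by
    have : Fact (1 < M) := ⟨by omega⟩
    simp [absVal, ZMod.val_one]; omega
  simp [lblAct, c0, hone] at this
  rcases absVal_eq_one hM this with e | e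
  · exact Or.inl ⟨e, ad ▸ e⟩
  · exact Or.inr ⟨e, ad ▸ e⟩

end FLTAgent.Good
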