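import Fermat.Agent.Good.Main

/-!
The good model of `X₀(N)` at a prime `ℓ ∤ N`: the two charts and their special fibres.
-/

set_option autoImplicit false

noncomputable section

open ModularCurve IntermediateField

namespace FLTAgent.Good

variable (A : ValuationSubring (AlgebraicClosure ℚ)) (N : ℕ)

variable [NeZero N] {ℓ : ℕ} (hℓ : ℓ.Prime) (hℓN : ¬ ℓ ∣ N) (hA : A.LiesOverPrime ℓ)

include hℓ hℓN hA

/-- chart elements have `q`-expansions with coefficients in `A`, reducing into the chart of the
special fibre -/
theorem exists_series_of_inFin {f : LaurentSeries (AlgebraicClosure ℚ)} (hf : InFin A N f) :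
    ∃ b : LaurentSeries A, toBar A b = f ∧ InFinRes A N (toRes A b) := by
  obtain ⟨S, rfl, hNM⟩ := exists_levDvd A N hℓ hℓN hA
  exact S.exists_series_inFin hNM hf

theorem exists_series_of_inInf {f : LaurentSeries (AlgebraicClosure ℚ)} (hf : InInf A N f) :
    ∃ b : LaurentSeries A, toBar A b = f ∧ InInfRes A N (toRes A b) := by
  obtain ⟨S, rfl, hNM⟩ := exists_levDvd A N hℓ hℓN hA
  exact S.exists_series_inInf hNM hf

/-- the special fibre charts are normal: every integral element lifts -/
theorem exists_lift_inFinRes {x : LaurentSeries (IsLocalRing.ResidueField A)}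
    (hx : InFinRes A N x) :
    ∃ b : LaurentSeries A, InFin A N (toBar A b) ∧ toRes A b = x := by
  obtain ⟨S, rfl, hNM⟩ := exists_levDvd A N hℓ hℓN hA
  exact S.exists_lift_finRes hNM hx

theorem exists_lift_inInfRes {x : LaurentSeries (IsLocalRing.ResidueField A)}
    (hx : InInfRes A N x) :
    ∃ b : LaurentSeries A, InInf A N (toBar A b) ∧ toRes A b = x := by
  obtain ⟨S, rfl, hNM⟩ := exists_levDvd A N hℓ hℓN hA
  exact S.exists_lift_infRes hNM hx

/-- Igusa: no drop of degree modulo `ℓ` -/
theorem finrank_fullC :
    Module.finrank
        (IntermediateField.adjoin (IsLocalRing.ResidueField A)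
          ({jqModC (IsLocalRing.ResidueField A)} : Set _))
        (IntermediateField.extendScalars
          (F := IntermediateField.adjoin (IsLocalRing.ResidueField A)
            ({jqModC (IsLocalRing.ResidueField A)} : Set _))
          (E := modularFunctionFieldFullC (IsLocalRing.ResidueField A) N)
          (IntermediateField.adjoin_le_iff.mpr
            (Set.singleton_subset_iff.mpr (jqModC_mem_full _ N)))) =
      dedekindPsi N := by
  obtain ⟨S, rfl, hNM⟩ := exists_levDvd A N hℓ hℓN hA
  exact S.finrank_fullC_aux hNM

/-- the special fibre function field is separable over `k(j)` -/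
theorem isSeparable_fullC {x : LaurentSeries (IsLocalRing.ResidueField A)}
    (hx : x ∈ modularFunctionFieldFullC (IsLocalRing.ResidueField A) N) :
    IsSeparable
      (IntermediateField.adjoin (IsLocalRing.ResidueField A)
        ({jqModC (IsLocalRing.ResidueField A)} : Set _)) x := by
  obtain ⟨S, rfl, hNM⟩ := exists_levDvd A N hℓ hℓN hA
  exact S.isSeparable_fullC_aux hNM hx

end FLTAgent.Good
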