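import Fermat.Agent.Good.BaseUnits

/-!
Elements with a dominant pole at `∞`.
-/

set_option autoImplicit false

noncomputable section

open UpperHalfPlane ModularCurve CongruenceSubgroup
open scoped MatrixGroups Manifold Topology Real

namespace FLTAgent.Good

open ModFun

theorem hasLead_finset_prod {R : Type*} [CommRing R] {ι : Type*} [DecidableEq ι] (t : Finset ι)
    (s : ι → LaurentSeries R) (o : ι → ℤ) (h : ∀ i ∈ t, HasLead (s i) (o i)) :
    HasLead (∏ i ∈ t, s i) (∑ i ∈ t, o i) := by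
  induction t using Finset.induction_on with
  | empty => simpa using hasLead_one
  | insert i t hi ih =>
    rw [Finset.prod_insert hi, Finset.sum_insert hi]
    exact (h i (Finset.mem_insert_self _ _)).mul (ih fun j hj => h j (Finset.mem_insert_of_mem hj))

section Counting

variable (M : ℕ) [NeZero M]

/-- `∑ min (x, |i|)` -/
def gSum (x : ℕ) : ℤ := ∑ i : ZMod M, (min x (absVal M i) : ℕ)

/-- the order of `∏_w termG v w` where `|v₁| = x` -/
def fSum (x : ℕ) : ℤ := 6 * M * gSum M x - 12 * x - (M : ℤ) ^ 3 + 3 * M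

theorem absVal_natCast {y : ℕ} (h : 2 * y ≤ M) : absVal M (y : ZMod M) = y := by
  have hlt : y < M := by have := Nat.pos_of_ne_zero (NeZero.ne M); omega
  rw [absVal, ZMod.val_natCast, Nat.mod_eq_of_lt hlt]
  omega

theorem gSum_add_le {x y : ℕ} (hxy : x ≤ y) (hy : 2 * y ≤ M) :
    gSum M x + ((y : ℤ) - x) ≤ gSum M y := by
  rw [← le_sub_iff_add_le', gSum, gSum, ← Finset.sum_sub_distrib]
  refine le_trans (le_of_eq ?_) (Finset.single_le_sum (f := fun i : ZMod M =>
    ((min y (absVal M i) : ℕ) : ℤ) - ((min x (absVal M i) : ℕ) : ℤ)) (fun i _ => ?_)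
    (Finset.mem_univ (y : ZMod M)))
  · rw [absVal_natCast M hy, min_self, min_eq_left hxy]
  · have : min x (absVal M i) ≤ min y (absVal M i) := min_le_min_right _ hxy
    omega

theorem fSum_lt (hM : 3 ≤ M) {x y : ℕ} (hxy : x < y) (hy : 2 * y ≤ M) : fSum M x < fSum M y := by
  have h := gSum_add_le M hxy.le hy
  have hM' : (3 : ℤ) ≤ M := by exact_mod_cast hM
  have h1 : (1 : ℤ) ≤ (y : ℤ) - x := by omega
  unfold fSum
  nlinarith

theorem fSum_le (hM : 3 ≤ M) {x y : ℕ} (hxy : x ≤ y) (hy : 2 * y ≤ M) : fSum M x ≤ fSum M y := by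
  rcases eq_or_lt_of_le hxy with rfl | h
  · exact le_rfl
  · exact (fSum_lt M hM h hy).le

theorem fSum_zero_neg (hM : 3 ≤ M) : fSum M 0 < 0 := by
  have hM' : (3 : ℤ) ≤ M := by exact_mod_cast hM
  have : gSum M 0 = 0 := by simp [gSum]
  rw [fSum, this]
  push_cast
  nlinarith [mul_le_mul_of_nonneg_left (mul_le_mul hM' hM' (by norm_num) (by linarith))
    (show (0 : ℤ) ≤ M by linarith)]

theorem pOrd_nonneg (v w : Lbl M) : 0 ≤ pOrd M v w := by unfold pOrd; positivity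

theorem pOrd_le (v w : Lbl M) : pOrd M v w ≤ M := by
  refine (min_le_left _ _).trans ?_
  have := two_absVal_le M v.1
  omega

end Counting

namespace Lev

variable (S : Lev)

/-- `∏_w termG v w` -/
def psiG (v : Lbl S.M) : S.LF := ∏ w ∈ (Finset.univ : Finset (Lbl S.M)) \ {0, v, -v}, S.termG v w

theorem hasLead_psiG {v : Lbl S.M} (hv : v ≠ 0) (hv2 : v ≠ -v) (γ : SL(2, ℤ)) :
    HasLead (S.expA (act γ (S.psiG v)))
      (fSum S.M (absVal S.M (lblAct S.M v γ⁻¹).1)) := by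
  classical
  rw [psiG, map_prod, map_prod]
  set g := γ⁻¹
  set v' := lblAct S.M v g with hv'
  have hadm : ∀ w ∈ (Finset.univ : Finset (Lbl S.M)) \ {0, v, -v}, Adm S.M v w := by
    intro w hw
    simp only [Finset.mem_sdiff, Finset.mem_insert, Finset.mem_singleton, not_or,
      Finset.mem_univ, true_and] at hw
    exact ⟨hv, hw.1, hw.2.1, hw.2.2⟩
  convert hasLead_finset_prod _ _ _ (fun w hw => S.hasLead_termG (hadm w hw) γ) using 1
  let h : Lbl S.M → ℤ := fun u => 6 * pOrd S.M v' u - S.M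
  have hall : ∑ w : Lbl S.M, h (lblAct S.M w g) = 6 * S.M * gSum S.M (absVal S.M v'.1) - (S.M : ℤ) ^ 3 := by
    have hb : Function.Bijective (fun w : Lbl S.M => lblAct S.M w g) :=
      Finite.injective_iff_bijective.mp (lblAct_injective S.M g)
    rw [hb.sum_comp h]
    simp only [h, pOrd, Finset.sum_sub_distrib, Finset.sum_const, Finset.card_univ,
      Fintype.card_prod, ZMod.card, ← Finset.mul_sum, Fintype.sum_prod_type, gSum,
      nsmul_eq_mul, Nat.cast_mul, Nat.cast_min]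
    ring
  have hsmall : ∑ w ∈ ({0, v, -v} : Finset (Lbl S.M)), h (lblAct S.M w g) =
      12 * (absVal S.M v'.1 : ℤ) - 3 * S.M := by
    have e0 : h 0 = -(S.M : ℤ) := by simp [h, pOrd, absVal_zero]
    have e1 : h v' = 6 * (absVal S.M v'.1 : ℤ) - S.M := by simp [h, pOrd]
    have e2 : h (-v') = 6 * (absVal S.M v'.1 : ℤ) - S.M := by
      simp only [h, pOrd, Prod.fst_neg]
      have : absVal S.M (-v'.1) = absVal S.M v'.1 := by
        unfold absVal
        rw [ZMod.neg_val]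
        split_ifs with hz
        · simp [hz]
        · have := ZMod.val_lt v'.1; omega
      rw [this, min_self]
    rw [Finset.sum_insert (by simp [hv, hv.symm]),
      Finset.sum_insert (by simp [hv2]), Finset.sum_singleton, lblAct_zero,
      lblAct_neg, ← hv', e0, e1, e2]
    ring
  have hsd := Finset.sum_sdiff (f := fun w => h (lblAct S.M w g))
    (Finset.subset_univ ({0, v, -v} : Finset (Lbl S.M)))
  rw [hall, hsmall] at hsd
  change fSum S.M (absVal S.M v'.1) =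
    ∑ w ∈ (Finset.univ : Finset (Lbl S.M)) \ {0, v, -v}, h (lblAct S.M w g)
  rw [fSum]
  linarith

theorem mkG_eq_T_zpow {γ : SL(2, ℤ)} (h10 : ((γ.1 1 0 : ℤ) : ZMod S.M) = 0)
    (h00 : ((γ.1 0 0 : ℤ) : ZMod S.M) = 1 ∨ ((γ.1 0 0 : ℤ) : ZMod S.M) = -1) :
    ∃ j : ℤ, S.mkG γ = S.mkG (ModularGroup.T ^ j) := by
  refine ⟨γ.1 0 0 * γ.1 0 1, ?_⟩
  have hd := det_mod S.M γ
  rw [h10, mul_zero, sub_zero] at hd
  have h11 : ((γ.1 1 1 : ℤ) : ZMod S.M) = ((γ.1 0 0 : ℤ) : ZMod S.M) := by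
    rcases h00 with e | e <;> rw [e] at hd ⊢
    · simpa using hd
    · linear_combination -hd
  have hsq : ((γ.1 0 0 : ℤ) : ZMod S.M) * ((γ.1 0 0 : ℤ) : ZMod S.M) = 1 := by
    rcases h00 with e | e <;> rw [e] <;> ring
  have key : S.mkG (γ * ModularGroup.T ^ (-(γ.1 0 0 * γ.1 0 1))) = 1 := by
    apply S.mkG_eq_one_of_pm
    have hm : (γ * ModularGroup.T ^ (-(γ.1 0 0 * γ.1 0 1))).1 =
        !![γ.1 0 0, -(γ.1 0 0 * γ.1 0 0 * γ.1 0 1) + γ.1 0 1;
          γ.1 1 0, -(γ.1 1 0 * (γ.1 0 0 * γ.1 0 1)) + γ.1 1 1] := by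
      rw [Matrix.SpecialLinearGroup.coe_mul, ModularGroup.coe_T_zpow, Matrix.eta_fin_two γ.1,
        Matrix.mul_fin_two]
      ext i j; fin_cases i <;> fin_cases j <;> simp <;> ring
    refine pm_of_entries _ ?_ ?_ ?_ <;> rw [hm] <;> simp [h10, h11]
    · linear_combination (-((γ.1 0 1 : ℤ) : ZMod S.M)) * hsq
    · exact h00
  rw [mkG_mul] at key
  rw [_root_.zpow_neg, mkG_inv] at key
  exact mul_inv_eq_one.mp key

/-- elements with an exact pole of given large order at `∞`, dominating all other cusps -/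
theorem exists_dominant' :
    ∃ R0 : ℕ, ∀ R : ℕ, R0 ≤ R → ∃ f : S.LF, HasLead (S.expA f) (-(R : ℤ)) ∧
      ∀ γ : SL(2, ℤ), (∀ k : ℤ, S.mkG γ ≠ S.mkG (ModularGroup.T ^ k)) →
        ∀ n : ℤ, n ≤ -(R : ℤ) → (S.expA (act γ f)).coeff n = 0 := by
  have hM := S.three_le
  have h1 : (1 : ZMod S.M) ≠ 0 := one_ne_zero' hM
  have h2 : (2 : ZMod S.M) ≠ 0 := two_ne_zero' hM
  set D : ℤ := fSum S.M 1 - fSum S.M 0 with hD
  have hD0 : 0 < D := by
    have := fSum_lt S.M hM (show 0 < 1 by norm_num) (by omega)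
    omega
  have hF0 := fSum_zero_neg S.M hM
  set U : S.LF := S.psiG (0, 1) ^ (D.toNat + 1) * S.psiG (1, 0) with hU
  have hUlead : ∀ γ : SL(2, ℤ), HasLead (S.expA (act γ U))
      ((D + 1) * fSum S.M (absVal S.M ((γ⁻¹.1 1 0 : ℤ) : ZMod S.M)) +
        fSum S.M (absVal S.M ((γ⁻¹.1 0 0 : ℤ) : ZMod S.M))) := by
    intro γ
    have ha := S.hasLead_psiG (v := (0, 1)) (by simp [Prod.ext_iff, h1])
      (fun e => h2 (by have := congrArg Prod.snd e; simp at this; linear_combination this)) γ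
    have hb := S.hasLead_psiG (v := (1, 0)) (by simp [Prod.ext_iff, h1])
      (fun e => h2 (by have := congrArg Prod.fst e; simp at this; linear_combination this)) γ
    have := (ha.pow (D.toNat + 1)).mul hb
    rw [← map_pow, ← map_pow, ← map_mul, ← map_mul, ← hU] at this
    simp only [lblAct, zero_mul, one_mul, zero_add, add_zero] at this
    rwa [Nat.cast_add, Int.toNat_of_nonneg hD0.le, Nat.cast_one] at this
  set P : ℕ := (-((D + 1) * fSum S.M 0 + fSum S.M 1)).toNat with hP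
  have hPneg : (D + 1) * fSum S.M 0 + fSum S.M 1 < 0 := by
    have e : fSum S.M 1 = fSum S.M 0 + D := by omega
    rw [e]
    nlinarith
  have hP' : (P : ℤ) = -((D + 1) * fSum S.M 0 + fSum S.M 1) := by omega
  have hone : absVal S.M (1 : ZMod S.M) = 1 := by
    have := absVal_natCast S.M (y := 1) (by omega)
    simpa using this
  have hU1 : HasLead (S.expA U) (-(P : ℤ)) := by
    have h := hUlead 1
    rw [show act (1 : SL(2, ℤ)) U = U from by rw [← S.actHom_apply, map_one]; rfl] at h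
    simpa [hP', absVal_zero, hone] using h
  have hU2 : ∀ γ : SL(2, ℤ), (∀ k : ℤ, S.mkG γ ≠ S.mkG (ModularGroup.T ^ k)) →
      ∃ o : ℤ, -(P : ℤ) + 1 ≤ o ∧ HasLead (S.expA (act γ U)) o := by
    intro γ hγ
    refine ⟨_, ?_, hUlead γ⟩
    set x0 := absVal S.M ((γ⁻¹.1 1 0 : ℤ) : ZMod S.M)
    set x1 := absVal S.M ((γ⁻¹.1 0 0 : ℤ) : ZMod S.M)
    have b0 : 2 * x0 ≤ S.M := two_absVal_le S.M _
    have b1 : 2 * x1 ≤ S.M := two_absVal_le S.M _
    rw [hP', neg_neg]
    rcases Nat.eq_zero_or_pos x0 with e0 | e0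
    · rw [e0]
      have e0' : ((γ⁻¹.1 1 0 : ℤ) : ZMod S.M) = 0 := absVal_eq_zero.mp e0
      have hx1 : 2 ≤ x1 := by
        by_contra hlt
        rcases Nat.lt_succ_iff.mp (not_le.mp hlt) |>.eq_or_lt with e1 | e1
        · obtain ⟨j, hj⟩ := S.mkG_eq_T_zpow e0' (absVal_eq_one hM e1)
          refine hγ (-j) ?_
          rw [_root_.zpow_neg, mkG_inv, ← hj, mkG_inv, inv_inv]
        · have e1' : ((γ⁻¹.1 0 0 : ℤ) : ZMod S.M) = 0 := absVal_eq_zero.mp (Nat.lt_one_iff.mp e1)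
          have := det_mod S.M γ⁻¹
          rw [e0', e1'] at this
          exact h1 (by linear_combination -this)
      have := fSum_lt S.M hM (show 1 < x1 by omega) b1
      omega
    · have ha := fSum_le S.M hM e0 b0
      have hb := fSum_le S.M hM (Nat.zero_le x1) b1
      have hc : fSum S.M 1 + D * D ≤ (D + 1) * fSum S.M 1 - (D + 1) * fSum S.M 0 + fSum S.M 0 := by
        have e : fSum S.M 1 = fSum S.M 0 + D := by omega
        rw [e]
        linarith
      have hd : (D + 1) * fSum S.M 1 ≤ (D + 1) * fSum S.M x0 := by gcongr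
      nlinarith
  have hadm : Adm S.M ((1, 0) : Lbl S.M) (1, 1) ∧ Adm S.M ((0, 1) : Lbl S.M) (1, 0) :=
    ⟨⟨by simp [Prod.ext_iff, h1], by simp [Prod.ext_iff, h1], by simp [Prod.ext_iff, h1],
      by simp [Prod.ext_iff, h1]⟩,
     ⟨by simp [Prod.ext_iff, h1], by simp [Prod.ext_iff, h1], by simp [Prod.ext_iff, h1],
      by simp [Prod.ext_iff, h1]⟩⟩
  set Rt := S.pQuot ((1, 0) : Lbl S.M) (1, 1) (0, 1) (1, 0)
  have hR1 : HasLead (S.expA Rt) 1 := by
    have := S.hasLead_expA_pQuot hadm.1 hadm.2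
    simpa [pOrd, hone, absVal_zero] using this
  have hR2 : ∀ γ : SL(2, ℤ), ∃ o : ℤ, -(S.M : ℤ) ≤ o ∧ HasLead (S.expA (act γ Rt)) o := by
    intro γ
    refine ⟨_, ?_, S.hasLead_cusp_pQuot hadm.1 hadm.2 γ⟩
    have := pOrd_nonneg S.M (lblAct S.M (1, 0) γ⁻¹) (lblAct S.M (1, 1) γ⁻¹)
    have := pOrd_le S.M (lblAct S.M (0, 1) γ⁻¹) (lblAct S.M (1, 0) γ⁻¹)
    linarith
  refine ⟨P * (P * (S.M + 1)), fun R hR => ?_⟩
  have hPpos : 0 < P := by omega
  have hdm := Nat.div_add_mod R P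
  have hml := Nat.mod_lt R hPpos
  have hq : P * (S.M + 1) ≤ R / P := by
    rw [Nat.le_div_iff_mul_le hPpos, mul_comm]; exact hR
  set n := R / P + 1 with hn
  set i := P * n - R with hi
  have hi1 : i ≤ P := by rw [hi, hn, mul_add, mul_one]; omega
  have hi2 : (i : ℤ) = (P : ℤ) * n - R := by
    have : R ≤ P * n := by rw [hn, mul_add, mul_one]; omega
    rw [hi, Nat.cast_sub this, Nat.cast_mul]
  refine ⟨U ^ n * Rt ^ i, ?_, fun γ hγ m hm => ?_⟩
  · rw [map_mul, map_pow, map_pow]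
    have := (hU1.pow n).mul (hR1.pow i)
    rwa [show (n : ℤ) * -(P : ℤ) + (i : ℤ) * 1 = -(R : ℤ) by rw [hi2]; ring] at this
  · obtain ⟨o, ho, hUo⟩ := hU2 γ hγ
    obtain ⟨o', ho', hRo⟩ := hR2 γ
    rw [map_mul, map_mul, map_pow, map_pow, map_pow, map_pow]
    refine ((hUo.pow n).mul (hRo.pow i)).zero m (lt_of_le_of_lt hm ?_)
    have e1 : (n : ℤ) * (-(P : ℤ) + 1) ≤ (n : ℤ) * o := by gcongr
    have e2 : (i : ℤ) * -(S.M : ℤ) ≤ (i : ℤ) * o' := by gcongr
    have e3 : (i : ℤ) * S.M ≤ (P : ℤ) * S.M := by gcongr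
    have e4 : (P : ℤ) * S.M + P < n := by
      have : P * S.M + P < n := by rw [hn]; rw [mul_add, mul_one] at hq; omega
      exact_mod_cast this
    have e5 : (i : ℤ) ≤ P := by exact_mod_cast hi1
    rw [hi2] at e5
    nlinarith

end Lev

end FLTAgent.Good
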