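import Fermat.Agent.Good.BasePoly
import Fermat.Agent.Good.BaseDom

/-!
The level `M0 ∈ {2, 3}` base of the level `M` ring (owner: helper4).

`u = (℘_c - ℘_a)/(℘_b - ℘_a)` for the labels `a = (M/M0,0)`, `b = (0,M/M0)`, `c = a + b`; it
generates the fixed ring of its stabiliser as `A[u][1/g(u)]`, over which the level `M` ring is
unramified.
-/

set_option autoImplicit false

noncomputable section

open UpperHalfPlane ModularCurve CongruenceSubgroup
open scoped MatrixGroups Manifold Topology Real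

namespace FLTAgent.Good

open ModFun

theorem lblAct_eq_pm_of_entries {k : ℕ} {γ : SL(2, ℤ)}
    (h : (((γ.1 0 0 : ℤ) : ZMod k) = 1 ∧ ((γ.1 0 1 : ℤ) : ZMod k) = 0 ∧
      ((γ.1 1 0 : ℤ) : ZMod k) = 0 ∧ ((γ.1 1 1 : ℤ) : ZMod k) = 1) ∨
      (((γ.1 0 0 : ℤ) : ZMod k) = -1 ∧ ((γ.1 0 1 : ℤ) : ZMod k) = 0 ∧
      ((γ.1 1 0 : ℤ) : ZMod k) = 0 ∧ ((γ.1 1 1 : ℤ) : ZMod k) = -1)) (x : Lbl k) :
    PM k (lblAct k x γ) x := by
  rcases h with ⟨h00, h01, h10, h11⟩ | ⟨h00, h01, h10, h11⟩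
  · left; simp [lblAct, h00, h01, h10, h11]
  · right; simp [lblAct, Prod.ext_iff, h00, h01, h10, h11]

theorem PM.bl {M k : ℕ} (hk : k ∣ M) {x y : Lbl k} (h : PM k x y) :
    PM M (bl hk x) (bl hk y) := by
  rcases h with rfl | rfl
  · exact Or.inl rfl
  · exact Or.inr (bl_neg hk y)

namespace Lev

variable (S : Lev)

/-- first base label -/
def lblA : Lbl S.M := (((S.M / S.M0 : ℕ) : ZMod S.M), 0)

/-- second base label -/
def lblB : Lbl S.M := (0, ((S.M / S.M0 : ℕ) : ZMod S.M))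

/-- third base label -/
def lblC : Lbl S.M := (((S.M / S.M0 : ℕ) : ZMod S.M), ((S.M / S.M0 : ℕ) : ZMod S.M))

theorem lblA_eq : S.lblA = S.bb (kA S.M0) := by simp [lblA, bb, bl, kA, blC_one]

theorem lblB_eq : S.lblB = S.bb (kB S.M0) := by simp [lblB, bb, bl, kB, blC_one]

theorem lblC_eq : S.lblC = S.bb (kC S.M0) := by simp [lblC, bb, bl, kC, blC_one]

/-- the generator of the base -/
def uL : S.LF := S.pQuot S.lblC S.lblA S.lblB S.lblA

theorem uL_eq : S.uL = S.uB := by rw [uL, uB, lblA_eq, lblB_eq, lblC_eq]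

theorem hasLead_uL : HasLead (S.expA S.uL) ((S.M / S.M0 : ℕ) : ℤ) := by
  have h := S.hasLead_expA_pQuot (S.adm_bb S.adm_cA) (S.adm_bb S.adm_bA)
  rw [pOrd_bl, pOrd_bl, ← sub_mul] at h
  rw [uL_eq, uB]
  have e : pOrd S.M0 (kC S.M0) (kA S.M0) - pOrd S.M0 (kB S.M0) (kA S.M0) = 1 := by
    rcases S.hM0 with h0 | h0 <;> rw [h0] <;> decide
  rwa [e, one_mul] at h

/-- the base polynomial and its properties -/
theorem exists_base :
    ∃ g : Polynomial S.A, IsUnit (Polynomial.aeval S.uL g) ∧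
      g.map (IsLocalRing.residue S.A) ≠ 0 ∧
      ∃ (n : ℕ) (P : Polynomial S.A), S.jL * Polynomial.aeval S.uL g ^ n = Polynomial.aeval S.uL P := by
  rw [uL_eq]
  exact S.exists_base'

theorem hasLead_act_uL (g : SL(2, ℤ)) :
    HasLead (S.expA (act g S.uL))
      (uOrd S.M0 ((g⁻¹.1 0 0 : ℤ) : ZMod S.M0) ((g⁻¹.1 0 1 : ℤ) : ZMod S.M0)
          ((g⁻¹.1 1 0 : ℤ) : ZMod S.M0) ((g⁻¹.1 1 1 : ℤ) : ZMod S.M0) *
        ((S.M / S.M0 : ℕ) : ℤ)) := by
  rw [uL_eq, uB]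
  exact S.hasLead_base S.adm_cA S.adm_bA g

/-- the stabiliser of `u` fixes the base labels up to sign -/
theorem base_rigid (γ : SL(2, ℤ))
    (h : ∀ σ : SL(2, ℤ), S.resA (act σ (act γ S.uL)) = S.resA (act σ S.uL)) (x : Lbl S.M0) :
    PM S.M (lblAct S.M (S.bb x) γ⁻¹) (S.bb x) := by
  rw [lblAct_bl]
  refine (lblAct_eq_pm_of_entries ?_ x).bl S.dvd
  have hm : ((S.M / S.M0 : ℕ) : ℤ) ≠ 0 := by exact_mod_cast S.mm_pos.ne'
  have key : ∀ σ : SL(2, ℤ),
      uOrd S.M0 (((γ⁻¹ * σ).1 0 0 : ℤ) : ZMod S.M0) (((γ⁻¹ * σ).1 0 1 : ℤ) : ZMod S.M0)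
        (((γ⁻¹ * σ).1 1 0 : ℤ) : ZMod S.M0) (((γ⁻¹ * σ).1 1 1 : ℤ) : ZMod S.M0) =
      uOrd S.M0 ((σ.1 0 0 : ℤ) : ZMod S.M0) ((σ.1 0 1 : ℤ) : ZMod S.M0)
        ((σ.1 1 0 : ℤ) : ZMod S.M0) ((σ.1 1 1 : ℤ) : ZMod S.M0) := by
    intro σ
    have h1 := (S.hasLead_act_uL (σ⁻¹ * γ)).map (IsLocalRing.residue S.A)
    have h2 := (S.hasLead_act_uL σ⁻¹).map (IsLocalRing.residue S.A)
    have e := h σ⁻¹
    rw [S.act_act_base] at e
    simp only [resA, RingHom.comp_apply] at e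
    rw [e] at h1
    rw [mul_inv_rev, inv_inv] at h1
    rw [inv_inv] at h2
    exact mul_right_cancel₀ hm (h1.unique h2)
  refine rigid4 S.M0 S.hM0 _ _ _ _ (det_mod S.M0 γ⁻¹) ?_ ?_
  · simpa using key 1
  · have hl : (lowU (-1)).1 = !![1, 0; -1, 1] := rfl
    have k2 := key (lowU (-1))
    rw [Matrix.SpecialLinearGroup.coe_mul, hl] at k2
    simp only [Matrix.mul_apply, Fin.sum_univ_two, Matrix.of_apply, Matrix.cons_val',
      Matrix.cons_val_zero, Matrix.cons_val_one, Matrix.empty_val',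
      Matrix.cons_val_fin_one, mul_one, mul_zero, mul_neg, zero_add, Int.cast_add,
      Int.cast_neg, Int.cast_one, Int.cast_zero] at k2
    simpa [sub_eq_add_neg] using k2

/-- the stabiliser of `u` is unchanged modulo `ℓ` -/
theorem act_uL_eq_of_res (γ : SL(2, ℤ))
    (h : ∀ σ : SL(2, ℤ), S.resA (act σ (act γ S.uL)) = S.resA (act σ S.uL)) :
    act γ S.uL = S.uL := by
  have hr := S.base_rigid γ h
  rw [uL_eq, uB, S.act_pQuot (S.adm_bb S.adm_cA) (S.adm_bb S.adm_bA)]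
  exact S.pQuot_congr (S.adm_bb S.adm_cA) (S.adm_bb S.adm_bA) (hr _) (hr _) (hr _) (hr _)

/-- an element of the stabiliser of `u` acting non-trivially moves some element by a unit -/
theorem exists_unit_diff (γ : SL(2, ℤ)) (hu : act γ S.uL = S.uL) (hγ : S.mkG γ ≠ 1) :
    ∃ r : S.LF, IsUnit (r - act γ r) := by
  have hr := S.base_rigid γ (fun σ => by rw [hu])
  have hb := S.adm_bb S.adm_bA
  set a := S.bb (kA S.M0) with ha
  set b := S.bb (kB S.M0)
  obtain ⟨v, hv⟩ : ∃ v : Lbl S.M, ¬ PM S.M (lblAct S.M v γ⁻¹) v := by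
    by_contra hcon
    push Not at hcon
    have := S.mkG_eq_one_of_pm (pm_of_lblAct S.three_le γ⁻¹ hcon)
    rw [mkG_inv, inv_eq_one] at this
    exact hγ this
  have hv0 : v ≠ 0 := by
    rintro rfl
    exact hv (Or.inl (lblAct_zero S.M _))
  have hva : ¬ PM S.M v a := by
    intro e
    apply hv
    rcases e with rfl | rfl
    · exact hr _
    · rcases hr (kA S.M0) with e | e
      · left; rw [lblAct_neg, ha, e]
      · right; rw [lblAct_neg, ha, e]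
  have hinv : ∀ z : Lbl S.M, PM S.M (lblAct S.M z γ⁻¹) a → PM S.M z a := by
    intro z hz
    have hinj := lblAct_injective S.M γ⁻¹
    rcases hr (kA S.M0) with e | e <;> rcases hz with hz | hz
    · left; exact hinj (hz.trans e.symm)
    · right; refine hinj ?_; show lblAct S.M z γ⁻¹ = lblAct S.M (-a) γ⁻¹; rw [lblAct_neg, hz, e]
    · right; refine hinj ?_; show lblAct S.M z γ⁻¹ = lblAct S.M (-a) γ⁻¹
      rw [lblAct_neg, hz, e, neg_neg]
    · left; refine hinj ?_; show lblAct S.M z γ⁻¹ = lblAct S.M a γ⁻¹; rw [hz, e]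
  set v' := lblAct S.M v γ⁻¹ with hv'
  have hv'0 : v' ≠ 0 := fun e => hv0 (lblAct_injective S.M γ⁻¹ (e.trans (lblAct_zero S.M _).symm))
  have A1 : Adm S.M v a := ⟨hv0, hb.2.1, fun e => hva (Or.inl e.symm),
    fun e => hva (Or.inr (by rw [e, neg_neg]))⟩
  have A2 : Adm S.M v' a := ⟨hv'0, hb.2.1, fun e => hva (hinv v (Or.inl e.symm)),
    fun e => hva (hinv v (Or.inr (show v' = -a by rw [e, neg_neg])))⟩
  have A3 : Adm S.M v v' := ⟨hv0, hv'0, fun e => hv (Or.inl e), fun e => hv (Or.inr e)⟩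
  refine ⟨S.pQuot v a b a, ?_⟩
  have e : S.pQuot v a b a - act γ (S.pQuot v a b a) = S.pQuot v v' b a := by
    rw [S.act_pQuot A1 hb, S.pQuot_congr (x := v') (x' := lblAct S.M b γ⁻¹) A2 hb (PM.refl _)
      (hr _) (hr _) (hr _)]
    refine S.LF_ext fun τ => ?_
    rw [map_sub, S.evPt_pQuot A1 hb, S.evPt_pQuot A2 hb, S.evPt_pQuot A3 hb]
    ring
  rw [e]
  exact S.isUnit_pQuot A3 hb

/-- the group is faithful modulo `ℓ` -/
theorem mkG_eq_one_of_res (γ : SL(2, ℤ))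
    (h : ∀ (σ : SL(2, ℤ)) (x : S.LF), S.resA (act σ (act γ x)) = S.resA (act σ x)) :
    S.mkG γ = 1 := by
  suffices h' : S.mkG γ⁻¹ = 1 by rwa [mkG_inv, inv_eq_one] at h'
  refine S.mkG_eq_one_of_pm (pm_of_orders S.three_le γ⁻¹ fun σ v w hv hw h1 h2 => ?_)
  have hadm : Adm S.M v w := ⟨hv, hw, h1, h2⟩
  have a1 := (S.hasLead_termG hadm (σ⁻¹ * γ)).map (IsLocalRing.residue S.A)
  have a2 := (S.hasLead_termG hadm σ⁻¹).map (IsLocalRing.residue S.A)
  have e := h σ⁻¹ (S.termG v w)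
  rw [S.act_act_base] at e
  simp only [resA, RingHom.comp_apply] at e
  rw [e] at a1
  rw [mul_inv_rev, inv_inv] at a1
  rw [inv_inv] at a2
  have := a1.unique a2
  simp only [pOrd, ← Nat.cast_min] at this
  omega

/-- units with prescribed orders at all cusps -/
theorem exists_phi {v w : Lbl S.M} (h : Adm S.M v w) :
    ∃ p : S.LF, IsUnit p ∧ ∀ γ : SL(2, ℤ),
      HasLead (S.expA (act γ p)) (6 * pOrd S.M (lblAct S.M v γ⁻¹) (lblAct S.M w γ⁻¹) - S.M) :=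
  ⟨S.termG v w, S.isUnit_termG h, S.hasLead_termG h⟩

/-- elements with an exact pole of given large order at `∞`, dominating all other cusps -/
theorem exists_dominant :
    ∃ R0 : ℕ, ∀ R : ℕ, R0 ≤ R → ∃ f : S.LF, HasLead (S.expA f) (-(R : ℤ)) ∧
      ∀ γ : SL(2, ℤ), (∀ k : ℤ, S.mkG γ ≠ S.mkG (ModularGroup.T ^ k)) →
        ∀ n : ℤ, n ≤ -(R : ℤ) → (S.expA (act γ f)).coeff n = 0 :=
  S.exists_dominant'

end Lev

end FLTAgent.Good
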