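import Fermat.Agent.Good.LevRing

/-!
`j(dτ)` in the level `M` ring; invariant elements are polynomials in `j` over `A`.
-/

set_option autoImplicit false

noncomputable section

open UpperHalfPlane ModularCurve CongruenceSubgroup
open scoped MatrixGroups Manifold Topology Real

namespace FLTAgent.Good

open ModFun

namespace Lev

variable (S : Lev)

theorem coeffMap_ιA_jq (n : ℕ) [NeZero n] :
    coeffMap S.ιA (qExpand S.A n (jqModC S.A)) = qExpand ℂ n (coeffEmb ℂ jq) := by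
  rw [ModularCurve.coeffMap_qExpand, ModularCurve.coeffMap_jqModC, ← jqModC_rat, coeffEmb,
    ModularCurve.coeffMap_jqModC]

theorem hasExp_jFun_aff (A0 : ℕ) [NeZero A0] (B : ℤ) (D : ℕ) [NeZero D] (k : ℕ) [NeZero k]
    (hk : A0 * S.M = k * D) :
    ∃ η : S.Aˣ, S.HasExp (fun τ => jFun (aff A0 B D τ))
      (qExpand S.A k (twist η (jqModC S.A))) := by
  obtain ⟨η, hη⟩ := S.exists_ιA_exp ((B : ℚ) / D)
  refine ⟨η, ?_⟩
  set g : M1 := ⟨fun τ => (jM : ℍ → ℂ) (shiftH ((B : ℝ) / D) τ), mod1_shift jM.2 _⟩ with hg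
  have e : dil S.M (fun τ => jFun (aff A0 B D τ)) = dil k (g : ℍ → ℂ) := by
    funext τ
    show jFun (aff A0 B D (scale S.M τ)) = jFun (shiftH ((B : ℝ) / D) (scale k τ))
    congr 1
    ext
    rw [coe_aff, coe_shiftH, coe_scale, coe_scale]
    have hD : (D : ℂ) ≠ 0 := Nat.cast_ne_zero.mpr (NeZero.ne D)
    have hk' : (A0 : ℂ) * (S.M : ℂ) = (k : ℂ) * (D : ℂ) := by exact_mod_cast hk
    push_cast
    field_simp
    linear_combination (τ : ℂ) * hk'
  have hm : Mod1 (dil S.M (fun τ => jFun (aff A0 B D τ))) := by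
    rw [e]; exact mod1_dil g.2 k
  refine ⟨hm, ?_⟩
  have h1 := lx_dil g k
  have h2 : (⟨dil S.M (fun τ => jFun (aff A0 B D τ)), hm⟩ : M1) =
      ⟨dil k (g : ℍ → ℂ), mod1_dil g.2 k⟩ := Subtype.ext e
  have h3 : lx g = twist (expUnit ((B : ℝ) / D)) (lx jM) := lx_shift jM _
  rw [h2, h1, ModularCurve.coeffMap_qExpand, h3]
  refine congrArg (qExpand ℂ k) ?_
  rw [lx_jM, coeffMap_twist, hη, ModularCurve.coeffMap_jqModC, ← jqModC_rat, coeffEmb,
    ModularCurve.coeffMap_jqModC]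
  congr 2
  push_cast
  ring_nf

theorem hasExp_jFun : S.HasExp jFun (qExpand S.A S.M (jqModC S.A)) := by
  refine ⟨mod1_dil jM.2 S.M, ?_⟩
  rw [S.coeffMap_ιA_jq, ← lx_jM]
  exact lx_dil jM S.M

theorem jd_mem {d : ℕ} [NeZero d] (hd : d ∣ S.M) : dil d jFun ∈ S.levRing := by
  refine ⟨mdiff_dil mdiff_jFun d, fun γ hγ τ => ?_, fun γ => ?_⟩
  · have h0 : γ ∈ Gamma0 d := by
      rw [Gamma0_mem]
      rw [Gamma_mem] at hγ
      have h := congrArg (ZMod.castHom hd (ZMod d)) hγ.2.2.1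
      simpa using h
    obtain ⟨γ', h⟩ := scale_smul_Gamma0 d h0 τ
    show jFun (scale d (γ • τ)) = jFun (scale d τ)
    rw [h, jFun_smul]
  · obtain ⟨A0, B, D, hA0, hD, hAD, -, h⟩ := exists_aff d γ
    obtain ⟨e, he⟩ := hd
    have : NeZero e := ⟨fun h0 => NeZero.ne S.M (by rw [he, h0, mul_zero])⟩
    have : NeZero (A0 * A0 * e) :=
      ⟨mul_ne_zero (mul_ne_zero (NeZero.ne A0) (NeZero.ne A0)) (NeZero.ne e)⟩
    obtain ⟨η, hη⟩ := S.hasExp_jFun_aff A0 B D (A0 * A0 * e) (by rw [he, ← hAD]; ring)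
    exact ⟨_, by simpa only [dil, h] using hη⟩

/-- `j(dτ)` -/
def jdL (d : ℕ) [NeZero d] (hd : d ∣ S.M) : S.LF := ⟨dil d jFun, S.jd_mem hd⟩

theorem jd_one : dil 1 jFun = jFun := by
  funext τ
  show jFun (scale 1 τ) = jFun τ
  congr 1
  ext
  rw [coe_scale, Nat.cast_one, one_mul]

theorem jFun_mem : jFun ∈ S.levRing := jd_one ▸ S.jd_mem (d := 1) (one_dvd _)

/-- `j` -/
def jL : S.LF := ⟨jFun, S.jFun_mem⟩

theorem expA_jL : S.expA S.jL = qExpand S.A S.M (jqModC S.A) := expA_eq S.hasExp_jFun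

theorem expA_jdL (d : ℕ) [NeZero d] (hd : d ∣ S.M) :
    S.expA (S.jdL d hd) = qExpand S.A (d * S.M) (jqModC S.A) := by
  refine expA_eq ⟨?_, ?_⟩
  · exact mod1_dil (mod1_dil jM.2 d) S.M
  · rw [S.coeffMap_ιA_jq]
    have h := lx_dil (jdM d) S.M
    rw [lx_jdM, ← coeffMap_qExpand'] at h
    refine h.trans ?_
    rw [qExpand_qExpand]
    exact qExpand_congr (mul_comm _ _) _
where
  coeffMap_qExpand' {d : ℕ} [NeZero d] :
      qExpand ℂ d (coeffEmb ℂ jq) = coeffEmb ℂ (qExpand ℚ d jq) :=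
    (ModularCurve.coeffMap_qExpand _ d jq).symm

theorem act_jL (γ : SL(2, ℤ)) : act γ S.jL = S.jL :=
  Subtype.ext (funext fun τ => jFun_smul γ⁻¹ τ)

theorem smul_jL (g : S.G) : g • S.jL = S.jL := by
  obtain ⟨γ, rfl⟩ := S.mkG_surjective g
  exact S.act_jL γ

theorem coeff_jM_pow_of_lt {n : ℕ} {m : ℤ} (hm : m < -((n * S.M : ℕ) : ℤ)) :
    ((S.expA S.jL) ^ n).coeff m = 0 := by
  rw [expA_jL, ← map_pow]
  by_cases hd : (S.M : ℤ) ∣ m
  · obtain ⟨c, rfl⟩ := hd
    rw [qExpand_coeff_mul]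
    refine coeff_jqModC_pow_of_lt S.A (b := n) (m := c) ?_
    have hM : (0 : ℤ) < S.M := by exact_mod_cast Nat.pos_of_ne_zero (NeZero.ne S.M)
    by_contra hc
    push Not at hc
    have h1 : (S.M : ℤ) * (-(n : ℤ)) ≤ (S.M : ℤ) * c := mul_le_mul_of_nonneg_left hc hM.le
    push_cast at hm
    linarith
  · exact qExpand_coeff_of_not_dvd _ _ hd

theorem coeff_jM_pow_self (n : ℕ) :
    ((S.expA S.jL) ^ n).coeff (-((n * S.M : ℕ) : ℤ)) = 1 := by
  rw [expA_jL, ← map_pow, show (-((n * S.M : ℕ) : ℤ)) = (S.M : ℤ) * (-(n : ℤ)) by push_cast; ring,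
    qExpand_coeff_mul]
  exact coeff_jqModC_pow_self S.A n

theorem algebraMap_eq (a : S.A) (τ : ℍ) :
    ((algebraMap S.A S.LF a : S.LF) : ℍ → ℂ) τ = S.ιA a := rfl

theorem aeval_jL_apply (P : Polynomial S.A) (τ : ℍ) :
    (Polynomial.aeval S.jL P : ℍ → ℂ) τ = (P.map S.ιA).eval (jFun τ) := by
  induction P using Polynomial.induction_on' with
  | add p q hp hq =>
    rw [map_add, Polynomial.map_add, Polynomial.eval_add, ← hp, ← hq]
    rfl
  | monomial n a =>
    rw [Polynomial.aeval_monomial, Polynomial.map_monomial, Polynomial.eval_monomial]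
    rfl

/-- invariant elements are polynomials in `j`, of degree bounded by the pole -/
theorem exists_poly_of_invariant (x : S.LF) (hx : ∀ γ, act γ x = x) (m : ℕ)
    (hm : ∀ n < -((m * S.M : ℕ) : ℤ), (S.expA x).coeff n = 0) :
    ∃ P : Polynomial S.A, P.natDegree ≤ m ∧ x = Polynomial.aeval S.jL P := by
  have hinv : ∀ (γ : SL(2, ℤ)) τ, (x : ℍ → ℂ) (γ • τ) = (x : ℍ → ℂ) τ := fun γ τ => by
    simpa using congrFun (congrArg Subtype.val (hx γ⁻¹)) τ
  obtain ⟨h, hl⟩ := S.hasExp_expA x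
  obtain ⟨n, hn⟩ := h.growth
  have hb : UpperHalfPlane.IsBoundedAtImInfty ((x : ℍ → ℂ) * qp ^ n) := by
    have h2 := hn.comp_tendsto (tendsto_aff 1 0 S.M)
    refine Asymptotics.IsBigO.trans (Asymptotics.isBigO_of_le _ fun τ => ?_) h2
    have e : scale S.M (aff 1 0 S.M τ) = τ := by
      ext
      rw [coe_scale, coe_aff]
      have : (S.M : ℂ) ≠ 0 := Nat.cast_ne_zero.mpr (NeZero.ne S.M)
      field_simp
      simp
    simp only [Pi.mul_apply, Function.comp_apply, dil, e, Pi.pow_apply, norm_mul, norm_pow]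
    gcongr
    rw [norm_qp, norm_qp, im_aff, Real.exp_le_exp, Nat.cast_one, one_mul]
    have hM : (1 : ℝ) ≤ S.M := by exact_mod_cast Nat.pos_of_ne_zero (NeZero.ne S.M)
    have h4 : τ.im / S.M ≤ τ.im := div_le_self τ.im_pos.le hM
    nlinarith [Real.pi_pos]
  obtain ⟨Q, -, hQ⟩ := exists_poly_jFun x.2.1 hinv hb
  suffices h : ∀ (d : ℕ) (Q : Polynomial ℂ), Q.natDegree ≤ d → ∀ y : S.LF,
      (∀ τ, (y : ℍ → ℂ) τ = Q.eval (jFun τ)) →
      (∀ n < -((m * S.M : ℕ) : ℤ), (S.expA y).coeff n = 0) →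
      ∃ P : Polynomial S.A, P.natDegree ≤ m ∧ y = Polynomial.aeval S.jL P from
    h Q.natDegree Q le_rfl x hQ hm
  intro d
  induction d with
  | zero =>
    intro Q hQd y hy hyc
    obtain ⟨c, rfl⟩ := Polynomial.natDegree_eq_zero.mp (Nat.le_zero.mp hQd)
    obtain ⟨a, ha⟩ : ∃ a : S.A, S.ιA a = c := by
      obtain ⟨h', hl'⟩ := S.hasExp_expA y
      have e : (⟨dil S.M (y : ℍ → ℂ), h'⟩ : M1) = algebraMap ℂ M1 c :=
        Subtype.ext (funext fun τ => by simp [dil, hy])
      rw [e, AlgHom.commutes, algebraMap_laurentSeries_eq_single] at hl'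
      exact ⟨(S.expA y).coeff 0, by simpa using (congrArg (fun z => z.coeff 0) hl').symm⟩
    refine ⟨Polynomial.C a, by simp, Subtype.ext (funext fun τ => ?_)⟩
    rw [hy, aeval_jL_apply]
    simp [ha]
  | succ d ih =>
    intro Q hQd y hy hyc
    set c := Q.coeff (d + 1) with hc
    obtain ⟨h', hl'⟩ := S.hasExp_expA y
    have e : (⟨dil S.M (y : ℍ → ℂ), h'⟩ : M1) =
        Polynomial.aeval (⟨dil S.M jFun, mod1_dil jM.2 S.M⟩ : M1) Q := by
      refine Subtype.ext (funext fun τ => ?_)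
      rw [Polynomial.aeval_subalgebra_coe, Polynomial.aeval_fn_apply]
      simp only [dil, hy]
      exact (congrFun (Polynomial.coe_aeval_eq_eval _) Q).symm
    have hj : lx ⟨dil S.M jFun, mod1_dil jM.2 S.M⟩ = coeffMap S.ιA (S.expA S.jL) :=
      (S.hasExp_expA S.jL).choose_spec
    rw [e, ← Polynomial.aeval_algHom_apply, hj] at hl'
    have hcoef : S.ιA ((S.expA y).coeff (-(((d + 1) * S.M : ℕ) : ℤ))) = c := by
      have h3 := congrArg (fun z : LaurentSeries ℂ => z.coeff (-(((d + 1) * S.M : ℕ) : ℤ))) hl'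
      simp only [coeffMap_coeff] at h3
      rw [← h3, Polynomial.aeval_eq_sum_range' (Nat.lt_succ_of_le hQd), HahnSeries.coeff_sum]
      rw [Finset.sum_eq_single (d + 1)]
      · rw [Algebra.smul_def, ← map_pow, algebraMap_laurentSeries_eq_single,
          HahnSeries.coeff_single_zero_mul, coeffMap_coeff, coeff_jM_pow_self, map_one, mul_one]
      · intro i hi hne
        have hi' : i < d + 1 := by have := Finset.mem_range.mp hi; omega
        rw [Algebra.smul_def, ← map_pow, algebraMap_laurentSeries_eq_single,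
          HahnSeries.coeff_single_zero_mul, coeffMap_coeff,
          S.coeff_jM_pow_of_lt (by
            have h4 : i * S.M < (d + 1) * S.M :=
              Nat.mul_lt_mul_of_pos_right hi' (Nat.pos_of_ne_zero (NeZero.ne S.M))
            omega), map_zero, mul_zero]
      · intro h5; exact absurd (Finset.mem_range.mpr (Nat.lt_succ_self _)) h5
    set a := (S.expA y).coeff (-(((d + 1) * S.M : ℕ) : ℤ)) with ha
    have ha0 : m < d + 1 → a = 0 := fun hmd => hyc _ (by
      have h4 : m * S.M < (d + 1) * S.M :=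
        Nat.mul_lt_mul_of_pos_right hmd (Nat.pos_of_ne_zero (NeZero.ne S.M))
      omega)
    obtain ⟨P, hP, hPy⟩ := ih (Q - Polynomial.C c * Polynomial.X ^ (d + 1)) (by
      rw [Polynomial.natDegree_le_iff_coeff_eq_zero]
      intro i hi
      rcases eq_or_lt_of_le (Nat.succ_le_of_lt hi) with h5 | h5
      · subst h5; simp [hc]
      · rw [Polynomial.coeff_sub, Polynomial.coeff_eq_zero_of_natDegree_lt (by omega),
          Polynomial.coeff_C_mul_X_pow, if_neg (by omega), sub_zero])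
      (y - algebraMap S.A S.LF a * S.jL ^ (d + 1)) (fun τ => by
        show (y : ℍ → ℂ) τ - S.ιA a * jFun τ ^ (d + 1) = _
        rw [hy, hcoef, Polynomial.eval_sub, Polynomial.eval_C_mul, Polynomial.eval_X_pow])
      (fun i hi => by
        rw [map_sub, map_mul, map_pow, expA_algebraMap, HahnSeries.C_apply, HahnSeries.coeff_sub,
          HahnSeries.coeff_single_zero_mul, hyc i hi]
        by_cases hmd : m < d + 1
        · rw [ha0 hmd, zero_mul, sub_zero]
        · have h4 : (d + 1) * S.M ≤ m * S.M := Nat.mul_le_mul_right _ (by omega)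
          rw [S.coeff_jM_pow_of_lt (by omega), mul_zero, sub_zero])
    refine ⟨P + Polynomial.C a * Polynomial.X ^ (d + 1), ?_, ?_⟩
    · by_cases hmd : m < d + 1
      · simpa [ha0 hmd] using hP
      · refine (Polynomial.natDegree_add_le _ _).trans (max_le hP ?_)
        exact (Polynomial.natDegree_C_mul_X_pow_le _ _).trans (by omega)
    · rw [map_add, ← hPy, map_mul, Polynomial.aeval_C, map_pow, Polynomial.aeval_X]
      ring

theorem isIntegral_adjoin_jL (x : S.LF) :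
    IsIntegral (Algebra.adjoin S.A ({S.jL} : Set S.LF)) x := by
  classical
  have := Fintype.ofFinite S.G
  have hP : (prodXSubSMul S.G S.LF x).Monic := prodXSubSMul.monic S.G S.LF x
  have hc : ∀ i, (prodXSubSMul S.G S.LF x).coeff i ∈ Algebra.adjoin S.A ({S.jL} : Set S.LF) := by
    intro i
    obtain ⟨m, hm⟩ : ∃ m : ℕ, ∀ n < -((m * S.M : ℕ) : ℤ),
        (S.expA ((prodXSubSMul S.G S.LF x).coeff i)).coeff n = 0 := by
      refine ⟨(-(S.expA ((prodXSubSMul S.G S.LF x).coeff i)).order).toNat, fun n hn => ?_⟩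
      refine HahnSeries.coeff_eq_zero_of_lt_order ?_
      have := Nat.pos_of_ne_zero (NeZero.ne S.M)
      have h1 : (-(S.expA ((prodXSubSMul S.G S.LF x).coeff i)).order).toNat ≤
          (-(S.expA ((prodXSubSMul S.G S.LF x).coeff i)).order).toNat * S.M :=
        Nat.le_mul_of_pos_right _ this
      omega
    obtain ⟨P, -, hP⟩ := S.exists_poly_of_invariant _
      (fun γ => prodXSubSMul.coeff S.G S.LF x (S.mkG γ) i) m hm
    rw [hP]
    exact Polynomial.aeval_mem_adjoin_singleton _ _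
  have hl : prodXSubSMul S.G S.LF x ∈ Polynomial.lifts
      (algebraMap (Algebra.adjoin S.A ({S.jL} : Set S.LF)) S.LF) :=
    (Polynomial.lifts_iff_coeff_lifts _).mpr fun i => ⟨⟨_, hc i⟩, rfl⟩
  obtain ⟨q, hq, -, hqm⟩ := Polynomial.lifts_and_natDegree_eq_and_monic hl hP
  exact ⟨q, hqm, by rw [Polynomial.eval₂_eq_eval_map, hq]; exact prodXSubSMul.eval S.G S.LF x⟩

end Lev

end FLTAgent.Good
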