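import Fermat.Agent.Good.Units
import Fermat.Agent.Good.JInv
import Fermat.Agent.Good.SL2

/-!
Auxiliary facts for the base of the level `M` ring: symmetries of `℘`-values, labels of level
`k ∣ M`, finite checks at `k = 2, 3`.
-/

set_option autoImplicit false

noncomputable section

open UpperHalfPlane ModularCurve CongruenceSubgroup PeriodPair
open scoped MatrixGroups Manifold Topology Real

namespace FLTAgent.Good

open ModFun

section Values

variable (M : ℕ) [NeZero M]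

/-- `℘(z_v) / (2πi)²` -/
def wpVal (v : Lbl M) (τ : ℍ) : ℂ :=
  PeriodPair.weierstrassP (periodPairAt τ) (torsPt M v τ) / (2 * π * Complex.I) ^ 2

omit [NeZero M] in
theorem pDiff_eq_wpVal (v w : Lbl M) (τ : ℍ) : pDiff M v w τ = wpVal M v τ - wpVal M w τ := by
  simp [pDiff, wpVal, sub_div]

theorem wpVal_neg {v : Lbl M} (hv : v ≠ 0) (τ : ℍ) : wpVal M (-v) τ = wpVal M v τ := by
  rw [wpVal, wpVal, (weierstrassP_eq_iff _ (torsPt_notMem M (neg_ne_zero.mpr hv) τ)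
    (torsPt_notMem M hv τ)).mpr (Or.inr ((torsPt_add_mem_iff M (-v) v τ).mpr rfl))]

/-- `x ≡ y` up to sign -/
def PM (x y : Lbl M) : Prop := x = y ∨ x = -y

theorem wpVal_pm {x y : Lbl M} (hy : y ≠ 0) (h : PM M x y) (τ : ℍ) :
    wpVal M x τ = wpVal M y τ := by
  rcases h with rfl | rfl
  · rfl
  · exact wpVal_neg M hy τ

end Values

section Levels

variable {M k : ℕ}

/-- `i ↦ i·(M/k)` -/
def blC (hk : k ∣ M) : ZMod k →+ ZMod M :=
  ZMod.lift k ⟨(Int.castAddHom (ZMod M)).comp (AddMonoidHom.mulRight ((M / k : ℕ) : ℤ)), by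
    show (((k : ℤ) * ((M / k : ℕ) : ℤ) : ℤ) : ZMod M) = 0
    rw [← Nat.cast_mul, Int.cast_natCast, Nat.mul_div_cancel' hk, ZMod.natCast_self]⟩

theorem blC_intCast (hk : k ∣ M) (n : ℤ) :
    blC hk (n : ZMod k) = ((n * ((M / k : ℕ) : ℤ) : ℤ) : ZMod M) := by
  rw [blC, ZMod.lift_coe]; rfl

theorem blC_one (hk : k ∣ M) : blC hk 1 = ((M / k : ℕ) : ZMod M) := by
  have := blC_intCast hk 1
  rw [Int.cast_one, one_mul, Int.cast_natCast] at this
  exact this

theorem blC_mul (hk : k ∣ M) (i : ZMod k) (n : ℤ) :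
    blC hk (i * (n : ZMod k)) = blC hk i * (n : ZMod M) := by
  rw [mul_comm i, ← zsmul_eq_mul, map_zsmul, zsmul_eq_mul, mul_comm]

theorem blC_val [NeZero M] [NeZero k] (hk : k ∣ M) (i : ZMod k) :
    (blC hk i).val = i.val * (M / k) := by
  have h : blC hk i = ((i.val * (M / k) : ℕ) : ZMod M) := by
    have := blC_intCast hk (i.val : ℤ)
    rw [Int.cast_natCast, ZMod.natCast_zmod_val] at this
    rw [this, Int.cast_mul, Int.cast_natCast, Int.cast_natCast, Nat.cast_mul]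
  rw [h, ZMod.val_natCast, Nat.mod_eq_of_lt]
  have hpos : 0 < M / k := Nat.div_pos (Nat.le_of_dvd (Nat.pos_of_ne_zero (NeZero.ne M)) hk)
    (Nat.pos_of_ne_zero (NeZero.ne k))
  calc i.val * (M / k) < k * (M / k) := (Nat.mul_lt_mul_right hpos).mpr (ZMod.val_lt i)
    _ = M := Nat.mul_div_cancel' hk

theorem blC_injective [NeZero M] [NeZero k] (hk : k ∣ M) : Function.Injective (blC hk) := fun i j h => by
  apply ZMod.val_injective
  have h1 := congrArg ZMod.val h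
  rw [blC_val, blC_val] at h1
  exact Nat.eq_of_mul_eq_mul_right
    (Nat.div_pos (Nat.le_of_dvd (Nat.pos_of_ne_zero (NeZero.ne M)) hk)
      (Nat.pos_of_ne_zero (NeZero.ne k))) h1

theorem absVal_blC [NeZero M] [NeZero k] (hk : k ∣ M) (i : ZMod k) :
    absVal M (blC hk i) = absVal k i * (M / k) := by
  rw [absVal, absVal, blC_val, ← Nat.mul_min_mul_right, Nat.sub_mul, Nat.mul_div_cancel' hk]

/-- labels of level `k` as labels of level `M` -/
def bl (hk : k ∣ M) (x : Lbl k) : Lbl M := (blC hk x.1, blC hk x.2)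

theorem lblAct_bl (hk : k ∣ M) (x : Lbl k) (γ : SL(2, ℤ)) :
    lblAct M (bl hk x) γ = bl hk (lblAct k x γ) := by
  simp [lblAct, bl, map_add, blC_mul]

theorem bl_neg (hk : k ∣ M) (x : Lbl k) : bl hk (-x) = -bl hk x := by simp [bl]

theorem bl_injective [NeZero M] [NeZero k] (hk : k ∣ M) : Function.Injective (bl hk) := fun x y h =>
  Prod.ext (blC_injective hk (congrArg Prod.fst h)) (blC_injective hk (congrArg Prod.snd h))

theorem bl_zero (hk : k ∣ M) : bl hk 0 = 0 := by simp [bl]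

theorem Adm.bl [NeZero M] [NeZero k] (hk : k ∣ M) {x y : Lbl k} (h : Adm k x y) :
    Adm M (bl hk x) (bl hk y) := by
  obtain ⟨h1, h2, h3, h4⟩ := h
  refine ⟨fun e => h1 (bl_injective hk (e.trans (bl_zero hk).symm)),
    fun e => h2 (bl_injective hk (e.trans (bl_zero hk).symm)),
    fun e => h3 (bl_injective hk e), fun e => h4 (bl_injective hk ?_)⟩
  rw [bl_neg]; exact e

theorem pOrd_bl [NeZero M] [NeZero k] (hk : k ∣ M) (x y : Lbl k) :
    pOrd M (bl hk x) (bl hk y) = pOrd k x y * ((M / k : ℕ) : ℤ) := by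
  simp only [pOrd, bl, absVal_blC, Nat.cast_mul]
  exact (min_mul_of_nonneg _ _ (by positivity)).symm

/-- `(1,0)` -/
def kA (k : ℕ) : Lbl k := (1, 0)
/-- `(0,1)` -/
def kB (k : ℕ) : Lbl k := (0, 1)
/-- `(1,1)` -/
def kC (k : ℕ) : Lbl k := (1, 1)
/-- `(1,2)` -/
def kD (k : ℕ) : Lbl k := (1, 2)

/-- the pairs in the denominator of weight `12` -/
def den (k : ℕ) : List (Lbl k × Lbl k) :=
  if k = 2 then [(kB k, kA k), (kB k, kC k), (kC k, kA k), (kB k, kA k), (kB k, kC k), (kC k, kA k)]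
  else [(kB k, kA k), (kB k, kC k), (kB k, kD k), (kA k, kC k), (kC k, kD k), (kD k, kA k)]

/-- right action by a matrix given by its entries -/
def act4 (v : Lbl k) (p q r s : ZMod k) : Lbl k := (v.1 * p + v.2 * r, v.1 * q + v.2 * s)

theorem lblAct_eq_act4 (v : Lbl k) (γ : SL(2, ℤ)) :
    lblAct k v γ = act4 v ((γ.1 0 0 : ℤ) : ZMod k) ((γ.1 0 1 : ℤ) : ZMod k)
      ((γ.1 1 0 : ℤ) : ZMod k) ((γ.1 1 1 : ℤ) : ZMod k) := rfl

theorem det_mod (k : ℕ) (γ : SL(2, ℤ)) :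
    ((γ.1 0 0 : ℤ) : ZMod k) * ((γ.1 1 1 : ℤ) : ZMod k) -
      ((γ.1 0 1 : ℤ) : ZMod k) * ((γ.1 1 0 : ℤ) : ZMod k) = 1 := by
  have := γ.2
  rw [Matrix.det_fin_two] at this
  have h := congrArg (fun z : ℤ => (z : ZMod k)) this
  push_cast at h
  exact h

instance (k : ℕ) (v w : Lbl k) : Decidable (Adm k v w) := by unfold Adm; infer_instance

theorem adm_den (k : ℕ) (hk : k = 2 ∨ k = 3) : ∀ q ∈ den k, Adm k q.1 q.2 := by
  rcases hk with rfl | rfl <;> decide

theorem sum_den (k : ℕ) (hk : k = 2 ∨ k = 3) (γ : SL(2, ℤ)) :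
    ((den k).map fun q => pOrd k (lblAct k q.1 γ) (lblAct k q.2 γ)).sum = k := by
  simp only [lblAct_eq_act4]
  have h := det_mod k γ
  generalize ((γ.1 0 0 : ℤ) : ZMod k) = p, ((γ.1 0 1 : ℤ) : ZMod k) = q,
    ((γ.1 1 0 : ℤ) : ZMod k) = r, ((γ.1 1 1 : ℤ) : ZMod k) = s at h ⊢
  revert p q r s
  rcases hk with rfl | rfl <;> decide

/-- the order of `u` -/
def uOrd (k : ℕ) (p q r s : ZMod k) : ℤ :=
  pOrd k (act4 (kC k) p q r s) (act4 (kA k) p q r s) -
    pOrd k (act4 (kB k) p q r s) (act4 (kA k) p q r s)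

theorem rigid4 (k : ℕ) (hk : k = 2 ∨ k = 3) : ∀ p q r s : ZMod k, p * s - q * r = 1 →
    uOrd k p q r s = uOrd k 1 0 0 1 → uOrd k (p - q) q (r - s) s = uOrd k 1 0 (-1) 1 →
      (p = 1 ∧ q = 0 ∧ r = 0 ∧ s = 1) ∨ (p = -1 ∧ q = 0 ∧ r = 0 ∧ s = -1) := by
  rcases hk with rfl | rfl <;> decide

theorem cross4 : ∀ p q r s : ZMod 3, p * s - q * r = 1 →
    uOrd 3 p q r s + (pOrd 3 (act4 (kD 3) p q r s) (act4 (kB 3) p q r s) -
      pOrd 3 (act4 (kD 3) p q r s) (act4 (kC 3) p q r s)) = 0 := by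
  decide

end Levels

end FLTAgent.Good
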