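import Fermat.Agent.Good.BaseUnits

/-!
The cross ratio at level `3` is constant; the invariant `J₀` is linear in `j` with unit coefficient.
-/

set_option autoImplicit false

noncomputable section

open UpperHalfPlane ModularCurve CongruenceSubgroup
open scoped MatrixGroups Manifold Topology Real

namespace FLTAgent.Good

open ModFun

/-! ### symmetric expressions in values at level `2`, `3` -/

/-- the pairs of labels up to sign -/
def prs (k : ℕ) : List (Lbl k × Lbl k) :=
  if k = 2 then [(kB k, kA k), (kB k, kC k), (kC k, kA k)] else den k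

/-- the sum of sixth powers of differences -/
def sumSix {k : ℕ} (f : Lbl k → ℂ) : ℂ :=
  ((prs k).map fun p => (f p.1 - f p.2) ^ 6).sum

/-- the product of weight `12` -/
def prodDen {k : ℕ} (f : Lbl k → ℂ) : ℂ :=
  ((den k).map fun p => f p.1 - f p.2).prod

theorem sym_T (k : ℕ) (hk : k = 2 ∨ k = 3) (f : Lbl k → ℂ) :
    sumSix (fun x => f (lblAct k x ModularGroup.T)) = sumSix f ∧
      prodDen (fun x => f (lblAct k x ModularGroup.T)) = prodDen f := by
  rcases hk with rfl | rfl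
  · have ha : lblAct 2 (kA 2) ModularGroup.T = kC 2 := by decide
    have hb : lblAct 2 (kB 2) ModularGroup.T = kB 2 := by decide
    have hc : lblAct 2 (kC 2) ModularGroup.T = kA 2 := by decide
    constructor <;> simp [sumSix, prodDen, prs, den, ha, hb, hc] <;> ring
  · have ha : lblAct 3 (kA 3) ModularGroup.T = kC 3 := by decide
    have hb : lblAct 3 (kB 3) ModularGroup.T = kB 3 := by decide
    have hc : lblAct 3 (kC 3) ModularGroup.T = kD 3 := by decide
    have hd : lblAct 3 (kD 3) ModularGroup.T = kA 3 := by decide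
    constructor <;> simp [sumSix, prodDen, prs, den, ha, hb, hc, hd] <;> ring

theorem sym_S (k : ℕ) (hk : k = 2 ∨ k = 3) (f : Lbl k → ℂ) (hf : ∀ x, x ≠ 0 → f (-x) = f x) :
    sumSix (fun x => f (lblAct k x ModularGroup.S)) = sumSix f ∧
      prodDen (fun x => f (lblAct k x ModularGroup.S)) = prodDen f := by
  rcases hk with rfl | rfl
  · have ha : lblAct 2 (kA 2) ModularGroup.S = kB 2 := by decide
    have hb : lblAct 2 (kB 2) ModularGroup.S = kA 2 := by decide
    have hc : lblAct 2 (kC 2) ModularGroup.S = kC 2 := by decide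
    constructor <;> simp [sumSix, prodDen, prs, den, ha, hb, hc] <;> ring
  · have ha : lblAct 3 (kA 3) ModularGroup.S = -kB 3 := by decide
    have hb : lblAct 3 (kB 3) ModularGroup.S = kA 3 := by decide
    have hc : lblAct 3 (kC 3) ModularGroup.S = kD 3 := by decide
    have hd : lblAct 3 (kD 3) ModularGroup.S = -kC 3 := by decide
    have f1 := hf (kB 3) (by decide)
    have f2 := hf (kC 3) (by decide)
    constructor <;> simp [sumSix, prodDen, prs, den, ha, hb, hc, hd, f1, f2] <;> ring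

theorem adm_prs (k : ℕ) (hk : k = 2 ∨ k = 3) : ∀ q ∈ prs k, Adm k q.1 q.2 := by
  rcases hk with rfl | rfl <;> decide

theorem prod_div_den {ι : Type*} (X : ℂ) (g : ι → ℂ) (l : List ι) :
    (l.map fun q => X / g q).prod = X ^ l.length / (l.map g).prod := by
  induction l with
  | nil => simp
  | cons a l ih =>
    simp only [List.map_cons, List.prod_cons, List.length_cons, ih, pow_succ']
    rw [div_mul_div_comm]

theorem length_den (k : ℕ) (hk : k = 2 ∨ k = 3) : (den k).length = 6 := by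
  rcases hk with rfl | rfl <;> decide

theorem sum_prs {R : Type*} [CommRing R] (k : ℕ) (hk : k = 2 ∨ k = 3) (C : Lbl k → Lbl k → R)
    (hT : ∀ x y, Adm k x y → C (lblAct k x ModularGroup.T) (lblAct k y ModularGroup.T) = C x y)
    (h0 : ∀ x y, Adm k x y → 0 < pOrd k x y → C x y = 0) :
    ((prs k).map fun p => C p.1 p.2).sum = k * C (kB k) (kA k) := by
  rcases hk with rfl | rfl
  · have e1 := hT (kB 2) (kA 2) (by decide)
    rw [show lblAct 2 (kB 2) ModularGroup.T = kB 2 by decide,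
      show lblAct 2 (kA 2) ModularGroup.T = kC 2 by decide] at e1
    have e2 := h0 (kC 2) (kA 2) (by decide) (by decide)
    simp [prs, e1, e2]
    ring
  · have e1 := hT (kB 3) (kA 3) (by decide)
    rw [show lblAct 3 (kB 3) ModularGroup.T = kB 3 by decide,
      show lblAct 3 (kA 3) ModularGroup.T = kC 3 by decide] at e1
    have e1' := hT (kB 3) (kC 3) (by decide)
    rw [show lblAct 3 (kB 3) ModularGroup.T = kB 3 by decide,
      show lblAct 3 (kC 3) ModularGroup.T = kD 3 by decide, e1] at e1'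
    have e2 := h0 (kA 3) (kC 3) (by decide) (by decide)
    have e3 := h0 (kC 3) (kD 3) (by decide) (by decide)
    have e4 := h0 (kD 3) (kA 3) (by decide) (by decide)
    simp [prs, den, e1, e1', e2, e3, e4]
    ring

namespace Lev

variable (S : Lev)

/-- values at the base labels -/
def vals (τ : ℍ) (x : Lbl S.M0) : ℂ := wpVal S.M (S.bb x) τ

theorem vals_neg (τ : ℍ) (x : Lbl S.M0) (hx : x ≠ 0) : S.vals τ (-x) = S.vals τ x := by
  rw [vals, vals, bb, bl_neg]
  exact wpVal_neg S.M (fun h => hx (bl_injective S.dvd (h.trans (bl_zero S.dvd).symm))) τ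

theorem evPt_pQuot_bb {x y x' y' : Lbl S.M0} (h : Adm S.M0 x y) (h' : Adm S.M0 x' y') (τ : ℍ) :
    S.evPt τ (S.pQuot (S.bb x) (S.bb y) (S.bb x') (S.bb y')) =
      (S.vals τ x - S.vals τ y) / (S.vals τ x' - S.vals τ y') :=
  S.evPt_pQuot (S.adm_bb h) (S.adm_bb h') τ

theorem vals_sub_ne {x y : Lbl S.M0} (h : Adm S.M0 x y) (τ : ℍ) :
    S.vals τ x - S.vals τ y ≠ 0 := S.wp_sub_ne_zero (S.adm_bb h) τ

theorem evPt_algebraMap (a : S.A) (τ : ℍ) : S.evPt τ (algebraMap S.A S.LF a) = S.ιA a := rfl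

theorem evPt_act_termG {x y : Lbl S.M0} (h : Adm S.M0 x y) (γ : SL(2, ℤ)) (τ : ℍ) :
    S.evPt τ (act γ (S.termG (S.bb x) (S.bb y))) =
      (S.vals τ (lblAct S.M0 x γ⁻¹) - S.vals τ (lblAct S.M0 y γ⁻¹)) ^ 6 /
        prodDen (fun z => S.vals τ (lblAct S.M0 z γ⁻¹)) := by
  rw [S.act_termG (S.adm_bb h), map_list_prod, List.map_map, lblAct_bl, lblAct_bl]
  have hm : ((den S.M0).map (S.evPt τ ∘ fun q => S.pQuot (bl S.dvd (lblAct S.M0 x γ⁻¹))
      (bl S.dvd (lblAct S.M0 y γ⁻¹))
      (S.bb (lblAct S.M0 q.1 γ⁻¹)) (S.bb (lblAct S.M0 q.2 γ⁻¹)))) =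
      (den S.M0).map fun q => (S.vals τ (lblAct S.M0 x γ⁻¹) - S.vals τ (lblAct S.M0 y γ⁻¹)) /
        (S.vals τ (lblAct S.M0 q.1 γ⁻¹) - S.vals τ (lblAct S.M0 q.2 γ⁻¹)) :=
    List.map_congr_left fun q hq =>
      S.evPt_pQuot_bb (h.act S.M0 γ⁻¹) ((adm_den _ S.hM0 q hq).act S.M0 γ⁻¹) τ
  rw [hm, prod_div_den, length_den _ S.hM0]
  rfl

theorem evPt_termG {x y : Lbl S.M0} (h : Adm S.M0 x y) (τ : ℍ) :
    S.evPt τ (S.termG (S.bb x) (S.bb y)) =
      (S.vals τ x - S.vals τ y) ^ 6 / prodDen (S.vals τ) := by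
  have := S.evPt_act_termG h 1 τ
  have e : act (1 : SL(2, ℤ)) (S.termG (S.bb x) (S.bb y)) = S.termG (S.bb x) (S.bb y) := by
    rw [← S.actHom_apply, map_one]; rfl
  simpa [e, lblAct_one] using this

/-- the invariant -/
def J0 : S.LF := ((prs S.M0).map fun p => S.termG (S.bb p.1) (S.bb p.2)).sum

theorem evPt_act_J0 (γ : SL(2, ℤ)) (τ : ℍ) :
    S.evPt τ (act γ S.J0) = sumSix (fun z => S.vals τ (lblAct S.M0 z γ⁻¹)) /
      prodDen (fun z => S.vals τ (lblAct S.M0 z γ⁻¹)) := by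
  rw [J0, map_list_sum, map_list_sum, List.map_map, List.map_map, sumSix]
  have h : ∀ l : List (Lbl S.M0 × Lbl S.M0), (∀ p ∈ l, Adm S.M0 p.1 p.2) →
      (l.map (S.evPt τ ∘ (act γ : S.LF ≃+* S.LF) ∘ fun p => S.termG (S.bb p.1) (S.bb p.2))).sum =
      (l.map fun p => (S.vals τ (lblAct S.M0 p.1 γ⁻¹) - S.vals τ (lblAct S.M0 p.2 γ⁻¹)) ^ 6).sum /
        prodDen (fun z => S.vals τ (lblAct S.M0 z γ⁻¹)) := by
    intro l hl
    induction l with
    | nil => simp
    | cons a l ih =>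
      simp only [List.map_cons, List.sum_cons, add_div, Function.comp_apply]
      rw [S.evPt_act_termG (hl a List.mem_cons_self),
        ← ih fun i hi => hl i (List.mem_cons_of_mem _ hi)]
  exact h _ (adm_prs _ S.hM0)

theorem evPt_J0 (τ : ℍ) : S.evPt τ S.J0 = sumSix (S.vals τ) / prodDen (S.vals τ) := by
  have := S.evPt_act_J0 1 τ
  have e : act (1 : SL(2, ℤ)) S.J0 = S.J0 := by rw [← S.actHom_apply, map_one]; rfl
  simpa [e, lblAct_one] using this

theorem act_J0 (γ : SL(2, ℤ)) : act γ S.J0 = S.J0 := by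
  let H : Subgroup SL(2, ℤ) :=
    { carrier := {γ | act γ S.J0 = S.J0}
      one_mem' := by show act 1 S.J0 = S.J0; rw [← S.actHom_apply, map_one]; rfl
      mul_mem' := fun {a b} ha hb => by
        show act (a * b) S.J0 = S.J0
        rw [← S.act_act_base, show act b S.J0 = S.J0 from hb]; exact ha
      inv_mem' := fun {a} ha => by
        show act a⁻¹ S.J0 = S.J0
        conv_lhs => rw [← show act a S.J0 = S.J0 from ha]
        rw [S.act_act_base, inv_mul_cancel, ← S.actHom_apply, map_one]; rfl }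
  have hT : ModularGroup.T⁻¹ ∈ H := S.LF_ext fun τ => by
    have h := sym_T S.M0 S.hM0 (S.vals τ)
    rw [S.evPt_act_J0, S.evPt_J0, inv_inv, h.1, h.2]
  have hS : ModularGroup.S⁻¹ ∈ H := S.LF_ext fun τ => by
    have h := sym_S S.M0 S.hM0 (S.vals τ) (S.vals_neg τ)
    rw [S.evPt_act_J0, S.evPt_J0, inv_inv, h.1, h.2]
  have htop : H = ⊤ := by
    rw [eq_top_iff, ← SpecialLinearGroup.SL2Z_generators, Subgroup.closure_le]
    rintro x (rfl | rfl)
    · exact (inv_mem_iff (H := H)).mp hS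
    · exact (inv_mem_iff (H := H)).mp hT
  exact (htop ▸ Subgroup.mem_top γ : γ ∈ H)

theorem act_T_inv_termG {x y x' y' : Lbl S.M0} (h : Adm S.M0 x y) (h' : Adm S.M0 x' y')
    (hx : lblAct S.M0 x ModularGroup.T = x') (hy : lblAct S.M0 y ModularGroup.T = y') :
    act ModularGroup.T⁻¹ (S.termG (S.bb x) (S.bb y)) = S.termG (S.bb x') (S.bb y') :=
  S.LF_ext fun τ => by
    rw [S.evPt_act_termG h, S.evPt_termG h', inv_inv, hx, hy,
      (sym_T S.M0 S.hM0 (S.vals τ)).2]

theorem tUnit_pow_M : S.tUnit ^ S.M = 1 := by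
  apply Units.map_injective (f := (S.ιA : S.A →* ℂ)) S.ιA_injective
  rw [map_pow, S.tUnit_spec, map_one]
  refine Units.ext ?_
  simp only [Units.val_pow_eq_pow_val, expUnit, Units.val_mk0, Units.val_one, ← Complex.exp_nat_mul]
  rw [← Complex.exp_two_pi_mul_I]
  congr 1
  push_cast
  have : (S.M : ℂ) ≠ 0 := Nat.cast_ne_zero.mpr (NeZero.ne S.M)
  field_simp

theorem hasLead_termG_bb {x y : Lbl S.M0} (h : Adm S.M0 x y) :
    HasLead (S.expA (S.termG (S.bb x) (S.bb y)))
      (6 * (pOrd S.M0 x y * ((S.M / S.M0 : ℕ) : ℤ)) - S.M) := by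
  have e : act (1 : SL(2, ℤ)) (S.termG (S.bb x) (S.bb y)) = S.termG (S.bb x) (S.bb y) := by
    rw [← S.actHom_apply, map_one]; rfl
  have := S.hasLead_termG (S.adm_bb h) 1
  simpa [e, lblAct_one, pOrd_bl] using this

/-- the coefficient of `q⁻¹` of a term -/
def polC (x y : Lbl S.M0) : S.A := (S.expA (S.termG (S.bb x) (S.bb y))).coeff (-(S.M : ℤ))

theorem polC_T {x y x' y' : Lbl S.M0} (h : Adm S.M0 x y) (h' : Adm S.M0 x' y')
    (hx : lblAct S.M0 x ModularGroup.T = x') (hy : lblAct S.M0 y ModularGroup.T = y') :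
    S.polC x' y' = S.polC x y := by
  rw [polC, ← S.act_T_inv_termG h h' hx hy, S.expA_act_T_inv, coeff_twist, polC]
  have e : upow S.tUnit (-(S.M : ℤ)) = 1 := by
    simp [upow, zpow_neg, tUnit_pow_M]
  rw [e, one_mul]

theorem polC_eq_zero {x y : Lbl S.M0} (h : Adm S.M0 x y) (h1 : 0 < pOrd S.M0 x y) :
    S.polC x y = 0 := by
  refine (S.hasLead_termG_bb h).zero _ ?_
  have : (0 : ℤ) < ((S.M / S.M0 : ℕ) : ℤ) := by exact_mod_cast S.mm_pos
  nlinarith

theorem isUnit_polC {x y : Lbl S.M0} (h : Adm S.M0 x y) (h1 : pOrd S.M0 x y = 0) :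
    IsUnit (S.polC x y) := by
  have := (S.hasLead_termG_bb h).unit
  rwa [h1, zero_mul, mul_zero, zero_sub] at this

theorem coeff_J0_of_lt {n : ℤ} (hn : n < -(S.M : ℤ)) : (S.expA S.J0).coeff n = 0 := by
  rw [J0, map_list_sum, List.map_map]
  have h : ∀ l : List (Lbl S.M0 × Lbl S.M0), (∀ p ∈ l, Adm S.M0 p.1 p.2) →
      ((l.map (S.expA ∘ fun p => S.termG (S.bb p.1) (S.bb p.2))).sum).coeff n = 0 := by
    intro l hl
    induction l with
    | nil => simp
    | cons a l ih =>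
      simp only [List.map_cons, List.sum_cons, HahnSeries.coeff_add, Function.comp_apply]
      rw [(S.hasLead_termG_bb (hl a List.mem_cons_self)).zero n ?_,
        ih fun i hi => hl i (List.mem_cons_of_mem _ hi), add_zero]
      have : (0 : ℤ) ≤ pOrd S.M0 a.1 a.2 := by unfold pOrd; positivity
      have h2 : (0 : ℤ) ≤ pOrd S.M0 a.1 a.2 * ((S.M / S.M0 : ℕ) : ℤ) := by positivity
      omega
  exact h _ (adm_prs _ S.hM0)

theorem coeff_J0_self :
    (S.expA S.J0).coeff (-(S.M : ℤ)) =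
      ((prs S.M0).map fun p => S.polC p.1 p.2).sum := by
  rw [J0, map_list_sum, List.map_map]
  generalize prs S.M0 = l
  induction l with
  | nil => simp
  | cons a l ih => simp [ih, polC]

theorem isUnit_natM0 : IsUnit (S.M0 : S.A) := by
  have h : ¬ S.ℓ ∣ S.M0 := fun h => S.notDvd (h.trans S.dvd)
  refine IsUnit.of_mul_eq_one ⟨_, S.natCast_inv_mem h⟩ (Subtype.ext ?_)
  have h0 : (S.M0 : AlgebraicClosure ℚ) ≠ 0 := Nat.cast_ne_zero.mpr (NeZero.ne S.M0)
  simp [h0]

theorem isUnit_coeff_J0 : IsUnit ((S.expA S.J0).coeff (-(S.M : ℤ))) := by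
  rw [S.coeff_J0_self, sum_prs S.M0 S.hM0 S.polC
    (fun x y h => S.polC_T h (h.act S.M0 _) rfl rfl) fun x y h h' => S.polC_eq_zero h h']
  refine S.isUnit_natM0.mul (S.isUnit_polC ?_ ?_)
  · rcases S.hM0 with h | h <;> rw [h] <;> decide
  · rcases S.hM0 with h | h <;> rw [h] <;> decide

/-- `J₀` is linear in `j` -/
theorem exists_J0_eq : ∃ α β : S.A, IsUnit α ∧
    S.J0 = algebraMap S.A S.LF α * S.jL + algebraMap S.A S.LF β := by
  obtain ⟨P, hP, hJ⟩ := S.exists_poly_of_invariant S.J0 S.act_J0 1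
    fun n hn => S.coeff_J0_of_lt (by simpa using hn)
  have e : S.J0 = algebraMap S.A S.LF (P.coeff 1) * S.jL + algebraMap S.A S.LF (P.coeff 0) := by
    conv_lhs => rw [hJ, Polynomial.eq_X_add_C_of_natDegree_le_one hP]
    simp
  refine ⟨P.coeff 1, P.coeff 0, ?_, e⟩
  have h := S.isUnit_coeff_J0
  rw [e, map_add, map_mul, expA_algebraMap, expA_algebraMap, HahnSeries.C_apply, HahnSeries.C_apply,
    HahnSeries.coeff_add, HahnSeries.coeff_single_zero_mul,
    HahnSeries.coeff_single_of_ne (by simp [NeZero.ne S.M]), add_zero] at h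
  have h1 := S.coeff_jM_pow_self 1
  rw [pow_one, one_mul] at h1
  rwa [h1, mul_one] at h

end Lev

end FLTAgent.Good
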