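import Fermat.Agent.Good.BaseJ

/-!
The cross ratio is constant at level `3`; `j` as a rational function of `u`.
-/

set_option autoImplicit false

noncomputable section

open UpperHalfPlane ModularCurve CongruenceSubgroup
open scoped MatrixGroups Manifold Topology Real

namespace FLTAgent.Good

open ModFun

namespace Lev

variable (S : Lev)

/-- `u` on base labels -/
def uB : S.LF := S.pQuot (S.bb (kC S.M0)) (S.bb (kA S.M0)) (S.bb (kB S.M0)) (S.bb (kA S.M0))

theorem adm_cA : Adm S.M0 (kC S.M0) (kA S.M0) := by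
  rcases S.hM0 with h | h <;> rw [h] <;> decide

theorem adm_bA : Adm S.M0 (kB S.M0) (kA S.M0) := by
  rcases S.hM0 with h | h <;> rw [h] <;> decide

theorem adm_cB : Adm S.M0 (kC S.M0) (kB S.M0) := by
  rcases S.hM0 with h | h <;> rw [h] <;> decide

theorem evPt_uB (τ : ℍ) : S.evPt τ S.uB =
    (S.vals τ (kC S.M0) - S.vals τ (kA S.M0)) / (S.vals τ (kB S.M0) - S.vals τ (kA S.M0)) :=
  S.evPt_pQuot_bb S.adm_cA S.adm_bA τ

theorem isUnit_uB : IsUnit S.uB := S.isUnit_pQuot (S.adm_bb S.adm_cA) (S.adm_bb S.adm_bA)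

theorem isUnit_uB_sub_one : IsUnit (S.uB - 1) := by
  have e : S.uB - 1 =
      S.pQuot (S.bb (kC S.M0)) (S.bb (kB S.M0)) (S.bb (kB S.M0)) (S.bb (kA S.M0)) :=
    S.LF_ext fun τ => by
      rw [map_sub, map_one, S.evPt_uB, S.evPt_pQuot_bb S.adm_cB S.adm_bA]
      field_simp [S.vals_sub_ne S.adm_bA τ]
      ring
  rw [e]
  exact S.isUnit_pQuot (S.adm_bb S.adm_cB) (S.adm_bb S.adm_bA)

/-- a monic polynomial over `A` vanishing at `x` forces `x` to be constant -/
theorem exists_const_of_monic (x : S.LF) :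
    ∀ (d : ℕ) (q : Polynomial S.A), q.natDegree ≤ d → q.Monic → Polynomial.aeval x q = 0 →
      ∃ a : S.A, x = algebraMap S.A S.LF a := by
  intro d
  induction d with
  | zero =>
    intro q hd hq h
    rw [hq.natDegree_eq_zero.mp (Nat.le_zero.mp hd), map_one] at h
    exact absurd h one_ne_zero
  | succ d ih =>
    intro q hd hq h
    rcases Nat.eq_zero_or_pos q.natDegree with h0 | h0
    · exact ih q (by omega) hq h
    obtain ⟨z, hz⟩ := IsAlgClosed.exists_aeval_eq_zero (AlgebraicClosure ℚ) q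
      (fun e => by rw [Polynomial.degree_eq_natDegree hq.ne_zero] at e; norm_num at e; omega)
    obtain ⟨a, rfl⟩ := IsIntegrallyClosed.isIntegral_iff.mp
      (⟨q, hq, hz⟩ : IsIntegral S.A z)
    rw [Polynomial.aeval_algebraMap_apply, map_eq_zero_iff _
      (IsFractionRing.injective S.A (AlgebraicClosure ℚ))] at hz
    obtain ⟨q', hq'⟩ := Polynomial.dvd_iff_isRoot.mpr (show q.IsRoot a from by
      rwa [Polynomial.coe_aeval_eq_eval] at hz)
    have hm : q'.Monic := (Polynomial.monic_X_sub_C a).of_mul_monic_left (hq' ▸ hq)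
    have hd' : q'.natDegree ≤ d := by
      rw [hq', (Polynomial.monic_X_sub_C a).natDegree_mul hm, Polynomial.natDegree_X_sub_C] at hd
      omega
    rw [hq', map_mul, mul_eq_zero, map_sub, Polynomial.aeval_X, Polynomial.aeval_C,
      sub_eq_zero] at h
    rcases h with h | h
    · exact ⟨a, h⟩
    · exact ih q' hd' hm h

/-- an element without poles at any cusp is constant -/
theorem exists_const_of_no_pole (x : S.LF)
    (hx : ∀ γ : SL(2, ℤ), ∀ n < (0 : ℤ), (S.expA (act γ x)).coeff n = 0) :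
    ∃ a : S.A, x = algebraMap S.A S.LF a := by
  classical
  have := Fintype.ofFinite S.G
  have hs : ∀ g : S.G, ∃ Q : PowerSeries S.A,
      S.expA (g • x) = HahnSeries.ofPowerSeries ℤ S.A Q := by
    intro g
    obtain ⟨γ, rfl⟩ := S.mkG_surjective g
    refine ⟨PowerSeries.mk fun n => (S.expA (act γ x)).coeff n, ?_⟩
    ext m
    rw [mkG_smul]
    rcases lt_or_ge m 0 with hm | hm
    · rw [hx γ m hm, ofPowerSeries_coeff_of_neg _ hm]
    · lift m to ℕ using hm
      rw [HahnSeries.ofPowerSeries_apply_coeff, PowerSeries.coeff_mk]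
  choose Q hQ using hs
  set P : Polynomial S.LF := ∏ g : S.G, (Polynomial.X - Polynomial.C (g • x)) with hP
  have hmap : P.map S.expA =
      (∏ g : S.G, (Polynomial.X - Polynomial.C (Q g))).map (HahnSeries.ofPowerSeries ℤ S.A) := by
    rw [hP, Polynomial.map_prod, Polynomial.map_prod]
    exact Finset.prod_congr rfl fun g _ => by simp [hQ g]
  have hc : ∀ i, ∃ a : S.A, algebraMap S.A S.LF a = P.coeff i := by
    intro i
    have hinv : ∀ γ, act γ (P.coeff i) = P.coeff i := by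
      intro γ
      have h1 : P.map (act γ : S.LF ≃+* S.LF).toRingHom = P := by
        rw [hP, Polynomial.map_prod]
        refine Fintype.prod_equiv (Equiv.mulLeft (S.mkG γ)) _ _ fun g => ?_
        simp only [Polynomial.map_sub, Polynomial.map_X, Polynomial.map_C, Equiv.coe_mulLeft,
          mul_smul]
        rfl
      conv_rhs => rw [← h1, Polynomial.coeff_map]
      rfl
    obtain ⟨R, hR, hRe⟩ := S.exists_poly_of_invariant _ hinv 0 fun n hn => by
      rw [← Polynomial.coeff_map, hmap, Polynomial.coeff_map]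
      exact ofPowerSeries_coeff_of_neg _ (by simpa using hn)
    refine ⟨R.coeff 0, ?_⟩
    rw [hRe, Polynomial.eq_C_of_natDegree_le_zero hR]
    simp
  have hPm : P.Monic := Polynomial.monic_prod_of_monic _ _ fun g _ => Polynomial.monic_X_sub_C _
  obtain ⟨q, hq, -, hqm⟩ := Polynomial.lifts_and_natDegree_eq_and_monic
    ((Polynomial.lifts_iff_coeff_lifts _).mpr fun i => hc i) hPm
  refine S.exists_const_of_monic x q.natDegree q le_rfl hqm ?_
  rw [Polynomial.aeval_def, Polynomial.eval₂_eq_eval_map, hq, hP, Polynomial.eval_prod]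
  exact Finset.prod_eq_zero (Finset.mem_univ (1 : S.G)) (by simp)

theorem isUnit_of_hasLead_algebraMap {a : S.A} {m : ℤ}
    (h : HasLead (S.expA (algebraMap S.A S.LF a)) m) : IsUnit a := by
  have hu := h.unit
  rw [expA_algebraMap, HahnSeries.C_apply] at hu
  rcases eq_or_ne m 0 with rfl | hm
  · simpa using hu
  · rw [HahnSeries.coeff_single_of_ne hm] at hu
    exact absurd hu not_isUnit_zero

theorem adm3 (h3 : S.M0 = 3) :
    Adm S.M0 (kD S.M0) (kB S.M0) ∧ Adm S.M0 (kD S.M0) (kC S.M0) ∧ Adm S.M0 (kD S.M0) (kA S.M0) ∧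
      Adm S.M0 (kB S.M0) (kC S.M0) := by
  rw [h3]; decide

theorem cross4' (h3 : S.M0 = 3) (g : SL(2, ℤ)) :
    pOrd S.M0 (lblAct S.M0 (kC S.M0) g) (lblAct S.M0 (kA S.M0) g) -
      pOrd S.M0 (lblAct S.M0 (kB S.M0) g) (lblAct S.M0 (kA S.M0) g) +
      (pOrd S.M0 (lblAct S.M0 (kD S.M0) g) (lblAct S.M0 (kB S.M0) g) -
        pOrd S.M0 (lblAct S.M0 (kD S.M0) g) (lblAct S.M0 (kC S.M0) g)) = 0 := by
  rw [h3]
  have := cross4 _ _ _ _ (det_mod 3 g)
  rw [uOrd] at this
  exact this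

/-- the cross ratio -/
theorem exists_kappa (h3 : S.M0 = 3) :
    ∃ κ : S.A, IsUnit (κ * (1 - κ)) ∧ IsUnit (S.uB - algebraMap S.A S.LF κ) ∧
      ∀ τ, S.ιA κ = (S.vals τ (kC S.M0) - S.vals τ (kA S.M0)) /
          (S.vals τ (kB S.M0) - S.vals τ (kA S.M0)) *
        ((S.vals τ (kD S.M0) - S.vals τ (kB S.M0)) / (S.vals τ (kD S.M0) - S.vals τ (kC S.M0))) := by
  obtain ⟨hdb, hdc, hda, hbc⟩ := S.adm3 h3
  have hca := S.adm_cA
  have hba := S.adm_bA
  set x := S.pQuot (S.bb (kC S.M0)) (S.bb (kA S.M0)) (S.bb (kB S.M0)) (S.bb (kA S.M0)) *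
    S.pQuot (S.bb (kD S.M0)) (S.bb (kB S.M0)) (S.bb (kD S.M0)) (S.bb (kC S.M0)) with hx
  have hord : ∀ γ, HasLead (S.expA (act γ x)) 0 := by
    intro γ
    have h := (S.hasLead_base hca hba γ).mul (S.hasLead_base hdb hdc γ)
    rw [← add_mul, S.cross4' h3, zero_mul] at h
    rwa [hx, map_mul, map_mul]
  obtain ⟨κ, hκ⟩ := S.exists_const_of_no_pole x fun γ n hn => (hord γ).zero n hn
  have hev : ∀ τ, S.ιA κ = (S.vals τ (kC S.M0) - S.vals τ (kA S.M0)) /
          (S.vals τ (kB S.M0) - S.vals τ (kA S.M0)) *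
        ((S.vals τ (kD S.M0) - S.vals τ (kB S.M0)) / (S.vals τ (kD S.M0) - S.vals τ (kC S.M0))) := by
    intro τ
    rw [← S.evPt_algebraMap κ τ, ← hκ, hx, map_mul, S.evPt_pQuot_bb hca hba,
      S.evPt_pQuot_bb hdb hdc]
  have hκu : IsUnit κ := by
    have h := hord 1
    rw [hκ, act_algebraMap] at h
    exact S.isUnit_of_hasLead_algebraMap h
  have h1 : algebraMap S.A S.LF (1 - κ) =
      S.pQuot (S.bb (kB S.M0)) (S.bb (kC S.M0)) (S.bb (kB S.M0)) (S.bb (kA S.M0)) *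
        S.pQuot (S.bb (kD S.M0)) (S.bb (kA S.M0)) (S.bb (kD S.M0)) (S.bb (kC S.M0)) :=
    S.LF_ext fun τ => by
      rw [S.evPt_algebraMap, map_sub, map_one, hev τ, map_mul, S.evPt_pQuot_bb hbc hba,
        S.evPt_pQuot_bb hda hdc]
      field_simp [S.vals_sub_ne hba τ, S.vals_sub_ne hdc τ]
      ring
  have hκ1 : IsUnit (1 - κ) := by
    have h := (S.hasLead_base hbc hba 1).mul (S.hasLead_base hda hdc 1)
    rw [← map_mul, ← map_mul, ← h1, act_algebraMap] at h
    exact S.isUnit_of_hasLead_algebraMap h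
  refine ⟨κ, hκu.mul hκ1, ?_, hev⟩
  have h2 : S.uB - algebraMap S.A S.LF κ =
      S.pQuot (S.bb (kC S.M0)) (S.bb (kA S.M0)) (S.bb (kB S.M0)) (S.bb (kA S.M0)) *
        S.pQuot (S.bb (kB S.M0)) (S.bb (kC S.M0)) (S.bb (kD S.M0)) (S.bb (kC S.M0)) :=
    S.LF_ext fun τ => by
      rw [map_sub, S.evPt_algebraMap, hev τ, S.evPt_uB, map_mul, S.evPt_pQuot_bb hca hba,
        S.evPt_pQuot_bb hbc hdc]
      field_simp [S.vals_sub_ne hba τ, S.vals_sub_ne hdc τ]
      ring
  rw [h2]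
  exact (S.isUnit_pQuot (S.adm_bb hca) (S.adm_bb hba)).mul
    (S.isUnit_pQuot (S.adm_bb hbc) (S.adm_bb hdc))

theorem evPt_aeval (x : S.LF) (P : Polynomial S.A) (τ : ℍ) :
    S.evPt τ (Polynomial.aeval x P) = P.eval₂ S.ιA (S.evPt τ x) := by
  rw [Polynomial.aeval_def, Polynomial.hom_eval₂]
  rfl

theorem identity_two {a b c : ℂ} (h1 : b - a ≠ 0) (h2 : b - c ≠ 0) (h3 : c - a ≠ 0) :
    ((b - a) ^ 6 + (b - c) ^ 6 + (c - a) ^ 6) /
        (((b - a) * (b - c) * (c - a)) * ((b - a) * (b - c) * (c - a))) *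
        ((c - a) / (b - a) * ((c - a) / (b - a) - 1)) ^ 2 =
      1 + (1 - (c - a) / (b - a)) ^ 6 + ((c - a) / (b - a)) ^ 6 := by
  field_simp
  ring

theorem identity_three {a b c d κ : ℂ} (h1 : b - a ≠ 0) (h2 : b - c ≠ 0) (h3 : b - d ≠ 0)
    (h4 : a - c ≠ 0) (h5 : c - d ≠ 0) (h6 : d - a ≠ 0)
    (hκ : κ = (c - a) / (b - a) * ((d - b) / (d - c))) :
    ((b - a) ^ 6 + (b - c) ^ 6 + (b - d) ^ 6 + (a - c) ^ 6 + (c - d) ^ 6 + (d - a) ^ 6) /
        ((b - a) * (b - c) * (b - d) * (a - c) * (c - d) * (d - a)) *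
        ((c - a) / (b - a) * ((c - a) / (b - a) - 1) * ((c - a) / (b - a) - κ)) ^ 3 *
        (κ * (1 - κ)) =
      ((c - a) / (b - a) - κ) ^ 6 * (1 + (1 - (c - a) / (b - a)) ^ 6 + ((c - a) / (b - a)) ^ 6) +
        κ ^ 6 * (1 - (c - a) / (b - a)) ^ 6 +
        ((c - a) / (b - a)) ^ 6 * (1 - (c - a) / (b - a)) ^ 6 +
        ((c - a) / (b - a)) ^ 6 * (1 - κ) ^ 6 := by
  subst hκ
  have h7 : d - c ≠ 0 := fun e => h5 (by linear_combination -e)
  field_simp
  ring

/-- the base polynomial -/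
theorem exists_basePoly :
    ∃ g : Polynomial S.A, IsUnit (Polynomial.aeval S.uB g) ∧ g.Monic ∧
      ∃ (n : ℕ) (P : Polynomial S.A),
        S.J0 * Polynomial.aeval S.uB g ^ n = Polynomial.aeval S.uB P := by
  rcases S.hM0 with h2 | h3
  · refine ⟨Polynomial.X * (Polynomial.X - Polynomial.C 1), ?_,
      Polynomial.monic_X.mul (Polynomial.monic_X_sub_C _), 2,
      1 + (1 - Polynomial.X) ^ 6 + Polynomial.X ^ 6, ?_⟩
    · simpa using S.isUnit_uB.mul S.isUnit_uB_sub_one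
    · refine S.LF_ext fun τ => ?_
      have e : (den S.M0, prs S.M0) =
          ([(kB S.M0, kA S.M0), (kB S.M0, kC S.M0), (kC S.M0, kA S.M0), (kB S.M0, kA S.M0),
            (kB S.M0, kC S.M0), (kC S.M0, kA S.M0)],
          [(kB S.M0, kA S.M0), (kB S.M0, kC S.M0), (kC S.M0, kA S.M0)]) := by
        simp [den, prs, h2]
      simp only [Prod.mk.injEq] at e
      simp only [map_mul, map_pow, map_sub, map_add, map_one, Polynomial.aeval_X, S.evPt_J0,
        S.evPt_uB, sumSix, prodDen, e.1, e.2, List.map_cons, List.map_nil, List.sum_cons,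
        List.sum_nil, List.prod_cons, List.prod_nil]
      rw [← identity_two (S.vals_sub_ne S.adm_bA τ) (S.vals_sub_ne S.adm_cB.symm τ)
        (S.vals_sub_ne S.adm_cA τ)]
      ring
  · obtain ⟨κ, hκu, hu, hev⟩ := S.exists_kappa h3
    obtain ⟨hdb, hdc, hda, hbc⟩ := S.adm3 h3
    set N : Polynomial S.A :=
      (Polynomial.X - Polynomial.C κ) ^ 6 * (1 + (1 - Polynomial.X) ^ 6 + Polynomial.X ^ 6) +
        Polynomial.C κ ^ 6 * (1 - Polynomial.X) ^ 6 + Polynomial.X ^ 6 * (1 - Polynomial.X) ^ 6 +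
        Polynomial.X ^ 6 * (1 - Polynomial.C κ) ^ 6 with hN
    obtain ⟨w, hw⟩ := hκu.exists_left_inv
    refine ⟨Polynomial.X * (Polynomial.X - Polynomial.C 1) * (Polynomial.X - Polynomial.C κ), ?_,
      (Polynomial.monic_X.mul (Polynomial.monic_X_sub_C _)).mul (Polynomial.monic_X_sub_C _), 3,
      Polynomial.C w * N, ?_⟩
    · simpa using (S.isUnit_uB.mul S.isUnit_uB_sub_one).mul hu
    · refine S.LF_ext fun τ => ?_
      have hk : S.ιA w * (S.ιA κ * (1 - S.ιA κ)) = 1 := by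
        simpa using congrArg S.ιA hw
      have e : den S.M0 = [(kB S.M0, kA S.M0), (kB S.M0, kC S.M0), (kB S.M0, kD S.M0),
          (kA S.M0, kC S.M0), (kC S.M0, kD S.M0), (kD S.M0, kA S.M0)] := by
        simp [den, h3]
      have e' : prs S.M0 = den S.M0 := by simp [prs, h3]
      simp only [hN, map_mul, map_pow, map_sub, map_add, map_one, Polynomial.aeval_X,
        Polynomial.aeval_C, S.evPt_J0, S.evPt_uB, S.evPt_algebraMap, sumSix, prodDen, e', e,
        List.map_cons, List.map_nil, List.sum_cons, List.sum_nil, List.prod_cons, List.prod_nil]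
      rw [← identity_three (S.vals_sub_ne S.adm_bA τ) (S.vals_sub_ne hbc τ)
        (S.vals_sub_ne hdb.symm τ) (S.vals_sub_ne S.adm_cA.symm τ) (S.vals_sub_ne hdc.symm τ)
        (S.vals_sub_ne hda τ) (hev τ)]
      linear_combination (-((S.vals τ (kB S.M0) - S.vals τ (kA S.M0)) ^ 6 +
        ((S.vals τ (kB S.M0) - S.vals τ (kC S.M0)) ^ 6 +
        ((S.vals τ (kB S.M0) - S.vals τ (kD S.M0)) ^ 6 +
        ((S.vals τ (kA S.M0) - S.vals τ (kC S.M0)) ^ 6 +
        ((S.vals τ (kC S.M0) - S.vals τ (kD S.M0)) ^ 6 +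
        ((S.vals τ (kD S.M0) - S.vals τ (kA S.M0)) ^ 6)))))) /
        ((S.vals τ (kB S.M0) - S.vals τ (kA S.M0)) * (S.vals τ (kB S.M0) - S.vals τ (kC S.M0)) *
        (S.vals τ (kB S.M0) - S.vals τ (kD S.M0)) * (S.vals τ (kA S.M0) - S.vals τ (kC S.M0)) *
        (S.vals τ (kC S.M0) - S.vals τ (kD S.M0)) * (S.vals τ (kD S.M0) - S.vals τ (kA S.M0))) *
        ((S.vals τ (kC S.M0) - S.vals τ (kA S.M0)) / (S.vals τ (kB S.M0) - S.vals τ (kA S.M0)) *
          ((S.vals τ (kC S.M0) - S.vals τ (kA S.M0)) / (S.vals τ (kB S.M0) - S.vals τ (kA S.M0)) -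
            1) *
          ((S.vals τ (kC S.M0) - S.vals τ (kA S.M0)) / (S.vals τ (kB S.M0) - S.vals τ (kA S.M0)) -
            S.ιA κ)) ^ 3) * hk

theorem exists_base' :
    ∃ g : Polynomial S.A, IsUnit (Polynomial.aeval S.uB g) ∧
      g.map (IsLocalRing.residue S.A) ≠ 0 ∧
      ∃ (n : ℕ) (P : Polynomial S.A),
        S.jL * Polynomial.aeval S.uB g ^ n = Polynomial.aeval S.uB P := by
  obtain ⟨g, hg, hm, n, P, hP⟩ := S.exists_basePoly
  refine ⟨g, hg, (hm.map _).ne_zero, n, ?_⟩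
  obtain ⟨α, β, hα, hJ⟩ := S.exists_J0_eq
  obtain ⟨w, hw⟩ := hα.exists_left_inv
  refine ⟨Polynomial.C w * (P - Polynomial.C β * g ^ n), ?_⟩
  have hw' : algebraMap S.A S.LF w * algebraMap S.A S.LF α = 1 := by rw [← map_mul, hw, map_one]
  rw [map_mul, map_sub, map_mul, map_pow, Polynomial.aeval_C, Polynomial.aeval_C, ← hP, hJ]
  linear_combination (-(S.jL * Polynomial.aeval S.uB g ^ n)) * hw'

end Lev

end FLTAgent.Good
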