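import Fermat.Agent.Good.BaseAux

/-!
Units of weight `12/12` and the cusp orders of the base.
-/

set_option autoImplicit false

noncomputable section

open UpperHalfPlane ModularCurve CongruenceSubgroup
open scoped MatrixGroups Manifold Topology Real

namespace FLTAgent.Good

open ModFun

theorem hasLead_list_prod {R : Type*} [CommRing R] {ι : Type*} (l : List ι)
    (s : ι → LaurentSeries R) (o : ι → ℤ) (h : ∀ i ∈ l, HasLead (s i) (o i)) :
    HasLead (l.map s).prod (l.map o).sum := by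
  induction l with
  | nil => simpa using hasLead_one
  | cons a l ih =>
    simpa using (h a List.mem_cons_self).mul (ih fun i hi => h i (List.mem_cons_of_mem _ hi))

theorem Adm.symm {M : ℕ} {v w : Lbl M} (h : Adm M v w) : Adm M w v :=
  ⟨h.2.1, h.1, fun e => h.2.2.1 e.symm, fun e => h.2.2.2 (by rw [e, neg_neg])⟩

theorem PM.refl {M : ℕ} (x : Lbl M) : PM M x x := Or.inl rfl

theorem PM.symm {M : ℕ} {x y : Lbl M} (h : PM M x y) : PM M y x := by
  rcases h with rfl | rfl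
  · exact Or.inl rfl
  · exact Or.inr (neg_neg y).symm

theorem Adm.congr_pm {M : ℕ} {v w v' w' : Lbl M} (h : Adm M v w) (hv : PM M v' v) (hw : PM M w' w) :
    Adm M v' w' := by
  obtain ⟨h1, h2, h3, h4⟩ := h
  refine ⟨?_, ?_, ?_, ?_⟩ <;> rcases hv with rfl | rfl <;> rcases hw with rfl | rfl <;>
    simp [h1, h2, h3, h4, neg_eq_iff_eq_neg]

namespace Lev

variable (S : Lev)

/-- value at a point -/
def evPt (τ : ℍ) : S.LF →+* ℂ where
  toFun x := (x : ℍ → ℂ) τ
  map_one' := rfl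
  map_mul' _ _ := rfl
  map_zero' := rfl
  map_add' _ _ := rfl

theorem LF_ext {x y : S.LF} (h : ∀ τ, S.evPt τ x = S.evPt τ y) : x = y := Subtype.ext (funext h)

theorem evPt_pQuot {v w v' w' : Lbl S.M} (h : Adm S.M v w) (h' : Adm S.M v' w') (τ : ℍ) :
    S.evPt τ (S.pQuot v w v' w') =
      (wpVal S.M v τ - wpVal S.M w τ) / (wpVal S.M v' τ - wpVal S.M w' τ) := by
  show (S.pQuot v w v' w' : ℍ → ℂ) τ = _
  rw [S.pQuot_apply h h', pDiff_eq_wpVal, pDiff_eq_wpVal]

theorem wp_sub_ne_zero {v w : Lbl S.M} (h : Adm S.M v w) (τ : ℍ) :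
    wpVal S.M v τ - wpVal S.M w τ ≠ 0 := pDiff_eq_wpVal S.M v w τ ▸ S.pDiff_ne_zero h τ

theorem pQuot_congr {v w v' w' x y x' y' : Lbl S.M} (h : Adm S.M v w) (h' : Adm S.M v' w')
    (h1 : PM S.M x v) (h2 : PM S.M y w) (h3 : PM S.M x' v') (h4 : PM S.M y' w') :
    S.pQuot x y x' y' = S.pQuot v w v' w' := S.LF_ext fun τ => by
  rw [S.evPt_pQuot (h.congr_pm h1 h2) (h'.congr_pm h3 h4), S.evPt_pQuot h h',
    wpVal_pm S.M h.1 h1, wpVal_pm S.M h.2.1 h2, wpVal_pm S.M h'.1 h3, wpVal_pm S.M h'.2.1 h4]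

theorem pQuot_mul {v w v' w' x y : Lbl S.M} (h : Adm S.M v w) (h' : Adm S.M v' w')
    (h'' : Adm S.M x y) :
    S.pQuot v w v' w' * S.pQuot v' w' x y = S.pQuot v w x y := S.LF_ext fun τ => by
  rw [map_mul, S.evPt_pQuot h h', S.evPt_pQuot h' h'', S.evPt_pQuot h h'']
  have := S.wp_sub_ne_zero h' τ
  field_simp

theorem act_act_base (σ γ : SL(2, ℤ)) (x : S.LF) : act σ (act γ x) = act (σ * γ) x :=
  (RingEquiv.congr_fun (map_mul S.actHom σ γ) x).symm

theorem mkG_eq_one_of_pm {γ : SL(2, ℤ)}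
    (h : γ ∈ CongruenceSubgroup.Gamma S.M ∨ -γ ∈ CongruenceSubgroup.Gamma S.M) : S.mkG γ = 1 := by
  refine Subtype.ext (RingEquiv.ext fun x => ?_)
  show act γ x = x
  rcases h with h | h
  · exact S.act_gamma h x
  · rw [← S.act_neg γ x]; exact S.act_gamma h x

theorem mm_pos : 0 < S.M / S.M0 :=
  Nat.div_pos (Nat.le_of_dvd (Nat.pos_of_ne_zero (NeZero.ne S.M)) S.dvd)
    (Nat.pos_of_ne_zero (NeZero.ne S.M0))

theorem M_eq : (S.M : ℤ) = (S.M0 : ℤ) * ((S.M / S.M0 : ℕ) : ℤ) := by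
  exact_mod_cast (Nat.mul_div_cancel' S.dvd).symm

/-- a base label -/
abbrev bb (x : Lbl S.M0) : Lbl S.M := bl S.dvd x

theorem adm_bb {x y : Lbl S.M0} (h : Adm S.M0 x y) : Adm S.M (S.bb x) (S.bb y) := h.bl S.dvd

theorem adm_bb_den {q : Lbl S.M0 × Lbl S.M0} (hq : q ∈ den S.M0) :
    Adm S.M (S.bb q.1) (S.bb q.2) := S.adm_bb (adm_den _ S.hM0 q hq)

/-- a product of six ratios -/
def termG (v w : Lbl S.M) : S.LF :=
  ((den S.M0).map fun q => S.pQuot v w (S.bb q.1) (S.bb q.2)).prod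

variable {v w : Lbl S.M}

theorem isUnit_termG (h : Adm S.M v w) : IsUnit (S.termG v w) := by
  unfold termG
  have : ∀ q ∈ den S.M0, IsUnit (S.pQuot v w (S.bb q.1) (S.bb q.2)) := fun q hq =>
    S.isUnit_pQuot h (S.adm_bb_den hq)
  revert this
  generalize den S.M0 = l
  intro this
  induction l with
  | nil => simp
  | cons a l ih =>
    simp only [List.map_cons, List.prod_cons]
    exact (this a List.mem_cons_self).mul (ih fun i hi => this i (List.mem_cons_of_mem _ hi))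

theorem act_termG (h : Adm S.M v w) (γ : SL(2, ℤ)) :
    act γ (S.termG v w) = ((den S.M0).map fun q => S.pQuot (lblAct S.M v γ⁻¹) (lblAct S.M w γ⁻¹)
      (S.bb (lblAct S.M0 q.1 γ⁻¹)) (S.bb (lblAct S.M0 q.2 γ⁻¹))).prod := by
  rw [termG, map_list_prod, List.map_map]
  refine congrArg List.prod (List.map_congr_left fun q hq => ?_)
  simp only [Function.comp_apply]
  rw [S.act_pQuot h (S.adm_bb_den hq), lblAct_bl, lblAct_bl]

theorem hasLead_termG (h : Adm S.M v w) (γ : SL(2, ℤ)) :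
    HasLead (S.expA (act γ (S.termG v w)))
      (6 * pOrd S.M (lblAct S.M v γ⁻¹) (lblAct S.M w γ⁻¹) - S.M) := by
  have h1 : act γ (S.termG v w) =
      ((den S.M0).map fun q => act γ (S.pQuot v w (S.bb q.1) (S.bb q.2))).prod := by
    rw [termG, map_list_prod, List.map_map]; rfl
  rw [h1, map_list_prod, List.map_map]
  have h2 := hasLead_list_prod (den S.M0)
    (S.expA ∘ fun q => act γ (S.pQuot v w (S.bb q.1) (S.bb q.2)))
    (fun q => pOrd S.M (lblAct S.M v γ⁻¹) (lblAct S.M w γ⁻¹) -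
      pOrd S.M (lblAct S.M (S.bb q.1) γ⁻¹) (lblAct S.M (S.bb q.2) γ⁻¹))
    (fun q hq => S.hasLead_cusp_pQuot h (S.adm_bb_den hq) γ)
  convert h2 using 1
  have hs := sum_den S.M0 S.hM0 γ⁻¹
  have e : ∀ l : List (Lbl S.M0 × Lbl S.M0), (l.map fun q =>
      pOrd S.M (lblAct S.M v γ⁻¹) (lblAct S.M w γ⁻¹) -
      pOrd S.M (lblAct S.M (S.bb q.1) γ⁻¹) (lblAct S.M (S.bb q.2) γ⁻¹)).sum =
      l.length * pOrd S.M (lblAct S.M v γ⁻¹) (lblAct S.M w γ⁻¹) -
        (l.map fun q => pOrd S.M0 (lblAct S.M0 q.1 γ⁻¹) (lblAct S.M0 q.2 γ⁻¹)).sum *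
          ((S.M / S.M0 : ℕ) : ℤ) := by
    intro l
    induction l with
    | nil => simp
    | cons a l ih =>
      rw [List.map_cons, List.sum_cons, ih]
      simp only [List.map_cons, List.sum_cons, List.length_cons, lblAct_bl, pOrd_bl]
      push_cast
      ring
  rw [e, hs, ← S.M_eq]
  have hl : (den S.M0).length = 6 := by rcases S.hM0 with h0 | h0 <;> simp [den, h0]
  rw [hl]
  norm_num

/-- orders of ratios of base differences -/
theorem hasLead_base {x y x' y' : Lbl S.M0} (h : Adm S.M0 x y) (h' : Adm S.M0 x' y') (γ : SL(2, ℤ)) :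
    HasLead (S.expA (act γ (S.pQuot (S.bb x) (S.bb y) (S.bb x') (S.bb y'))))
      ((pOrd S.M0 (lblAct S.M0 x γ⁻¹) (lblAct S.M0 y γ⁻¹) -
        pOrd S.M0 (lblAct S.M0 x' γ⁻¹) (lblAct S.M0 y' γ⁻¹)) * ((S.M / S.M0 : ℕ) : ℤ)) := by
  have := S.hasLead_cusp_pQuot (S.adm_bb h) (S.adm_bb h') γ
  rwa [lblAct_bl, lblAct_bl, lblAct_bl, lblAct_bl, pOrd_bl, pOrd_bl, ← sub_mul] at this

theorem termG_mul (h : Adm S.M v w) {x y : Lbl S.M} (h' : Adm S.M x y) :
    S.termG v w * ((den S.M0).map fun q => S.pQuot (S.bb q.1) (S.bb q.2) x y).prod =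
      S.pQuot v w x y ^ 6 := by
  have : ∀ q ∈ den S.M0, S.pQuot v w (S.bb q.1) (S.bb q.2) * S.pQuot (S.bb q.1) (S.bb q.2) x y =
      S.pQuot v w x y := fun q hq => S.pQuot_mul h (S.adm_bb_den hq) h'
  have e : ∀ l : List (Lbl S.M0 × Lbl S.M0), (∀ q ∈ l, S.pQuot v w (S.bb q.1) (S.bb q.2) *
      S.pQuot (S.bb q.1) (S.bb q.2) x y = S.pQuot v w x y) →
      (l.map fun q => S.pQuot v w (S.bb q.1) (S.bb q.2)).prod *
        (l.map fun q => S.pQuot (S.bb q.1) (S.bb q.2) x y).prod = S.pQuot v w x y ^ l.length := by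
    intro l hl
    induction l with
    | nil => simp
    | cons a l ih =>
      simp only [List.map_cons, List.prod_cons, List.length_cons, pow_succ']
      rw [mul_mul_mul_comm, hl a List.mem_cons_self, ih fun i hi => hl i (List.mem_cons_of_mem _ hi)]
  rw [termG, e _ this]
  congr 1
  rcases S.hM0 with h0 | h0 <;> simp [den, h0]

end Lev

end FLTAgent.Good
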