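import Fermat.Agent.Good.LevelField
import Fermat.Agent.ModFun.FunctionField

/-!
Degree and separability of `k(X₀(N))` over `k(j)` at a place `A` above `ℓ ∤ N`.
-/

set_option autoImplicit false

noncomputable section

open ModularCurve IntermediateField

namespace FLTAgent.Good

/-- a level prime to `ℓ` divisible by `N` -/
theorem exists_lev (A : ValuationSubring (AlgebraicClosure ℚ)) (N : ℕ) [NeZero N] {ℓ : ℕ}
    (hℓ : ℓ.Prime) (hℓN : ¬ ℓ ∣ N) (hA : A.LiesOverPrime ℓ) :
    ∃ S : Lev, S.A = A ∧ S.ℓ = ℓ ∧ N ∣ S.M := by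
  have hN : 1 ≤ N := Nat.one_le_iff_ne_zero.mpr (NeZero.ne N)
  have key : ∀ m, m = 2 ∨ m = 3 → ¬ ℓ ∣ m → ∃ S : Lev, S.A = A ∧ S.ℓ = ℓ ∧ N ∣ S.M := fun m hm hm' =>
    ⟨{ A := A, ℓ := ℓ, hℓ := hℓ, liesOver := hA, ι := ModFun.embC, M := N * (m * m), M0 := m
       hM0 := hm, dvd := dvd_mul_of_dvd_right (dvd_mul_right m m) N
       three_le := by rcases hm with rfl | rfl <;> omega
       notDvd := fun h => by
        rcases (hℓ.dvd_mul).mp h with h | h
        · exact hℓN h
        · exact hm' ((hℓ.dvd_mul).mp h |>.elim id id) },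
      rfl, rfl, dvd_mul_right N (m * m)⟩
  rcases eq_or_ne ℓ 2 with rfl | h2
  · exact key 3 (Or.inr rfl) (by decide)
  · exact key 2 (Or.inl rfl) fun h => h2 ((Nat.prime_dvd_prime_iff_eq hℓ Nat.prime_two).mp h)

variable (A : ValuationSubring (AlgebraicClosure ℚ)) (N : ℕ) [NeZero N] {ℓ : ℕ} (hℓ : ℓ.Prime)
  (hℓN : ¬ ℓ ∣ N) (hA : A.LiesOverPrime ℓ)

include hℓ hℓN hA

/-- Igusa: no drop of degree modulo `ℓ` -/
theorem finrank_fullC_residue :
    Module.finrank
        (IntermediateField.adjoin (IsLocalRing.ResidueField A)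
          ({jqModC (IsLocalRing.ResidueField A)} : Set _))
        (IntermediateField.extendScalars
          (F := IntermediateField.adjoin (IsLocalRing.ResidueField A)
            ({jqModC (IsLocalRing.ResidueField A)} : Set _))
          (E := modularFunctionFieldFullC (IsLocalRing.ResidueField A) N)
          (IntermediateField.adjoin_le_iff.mpr
            (Set.singleton_subset_iff.mpr (jqModC_mem_full _ N)))) =
      dedekindPsi N := by
  obtain ⟨S, rfl, -, hN⟩ := exists_lev A N hℓ hℓN hA
  exact Lev.invPoly_fibK.finrank_fullC hN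

/-- the special fibre function field is separable over `k(j)` -/
theorem isSeparable_fullC_residue {x : LaurentSeries (IsLocalRing.ResidueField A)}
    (hx : x ∈ modularFunctionFieldFullC (IsLocalRing.ResidueField A) N) :
    IsSeparable
      (IntermediateField.adjoin (IsLocalRing.ResidueField A)
        ({jqModC (IsLocalRing.ResidueField A)} : Set _)) x := by
  obtain ⟨S, rfl, -, hN⟩ := exists_lev A N hℓ hℓN hA
  exact Lev.invPoly_fibK.isSeparable_fullC hN hx

end FLTAgent.Good
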