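import Fermat.Agent.Good.Irred
import Fermat.Agent.Good.Orbit

/-!
The two fibres of the level `M` ring (coefficients in `ℚ̄`, resp. in the residue field): the field
generated by the expansions at infinity, with the action of the group.
-/

set_option autoImplicit false

noncomputable section

open UpperHalfPlane ModularCurve CongruenceSubgroup
open scoped MatrixGroups

namespace FLTAgent.Good

namespace Lev

/-- a fibre: a field receiving the coefficient ring, with stable kernel of the expansion map -/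
structure Fib (S : Lev) (F : Type) [Field F] where
  /-- the coefficients -/
  c : S.A →+* F
  frac : ∀ z : F, ∃ a b, c b ≠ 0 ∧ z * c b = c a
  stable : ∀ (g : S.G) (x : S.LF), coeffMap c (S.expA x) = 0 → coeffMap c (S.expA (g • x)) = 0

variable {S : Lev} {F : Type} [Field F] (Φ : S.Fib F)

/-- the expansion in the fibre -/
def Fib.φ : S.LF →+* LaurentSeries F := (coeffMap Φ.c).comp S.expA

theorem Fib.φ_algebraMap (a : S.A) :
    Φ.φ (algebraMap S.A S.LF a) = algebraMap F (LaurentSeries F) (Φ.c a) := by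
  show coeffMap Φ.c (S.expA (algebraMap S.A S.LF a)) = _
  rw [expA_algebraMap, algebraMap_laurentSeries_eq_single, HahnSeries.C_apply, coeffMap_single]

theorem Fib.φ_smul_congr {x y : S.LF} (h : Φ.φ x = Φ.φ y) (g : S.G) :
    Φ.φ (g • x) = Φ.φ (g • y) := by
  rw [← sub_eq_zero, ← map_sub, ← smul_sub]
  exact Φ.stable g _ (by
    show Φ.φ (x - y) = 0
    rw [map_sub, h, sub_self])

theorem Fib.φ_smul_ne_zero {x : S.LF} (h : Φ.φ x ≠ 0) (g : S.G) : Φ.φ (g • x) ≠ 0 := fun h0 => h (by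
  have := Φ.stable g⁻¹ _ h0
  rwa [inv_smul_smul] at this)

/-- the field of the fibre -/
def Fib.K : IntermediateField F (LaurentSeries F) :=
  IntermediateField.adjoin F (Set.range Φ.φ)

/-- an element, in the fibre -/
def Fib.toK : S.LF →+* ↥Φ.K :=
  Φ.φ.codRestrict Φ.K fun x => IntermediateField.subset_adjoin _ _ ⟨x, rfl⟩

@[simp]
theorem Fib.coe_toK (x : S.LF) : ((Φ.toK x : ↥Φ.K) : LaurentSeries F) = Φ.φ x := rfl

theorem Fib.toK_eq_zero {x : S.LF} : Φ.toK x = 0 ↔ Φ.φ x = 0 := Subtype.ext_iff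

theorem Fib.exists_frac (z : ↥Φ.K) :
    ∃ x y : S.LF, Φ.φ y ≠ 0 ∧ (z : LaurentSeries F) * Φ.φ y = Φ.φ x := by
  obtain ⟨z, hz⟩ := z
  show ∃ x y : S.LF, Φ.φ y ≠ 0 ∧ z * Φ.φ y = Φ.φ x
  induction hz using IntermediateField.adjoin_induction with
  | mem w hw => obtain ⟨x, rfl⟩ := hw; exact ⟨x, 1, by simp, by simp⟩
  | algebraMap r =>
    obtain ⟨a, b, hb, hab⟩ := Φ.frac r
    refine ⟨algebraMap S.A S.LF a, algebraMap S.A S.LF b, ?_, ?_⟩
    · rw [Φ.φ_algebraMap]; exact (_root_.map_ne_zero _).mpr hb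
    · rw [Φ.φ_algebraMap, Φ.φ_algebraMap, ← map_mul, hab]
  | add u v _ _ hu hv =>
    obtain ⟨x, y, hy, hxy⟩ := hu
    obtain ⟨x', y', hy', hxy'⟩ := hv
    exact ⟨x * y' + x' * y, y * y', by rw [map_mul]; exact mul_ne_zero hy hy', by
      rw [map_add, map_mul, map_mul, map_mul, ← hxy, ← hxy']; ring⟩
  | mul u v _ _ hu hv =>
    obtain ⟨x, y, hy, hxy⟩ := hu
    obtain ⟨x', y', hy', hxy'⟩ := hv
    exact ⟨x * x', y * y', by rw [map_mul]; exact mul_ne_zero hy hy', by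
      rw [map_mul, map_mul, ← hxy, ← hxy']; ring⟩
  | inv u _ hu =>
    obtain ⟨x, y, hy, hxy⟩ := hu
    rcases eq_or_ne u 0 with rfl | hu0
    · exact ⟨0, 1, by simp, by simp⟩
    · refine ⟨y, x, by rw [← hxy]; exact mul_ne_zero hu0 hy, ?_⟩
      rw [← hxy, ← mul_assoc, inv_mul_cancel₀ hu0, one_mul]

/-- a chosen numerator -/
def Fib.num (z : ↥Φ.K) : S.LF := (Φ.exists_frac z).choose

/-- a chosen denominator -/
def Fib.den (z : ↥Φ.K) : S.LF := (Φ.exists_frac z).choose_spec.choose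

theorem Fib.den_ne_zero (z : ↥Φ.K) : Φ.φ (Φ.den z) ≠ 0 :=
  (Φ.exists_frac z).choose_spec.choose_spec.1

theorem Fib.mul_den (z : ↥Φ.K) : z * Φ.toK (Φ.den z) = Φ.toK (Φ.num z) :=
  Subtype.ext (Φ.exists_frac z).choose_spec.choose_spec.2

/-- the action on a chosen representative -/
def Fib.actFun (g : S.G) (z : ↥Φ.K) : ↥Φ.K := Φ.toK (g • Φ.num z) / Φ.toK (g • Φ.den z)

theorem Fib.actFun_eq (g : S.G) {z : ↥Φ.K} {x y : S.LF} (hy : Φ.φ y ≠ 0)
    (h : z * Φ.toK y = Φ.toK x) : Φ.actFun g z = Φ.toK (g • x) / Φ.toK (g • y) := by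
  have hne : ∀ {w : S.LF}, Φ.φ w ≠ 0 → Φ.toK (g • w) ≠ 0 := fun hw h0 =>
    Φ.φ_smul_ne_zero hw g (Φ.toK_eq_zero.mp h0)
  rw [Fib.actFun, div_eq_div_iff (hne (Φ.den_ne_zero z)) (hne hy), ← map_mul, ← map_mul,
    ← smul_mul', ← smul_mul']
  refine Subtype.ext (Φ.φ_smul_congr ?_ g)
  refine congrArg (fun w : ↥Φ.K => (w : LaurentSeries F))
    (show Φ.toK (Φ.num z * y) = Φ.toK (x * Φ.den z) from ?_)
  rw [map_mul, map_mul, ← Φ.mul_den, ← h]
  ring

theorem Fib.actFun_toK (g : S.G) (x : S.LF) : Φ.actFun g (Φ.toK x) = Φ.toK (g • x) := by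
  rw [Φ.actFun_eq g (z := Φ.toK x) (x := x) (y := 1) (by simp) (by simp), smul_one, map_one, div_one]

instance : MulSemiringAction S.G ↥Φ.K where
  smul := Φ.actFun
  one_smul z := by
    show Φ.actFun 1 z = z
    rw [Φ.actFun_eq 1 (Φ.den_ne_zero z) (Φ.mul_den z), one_smul, one_smul, ← Φ.mul_den,
      mul_div_cancel_right₀ _ (fun h => Φ.den_ne_zero z (Φ.toK_eq_zero.mp h))]
  mul_smul g h z := by
    show Φ.actFun (g * h) z = Φ.actFun g (Φ.actFun h z)
    rw [Φ.actFun_eq (g * h) (Φ.den_ne_zero z) (Φ.mul_den z),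
      Φ.actFun_eq g (z := Φ.actFun h z) (x := h • Φ.num z) (y := h • Φ.den z)
        (Φ.φ_smul_ne_zero (Φ.den_ne_zero z) h) (by
          rw [Fib.actFun, div_mul_cancel₀ _
            (fun h0 => Φ.φ_smul_ne_zero (Φ.den_ne_zero z) h (Φ.toK_eq_zero.mp h0))]),
      mul_smul, mul_smul]
  smul_zero g := by
    show Φ.actFun g 0 = 0
    rw [← map_zero Φ.toK, Φ.actFun_toK, smul_zero]
  smul_one g := by
    show Φ.actFun g 1 = 1
    rw [← map_one Φ.toK, Φ.actFun_toK, smul_one]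
  smul_add g z w := by
    show Φ.actFun g (z + w) = Φ.actFun g z + Φ.actFun g w
    have hz := Φ.den_ne_zero z
    have hw := Φ.den_ne_zero w
    rw [Φ.actFun_eq g (z := z + w) (x := Φ.num z * Φ.den w + Φ.num w * Φ.den z)
      (y := Φ.den z * Φ.den w) (by rw [map_mul]; exact mul_ne_zero hz hw)
      (by rw [map_add, map_mul, map_mul, map_mul, ← Φ.mul_den, ← Φ.mul_den]; ring)]
    simp only [Fib.actFun, smul_add, smul_mul', map_add, map_mul]
    rw [div_add_div _ _ (fun h0 => Φ.φ_smul_ne_zero hz g (Φ.toK_eq_zero.mp h0))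
      (fun h0 => Φ.φ_smul_ne_zero hw g (Φ.toK_eq_zero.mp h0))]
    ring
  smul_mul g z w := by
    show Φ.actFun g (z * w) = Φ.actFun g z * Φ.actFun g w
    have hz := Φ.den_ne_zero z
    have hw := Φ.den_ne_zero w
    rw [Φ.actFun_eq g (z := z * w) (x := Φ.num z * Φ.num w) (y := Φ.den z * Φ.den w)
      (by rw [map_mul]; exact mul_ne_zero hz hw)
      (by rw [map_mul, map_mul, ← Φ.mul_den, ← Φ.mul_den]; ring)]
    simp only [Fib.actFun, smul_mul', map_mul]
    rw [div_mul_div_comm]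

theorem Fib.smul_toK (g : S.G) (x : S.LF) : g • Φ.toK x = Φ.toK (g • x) := Φ.actFun_toK g x

theorem Fib.smul_algebraMap (g : S.G) (r : F) :
    g • (algebraMap F ↥Φ.K r) = algebraMap F ↥Φ.K r := by
  obtain ⟨a, b, hb, hab⟩ := Φ.frac r
  have he : ∀ a : S.A, Φ.toK (algebraMap S.A S.LF a) = algebraMap F ↥Φ.K (Φ.c a) := fun a =>
    Subtype.ext (Φ.φ_algebraMap a)
  show Φ.actFun g (algebraMap F ↥Φ.K r) = algebraMap F ↥Φ.K r
  rw [Φ.actFun_eq g (z := algebraMap F ↥Φ.K r) (x := algebraMap S.A S.LF a)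
    (y := algebraMap S.A S.LF b) (by rw [Φ.φ_algebraMap]; exact (_root_.map_ne_zero _).mpr hb)
    (by rw [he, he, ← map_mul, hab])]
  obtain ⟨γ, rfl⟩ := S.mkG_surjective g
  rw [mkG_smul, mkG_smul, act_algebraMap, act_algebraMap, he, he, ← hab, map_mul,
    mul_div_cancel_right₀ _ ((_root_.map_ne_zero _).mpr hb)]

instance : SMulCommClass S.G F ↥Φ.K :=
  ⟨fun g r z => by rw [Algebra.smul_def, Algebra.smul_def, smul_mul', Φ.smul_algebraMap]⟩

variable (S)

/-- the fibre over `ℚ̄` -/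
def fibQ : S.Fib (AlgebraicClosure ℚ) where
  c := S.A.subtype
  frac z := by
    rcases S.A.mem_or_inv_mem z with h | h
    · exact ⟨⟨z, h⟩, 1, one_ne_zero, mul_one _⟩
    · rcases eq_or_ne z 0 with rfl | hz
      · exact ⟨0, 1, one_ne_zero, mul_one _⟩
      · exact ⟨1, ⟨z⁻¹, h⟩, inv_ne_zero hz, mul_inv_cancel₀ hz⟩
  stable g x h := by
    have hx : x = 0 := S.expQ_injective (by rw [map_zero]; exact h)
    rw [hx, smul_zero, map_zero, map_zero]

/-- the fibre at the place -/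
def fibK : S.Fib S.k where
  c := IsLocalRing.residue S.A
  frac z := by
    obtain ⟨a, rfl⟩ := IsLocalRing.residue_surjective z
    exact ⟨a, 1, by rw [map_one]; exact one_ne_zero, by rw [map_one, mul_one]⟩
  stable g x h := by
    obtain ⟨γ, rfl⟩ := S.mkG_surjective g
    exact S.resA_act_eq_zero h γ

theorem fibQ_φ : S.fibQ.φ = S.expQ := rfl

theorem fibK_φ : S.fibK.φ = S.resA := rfl

end Lev

end FLTAgent.Good
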