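import Fermat.Agent.Good.Special
import Fermat.Agent.Good.ChartDefs

/-!
The function fields of level `M` in both characteristics and their fixed fields: summary of
`Fib`, `Level`, `Normal`, `Special` in the notation used by the assembly.
-/

set_option autoImplicit false
set_option synthInstance.maxHeartbeats 200000
set_option maxHeartbeats 1000000

noncomputable section

open UpperHalfPlane ModularCurve CongruenceSubgroup IntermediateField
open scoped MatrixGroups Manifold Topology Real

namespace FLTAgent.Good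

open ModFun

namespace Lev

variable (S : Lev) (N : ℕ) [NeZero N]

/-- the level `M` function field -/
def KQ : IntermediateField (AlgebraicClosure ℚ) (LaurentSeries (AlgebraicClosure ℚ)) :=
  IntermediateField.adjoin (AlgebraicClosure ℚ) (Set.range S.expQ)

/-- the level `M` function field modulo `ℓ` -/
def Kk : IntermediateField S.k (LaurentSeries S.k) :=
  IntermediateField.adjoin S.k (Set.range S.resA)

omit [NeZero N] in
theorem Kk_eq : S.Kk = S.fibK.K := rfl

/-- an element of the level `M` ring, reduced -/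
def toKk (x : S.LF) : S.Kk := ⟨S.resA x, IntermediateField.subset_adjoin _ _ ⟨x, rfl⟩⟩

/-- the group acts modulo `ℓ` -/
def actK : S.G →* (S.Kk ≃ₐ[S.k] S.Kk) :=
  (MulSemiringAction.toAlgAut S.G S.k ↥S.fibK.K : S.G →* (↥S.fibK.K ≃ₐ[S.k] ↥S.fibK.K))

theorem actK_toKk (g : S.G) (x : S.LF) : S.actK g (S.toKk x) = S.toKk (g • x) :=
  S.fibK.smul_toK g x

theorem actK_injective : Function.Injective S.actK :=
  (injective_iff_map_eq_one S.actK).mpr fun g hg =>
    S.fibK_smul_eq_one g fun z => AlgEquiv.congr_fun hg z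

/-- `j` modulo `ℓ` in level `M` -/
def jk : S.Kk := S.toKk S.jL

theorem finiteDimensional_Kk : FiniteDimensional (S.k⟮S.jk⟯) S.Kk := S.finiteDimensional_fibK

theorem isSeparable_Kk : Algebra.IsSeparable (S.k⟮S.jk⟯) S.Kk := S.isSeparable_fibK

variable {N}

/-- elements of level `N` are the `Γ₀(N)`-invariant ones -/
theorem expQ_mem_iff (hN : N ∣ S.M) (x : S.LF) :
    S.expQ x ∈ (qExpand (AlgebraicClosure ℚ) S.M) '' (modularFunctionFieldBar N : Set _) ↔
      ∀ g ∈ S.Hgrp N, g • x = x := by
  rw [modularFunctionFieldBar_eq_fullC]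
  refine (invPoly_fibQ.mem_level_iff hN (S.fibQ.toK x)).trans
    ⟨fun h g hg => ?_, fun h g hg => by rw [Fib.smul_toK, h g hg]⟩
  have h1 := h g hg
  rw [Fib.smul_toK] at h1
  exact S.expQ_injective (congrArg Subtype.val h1)

theorem qExpand_mem_fibK {F : Type} [Field F] (Φ : S.Fib F) (h : Φ.InvPoly) (hN : N ∣ S.M)
    {x : LaurentSeries F} (hx : x ∈ modularFunctionFieldFullC F N) :
    qExpand F S.M x ∈ Φ.K := by
  rw [h.fullC_eq hN] at hx
  have h1 : qExpand F S.M x ∈
      IntermediateField.adjoin F ({Φ.φ S.jL, Φ.φ (S.jdL N hN)} : Set (LaurentSeries F)) := by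
    rw [Φ.adjoin_pair_eq_map hN, IntermediateField.mem_map]
    exact ⟨x, hx, rfl⟩
  refine IntermediateField.adjoin_le_iff.mpr ?_ h1
  rintro y (rfl | rfl) <;> exact SetLike.coe_mem (Φ.toK _)

/-- integral elements of level `N` come from the level `M` ring -/
theorem exists_LF_of_inFin (hN : N ∣ S.M) {f : LaurentSeries (AlgebraicClosure ℚ)}
    (hf : InFin S.A N f) :
    ∃ x : S.LF, (∀ g ∈ S.Hgrp N, g • x = x) ∧ S.expQ x = qExpand (AlgebraicClosure ℚ) S.M f := by
  obtain ⟨hfF, p, hp, hev⟩ := hf
  have hfC : f ∈ modularFunctionFieldFullC (AlgebraicClosure ℚ) N :=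
    modularFunctionFieldBar_eq_fullC (N := N) ▸ hfF
  let z : ↥S.fibQ.K := ⟨_, S.qExpand_mem_fibK S.fibQ invPoly_fibQ hN hfC⟩
  have hint : IsIntegral ↥S.fibQ.Aj (z : LaurentSeries (AlgebraicClosure ℚ)) := by
    have hmem : ∀ w ∈ Algebra.adjoin S.A ({jBarSeries} : Set (LaurentSeries (AlgebraicClosure ℚ))),
        qExpand (AlgebraicClosure ℚ) S.M w ∈ S.fibQ.Aj := by
      intro w hw
      induction hw using Algebra.adjoin_induction with
      | mem y hy =>
        rw [Set.mem_singleton_iff] at hy
        subst hy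
        refine (Fib.mem_Aj S.fibQ).mpr ⟨Polynomial.X, ?_⟩
        rw [Polynomial.aeval_X, Fib.φ_jL, jBarSeries, coeffEmb, ← jqModC_rat,
          ModularCurve.coeffMap_jqModC]
      | algebraMap a =>
        refine (Fib.mem_Aj S.fibQ).mpr ⟨Polynomial.C a, ?_⟩
        rw [Polynomial.aeval_C, Fib.φ_algebraMap, ← qExpandAlgHomC_apply (AlgebraicClosure ℚ) S.M]
        simp only [HahnSeries.algebraMap_apply', PowerSeries.algebraMap_apply,
          HahnSeries.ofPowerSeries_C, HahnSeries.C_apply, qExpandAlgHomC_apply, qExpand_single,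
          mul_zero]
        rfl
      | add a b _ _ ha hb => rw [map_add]; exact add_mem ha hb
      | mul a b _ _ ha hb => rw [map_mul]; exact mul_mem ha hb
    exact IsIntegral.map_of_comp_eq
      ({ toFun := fun w => ⟨qExpand (AlgebraicClosure ℚ) S.M w.1, hmem w.1 w.2⟩
         map_one' := Subtype.ext (map_one _)
         map_mul' := fun a b => Subtype.ext (map_mul _ a.1 b.1)
         map_zero' := Subtype.ext (map_zero _)
         map_add' := fun a b => Subtype.ext (map_add _ a.1 b.1) } :
        ↥(Algebra.adjoin S.A ({jBarSeries} : Set (LaurentSeries (AlgebraicClosure ℚ)))) →+*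
          ↥S.fibQ.Aj)
      (qExpand (AlgebraicClosure ℚ) S.M) (RingHom.ext fun _ => rfl) ⟨p, hp, hev⟩
  obtain ⟨x, hx⟩ := S.exists_of_isIntegral_fibQ hint
  exact ⟨x, (S.expQ_mem_iff hN x).mp ⟨f, hfF, hx.symm⟩, hx⟩

/-- the special fibre of level `M` is normal -/
theorem exists_LF_of_isIntegral (z : S.Kk)
    (hz : IsIntegral (Algebra.adjoin S.k ({S.jk} : Set S.Kk)) z) :
    ∃ x : S.LF, S.toKk x = z := by
  obtain ⟨x, hx⟩ := S.exists_of_isIntegral_fibK (z := z) (S.isIntegral_Aj_of_adjoin hz)
  exact ⟨x, Subtype.ext hx⟩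

/-- elements of level `N` modulo `ℓ` are the invariant ones -/
theorem mem_fullC_iff (hN : N ∣ S.M) (z : S.Kk) :
    (z : LaurentSeries S.k) ∈ (qExpand S.k S.M) '' (modularFunctionFieldFullC S.k N : Set _) ↔
      ∀ g ∈ S.Hgrp N, S.actK g z = z :=
  invPoly_fibK.mem_level_iff hN (z : ↥S.fibK.K)

theorem qExpand_mem_Kk (hN : N ∣ S.M) {x : LaurentSeries S.k}
    (hx : x ∈ modularFunctionFieldFullC S.k N) : qExpand S.k S.M x ∈ S.Kk :=
  S.qExpand_mem_fibK S.fibK invPoly_fibK hN hx

theorem finrank_fullC_aux (hN : N ∣ S.M) :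
    Module.finrank
        (IntermediateField.adjoin S.k ({jqModC S.k} : Set _))
        (IntermediateField.extendScalars
          (F := IntermediateField.adjoin S.k ({jqModC S.k} : Set _))
          (E := modularFunctionFieldFullC S.k N)
          (IntermediateField.adjoin_le_iff.mpr
            (Set.singleton_subset_iff.mpr (jqModC_mem_full _ N)))) =
      dedekindPsi N :=
  invPoly_fibK.finrank_fullC hN

theorem isSeparable_fullC_aux (hN : N ∣ S.M) {x : LaurentSeries S.k}
    (hx : x ∈ modularFunctionFieldFullC S.k N) :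
    IsSeparable (IntermediateField.adjoin S.k ({jqModC S.k} : Set _)) x :=
  invPoly_fibK.isSeparable_fullC hN hx

end Lev

end FLTAgent.Good
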