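import Mathlib

/-!
Galois systems for a free action of a finite group on a commutative ring.
-/

set_option autoImplicit false

noncomputable section

namespace FLTAgent.Good

variable {S : Type*} [Group S] [Fintype S] {L : Type*} [CommRing L] [MulSemiringAction S L]

theorem exists_system [DecidableEq S] (h : ∀ g : S, g ≠ 1 → ∃ r : L, IsUnit (r - g • r)) :
    ∃ (n : ℕ) (x y : Fin n → L), ∀ g : S, ∑ i, x i * (g • y i) = if g = 1 then 1 else 0 := by
  have key : ∀ T : Finset S, 1 ∉ T → ∃ (n : ℕ) (x y : Fin n → L),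
      (∑ i, x i * y i = 1) ∧ ∀ g ∈ T, ∑ i, x i * (g • y i) = 0 := by
    intro T
    induction T using Finset.induction with
    | empty => exact fun _ => ⟨1, fun _ => 1, fun _ => 1, by simp, by simp⟩
    | insert a T haT ih =>
      intro h1
      simp only [Finset.mem_insert, not_or] at h1
      obtain ⟨n, x, y, e1, e0⟩ := ih h1.2
      obtain ⟨r, hr⟩ := h a (Ne.symm h1.1)
      obtain ⟨u, hu⟩ := hr
      set b : L := ((u⁻¹ : Lˣ) : L)
      refine ⟨n + n, Fin.append (fun i => x i * (1 - b * r)) (fun i => x i * b),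
        Fin.append y (fun i => y i * r), ?_, ?_⟩
      · have : ∀ i, x i * (1 - b * r) * y i + x i * b * (y i * r) = x i * y i := fun i => by ring
        rw [Fin.sum_univ_add]
        simp only [Fin.append_left, Fin.append_right, ← Finset.sum_add_distrib, this, e1]
      · intro g hg
        have e : ∑ i, Fin.append (fun i => x i * (1 - b * r)) (fun i => x i * b) i *
            (g • Fin.append y (fun i => y i * r) i) =
            (1 - b * (r - g • r)) * ∑ i, x i * (g • y i) := by
          rw [Fin.sum_univ_add, Finset.mul_sum]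
          simp only [Fin.append_left, Fin.append_right, ← Finset.sum_add_distrib, smul_mul']
          exact Finset.sum_congr rfl fun i _ => by ring
        rw [e]
        rcases Finset.mem_insert.1 hg with rfl | hg
        · rw [← hu, Units.inv_mul, sub_self, zero_mul]
        · rw [e0 g hg, mul_zero]
  obtain ⟨n, x, y, e1, e0⟩ := key (Finset.univ.erase 1) (Finset.notMem_erase _ _)
  refine ⟨n, x, y, fun g => ?_⟩
  split_ifs with hg
  · subst hg; simpa using e1
  · exact e0 g (Finset.mem_erase.2 ⟨hg, Finset.mem_univ _⟩)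

theorem eq_sum_trace [DecidableEq S] {n : ℕ} {x y : Fin n → L}
    (h : ∀ g : S, ∑ i, x i * (g • y i) = if g = 1 then 1 else 0) (z : L) :
    z = ∑ i, x i * ∑ g : S, g • (y i * z) := by
  simp_rw [Finset.mul_sum, smul_mul', ← mul_assoc]
  rw [Finset.sum_comm]
  simp_rw [← Finset.sum_mul, h, ite_mul, one_mul, zero_mul]
  rw [Finset.sum_ite_eq' Finset.univ (1 : S) fun g => g • z]
  simp

theorem exists_trace_one (h : ∀ g : S, g ≠ 1 → ∃ r : L, IsUnit (r - g • r)) :
    ∃ θ : L, ∑ g : S, g • θ = 1 := by
  classical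
  obtain ⟨n, x, y, hxy⟩ := exists_system h
  let R := FixedPoints.subring L S
  have hinv : ∀ z : L, ∑ g : S, g • z ∈ R := fun z g => by
    rw [Finset.smul_sum]
    exact Fintype.sum_equiv (Equiv.mulLeft g) _ _ fun i => by simp [mul_smul]
  let I : Ideal R :=
    { carrier := {a | ∃ z : L, ∑ g : S, g • z = (a : L)}
      zero_mem' := ⟨0, by simp⟩
      add_mem' := by
        rintro a b ⟨z, hz⟩ ⟨w, hw⟩
        exact ⟨z + w, by simp only [smul_add, Finset.sum_add_distrib, hz, hw]; rfl⟩
      smul_mem' := by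
        rintro c a ⟨z, hz⟩
        refine ⟨(c : L) * z, ?_⟩
        simp only [smul_mul']
        rw [show ∑ g : S, (g • (c : L)) * g • z = ∑ g : S, (c : L) * g • z from
          Finset.sum_congr rfl fun g _ => by rw [c.2 g], ← Finset.mul_sum, hz]
        rfl }
  suffices hI : I = ⊤ by
    obtain ⟨z, hz⟩ : (1 : R) ∈ I := by rw [hI]; trivial
    exact ⟨z, hz⟩
  by_contra hI
  obtain ⟨m, hm, hle⟩ := Ideal.exists_le_maximal I hI
  have : Algebra.IsInvariant R L S := ⟨fun b hb => ⟨⟨b, hb⟩, rfl⟩⟩
  have : SMulCommClass S R L := ⟨fun g c z => by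
    show g • ((c : L) * z) = (c : L) * g • z
    rw [smul_mul', c.2 g]⟩
  have : Algebra.IsIntegral R L := Algebra.IsInvariant.isIntegral R L S
  have hker : RingHom.ker (algebraMap R L) ≤ m := by
    rw [(RingHom.injective_iff_ker_eq_bot _).1 Subtype.val_injective]
    exact bot_le
  obtain ⟨P, hP, hPm⟩ := Ideal.exists_ideal_over_maximal_of_isIntegral m hker
  apply hP.ne_top
  rw [Ideal.eq_top_iff_one, eq_sum_trace hxy 1]
  refine P.sum_mem fun i _ => P.mul_mem_left _ ?_
  have : (⟨_, hinv (y i * 1)⟩ : R) ∈ P.comap (algebraMap R L) := by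
    rw [hPm]; exact hle ⟨_, rfl⟩
  exact this

end FLTAgent.Good
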