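import Fermat.Agent.Good.Fib

/-!
Invariants: the fixed field of the group is generated by `j` in both fibres; elements fixed by the
stabiliser of `w` lie in the field of `j` and `w`.
-/

set_option autoImplicit false

noncomputable section

open UpperHalfPlane ModularCurve CongruenceSubgroup
open scoped MatrixGroups Real

namespace FLTAgent.Good

namespace Lev

variable {S : Lev} {F : Type} [Field F] (Φ : S.Fib F)

theorem exists_poly_of_smul_eq (x : S.LF) (hx : ∀ g : S.G, g • x = x) :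
    ∃ P : Polynomial S.A, x = Polynomial.aeval S.jL P := by
  refine Exists.imp (fun P h => h.2) (S.exists_poly_of_invariant x (fun γ => hx (S.mkG γ))
    (-(S.expA x).order).toNat fun n hn => HahnSeries.coeff_eq_zero_of_lt_order ?_)
  have h1 : (-(S.expA x).order).toNat ≤ (-(S.expA x).order).toNat * S.M :=
    Nat.le_mul_of_pos_right _ (Nat.pos_of_ne_zero (NeZero.ne S.M))
  omega

theorem Fib.φ_aeval (P : Polynomial S.A) (w : S.LF) :
    Φ.φ (Polynomial.aeval w P) = Polynomial.aeval (Φ.φ w) (P.map Φ.c) := by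
  rw [Polynomial.aeval_def, Polynomial.aeval_def, Polynomial.eval₂_map, Polynomial.hom_eval₂]
  congr 1
  exact RingHom.ext fun a => Φ.φ_algebraMap a

/-- a denominator fixed by a subgroup -/
theorem Fib.exists_invariant_den (H : Subgroup S.G) (z : ↥Φ.K) :
    ∃ x y : S.LF, Φ.φ y ≠ 0 ∧ (∀ g ∈ H, g • y = y) ∧ z * Φ.toK y = Φ.toK x := by
  classical
  have := Fintype.ofFinite ↥H
  refine ⟨(∏ g ∈ Finset.univ.erase (1 : ↥H), (g : S.G) • Φ.den z) * Φ.num z,
    ∏ g : ↥H, (g : S.G) • Φ.den z, ?_, fun g hg => ?_, ?_⟩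
  · rw [map_prod]
    exact Finset.prod_ne_zero_iff.mpr fun g _ => Φ.φ_smul_ne_zero (Φ.den_ne_zero z) _
  · rw [Finset.smul_prod']
    exact Fintype.prod_equiv (Equiv.mulLeft (⟨g, hg⟩ : ↥H)) _ _ fun h => by
      simp [mul_smul]
  · rw [← Finset.prod_erase_mul _ _ (Finset.mem_univ (1 : ↥H)), OneMemClass.coe_one, one_smul,
      map_mul, map_mul, mul_left_comm, Φ.mul_den]

/-- invariant elements of the image are polynomials in `j` -/
def Fib.InvPoly : Prop :=
  ∀ x : S.LF, (∀ g : S.G, Φ.φ (g • x) = Φ.φ x) →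
    ∃ P : Polynomial F, Φ.φ x = Polynomial.aeval (Φ.φ S.jL) P

theorem invPoly_fibQ : S.fibQ.InvPoly := fun x hx => by
  obtain ⟨P, hP⟩ := exists_poly_of_smul_eq x fun g => S.expQ_injective (hx g)
  exact ⟨P.map S.fibQ.c, by rw [← Fib.φ_aeval, hP]⟩

theorem residue_natCast_M_ne_zero : ((S.M : ℕ) : S.k) ≠ 0 := by
  intro h
  have hu : IsUnit ((S.M : ℕ) : S.A) := IsUnit.of_mul_eq_one ⟨_, S.natCast_inv_mem S.notDvd⟩
    (Subtype.ext (by
      show ((S.M : ℕ) : AlgebraicClosure ℚ) * _ = 1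
      exact mul_inv_cancel₀ (Nat.cast_ne_zero.mpr (NeZero.ne S.M))))
  have := hu.map (IsLocalRing.residue S.A)
  rw [map_natCast, h] at this
  exact not_isUnit_zero this

theorem residue_upow_tUnit_ne_one {n : ℤ} (hn : ¬ (S.M : ℤ) ∣ n) :
    IsLocalRing.residue S.A (upow S.tUnit n) ≠ 1 := by
  set v : ℂˣ := Units.map (S.ιA : S.A →* ℂ) S.tUnit with hv
  have hval : (v : ℂ) = Complex.exp (2 * π * Complex.I / (S.M : ℕ)) := by
    rw [hv, S.tUnit_spec]
    show Complex.exp _ = _
    push_cast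
    ring_nf
  have hprim : IsPrimitiveRoot v S.M :=
    IsPrimitiveRoot.coe_units_iff.mp (hval ▸ Complex.isPrimitiveRoot_exp S.M (NeZero.ne S.M))
  have hprimA : IsPrimitiveRoot S.tUnit S.M :=
    IsPrimitiveRoot.of_map_of_injective (f := Units.map (S.ιA : S.A →* ℂ)) hprim
      (Units.map_injective S.ιA_injective)
  have hne : upow S.tUnit n ≠ 1 := fun h =>
    hn ((hprimA.zpow_eq_one_iff_dvd n).mp (Units.ext h))
  have hpow : upow S.tUnit n ^ S.M = 1 := by
    simp only [upow, ← Units.val_pow_eq_pow_val]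
    rw [← zpow_natCast, ← zpow_mul, mul_comm, zpow_mul, zpow_natCast, hprimA.pow_eq_one, one_zpow,
      Units.val_one]
  have hsum : ∑ i ∈ Finset.range S.M, upow S.tUnit n ^ i = 0 := by
    have := geom_sum_mul (upow S.tUnit n) S.M
    rw [hpow, sub_self, mul_eq_zero] at this
    exact this.resolve_right (sub_ne_zero.mpr hne)
  intro h
  have h2 := congrArg (IsLocalRing.residue S.A) hsum
  simp only [map_sum, map_pow, h, one_pow, Finset.sum_const, Finset.card_range, nsmul_one,
    map_zero] at h2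
  exact residue_natCast_M_ne_zero h2

theorem exists_root_residue (c : S.k) : ∃ d : S.k, d ^ S.ℓ = c := by
  obtain ⟨a, rfl⟩ := IsLocalRing.residue_surjective c
  obtain ⟨b, hb⟩ := IsAlgClosed.exists_pow_nat_eq (a : AlgebraicClosure ℚ) S.hℓ.pos
  have hbA : b ∈ S.A := by
    rw [← ValuationSubring.valuation_le_one_iff]
    by_contra h
    push Not at h
    have h1 := one_lt_pow₀ h S.hℓ.ne_zero
    rw [← map_pow, hb] at h1
    exact absurd h1 (not_lt.mpr ((ValuationSubring.valuation_le_one_iff _ _).mpr a.2))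
  exact ⟨IsLocalRing.residue S.A ⟨b, hbA⟩, by rw [← map_pow]; exact congrArg _ (Subtype.ext hb)⟩

theorem charP_k : CharP S.k S.ℓ := by
  refine (CharP.charP_iff_prime_eq_zero S.hℓ).mpr ?_
  have : (S.ℓ : S.A) ∈ IsLocalRing.maximalIdeal S.A := by
    rw [← ValuationSubring.coe_mem_nonunits_iff]
    exact S.liesOver
  rw [← map_natCast (IsLocalRing.residue S.A), IsLocalRing.residue_eq_zero_iff]
  exact this

theorem resA_jL : S.resA S.jL = qExpand S.k S.M (jqModC S.k) := by
  rw [resA, RingHom.comp_apply, expA_jL, ModularCurve.coeffMap_qExpand,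
    ModularCurve.coeffMap_jqModC]

theorem aeval_qExpand_jq (P : Polynomial S.k) :
    Polynomial.aeval (qExpand S.k S.M (jqModC S.k)) P =
      qExpand S.k S.M (Polynomial.aeval (jqModC S.k) P) := by
  rw [← qExpandAlgHomC_apply S.k S.M (jqModC S.k), Polynomial.aeval_algHom_apply]
  rfl

theorem invPoly_fibK : S.fibK.InvPoly := fun x hx => by
  classical
  haveI := charP_k (S := S)
  haveI : Fact S.ℓ.Prime := ⟨S.hℓ⟩
  have := Fintype.ofFinite S.G
  set w := S.fibK.φ x with hw
  -- descent to `k((q))`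
  obtain ⟨w0, hw0⟩ := exists_qExpand_of_support S.M w fun n hn => by
    have h1 : S.fibK.φ (S.mkG ModularGroup.T⁻¹ • x) = w := hx _
    rw [mkG_smul] at h1
    have h2 : S.resA (act ModularGroup.T⁻¹ x) =
        coeffMap (IsLocalRing.residue S.A) (twist S.tUnit (S.expA x)) := by
      rw [resA, RingHom.comp_apply, S.expA_act_T_inv]
    rw [fibK_φ, h2] at h1
    have h3 := congrArg (fun s : LaurentSeries S.k => s.coeff n) h1
    simp only [coeffMap_coeff, coeff_twist, map_mul] at h3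
    have h4 : w.coeff n = IsLocalRing.residue S.A ((S.expA x).coeff n) := rfl
    rw [← h4, ← sub_eq_zero, ← sub_one_mul, mul_eq_zero] at h3
    exact h3.resolve_left (sub_ne_zero.mpr (residue_upow_tUnit_ne_one hn))
  -- the orbit product
  set n := Fintype.card S.G
  set Ψ : Polynomial S.LF := ∏ g : S.G, (Polynomial.X - Polynomial.C (g • x)) with hΨ
  have hinv : ∀ i (g : S.G), g • Ψ.coeff i = Ψ.coeff i := by
    intro i g
    have h1 : Ψ.map (MulSemiringAction.toRingHom S.G S.LF g) = Ψ := by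
      rw [hΨ, Polynomial.map_prod]
      refine Fintype.prod_equiv (Equiv.mulLeft g) _ _ fun h => ?_
      simp [mul_smul]
    conv_rhs => rw [← h1, Polynomial.coeff_map]
    rfl
  have hmap : Ψ.map S.fibK.φ = (Polynomial.X - Polynomial.C w) ^ n := by
    rw [hΨ, Polynomial.map_prod, Finset.prod_congr rfl (g := fun _ => Polynomial.X - Polynomial.C w)
      (fun g _ => by simp [hx g, hw]), Finset.prod_const, Finset.card_univ]
  obtain ⟨e, m, hm, hn⟩ := Nat.exists_eq_pow_mul_and_not_dvd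
    (n := n) Fintype.card_ne_zero S.ℓ S.hℓ.ne_one
  haveI : CharP (LaurentSeries S.k) S.ℓ :=
    charP_of_injective_algebraMap (algebraMap S.k (LaurentSeries S.k)).injective S.ℓ
  have hcoef : ((Polynomial.X - Polynomial.C w) ^ n).coeff ((m - 1) * S.ℓ ^ e) =
      -w ^ S.ℓ ^ e * m := by
    rw [hn, pow_mul, sub_pow_char_pow, ← map_pow,
      show ((Polynomial.X : Polynomial (LaurentSeries S.k)) ^ S.ℓ ^ e - Polynomial.C (w ^ S.ℓ ^ e)) ^ m =
        Polynomial.expand _ (S.ℓ ^ e) ((Polynomial.X - Polynomial.C (w ^ S.ℓ ^ e)) ^ m) by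
      simp, Polynomial.coeff_expand_mul (pow_pos S.hℓ.pos _)]
    have hm0 : m ≠ 0 := fun h => hm (h ▸ dvd_zero _)
    rw [sub_eq_add_neg, ← map_neg, Polynomial.coeff_X_add_C_pow,
      show m - (m - 1) = 1 by omega, pow_one,
      show m.choose (m - 1) = m by
        rw [Nat.choose_symm_of_eq_add (show m = (m - 1) + 1 by omega), Nat.choose_one_right]]
  rw [← hmap, Polynomial.coeff_map] at hcoef
  obtain ⟨P, hP⟩ := exists_poly_of_smul_eq _ (hinv ((m - 1) * S.ℓ ^ e))
  rw [hP, Fib.φ_aeval, fibK_φ, resA_jL, aeval_qExpand_jq, ← hw0, ← map_pow] at hcoef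
  have hm' : (m : S.k) ≠ 0 := fun h => hm ((CharP.cast_eq_zero_iff S.k S.ℓ m).mp h)
  have hroot : ∃ P0 : Polynomial S.k, w0 ^ S.ℓ ^ e = Polynomial.aeval (jqModC S.k) P0 := by
    refine ⟨Polynomial.C (-(m : S.k)⁻¹) * P.map S.fibK.c, ?_⟩
    apply qExpand_injective (R := S.k) S.M
    rw [map_mul, map_mul, hcoef, Polynomial.aeval_C, ← qExpandAlgHomC_apply S.k S.M
      (algebraMap _ _ _), AlgHom.commutes, map_neg, map_inv₀, map_natCast]
    have : (m : LaurentSeries S.k) ≠ 0 := by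
      rw [← map_natCast (algebraMap S.k (LaurentSeries S.k))]
      exact (_root_.map_ne_zero _).mpr hm'
    field_simp
  clear hcoef
  suffices key : ∀ (e : ℕ) (u : LaurentSeries S.k),
      (∃ P0 : Polynomial S.k, u ^ S.ℓ ^ e = Polynomial.aeval (jqModC S.k) P0) →
      ∃ P1 : Polynomial S.k, u = Polynomial.aeval (jqModC S.k) P1 by
    obtain ⟨P1, hP1⟩ := key e w0 hroot
    refine ⟨P1, ?_⟩
    rw [fibK_φ, resA_jL, aeval_qExpand_jq, ← hP1, hw0, hw, fibK_φ]
  intro e
  induction e with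
  | zero => intro u hu; simpa using hu
  | succ e ih =>
    rintro u ⟨P0, hP0⟩
    obtain ⟨P1, hP1⟩ := exists_poly_of_pow_char exists_root_residue P0 (u ^ S.ℓ ^ e)
      (by rw [← pow_mul, ← pow_succ, hP0])
    exact ih u ⟨P1, hP1⟩

variable {Φ}

/-- the fixed field of the group is generated by `j` -/
theorem Fib.InvPoly.mem_adjoin_j (h : Φ.InvPoly) {z : ↥Φ.K} (hz : ∀ g : S.G, g • z = z) :
    (z : LaurentSeries F) ∈
      IntermediateField.adjoin F ({Φ.φ S.jL} : Set (LaurentSeries F)) := by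
  obtain ⟨x, y, hy, hfix, hxy⟩ := Φ.exists_invariant_den ⊤ z
  obtain ⟨P, hP⟩ := exists_poly_of_smul_eq y fun g => hfix g trivial
  obtain ⟨Q, hQ⟩ := h x fun g => by
    have h1 : g • (z * Φ.toK y) = g • Φ.toK x := congrArg (fun w : ↥Φ.K => g • w) hxy
    rw [smul_mul', hz, Fib.smul_toK, Fib.smul_toK, hfix g trivial, hxy] at h1
    exact congrArg Subtype.val h1.symm
  have h2 : (z : LaurentSeries F) = Φ.φ x / Φ.φ y :=
    (eq_div_iff hy).mpr (congrArg Subtype.val hxy)
  rw [h2, hQ, hP, Φ.φ_aeval]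
  exact div_mem
    (IntermediateField.algebra_adjoin_le_adjoin F _ (Polynomial.aeval_mem_adjoin_singleton F _))
    (IntermediateField.algebra_adjoin_le_adjoin F _ (Polynomial.aeval_mem_adjoin_singleton F _))

/-- elements fixed by the stabiliser of `w` are rational in `j` and `w` -/
theorem Fib.InvPoly.mem_adjoin_pair (h : Φ.InvPoly) (w : S.LF) {z : ↥Φ.K}
    (hz : ∀ g : S.G, g • Φ.toK w = Φ.toK w → g • z = z) :
    (z : LaurentSeries F) ∈
      IntermediateField.adjoin F ({Φ.φ S.jL, Φ.φ w} : Set (LaurentSeries F)) := by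
  classical
  have := Fintype.ofFinite S.G
  obtain ⟨Q, Ψ, hQ, hΨ, -, -, -, hder, hval⟩ := exists_orbit_poly (Φ.toK w) z hz
  set L := IntermediateField.adjoin F ({Φ.φ S.jL, Φ.φ w} : Set (LaurentSeries F))
  have hev : ∀ R : Polynomial ↥Φ.K, (∀ (g : S.G) i, g • R.coeff i = R.coeff i) →
      ((R.eval (Φ.toK w) : ↥Φ.K) : LaurentSeries F) ∈ L := by
    intro R hR
    rw [Polynomial.eval_eq_sum_range, AddSubmonoidClass.coe_finsetSum]
    refine sum_mem fun i _ => ?_
    rw [MulMemClass.coe_mul, SubmonoidClass.coe_pow]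
    exact mul_mem (IntermediateField.adjoin.mono F _ _ (by simp) (h.mem_adjoin_j fun g => hR g i))
      (pow_mem (IntermediateField.subset_adjoin F _ (by simp)) i)
  have hz' : z = Q.eval (Φ.toK w) / Ψ.derivative.eval (Φ.toK w) :=
    (eq_div_iff hder).mpr hval.symm
  rw [hz']
  rw [show ((Q.eval (Φ.toK w) / Ψ.derivative.eval (Φ.toK w) : ↥Φ.K) : LaurentSeries F) =
    (Q.eval (Φ.toK w) : ↥Φ.K).1 / (Ψ.derivative.eval (Φ.toK w) : ↥Φ.K).1 from rfl]
  exact div_mem (hev Q hQ) (hev _ fun g i => by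
    rw [Polynomial.coeff_derivative, smul_mul', hΨ g (i + 1)]
    congr 1
    rw [← Nat.cast_succ]
    exact map_natCast (MulSemiringAction.toRingHom S.G ↥Φ.K g) (i + 1))

end Lev

end FLTAgent.Good
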