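import Fermat.Agent.Good.Base
import Fermat.Agent.Good.SL2

/-!
Irreducibility of the special fibre of level `M`: the kernel of reduction of expansions at `∞` is
stable under the whole group (owner: lead).
-/

set_option autoImplicit false

noncomputable section

open UpperHalfPlane ModularCurve CongruenceSubgroup
open scoped MatrixGroups Manifold Topology Real

namespace FLTAgent.Good

open ModFun

namespace Lev

variable (S : Lev)

/-- elements of `G` preserving the kernel of reduction -/
def stabRes : Subgroup S.G where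
  carrier := {g | ∀ x, S.resA x = 0 → S.resA (g • x) = 0}
  one_mem' x hx := by rwa [one_smul]
  mul_mem' {g h} hg hh x hx := by rw [mul_smul]; exact hg _ (hh x hx)
  inv_mem' {g} hg x hx := by
    have key : ∀ n : ℕ, S.resA ((g ^ n) • x) = 0 := by
      intro n
      induction n with
      | zero => rwa [pow_zero, one_smul]
      | succ n ih => rw [pow_succ', mul_smul]; exact hg _ ih
    obtain ⟨n, hn⟩ : ∃ n : ℕ, g⁻¹ = g ^ n := by
      refine ⟨orderOf g - 1, inv_eq_of_mul_eq_one_right ?_⟩
      rw [← pow_succ', Nat.sub_add_cancel (orderOf_pos g), pow_orderOf_eq_one]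
    rw [hn]
    exact key n

theorem mem_stabRes {g : S.G} : g ∈ S.stabRes ↔ ∀ x, S.resA x = 0 → S.resA (g • x) = 0 := Iff.rfl

theorem resA_algebraMap (a : S.A) :
    S.resA (algebraMap S.A S.LF a) = HahnSeries.C (IsLocalRing.residue S.A a) := by
  rw [resA, RingHom.comp_apply, expA_algebraMap, HahnSeries.C_apply, HahnSeries.C_apply,
    coeffMap_single]

/-- a nonzero value of a polynomial in `j` has order at most `0` modulo `ℓ` -/
theorem order_res_aeval_le (P : Polynomial S.A) (h : S.resA (Polynomial.aeval S.jL P) ≠ 0) :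
    (S.resA (Polynomial.aeval S.jL P)).order ≤ 0 := by
  set R := P.map (IsLocalRing.residue S.A) with hR
  have hev : S.resA (Polynomial.aeval S.jL P) = R.eval₂ HahnSeries.C (S.resA S.jL) := by
    rw [hR, Polynomial.eval₂_map, Polynomial.aeval_def, Polynomial.hom_eval₂]
    congr 1
    exact RingHom.ext fun a => S.resA_algebraMap a
  have hR0 : R ≠ 0 := fun e => h (by rw [hev, e, Polynomial.eval₂_zero])
  have hcoef : (S.resA (Polynomial.aeval S.jL P)).coeff (-((R.natDegree * S.M : ℕ) : ℤ)) =
      R.leadingCoeff := by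
    rw [hev, Polynomial.eval₂_eq_sum_range, HahnSeries.coeff_sum,
      Finset.sum_eq_single R.natDegree]
    · rw [HahnSeries.C_apply, HahnSeries.coeff_single_zero_mul, resA, RingHom.comp_apply,
        ← map_pow, coeffMap_coeff, coeff_jM_pow_self, map_one, mul_one, Polynomial.leadingCoeff]
    · intro i hi hne
      have hi' : i < R.natDegree := by have := Finset.mem_range.mp hi; omega
      have h4 : i * S.M < R.natDegree * S.M :=
        Nat.mul_lt_mul_of_pos_right hi' (Nat.pos_of_ne_zero (NeZero.ne S.M))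
      rw [HahnSeries.C_apply, HahnSeries.coeff_single_zero_mul, resA, RingHom.comp_apply,
        ← map_pow, coeffMap_coeff, S.coeff_jM_pow_of_lt (by omega), map_zero, mul_zero]
    · intro h5; exact absurd (Finset.mem_range.mpr (Nat.lt_succ_self _)) h5
  refine le_trans (HahnSeries.order_le_of_coeff_ne_zero (g := -((R.natDegree * S.M : ℕ) : ℤ)) ?_) (by omega)
  rw [hcoef]
  exact Polynomial.leadingCoeff_ne_zero.mpr hR0

/-- an element vanishing modulo `ℓ` on the other components -/
theorem exists_separating : ∃ s : S.LF, S.resA s ≠ 0 ∧ ∀ g ∉ S.stabRes, S.resA (g • s) = 0 := by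
  classical
  have := Fintype.ofFinite S.G
  have key : ∀ g : S.G, ∃ s : S.LF, S.resA s ≠ 0 ∧ (g ∉ S.stabRes → S.resA (g • s) = 0) := by
    intro g
    by_cases hg : g ∈ S.stabRes
    · exact ⟨1, by simp, fun h => absurd hg h⟩
    · have hg' : g⁻¹ ∉ S.stabRes := fun h => hg (by simpa using inv_mem h)
      rw [mem_stabRes] at hg'
      push Not at hg'
      obtain ⟨x, hx, hx'⟩ := hg'
      exact ⟨g⁻¹ • x, hx', fun _ => by rwa [smul_inv_smul]⟩
  choose s hs1 hs2 using key
  refine ⟨∏ g, s g, by rw [map_prod]; exact Finset.prod_ne_zero_iff.mpr fun g _ => hs1 g,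
    fun g hg => ?_⟩
  rw [Finset.smul_prod', map_prod]
  exact Finset.prod_eq_zero (Finset.mem_univ g) (hs2 g hg)

/-- orders modulo `ℓ` of units, summed over the component of `∞`, vanish -/
theorem sum_order_eq_zero [Fintype S.stabRes] {p : S.LF} (hp : IsUnit p) :
    ∑ g : S.stabRes, (S.resA ((g : S.G) • p)).order = 0 := by
  classical
  have := Fintype.ofFinite S.G
  obtain ⟨s, hs, hs'⟩ := S.exists_separating
  have hord : ∀ x : S.LF, (∀ g : S.stabRes, S.resA ((g : S.G) • x) ≠ 0) →
      (∀ g ∉ S.stabRes, S.resA (g • x) = 0) →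
      ∑ g : S.stabRes, (S.resA ((g : S.G) • x)).order ≤ 0 := by
    intro x hx hx'
    set Q : Polynomial S.LF := ∏ g : S.G, (Polynomial.X - Polynomial.C (g • x)) with hQ
    set i0 := Fintype.card {g : S.G // g ∉ S.stabRes}
    have hmap : Q.map S.resA = Polynomial.X ^ i0 *
        ∏ g : S.stabRes, (Polynomial.X - Polynomial.C (S.resA ((g : S.G) • x))) := by
      rw [hQ, Polynomial.map_prod]
      rw [← Fintype.prod_subtype_mul_prod_subtype (fun g : S.G => g ∈ S.stabRes), mul_comm]
      congr 1
      · rw [Finset.prod_congr rfl (g := fun _ => Polynomial.X)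
          (fun (g : {g // g ∉ S.stabRes}) _ => by simp [hx' g.1 g.2])]
        simp [i0]
      · refine Finset.prod_congr ?_ fun g _ => by simp
        ext g
        simp
    have hinv : ∀ γ, act γ (Q.coeff i0) = Q.coeff i0 := by
      intro γ
      have h1 : Q.map (act γ : S.LF ≃+* S.LF).toRingHom = Q := by
        rw [hQ, Polynomial.map_prod]
        refine Fintype.prod_equiv (Equiv.mulLeft (S.mkG γ)) _ _ fun g => ?_
        simp only [Polynomial.map_sub, Polynomial.map_X, Polynomial.map_C, Equiv.coe_mulLeft, mul_smul]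
        rfl
      conv_rhs => rw [← h1, Polynomial.coeff_map]
      rfl
    obtain ⟨m, hm⟩ : ∃ m : ℕ, ∀ n < -((m * S.M : ℕ) : ℤ),
        (S.expA (Q.coeff i0)).coeff n = 0 := by
      refine ⟨(-(S.expA (Q.coeff i0)).order).toNat, fun n hn => ?_⟩
      refine HahnSeries.coeff_eq_zero_of_lt_order ?_
      have h1 : (-(S.expA (Q.coeff i0)).order).toNat ≤
          (-(S.expA (Q.coeff i0)).order).toNat * S.M :=
        Nat.le_mul_of_pos_right _ (Nat.pos_of_ne_zero (NeZero.ne S.M))
      omega
    obtain ⟨P, -, hP⟩ := S.exists_poly_of_invariant _ hinv m hm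
    have hval : S.resA (Q.coeff i0) = ∏ g : S.stabRes, -S.resA ((g : S.G) • x) := by
      rw [← Polynomial.coeff_map, hmap]
      rw [Polynomial.coeff_X_pow_mul', if_pos le_rfl, Nat.sub_self, Polynomial.coeff_zero_prod]
      simp
    have hne : S.resA (Q.coeff i0) ≠ 0 := by
      rw [hval]
      exact Finset.prod_ne_zero_iff.mpr fun g _ => neg_ne_zero.mpr (hx g)
    have hle := S.order_res_aeval_le P (by rw [← hP]; exact hne)
    rw [← hP, hval] at hle
    have hprod : ∀ T : Finset S.stabRes,
        (∏ g ∈ T, -S.resA ((g : S.G) • x)).order = ∑ g ∈ T, (S.resA ((g : S.G) • x)).order := by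
      intro T
      induction T using Finset.induction_on with
      | empty => simp
      | insert g T hgT ih =>
        rw [Finset.prod_insert hgT, Finset.sum_insert hgT, HahnSeries.order_mul
          (neg_ne_zero.mpr (hx g)) (Finset.prod_ne_zero_iff.mpr fun g _ => neg_ne_zero.mpr (hx g)),
          HahnSeries.order_neg, ih]
    rwa [hprod] at hle
  have hnz : ∀ {u : S.LF} (g : S.G), IsUnit u → S.resA (g • u) ≠ 0 := fun g hu =>
    ((hu.map (MulSemiringAction.toRingHom S.G S.LF g)).map S.resA).ne_zero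
  have hs0 : ∀ g : S.stabRes, S.resA ((g : S.G) • s) ≠ 0 := fun g e => hs (by
    have := (mem_stabRes S).mp (inv_mem g.2) _ e
    rwa [inv_smul_smul] at this)
  have bound : ∀ {u : S.LF}, IsUnit u → ∀ m : ℕ,
      (m : ℤ) * ∑ g : S.stabRes, (S.resA ((g : S.G) • u)).order +
        ∑ g : S.stabRes, (S.resA ((g : S.G) • s)).order ≤ 0 := by
    intro u hu m
    have h := hord (u ^ m * s) (fun g => by
        rw [smul_mul', map_mul]; exact mul_ne_zero (hnz _ (hu.pow m)) (hs0 g))
      (fun g hg => by rw [smul_mul', map_mul, hs' g hg, mul_zero])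
    refine le_trans (le_of_eq ?_) h
    rw [Finset.mul_sum, ← Finset.sum_add_distrib]
    refine Finset.sum_congr rfl fun g _ => ?_
    rw [smul_mul', map_mul, HahnSeries.order_mul (hnz _ (hu.pow m)) (hs0 g), smul_pow', map_pow,
      HahnSeries.order_pow, nsmul_eq_mul]
  obtain ⟨v, rfl⟩ := hp
  have hneg : ∑ g : S.stabRes, (S.resA ((g : S.G) • (↑v⁻¹ : S.LF))).order =
      -∑ g : S.stabRes, (S.resA ((g : S.G) • (v : S.LF))).order := by
    rw [← Finset.sum_neg_distrib]
    refine Finset.sum_congr rfl fun g _ => ?_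
    have h1 : S.resA ((g : S.G) • (↑v⁻¹ : S.LF)) * S.resA ((g : S.G) • (v : S.LF)) = 1 := by
      rw [← map_mul, ← smul_mul', Units.inv_mul, smul_one, map_one]
    have h2 := congrArg HahnSeries.order h1
    rw [HahnSeries.order_mul (left_ne_zero_of_mul_eq_one h1) (right_ne_zero_of_mul_eq_one h1),
      HahnSeries.order_one] at h2
    linarith
  set tot1 := ∑ g : S.stabRes, (S.resA ((g : S.G) • (v : S.LF))).order
  set tot0 := ∑ g : S.stabRes, (S.resA ((g : S.G) • s)).order
  have b1 := bound v.isUnit (tot0.natAbs + 1)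
  have b2 := bound v⁻¹.isUnit (tot0.natAbs + 1)
  rw [hneg] at b2
  push_cast at b1 b2
  have h0 : -|tot0| ≤ tot0 := neg_abs_le tot0
  rcases lt_trichotomy tot1 0 with h | h | h
  · nlinarith
  · exact h
  · nlinarith

/-- the group preserving the kernel of reduction, in `SL(2, ℤ)` -/
theorem stabRes_eq_top : S.stabRes = ⊤ := by
  classical
  set G0 : Subgroup SL(2, ℤ) := S.stabRes.comap S.actHom.rangeRestrict with hG0
  suffices h : G0 = ⊤ by
    refine eq_top_iff.mpr fun g _ => ?_
    obtain ⟨γ, rfl⟩ := S.mkG_surjective g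
    have : γ ∈ G0 := h ▸ Subgroup.mem_top γ
    exact this
  have hT : ModularGroup.T⁻¹ ∈ G0 := by
    intro x hx
    show S.resA (act ModularGroup.T⁻¹ x) = 0
    ext n
    have hn := congrArg (fun z : LaurentSeries S.k => z.coeff n) hx
    simp only [resA, RingHom.comp_apply, coeffMap_coeff, HahnSeries.coeff_zero] at hn
    simp [resA, S.expA_act_T_inv x, hn]
  refine subgroup_eq_top S.M G0 (fun γ hγ => ?_) (by simpa using inv_mem hT) fun p hp hpM => ?_
  · intro x hx
    show S.resA (act γ x) = 0
    rwa [S.act_gamma hγ]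
  by_contra hcon
  push Not at hcon
  obtain ⟨e, he⟩ := hpM
  have he0 : 0 < e := Nat.pos_of_ne_zero fun h0 => NeZero.ne S.M (by rw [he, h0, mul_zero])
  have heM : e < S.M := by
    rw [he]; exact lt_mul_of_one_lt_left he0 hp.one_lt
  have : Fact (1 < S.M) := ⟨by have := S.three_le; omega⟩
  have hz : (e : ZMod S.M) ≠ 0 := by
    rw [Ne, ZMod.natCast_eq_zero_iff]
    exact fun h0 => absurd (Nat.le_of_dvd he0 h0) (not_le.mpr heM)
  have hadm : Adm S.M ((0, (e : ZMod S.M)) : Lbl S.M) ((1, 0) : Lbl S.M) := by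
    refine ⟨fun h0 => hz (congrArg Prod.snd h0), fun h0 => one_ne_zero (congrArg Prod.fst h0),
      fun h0 => one_ne_zero (congrArg Prod.fst h0), fun h0 => ?_⟩
    have := congrArg Prod.fst h0
    simp at this
  obtain ⟨u, hu, hlead⟩ := S.exists_phi hadm
  have := Fintype.ofFinite S.stabRes
  have hsum := S.sum_order_eq_zero hu
  have hterm : ∀ g : S.stabRes, (S.resA ((g : S.G) • u)).order = -(S.M : ℤ) := by
    intro g
    obtain ⟨γ, hγ⟩ := S.mkG_surjective (g : S.G)
    have hmem : γ⁻¹ ∈ G0 := inv_mem (show γ ∈ G0 from by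
      show S.mkG γ ∈ S.stabRes
      rw [hγ]; exact g.2)
    obtain ⟨c, hc⟩ := hcon γ⁻¹ hmem
    rw [← hγ, mkG_smul, resA, RingHom.comp_apply, ((hlead γ).map (IsLocalRing.residue S.A)).order_eq]
    have h0 : (lblAct S.M ((0, (e : ZMod S.M)) : Lbl S.M) γ⁻¹).1 = 0 := by
      simp only [lblAct, zero_mul, zero_add]
      rw [hc, show ((e : ZMod S.M)) * (((p : ℤ) * c : ℤ) : ZMod S.M) =
        ((p * e : ℕ) : ZMod S.M) * (c : ZMod S.M) by push_cast; ring, ← he, ZMod.natCast_self,
        zero_mul]
    rw [pOrd, h0, absVal_zero]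
    simp
  rw [Finset.sum_congr rfl fun g _ => hterm g, Finset.sum_const, Finset.card_univ, nsmul_eq_mul] at hsum
  rcases mul_eq_zero.mp hsum with h0 | h0
  · have := Fintype.card_pos (α := S.stabRes)
    omega
  · simp [NeZero.ne S.M] at h0

/-- the kernel of reduction is stable -/
theorem resA_act_eq_zero {x : S.LF} (hx : S.resA x = 0) (γ : SL(2, ℤ)) :
    S.resA (act γ x) = 0 := by
  have h : S.mkG γ ∈ S.stabRes := by rw [S.stabRes_eq_top]; exact Subgroup.mem_top _
  exact h x hx

theorem resA_act_congr {x y : S.LF} (h : S.resA x = S.resA y) (γ : SL(2, ℤ)) :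
    S.resA (act γ x) = S.resA (act γ y) := by
  have h0 : S.resA (act γ (x - y)) = 0 :=
    S.resA_act_eq_zero (by rw [map_sub, h, sub_self]) γ
  rwa [map_sub, map_sub, sub_eq_zero] at h0

theorem resA_smul_congr {x y : S.LF} (h : S.resA x = S.resA y) (g : S.G) :
    S.resA (g • x) = S.resA (g • y) := by
  obtain ⟨γ, rfl⟩ := S.mkG_surjective g
  exact S.resA_act_congr h γ

end Lev

end FLTAgent.Good
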