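import Fermat.Agent.Good.Series
import Fermat.Agent.Good.LevelDefs
import Fermat.Agent.ModFun.Conj
import Fermat.Prelude.Def_ModularCurve_X0ModL
import Fermat.Prelude.Def_FLTPrelim_Ramification

/-!
The level `M` ring over a place `A` of `ℚ̄`: functions on `ℍ`, invariant under `Γ(M)`, whose
expansions in `t = q^{1/M}` at all cusps have coefficients in `A`.
-/

set_option autoImplicit false

noncomputable section

open UpperHalfPlane ModularCurve CongruenceSubgroup
open scoped MatrixGroups Manifold Topology Real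

namespace FLTAgent.Good

open ModFun

/-- the data: a place of `ℚ̄` above `ℓ`, an embedding in `ℂ`, a level prime to `ℓ` -/
structure Lev where
  A : ValuationSubring (AlgebraicClosure ℚ)
  ℓ : ℕ
  hℓ : ℓ.Prime
  liesOver : A.LiesOverPrime ℓ
  ι : AlgebraicClosure ℚ →+* ℂ
  M : ℕ
  M0 : ℕ
  hM0 : M0 = 2 ∨ M0 = 3
  dvd : M0 ∣ M
  three_le : 3 ≤ M
  notDvd : ¬ ℓ ∣ M

namespace Lev

variable (S : Lev)

instance : NeZero S.M := ⟨fun h => by have := S.three_le; omega⟩

instance : NeZero S.M0 := ⟨fun h => by rcases S.hM0 with h' | h' <;> omega⟩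

/-- the residue field -/
abbrev k : Type := IsLocalRing.ResidueField S.A

/-- the coefficient ring in `ℂ` -/
def ιA : S.A →+* ℂ := S.ι.comp S.A.subtype

theorem ιA_injective : Function.Injective S.ιA := S.ι.injective.comp Subtype.val_injective

theorem coeffMap_ιA_injective : Function.Injective (coeffMap S.ιA) := fun x y h => by
  ext n
  exact congrArg Subtype.val (S.ιA_injective (by
    simpa using congrArg (fun z : LaurentSeries ℂ => z.coeff n) h))

theorem natCast_inv_mem {m : ℕ} (hm : ¬ S.ℓ ∣ m) : ((m : AlgebraicClosure ℚ))⁻¹ ∈ S.A := by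
  by_contra h
  have hmem : (m : AlgebraicClosure ℚ) ∈ S.A.nonunits := by
    rw [ValuationSubring.mem_nonunits_iff]
    by_contra hge
    push Not at hge
    apply h
    rw [← ValuationSubring.valuation_le_one_iff, map_inv₀]
    exact inv_le_one_of_one_le₀ hge
  have hcop : Nat.Coprime S.ℓ m := S.hℓ.coprime_iff_not_dvd.mpr hm
  obtain ⟨a, b, hab⟩ := Nat.isCoprime_iff_coprime.mpr hcop
  have h1 : S.A.valuation ((a : AlgebraicClosure ℚ) * S.ℓ + (b : AlgebraicClosure ℚ) * m) < 1 := by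
    have hint : ∀ z : ℤ, S.A.valuation (z : AlgebraicClosure ℚ) ≤ 1 := fun z =>
      (ValuationSubring.valuation_le_one_iff _ _).mpr (intCast_mem S.A z)
    refine Valuation.map_add_lt _ ?_ ?_ <;> rw [map_mul]
    · exact lt_of_le_of_lt (mul_le_of_le_one_left' (hint a)) S.liesOver
    · exact lt_of_le_of_lt (mul_le_of_le_one_left' (hint b)) hmem
  rw [show ((a : AlgebraicClosure ℚ) * S.ℓ + (b : AlgebraicClosure ℚ) * m) = 1 by
    exact_mod_cast congrArg (fun z : ℤ => (z : AlgebraicClosure ℚ)) hab] at h1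
  simp at h1

theorem exists_ιA_root_of_unity {z : ℂ} {n : ℕ} (hn : n ≠ 0) (hz : z ^ n = 1) :
    ∃ η : S.Aˣ, S.ιA η = z := by
  have : NeZero n := ⟨hn⟩
  obtain ⟨w, hw⟩ := HasEnoughRootsOfUnity.exists_primitiveRoot (AlgebraicClosure ℚ) n
  obtain ⟨i, -, rfl⟩ := (hw.map_of_injective S.ι.injective).eq_pow_of_pow_eq_one hz
  have hw1 : w ∈ S.A := by
    rw [← ValuationSubring.valuation_le_one_iff]
    have h1 : S.A.valuation w ^ n = 1 := by rw [← map_pow, hw.pow_eq_one, map_one]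
    exact le_of_eq ((pow_eq_one_iff.mp h1).resolve_right hn)
  have hu : IsUnit (⟨w, hw1⟩ : S.A) :=
    IsUnit.of_pow_eq_one (Subtype.ext hw.pow_eq_one) hn
  exact ⟨hu.unit ^ i, by simp [ιA]⟩

theorem exists_ιA_exp (r : ℚ) :
    ∃ η : S.Aˣ, Units.map (S.ιA : S.A →* ℂ) η = expUnit (r : ℝ) := by
  have hz : Complex.exp (2 * π * Complex.I * ((r : ℝ) : ℂ)) ^ r.den = 1 := by
    rw [← Complex.exp_nat_mul, show (r.den : ℂ) * (2 * π * Complex.I * ((r : ℝ) : ℂ)) =
      (r.num : ℂ) * (2 * π * Complex.I) from ?_]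
    · exact Complex.exp_int_mul_two_pi_mul_I r.num
    · have h : ((r.den : ℂ) * ((r : ℝ) : ℂ)) = (r.num : ℂ) := by
        exact_mod_cast (Rat.den_mul_eq_num r)
      linear_combination (2 * π * Complex.I) * h
  obtain ⟨η, hη⟩ := S.exists_ιA_root_of_unity r.den_pos.ne' hz
  exact ⟨η, Units.ext hη⟩

theorem coeffRing_le (x : coeffRing S.M) : ∃ a : S.A, S.ιA a = x := by
  have hle : coeffRing S.M ≤ (S.ιA.toIntAlgHom).range := by
    refine Algebra.adjoin_le ?_
    rintro z (rfl | rfl)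
    · obtain ⟨η, hη⟩ := S.exists_ιA_root_of_unity (NeZero.ne S.M)
        (Complex.isPrimitiveRoot_exp S.M (NeZero.ne S.M)).pow_eq_one
      exact ⟨η, hη⟩
    · exact ⟨⟨_, S.natCast_inv_mem S.notDvd⟩, by simp [ιA]⟩
  exact hle x.2

/-- the coefficient ring maps into `A` -/
def rho : coeffRing S.M →+* S.A where
  toFun x := (S.coeffRing_le x).choose
  map_one' := S.ιA_injective (by rw [(S.coeffRing_le 1).choose_spec, map_one]; rfl)
  map_mul' x y := S.ιA_injective (by
    rw [(S.coeffRing_le (x * y)).choose_spec, map_mul, (S.coeffRing_le x).choose_spec,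
      (S.coeffRing_le y).choose_spec]; rfl)
  map_zero' := S.ιA_injective (by rw [(S.coeffRing_le 0).choose_spec, map_zero]; rfl)
  map_add' x y := S.ιA_injective (by
    rw [(S.coeffRing_le (x + y)).choose_spec, map_add, (S.coeffRing_le x).choose_spec,
      (S.coeffRing_le y).choose_spec]; rfl)

theorem ιA_rho (x : coeffRing S.M) : S.ιA (S.rho x) = x := (S.coeffRing_le x).choose_spec

/-! ### Expansions -/

/-- `s` is the expansion of `f` in `t = q^{1/M}` -/
def HasExp (f : ℍ → ℂ) (s : LaurentSeries S.A) : Prop :=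
  ∃ h : Mod1 (dil S.M f), lx ⟨dil S.M f, h⟩ = coeffMap S.ιA s

variable {S} {f g : ℍ → ℂ} {s t : LaurentSeries S.A}

theorem HasExp.unique (h : S.HasExp f s) (h' : S.HasExp f t) : s = t :=
  S.coeffMap_ιA_injective (h.choose_spec.symm.trans h'.choose_spec)

theorem HasExp.add (h : S.HasExp f s) (h' : S.HasExp g t) : S.HasExp (f + g) (s + t) := by
  obtain ⟨a, ha⟩ := h; obtain ⟨b, hb⟩ := h'
  refine ⟨a.add b, ?_⟩
  rw [map_add, ← ha, ← hb, ← map_add]
  rfl

theorem HasExp.mul (h : S.HasExp f s) (h' : S.HasExp g t) : S.HasExp (f * g) (s * t) := by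
  obtain ⟨a, ha⟩ := h; obtain ⟨b, hb⟩ := h'
  refine ⟨a.mul b, ?_⟩
  rw [map_mul, ← ha, ← hb, ← map_mul]
  rfl

theorem hasExp_const (a : S.A) : S.HasExp (fun _ => S.ιA a) (HahnSeries.C a) := by
  refine ⟨(Good.const _).mod1, ?_⟩
  rw [show (⟨dil S.M (fun _ => S.ιA a), (Good.const _).mod1⟩ : M1) = algebraMap ℂ M1 (S.ιA a) from
    rfl, AlgHom.commutes, algebraMap_laurentSeries_eq_single, HahnSeries.C_apply, coeffMap_single]

theorem hasExp_one : S.HasExp (1 : ℍ → ℂ) 1 := by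
  have h := hasExp_const (S := S) 1
  rwa [map_one, map_one] at h

theorem hasExp_zero : S.HasExp (0 : ℍ → ℂ) 0 := by
  have h := hasExp_const (S := S) 0
  rwa [map_zero, map_zero] at h

theorem HasExp.neg (h : S.HasExp f s) : S.HasExp (-f) (-s) := by
  have e := (hasExp_const (S := S) (-1)).mul h
  rw [map_neg, map_one, map_neg, map_one] at e
  convert e using 1
  · funext τ
    simp
  · exact (neg_one_mul s).symm

theorem HasExp.eq_zero (h : S.HasExp f 0) : f = 0 := by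
  obtain ⟨a, ha⟩ := h
  rw [map_zero, map_eq_zero_iff _ lx_injective] at ha
  funext τ
  have := congrFun (congrArg Subtype.val ha) (aff 1 0 S.M τ)
  simp only [dil, ZeroMemClass.coe_zero, Pi.zero_apply] at this
  show f τ = 0
  convert this using 2
  ext
  rw [coe_scale, coe_aff]
  have : (S.M : ℂ) ≠ 0 := Nat.cast_ne_zero.mpr (NeZero.ne S.M)
  field_simp
  simp

/-- a power series expansion -/
theorem hasExp_of_hasSum {P : PowerSeries S.A} (hf : MDiff f)
    (h : ∀ τ : ℍ, HasSum (fun n : ℕ => S.ιA (PowerSeries.coeff n P) *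
      Function.Periodic.qParam S.M (τ : ℂ) ^ n) (f τ)) :
    S.HasExp f (HahnSeries.ofPowerSeries ℤ S.A P) := by
  have hq : ∀ τ : ℍ, Function.Periodic.qParam S.M (scale S.M τ : ℂ) = qp τ := by
    intro τ
    simp only [qp, Function.Periodic.qParam, coe_scale, Complex.ofReal_natCast, Complex.ofReal_one,
      div_one]
    congr 1
    have : (S.M : ℂ) ≠ 0 := Nat.cast_ne_zero.mpr (NeZero.ne S.M)
    field_simp
  have h' : ∀ τ : ℍ, HasSum (fun n : ℕ => S.ιA (PowerSeries.coeff n P) * qp τ ^ n) (dil S.M f τ) :=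
    fun τ => by simpa only [hq, dil] using h (scale S.M τ)
  have hg := good_of_hasSum (mdiff_dil hf S.M) h'
  refine ⟨hg.mod1, ?_⟩
  rw [lx_good hg, qx_of_hasSum (mdiff_dil hf S.M) h', ModFun.coeffMap_ofPowerSeries]
  congr 1
  ext n
  simp

/-- inverses -/
theorem HasExp.inv (h : S.HasExp f s) (h0 : ∀ τ, f τ ≠ 0) (hst : s * t = 1) :
    S.HasExp (fun τ => (f τ)⁻¹) t := by
  obtain ⟨a, ha⟩ := h
  have hi := mod1_inv a (fun τ => h0 _)
  refine ⟨hi, ?_⟩
  have hmul : (⟨dil S.M f, a⟩ : M1) * ⟨fun τ => (dil S.M f τ)⁻¹, hi⟩ = 1 :=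
    Subtype.ext (funext fun τ => mul_inv_cancel₀ (h0 _))
  have h1 := congrArg lx hmul
  rw [map_mul, map_one, ha] at h1
  have h2 := congrArg (coeffMap S.ιA) hst
  rw [map_mul, map_one] at h2
  exact mul_left_cancel₀ (left_ne_zero_of_mul_eq_one h2) (h1.trans h2.symm)

/-- translation by one -/
theorem HasExp.comp_T (h : S.HasExp f s) {η : S.Aˣ}
    (hη : Units.map (S.ιA : S.A →* ℂ) η = expUnit (1 / (S.M : ℝ))) :
    S.HasExp (fun τ => f (ModularGroup.T • τ)) (twist η s) := by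
  obtain ⟨a, ha⟩ := h
  have e : dil S.M (fun τ => f (ModularGroup.T • τ)) = fun τ => dil S.M f (shiftH (1 / (S.M : ℝ)) τ) := by
    funext τ
    simp only [dil]
    congr 1
    rw [UpperHalfPlane.modular_T_smul]
    ext
    rw [UpperHalfPlane.coe_vadd, coe_scale, coe_scale, coe_shiftH]
    have : (S.M : ℂ) ≠ 0 := Nat.cast_ne_zero.mpr (NeZero.ne S.M)
    push_cast
    field_simp
  have hm : Mod1 (dil S.M (fun τ => f (ModularGroup.T • τ))) := by
    rw [e]; exact mod1_shift a _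
  refine ⟨hm, ?_⟩
  rw [coeffMap_twist, hη, ← ha, ← lx_shift]
  congr 1
  exact Subtype.ext e

variable (S)

/-! ### The ring -/

/-- the level `M` ring -/
def levRing : Subring (ℍ → ℂ) where
  carrier := {f | MDiff f ∧ (∀ γ ∈ Gamma S.M, ∀ τ, f (γ • τ) = f τ) ∧
    ∀ γ : SL(2, ℤ), ∃ s, S.HasExp (fun τ => f (γ • τ)) s}
  mul_mem' := fun ⟨h1, h2, h3⟩ ⟨h1', h2', h3'⟩ =>
    ⟨h1.mul h1', fun γ hγ τ => congrArg₂ (· * ·) (h2 γ hγ τ) (h2' γ hγ τ),
      fun γ => ⟨_, (h3 γ).choose_spec.mul (h3' γ).choose_spec⟩⟩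
  one_mem' := ⟨(Good.const 1).holo, fun _ _ _ => rfl, fun _ => ⟨1, hasExp_one⟩⟩
  add_mem' := fun ⟨h1, h2, h3⟩ ⟨h1', h2', h3'⟩ =>
    ⟨h1.add h1', fun γ hγ τ => congrArg₂ (· + ·) (h2 γ hγ τ) (h2' γ hγ τ),
      fun γ => ⟨_, (h3 γ).choose_spec.add (h3' γ).choose_spec⟩⟩
  zero_mem' := ⟨(Good.const 0).holo, fun _ _ _ => rfl, fun _ => ⟨0, hasExp_zero⟩⟩
  neg_mem' := fun ⟨h1, h2, h3⟩ =>
    ⟨h1.neg, fun γ hγ τ => congrArg Neg.neg (h2 γ hγ τ), fun γ => ⟨_, (h3 γ).choose_spec.neg⟩⟩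

/-- the level `M` ring, as a type -/
abbrev LF : Type := ↥S.levRing

variable {S}

theorem LF.exists_exp (x : S.LF) : ∃ s, S.HasExp (x : ℍ → ℂ) s := by
  simpa using x.2.2.2 1

theorem LF.apply_gamma (x : S.LF) {γ : SL(2, ℤ)} (hγ : γ ∈ Gamma S.M) (τ : ℍ) :
    (x : ℍ → ℂ) (γ • τ) = (x : ℍ → ℂ) τ := x.2.2.1 γ hγ τ

theorem mdiff_comp_smul {h : ℍ → ℂ} (hh : MDiff h) (γ : SL(2, ℤ)) :
    MDiff (fun τ => h (γ • τ)) := by
  have := mdiff_slash hh 0 γ
  rwa [slash_zero_eq] at this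

theorem LF.comp_mem (x : S.LF) (γ : SL(2, ℤ)) : (fun τ => (x : ℍ → ℂ) (γ • τ)) ∈ S.levRing := by
  refine ⟨mdiff_comp_smul x.2.1 γ, fun δ hδ τ => ?_, fun δ => ?_⟩
  · show (x : ℍ → ℂ) (γ • δ • τ) = (x : ℍ → ℂ) (γ • τ)
    have hmem : γ * δ * γ⁻¹ ∈ Gamma S.M := (Gamma_normal S.M).conj_mem δ hδ γ
    have := LF.apply_gamma x hmem (γ • τ)
    rwa [← mul_smul, inv_mul_cancel_right, mul_smul] at this
  · obtain ⟨s, hs⟩ := x.2.2.2 (γ * δ)
    exact ⟨s, by simpa only [mul_smul] using hs⟩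

/-- the left action of `SL(2, ℤ)` -/
def act (γ : SL(2, ℤ)) : S.LF ≃+* S.LF where
  toFun x := ⟨fun τ => (x : ℍ → ℂ) (γ⁻¹ • τ), x.comp_mem γ⁻¹⟩
  invFun x := ⟨fun τ => (x : ℍ → ℂ) (γ • τ), x.comp_mem γ⟩
  left_inv x := Subtype.ext (funext fun τ => by simp)
  right_inv x := Subtype.ext (funext fun τ => by simp)
  map_mul' _ _ := rfl
  map_add' _ _ := rfl

@[simp]
theorem act_apply (γ : SL(2, ℤ)) (x : S.LF) (τ : ℍ) :
    ((act γ x : S.LF) : ℍ → ℂ) τ = (x : ℍ → ℂ) (γ⁻¹ • τ) := rfl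

variable (S)

/-- the action as a homomorphism -/
def actHom : SL(2, ℤ) →* RingAut S.LF where
  toFun := act
  map_one' := RingEquiv.ext fun x => Subtype.ext (funext fun τ => by simp)
  map_mul' γ δ := RingEquiv.ext fun x => Subtype.ext (funext fun τ => by
    show (x : ℍ → ℂ) ((γ * δ)⁻¹ • τ) = _
    rw [mul_inv_rev, mul_smul]
    rfl)

theorem actHom_apply (γ : SL(2, ℤ)) : S.actHom γ = act γ := rfl

/-- the finite group `SL(2, ℤ)/±Γ(M)` -/
abbrev G : Subgroup (RingAut S.LF) := S.actHom.range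

/-- the class of `γ` in `G` -/
def mkG (γ : SL(2, ℤ)) : S.G := ⟨act γ, γ, rfl⟩

theorem mkG_surjective : Function.Surjective S.mkG := fun g => by
  obtain ⟨γ, hγ⟩ := g.2
  exact ⟨γ, Subtype.ext hγ⟩

theorem mkG_mul (γ δ : SL(2, ℤ)) : S.mkG (γ * δ) = S.mkG γ * S.mkG δ :=
  Subtype.ext (map_mul S.actHom γ δ)

theorem mkG_inv (γ : SL(2, ℤ)) : S.mkG γ⁻¹ = (S.mkG γ)⁻¹ :=
  Subtype.ext (map_inv S.actHom γ)

theorem mkG_smul (γ : SL(2, ℤ)) (x : S.LF) : S.mkG γ • x = act γ x := rfl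

theorem act_gamma {γ : SL(2, ℤ)} (hγ : γ ∈ Gamma S.M) (x : S.LF) : act γ x = x :=
  Subtype.ext (funext fun τ => LF.apply_gamma x (inv_mem hγ) τ)

theorem act_neg (γ : SL(2, ℤ)) (x : S.LF) : act (-γ) x = act γ x :=
  Subtype.ext (funext fun τ => by
    show (x : ℍ → ℂ) ((-γ)⁻¹ • τ) = (x : ℍ → ℂ) (γ⁻¹ • τ)
    have h : (-γ)⁻¹ = -γ⁻¹ := inv_eq_of_mul_eq_one_right (by simp)
    rw [h, ModularGroup.SL_neg_smul])

instance finite_G : Finite S.G := by
  let e := QuotientGroup.quotientKerEquivRange S.actHom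
  have : (MonoidHom.ker S.actHom).FiniteIndex :=
    Subgroup.finiteIndex_of_le (H := Gamma S.M)
      fun γ hγ => RingEquiv.ext fun x => S.act_gamma hγ x
  exact Finite.of_equiv _ e.toEquiv

/-! ### The expansions -/

/-- the expansion at infinity -/
def expA : S.LF →+* LaurentSeries S.A where
  toFun x := x.exists_exp.choose
  map_one' := (LF.exists_exp (1 : S.LF)).choose_spec.unique hasExp_one
  map_mul' x y := (LF.exists_exp (x * y)).choose_spec.unique
    (x.exists_exp.choose_spec.mul y.exists_exp.choose_spec)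
  map_zero' := (LF.exists_exp (0 : S.LF)).choose_spec.unique hasExp_zero
  map_add' x y := (LF.exists_exp (x + y)).choose_spec.unique
    (x.exists_exp.choose_spec.add y.exists_exp.choose_spec)

theorem hasExp_expA (x : S.LF) : S.HasExp (x : ℍ → ℂ) (S.expA x) := x.exists_exp.choose_spec

variable {S}

theorem expA_eq {x : S.LF} {s : LaurentSeries S.A} (h : S.HasExp (x : ℍ → ℂ) s) : S.expA x = s :=
  (S.hasExp_expA x).unique h

variable (S)

theorem expA_injective : Function.Injective S.expA :=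
  (injective_iff_map_eq_zero _).mpr fun x h =>
    Subtype.ext (HasExp.eq_zero (h ▸ S.hasExp_expA x))

instance : IsDomain S.LF := S.expA_injective.isDomain S.expA

/-- the expansion of `g x` -/
def cuspExp (γ : SL(2, ℤ)) : S.LF →+* LaurentSeries S.A := S.expA.comp (act γ).toRingHom

/-- reduction modulo the maximal ideal -/
def resA : S.LF →+* LaurentSeries S.k := (coeffMap (IsLocalRing.residue S.A)).comp S.expA

/-- the expansion with coefficients in `ℚ̄` -/
def expQ : S.LF →+* LaurentSeries (AlgebraicClosure ℚ) := (coeffMap S.A.subtype).comp S.expA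

theorem expQ_injective : Function.Injective S.expQ := by
  intro x y h
  apply S.expA_injective
  ext n
  simpa [expQ] using congrArg (fun z : LaurentSeries (AlgebraicClosure ℚ) => z.coeff n) h

/-- a root of unity realising `τ ↦ τ + 1` -/
def tUnit : S.Aˣ := (S.exists_ιA_exp (1 / (S.M : ℚ))).choose

theorem tUnit_spec : Units.map (S.ιA : S.A →* ℂ) S.tUnit = expUnit (1 / (S.M : ℝ)) := by
  have h := (S.exists_ιA_exp (1 / (S.M : ℚ))).choose_spec
  refine h.trans (congrArg expUnit ?_)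
  push_cast
  ring

theorem expA_act_T_inv (x : S.LF) :
    S.expA (act ModularGroup.T⁻¹ x) = twist S.tUnit (S.expA x) := by
  refine expA_eq ?_
  have h := (S.hasExp_expA x).comp_T S.tUnit_spec
  convert h using 1
  funext τ
  rw [act_apply, inv_inv]

/-! ### Constants -/

theorem const_mem (a : S.A) : (fun _ => S.ιA a) ∈ S.levRing :=
  ⟨(Good.const _).holo, fun _ _ _ => rfl, fun _ => ⟨_, hasExp_const a⟩⟩

/-- constants -/
def constHom : S.A →+* S.LF where
  toFun a := ⟨fun _ => S.ιA a, S.const_mem a⟩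
  map_one' := Subtype.ext (funext fun _ => map_one S.ιA)
  map_mul' a b := Subtype.ext (funext fun _ => map_mul S.ιA a b)
  map_zero' := Subtype.ext (funext fun _ => map_zero S.ιA)
  map_add' a b := Subtype.ext (funext fun _ => map_add S.ιA a b)

instance : Algebra S.A S.LF := S.constHom.toAlgebra

theorem algebraMap_apply (a : S.A) (τ : ℍ) :
    ((algebraMap S.A S.LF a : S.LF) : ℍ → ℂ) τ = S.ιA a := rfl

theorem expA_algebraMap (a : S.A) : S.expA (algebraMap S.A S.LF a) = HahnSeries.C a :=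
  expA_eq (hasExp_const a)

theorem act_algebraMap (γ : SL(2, ℤ)) (a : S.A) :
    act γ (algebraMap S.A S.LF a) = algebraMap S.A S.LF a := rfl

instance : SMulCommClass S.G S.A S.LF :=
  ⟨fun g a x => by
    obtain ⟨γ, rfl⟩ := S.mkG_surjective g
    simp only [Algebra.smul_def, mkG_smul, map_mul, act_algebraMap]⟩

end Lev

end FLTAgent.Good
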