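import Fermat.Agent.Good.Invariant
import Fermat.Agent.ModFun.FieldAux
import Fermat.Agent.Genus.Cosets
import Fermat.Prelude.Def_ModularCurve_X0ModL

/-!
Level `N ∣ M`: the stabiliser of `j(Nτ)` is the image of `Γ₀(N)` in both fibres, hence the degree
and separability of the level `N` field over `k(j)`.
-/

set_option autoImplicit false

noncomputable section

open UpperHalfPlane ModularCurve CongruenceSubgroup
open scoped MatrixGroups

namespace FLTAgent.Good

open ModFun

namespace Lev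

variable (S : Lev) (N : ℕ) [NeZero N]

/-- the image of `Γ₀(N)` -/
def Hgrp : Subgroup S.G := (Gamma0 N).map S.actHom.rangeRestrict

variable {S N}

omit [NeZero N] in
theorem mem_Hgrp {g : S.G} : g ∈ S.Hgrp N ↔ ∃ γ ∈ Gamma0 N, S.mkG γ = g := Iff.rfl

theorem act_jdL_eq {d : ℕ} [NeZero d] (hd : d ∣ S.M) {γ : SL(2, ℤ)} (hγ : γ ∈ Gamma0 d) :
    act γ (S.jdL d hd) = S.jdL d hd := Subtype.ext (funext fun τ => by
  obtain ⟨γ', h⟩ := scale_smul_Gamma0 d (inv_mem hγ) τ
  show jFun (scale d (γ⁻¹ • τ)) = jFun (scale d τ)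
  rw [h, jFun_smul])

omit [NeZero N] in
theorem Gamma0_le_of_dvd {d : ℕ} (hdN : d ∣ N) : Gamma0 N ≤ Gamma0 d := fun γ hγ => by
  rw [Gamma0_mem, ZMod.intCast_zmod_eq_zero_iff_dvd] at hγ ⊢
  exact (Int.natCast_dvd_natCast.mpr hdN).trans hγ

theorem smul_jdL {d : ℕ} [NeZero d] (hd : d ∣ S.M) (hdN : d ∣ N) {g : S.G} (hg : g ∈ S.Hgrp N) :
    g • S.jdL d hd = S.jdL d hd := by
  obtain ⟨γ, hγ, rfl⟩ := mem_Hgrp.mp hg
  exact act_jdL_eq hd (Gamma0_le_of_dvd hdN hγ)

variable {F : Type} [Field F] (Φ : S.Fib F)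

theorem Fib.φ_jdL (d : ℕ) [NeZero d] (hd : d ∣ S.M) :
    Φ.φ (S.jdL d hd) = qExpand F S.M (qExpand F d (jqModC F)) := by
  show coeffMap Φ.c (S.expA (S.jdL d hd)) = _
  rw [expA_jdL, ModularCurve.coeffMap_qExpand, ModularCurve.coeffMap_jqModC, qExpand_qExpand]
  exact qExpand_congr (mul_comm _ _) _

theorem Fib.φ_jL : Φ.φ S.jL = qExpand F S.M (jqModC F) := by
  show coeffMap Φ.c (S.expA S.jL) = _
  rw [expA_jL, ModularCurve.coeffMap_qExpand, ModularCurve.coeffMap_jqModC]

theorem Fib.mem_Gamma0_of_φ (hN : N ∣ S.M) {γ : SL(2, ℤ)}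
    (h : Φ.φ (act γ (S.jdL N hN)) = Φ.φ (S.jdL N hN)) : γ ∈ Gamma0 N := by
  obtain ⟨A0, B, D, hA0, hD, hAD, hdvd, hj⟩ := exists_aff N γ⁻¹
  obtain ⟨e, he⟩ := hN
  have : NeZero e := ⟨fun h0 => NeZero.ne S.M (by rw [he, h0, mul_zero])⟩
  have : NeZero (A0 * A0 * e) :=
    ⟨mul_ne_zero (mul_ne_zero (NeZero.ne A0) (NeZero.ne A0)) (NeZero.ne e)⟩
  obtain ⟨η, hη⟩ := S.hasExp_jFun_aff A0 B D (A0 * A0 * e) (by rw [he, ← hAD]; ring)
  have hexp : S.expA (act γ (S.jdL N ⟨e, he⟩)) =
      qExpand S.A (A0 * A0 * e) (twist η (jqModC S.A)) := by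
    refine expA_eq ?_
    convert hη using 1
    exact funext hj
  have hA : A0 = N := by
    have hle : A0 ≤ N := Nat.le_of_dvd (Nat.pos_of_ne_zero (NeZero.ne N)) ⟨D, hAD.symm⟩
    rcases hle.lt_or_eq with hlt | heq
    swap; · exact heq
    exfalso
    have h1 := congrArg (fun s : LaurentSeries F => s.coeff (-((N * S.M : ℕ) : ℤ))) h
    have hRHS : (Φ.φ (S.jdL N ⟨e, he⟩)).coeff (-((N * S.M : ℕ) : ℤ)) = 1 := by
      rw [Φ.φ_jdL, qExpand_qExpand, show (-((N * S.M : ℕ) : ℤ)) =
        ((S.M * N : ℕ) : ℤ) * (-1 : ℤ) by push_cast; ring, qExpand_coeff_mul]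
      exact coeff_jqModC_neg_one F
    simp only [hRHS] at h1
    rw [show Φ.φ (act γ (S.jdL N ⟨e, he⟩)) = coeffMap Φ.c
      (qExpand S.A (A0 * A0 * e) (twist η (jqModC S.A))) by rw [← hexp]; rfl, coeffMap_coeff] at h1
    have hk : A0 * A0 * e < N * S.M := by
      rw [he, ← mul_assoc]
      exact Nat.mul_lt_mul_of_pos_right (Nat.mul_lt_mul'' hlt hlt)
        (Nat.pos_of_ne_zero (NeZero.ne e))
    refine one_ne_zero (α := F) (h1.symm.trans ?_)
    by_cases hd : ((A0 * A0 * e : ℕ) : ℤ) ∣ -((N * S.M : ℕ) : ℤ)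
    · obtain ⟨c, hc⟩ := hd
      have hc1 : c < -1 := by
        have h2 : ((A0 * A0 * e : ℕ) : ℤ) < ((N * S.M : ℕ) : ℤ) := by exact_mod_cast hk
        have h3 : (0 : ℤ) ≤ ((A0 * A0 * e : ℕ) : ℤ) := Int.natCast_nonneg _
        by_contra hcon
        push Not at hcon
        have := mul_le_mul_of_nonneg_left hcon h3
        linarith
      rw [hc, qExpand_coeff_mul, coeff_twist, coeff_jqModC_of_lt S.A hc1, mul_zero, map_zero]
    · rw [qExpand_coeff_of_not_dvd _ _ hd, map_zero]
  have : γ⁻¹ ∈ Gamma0 N := by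
    rw [Gamma0_mem, ZMod.intCast_zmod_eq_zero_iff_dvd]
    exact hA ▸ hdvd
  simpa using inv_mem this

theorem Fib.smul_toK_jN_iff (hN : N ∣ S.M) (g : S.G) :
    g • Φ.toK (S.jdL N hN) = Φ.toK (S.jdL N hN) ↔ g ∈ S.Hgrp N := by
  rw [Fib.smul_toK]
  constructor
  · intro h
    obtain ⟨γ, rfl⟩ := S.mkG_surjective g
    exact mem_Hgrp.mpr ⟨γ, Φ.mem_Gamma0_of_φ hN (congrArg Subtype.val h), rfl⟩
  · intro h
    rw [smul_jdL hN dvd_rfl h]

/-- the orbit of an element with stabiliser `Γ₀(N)` -/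
theorem card_orbit_of_stab {R : Type*} [CommRing R] [MulSemiringAction S.G R] [Fintype S.G]
    (w : R) (hw : ∀ γ : SL(2, ℤ), S.mkG γ • w = w ↔ γ ∈ Gamma0 N) :
    (orbitFin S.G w).card = dedekindPsi N := by
  classical
  let f : Genus.CosetSpace N → R := fun q => S.mkG q.out • w
  have himage : (Finset.univ : Finset (Genus.CosetSpace N)).image f = orbitFin S.G w := by
    ext o
    simp only [Finset.mem_image, Finset.mem_univ, true_and, mem_orbitFin]
    constructor
    · rintro ⟨q, rfl⟩; exact ⟨_, rfl⟩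
    · rintro ⟨g, rfl⟩
      obtain ⟨γ, rfl⟩ := S.mkG_surjective g
      refine ⟨QuotientGroup.mk γ, ?_⟩
      obtain ⟨h, hh⟩ := QuotientGroup.mk_out_eq_mul (Gamma0 N) γ
      show S.mkG (QuotientGroup.mk γ : Genus.CosetSpace N).out • w = S.mkG γ • w
      rw [hh, mkG_mul, mul_smul, (hw h).mpr h.2]
  have hinj : Function.Injective f := by
    intro q q' h
    have h1 : S.mkG (q.out⁻¹ * q'.out) • w = w := by
      rw [mkG_mul, mkG_inv, mul_smul, show S.mkG q'.out • w = S.mkG q.out • w from h.symm,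
        inv_smul_smul]
    rw [← QuotientGroup.out_eq' q, ← QuotientGroup.out_eq' q', QuotientGroup.eq]
    exact (hw _).mp h1
  rw [← himage, Finset.card_image_of_injective _ hinj, Finset.card_univ, ← Genus.card_cosetSpace N,
    Nat.card_eq_fintype_card]

theorem Fib.mkG_smul_toK_jN_iff (hN : N ∣ S.M) (γ : SL(2, ℤ)) :
    S.mkG γ • Φ.toK (S.jdL N hN) = Φ.toK (S.jdL N hN) ↔ γ ∈ Gamma0 N := by
  rw [Fib.smul_toK, mkG_smul]
  exact ⟨fun h => Φ.mem_Gamma0_of_φ hN (congrArg Subtype.val h),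
    fun h => by rw [act_jdL_eq hN h]⟩

theorem mkG_smul_jN_iff (hN : N ∣ S.M) (γ : SL(2, ℤ)) :
    S.mkG γ • S.jdL N hN = S.jdL N hN ↔ γ ∈ Gamma0 N :=
  ⟨fun h => S.fibQ.mem_Gamma0_of_φ hN (congrArg S.fibQ.φ h), fun h => act_jdL_eq hN h⟩

include Φ in
/-- independence of the powers of `j(q^N)` over `F(j)` -/
theorem Fib.indep_powers (hN : N ∣ S.M) (c : ℕ → Polynomial F)
    (h : ∑ i ∈ Finset.range (dedekindPsi N),
      Polynomial.aeval (jqModC F) (c i) * qExpand F N (jqModC F) ^ i = 0) :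
    ∀ i < dedekindPsi N, c i = 0 := by
  classical
  have := Fintype.ofFinite S.G
  set R : Polynomial ↥Φ.K := ∑ i ∈ Finset.range (dedekindPsi N),
    Polynomial.monomial i (Polynomial.aeval (Φ.toK S.jL) (c i)) with hR
  have hcoeR : ∀ i, ((Polynomial.aeval (Φ.toK S.jL) (c i) : ↥Φ.K) : LaurentSeries F) =
      qExpand F S.M (Polynomial.aeval (jqModC F) (c i)) := fun i => by
    rw [show ((Polynomial.aeval (Φ.toK S.jL) (c i) : ↥Φ.K) : LaurentSeries F) =
      Φ.K.val (Polynomial.aeval (Φ.toK S.jL) (c i)) from rfl, ← Polynomial.aeval_algHom_apply,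
      ← qExpandAlgHomC_apply F S.M (Polynomial.aeval _ _), ← Polynomial.aeval_algHom_apply]
    exact congrArg (fun u => Polynomial.aeval u (c i)) Φ.φ_jL
  have hinv : ∀ (g : S.G) i, g • R.coeff i = R.coeff i := by
    intro g i
    rw [hR, Polynomial.finsetSum_coeff, Finset.smul_sum]
    refine Finset.sum_congr rfl fun l _ => ?_
    rw [Polynomial.coeff_monomial]
    split_ifs
    · rw [show g • Polynomial.aeval (Φ.toK S.jL) (c l) =
        MulSemiringAction.toAlgHom F ↥Φ.K g (Polynomial.aeval (Φ.toK S.jL) (c l)) from rfl,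
        ← Polynomial.aeval_algHom_apply]
      exact congrArg (fun u => Polynomial.aeval u (c l))
        (show g • Φ.toK S.jL = Φ.toK S.jL by rw [Fib.smul_toK, smul_jL])
    · exact smul_zero g
  have heval : R.eval (Φ.toK (S.jdL N hN)) = 0 := by
    refine Subtype.ext ?_
    rw [hR, Polynomial.eval_finsetSum, AddSubmonoidClass.coe_finsetSum, ZeroMemClass.coe_zero,
      ← map_zero (qExpand F S.M), ← h, map_sum]
    refine Finset.sum_congr rfl fun i _ => ?_
    rw [Polynomial.eval_monomial, map_mul, map_pow, MulMemClass.coe_mul, SubmonoidClass.coe_pow,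
      hcoeR, Fib.coe_toK, Φ.φ_jdL]
  have hpos : 0 < dedekindPsi N := by
    rw [← Genus.card_cosetSpace N, Nat.card_eq_fintype_card]
    exact Fintype.card_pos
  have hR0 : R = 0 := eq_zero_of_invariant _ R hinv heval (by
    rw [card_orbit_of_stab _ (Φ.mkG_smul_toK_jN_iff hN)]
    refine lt_of_le_of_lt (Polynomial.natDegree_sum_le_of_forall_le _ _
      (n := dedekindPsi N - 1) fun i hi => ?_) (Nat.sub_lt hpos one_pos)
    exact (Polynomial.natDegree_monomial_le _).trans (by
      have := Finset.mem_range.mp hi; omega))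
  intro i hi
  have h1 := congrArg (fun P : Polynomial ↥Φ.K => ((P.coeff i : ↥Φ.K) : LaurentSeries F)) hR0
  simp only [hR, Polynomial.finsetSum_coeff, Polynomial.coeff_monomial, Finset.sum_ite_eq',
    Finset.mem_range, hi, if_true, Polynomial.coeff_zero, ZeroMemClass.coe_zero, hcoeR] at h1
  by_contra hne
  exact aeval_jq_ne_zero F hne
    (qExpand_injective (R := F) S.M (h1.trans (map_zero _).symm))

include Φ in
/-- the monic relation of degree `ψ` between `j` and `j(q^N)`, separable modulo `ℓ` -/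
theorem Fib.exists_relation (hN : N ∣ S.M) :
    ∃ c : ℕ → Polynomial F, c 0 = 1 ∧
      ∑ m ∈ Finset.range (dedekindPsi N + 1),
        Polynomial.aeval (jqModC F) (c m) * qExpand F N (jqModC F) ^ (dedekindPsi N - m) = 0 ∧
      ∑ m ∈ Finset.range (dedekindPsi N),
        ((dedekindPsi N - m : ℕ) : LaurentSeries F) * (Polynomial.aeval (jqModC F) (c m) *
          qExpand F N (jqModC F) ^ (dedekindPsi N - m - 1)) ≠ 0 := by
  classical
  have := Fintype.ofFinite S.G
  set n := dedekindPsi N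
  set w := S.jdL N hN
  obtain ⟨-, Ψ, -, hΨ, hmonic, hdeg, hroot, -, -⟩ :=
    exists_orbit_poly (G := S.G) w 1 fun g _ => smul_one g
  rw [card_orbit_of_stab _ (mkG_smul_jN_iff hN)] at hdeg
  choose P hP using fun m => exists_poly_of_smul_eq (Ψ.coeff (n - m)) fun g => hΨ g _
  set c : ℕ → Polynomial F := fun m => if m = 0 then 1 else (P m).map Φ.c with hc
  have hcm : ∀ m, Φ.φ (Ψ.coeff (n - m)) = qExpand F S.M (Polynomial.aeval (jqModC F) (c m)) := by
    intro m
    rw [hc]
    rcases eq_or_ne m 0 with rfl | hm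
    · simp only [if_pos, Nat.sub_zero, map_one]
      rw [show n = Ψ.natDegree from hdeg.symm, hmonic.coeff_natDegree, map_one]
    · simp only [if_neg hm]
      rw [hP m, Φ.φ_aeval, Φ.φ_jL, ← qExpandAlgHomC_apply F S.M (jqModC F),
        Polynomial.aeval_algHom_apply]
      rfl
  have hw : Φ.φ w = qExpand F S.M (qExpand F N (jqModC F)) := Φ.φ_jdL N hN
  refine ⟨c, by simp [hc], ?_, ?_⟩
  · apply qExpand_injective (R := F) S.M
    rw [map_zero, map_sum]
    simp only [map_mul, map_pow, ← hcm, ← hw]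
    simp only [← map_pow, ← map_mul, ← map_sum]
    rw [← map_zero Φ.φ, ← hroot, Polynomial.eval_eq_sum_range, hdeg]
    refine congrArg _ ?_
    rw [← Finset.sum_range_reflect (fun i => Ψ.coeff i * w ^ i) (n + 1)]
    exact Finset.sum_congr rfl fun m _ => by rw [Nat.add_sub_cancel]
  · -- the orbit stays separable in the fibre
    intro h0
    obtain ⟨-, Ψ', -, hΨ', hmonic', hdeg', hroot', hder', -⟩ :=
      exists_orbit_poly (G := S.G) (Φ.toK w) 1 fun g _ => smul_one g
    rw [card_orbit_of_stab _ (Φ.mkG_smul_toK_jN_iff hN)] at hdeg'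
    have heq : Ψ.map Φ.toK = Ψ' := by
      rcases eq_or_ne (Ψ.map Φ.toK) Ψ' with h | h
      · exact h
      exfalso
      have hpos : 0 < n := by
        rw [show n = dedekindPsi N from rfl, ← Genus.card_cosetSpace N, Nat.card_eq_fintype_card]
        exact Fintype.card_pos
      refine sub_ne_zero.mpr h (eq_zero_of_invariant (G := S.G) (Φ.toK w) _ (fun g i => ?_) ?_ ?_)
      · rw [Polynomial.coeff_sub, smul_sub, Polynomial.coeff_map, Fib.smul_toK, hΨ g i, hΨ' g i]
      · rw [Polynomial.eval_sub, hroot', sub_zero, Polynomial.eval_map, Polynomial.eval₂_hom, hroot,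
          map_zero]
      · rw [card_orbit_of_stab _ (Φ.mkG_smul_toK_jN_iff hN)]
        refine lt_of_le_of_lt ?_ (Nat.sub_lt hpos one_pos)
        rw [Polynomial.natDegree_le_iff_coeff_eq_zero]
        intro i hi
        rw [Polynomial.coeff_sub, Polynomial.coeff_map]
        rcases eq_or_lt_of_le (show n ≤ i by omega) with h1 | h1
        · subst h1
          rw [show n = Ψ.natDegree from hdeg.symm, hmonic.coeff_natDegree, map_one,
            show Ψ.natDegree = Ψ'.natDegree from hdeg.trans hdeg'.symm,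
            hmonic'.coeff_natDegree, sub_self]
        · rw [Polynomial.coeff_eq_zero_of_natDegree_lt (by rw [hdeg]; exact h1),
            Polynomial.coeff_eq_zero_of_natDegree_lt (by rw [hdeg']; exact h1), map_zero, sub_zero]
    apply hder'
    rw [← heq, Polynomial.derivative_map, Polynomial.eval_map, Polynomial.eval₂_hom]
    refine Subtype.ext ?_
    rw [Fib.coe_toK, ZeroMemClass.coe_zero, ← map_zero (qExpand F S.M), ← h0, map_sum,
      Polynomial.eval_eq_sum_range' (n := n) (by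
        refine lt_of_le_of_lt (Polynomial.natDegree_derivative_le Ψ) ?_
        have : 0 < n := by
          rw [show n = dedekindPsi N from rfl, ← Genus.card_cosetSpace N, Nat.card_eq_fintype_card]
          exact Fintype.card_pos
        omega), map_sum, ← Finset.sum_range_reflect _ n]
    refine Finset.sum_congr rfl fun m hm => ?_
    have hm' := Finset.mem_range.mp hm
    simp only [map_mul, map_pow, map_natCast, ← hcm, ← hw, Polynomial.coeff_derivative]
    rw [show n - 1 - m + 1 = n - m by omega, show n - 1 - m = n - m - 1 by omega]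
    rw [← Nat.cast_succ, map_natCast Φ.φ, show (n - m - 1).succ = n - m by omega]
    ring

end Lev

end FLTAgent.Good
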