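import Fermat.Agent.Good.Level
import Fermat.Agent.ModFun.FunctionField

/-!
Level `N` inside level `M`: membership is invariance, degree and separability over `F(j)`.
-/

set_option autoImplicit false

noncomputable section

open UpperHalfPlane ModularCurve CongruenceSubgroup
open scoped MatrixGroups

namespace FLTAgent.Good

open ModFun

namespace Lev

variable {S : Lev} {N : ℕ} [NeZero N] {F : Type} [Field F] (Φ : S.Fib F)

theorem Fib.adjoin_pair_eq_map (hN : N ∣ S.M) :
    IntermediateField.adjoin F ({Φ.φ S.jL, Φ.φ (S.jdL N hN)} : Set (LaurentSeries F)) =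
      (IntermediateField.adjoin F
        ({jqModC F, qExpand F N (jqModC F)} : Set (LaurentSeries F))).map
        (qExpandAlgHomC F S.M) := by
  rw [IntermediateField.adjoin_map, Set.image_pair, qExpandAlgHomC_apply, qExpandAlgHomC_apply,
    ← Φ.φ_jdL N hN, ← Φ.φ_jL]

variable {Φ}

/-- the level `N` field is generated by `j(q)` and `j(q^N)` -/
theorem Fib.InvPoly.fullC_eq (h : Φ.InvPoly) (hN : N ∣ S.M) :
    modularFunctionFieldFullC F N =
      IntermediateField.adjoin F ({jqModC F, qExpand F N (jqModC F)} : Set (LaurentSeries F)) := by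
  refine le_antisymm ?_ (IntermediateField.adjoin_le_iff.mpr ?_)
  · rw [modularFunctionFieldFullC, IntermediateField.adjoin_le_iff]
    rintro x ⟨d, hd, hdN, rfl⟩
    have h1 := h.mem_adjoin_pair (S.jdL N hN) (z := Φ.toK (S.jdL d (hdN.trans hN))) fun g hg => by
      rw [Fib.smul_toK, smul_jdL (hdN.trans hN) hdN ((Φ.smul_toK_jN_iff hN g).mp hg)]
    rw [Φ.adjoin_pair_eq_map hN, IntermediateField.mem_map] at h1
    simp only [Fib.coe_toK, Φ.φ_jdL] at h1
    obtain ⟨y, hy, hyx⟩ := h1
    rwa [← qExpand_injective (R := F) S.M hyx]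
  · rintro x (rfl | rfl)
    · exact jqModC_mem_full F N
    · exact jqModCd_mem_full F N dvd_rfl

/-- elements of level `N` are the invariant ones -/
theorem Fib.InvPoly.mem_level_iff (h : Φ.InvPoly) (hN : N ∣ S.M) (z : ↥Φ.K) :
    (z : LaurentSeries F) ∈ (qExpand F S.M) '' (modularFunctionFieldFullC F N : Set _) ↔
      ∀ g ∈ S.Hgrp N, g • z = z := by
  have himg : (qExpand F S.M) '' (modularFunctionFieldFullC F N : Set _) =
      (IntermediateField.adjoin F ({Φ.φ S.jL, Φ.φ (S.jdL N hN)} : Set (LaurentSeries F)) :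
        Set (LaurentSeries F)) := by
    rw [h.fullC_eq hN, Φ.adjoin_pair_eq_map hN]
    rfl
  rw [himg]
  refine ⟨fun hz g hg => ?_, fun hz => h.mem_adjoin_pair (S.jdL N hN)
    fun g hg => hz g ((Φ.smul_toK_jN_iff hN g).mp hg)⟩
  have hzL : z ∈ IntermediateField.adjoin F ({Φ.toK S.jL, Φ.toK (S.jdL N hN)} : Set ↥Φ.K) := by
    have : (IntermediateField.adjoin F ({Φ.toK S.jL, Φ.toK (S.jdL N hN)} : Set ↥Φ.K)).map Φ.K.val =
        IntermediateField.adjoin F ({Φ.φ S.jL, Φ.φ (S.jdL N hN)} : Set (LaurentSeries F)) := by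
      rw [IntermediateField.adjoin_map, Set.image_pair]
      rfl
    rw [SetLike.mem_coe, ← this, IntermediateField.mem_map] at hz
    obtain ⟨w, hw, hwz⟩ := hz
    rwa [← Subtype.ext hwz]
  clear hz
  induction hzL using IntermediateField.adjoin_induction with
  | mem w hw =>
    rcases hw with rfl | rfl
    · rw [Fib.smul_toK, smul_jL]
    · exact (Φ.smul_toK_jN_iff hN g).mpr hg
  | algebraMap r => exact Φ.smul_algebraMap g r
  | add u v _ _ hu hv => rw [smul_add, hu, hv]
  | mul u v _ _ hu hv => rw [smul_mul', hu, hv]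
  | inv u _ hu => rw [smul_inv'', hu]

variable (Φ)

include Φ in
/-- the degree of the level `N` field over `F(j)` -/
theorem Fib.minpoly_natDegree_jN (hN : N ∣ S.M) :
    (minpoly ↥(IntermediateField.adjoin F ({jqModC F} : Set (LaurentSeries F)))
      (qExpand F N (jqModC F))).natDegree = dedekindPsi N := by
  obtain ⟨c, hc0, hc, -⟩ := Φ.exists_relation hN
  exact FieldAux.minpoly_natDegree ⟨c, hc0, hc⟩ (Φ.indep_powers hN)

variable {Φ}

theorem Fib.InvPoly.extendScalars_eq (h : Φ.InvPoly) (hN : N ∣ S.M) :
    IntermediateField.extendScalars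
        (F := IntermediateField.adjoin F ({jqModC F} : Set (LaurentSeries F)))
        (E := modularFunctionFieldFullC F N)
        (IntermediateField.adjoin_le_iff.mpr
          (Set.singleton_subset_iff.mpr (jqModC_mem_full _ N))) =
      IntermediateField.adjoin ↥(IntermediateField.adjoin F ({jqModC F} : Set (LaurentSeries F)))
        ({qExpand F N (jqModC F)} : Set (LaurentSeries F)) := by
  apply IntermediateField.restrictScalars_injective F
  rw [IntermediateField.extendScalars_restrictScalars,
    IntermediateField.adjoin_simple_adjoin_simple, h.fullC_eq hN]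

theorem Fib.InvPoly.finrank_fullC (h : Φ.InvPoly) (hN : N ∣ S.M) :
    Module.finrank
        (IntermediateField.adjoin F ({jqModC F} : Set (LaurentSeries F)))
        (IntermediateField.extendScalars
          (F := IntermediateField.adjoin F ({jqModC F} : Set (LaurentSeries F)))
          (E := modularFunctionFieldFullC F N)
          (IntermediateField.adjoin_le_iff.mpr
            (Set.singleton_subset_iff.mpr (jqModC_mem_full _ N)))) =
      dedekindPsi N := by
  obtain ⟨c, hc0, hc, -⟩ := Φ.exists_relation hN
  obtain ⟨p, hp, -, hp0⟩ := FieldAux.exists_monic ⟨c, hc0, hc⟩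
  rw [h.extendScalars_eq hN, IntermediateField.adjoin.finrank ⟨p, hp, hp0⟩,
    Φ.minpoly_natDegree_jN hN]

variable (Φ)

include Φ in
theorem Fib.isSeparable_jN (hN : N ∣ S.M) :
    IsSeparable ↥(IntermediateField.adjoin F ({jqModC F} : Set (LaurentSeries F)))
      (qExpand F N (jqModC F)) := by
  classical
  set x := jqModC F
  set y := qExpand F N (jqModC F)
  set n := dedekindPsi N
  set L := IntermediateField.adjoin F ({x} : Set (LaurentSeries F))
  obtain ⟨c, hc0, hc, hder⟩ := Φ.exists_relation hN
  let x' : L := ⟨x, IntermediateField.mem_adjoin_simple_self _ _⟩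
  let p : Polynomial L := ∑ m ∈ Finset.range (n + 1),
    Polynomial.monomial (n - m) (Polynomial.aeval x' (c m))
  have hb : ∀ m, algebraMap L (LaurentSeries F) (Polynomial.aeval x' (c m)) =
      Polynomial.aeval x (c m) := fun m =>
    (Polynomial.aeval_algHom_apply L.val x' (c m)).symm
  have hp0 : Polynomial.aeval y p = 0 := by
    simp only [p, map_sum, Polynomial.aeval_monomial, hb]
    exact hc
  have hp' : Polynomial.aeval y p.derivative ≠ 0 := by
    simp only [p, map_sum, Polynomial.derivative_monomial, Polynomial.aeval_monomial, map_mul,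
      map_natCast, hb]
    rw [Finset.sum_range_succ, Nat.sub_self, Nat.cast_zero, mul_zero, zero_mul, add_zero]
    intro h0
    apply hder
    rw [← h0]
    exact Finset.sum_congr rfl fun m _ => by ring
  have hdeg : p.natDegree ≤ n := Polynomial.natDegree_sum_le_of_forall_le _ _ fun m _ =>
    (Polynomial.natDegree_monomial_le _).trans (Nat.sub_le _ _)
  have hpm : p.Monic := by
    refine Polynomial.monic_of_natDegree_le_of_coeff_eq_one n hdeg ?_
    simp only [p, Polynomial.finsetSum_coeff, Polynomial.coeff_monomial]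
    rw [Finset.sum_eq_single 0]
    · simp [hc0]
    · intro m hm hm0
      rw [Finset.mem_range] at hm
      rw [if_neg (by omega)]
    · simp
  have hint : IsIntegral L y := ⟨p, hpm, hp0⟩
  have heq : p = minpoly L y :=
    (Polynomial.eq_of_monic_of_dvd_of_natDegree_le (minpoly.monic hint) hpm (minpoly.dvd _ _ hp0)
      (by rw [Φ.minpoly_natDegree_jN hN]; exact hdeg))
  refine (Polynomial.separable_iff_derivative_ne_zero (minpoly.irreducible hint)).mpr fun h0 => hp' ?_
  rw [heq, h0, map_zero]

variable {Φ}

set_option maxHeartbeats 1000000 in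
theorem Fib.InvPoly.isSeparable_fullC (h : Φ.InvPoly) (hN : N ∣ S.M) {x : LaurentSeries F}
    (hx : x ∈ modularFunctionFieldFullC F N) :
    IsSeparable (IntermediateField.adjoin F ({jqModC F} : Set (LaurentSeries F))) x := by
  have hx' : x ∈ IntermediateField.adjoin
      ↥(IntermediateField.adjoin F ({jqModC F} : Set (LaurentSeries F)))
      ({qExpand F N (jqModC F)} : Set (LaurentSeries F)) := h.extendScalars_eq hN ▸ hx
  haveI := IntermediateField.isSeparable_adjoin_simple_iff_isSeparable _ _ |>.mpr
    (Φ.isSeparable_jN hN)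
  have h2 := Algebra.IsSeparable.isSeparable
    ↥(IntermediateField.adjoin F ({jqModC F} : Set (LaurentSeries F))) (⟨x, hx'⟩ :
      ↥(IntermediateField.adjoin ↥(IntermediateField.adjoin F ({jqModC F} : Set (LaurentSeries F)))
        ({qExpand F N (jqModC F)} : Set (LaurentSeries F))))
  unfold IsSeparable at h2 ⊢
  rw [IntermediateField.minpoly_eq] at h2
  exact h2

theorem modularFunctionFieldBar_eq_fullC :
    modularFunctionFieldBar N = modularFunctionFieldFullC (AlgebraicClosure ℚ) N := by
  have hj : ∀ d : ℕ, ∀ _ : NeZero d, coeffEmb (AlgebraicClosure ℚ) (qExpand ℚ d jq) =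
      qExpand (AlgebraicClosure ℚ) d (jqModC (AlgebraicClosure ℚ)) := fun d _ => by
    rw [coeffEmb, ModularCurve.coeffMap_qExpand, ← jqModC_rat, ModularCurve.coeffMap_jqModC]
  refine le_antisymm ?_ ?_
  · have h := congrArg (IntermediateField.map (modularFunctionFieldBar N).val) (generated_bar N)
    rw [IntermediateField.adjoin_map, Set.image_pair, ← AlgHom.fieldRange_eq_map,
      IntermediateField.fieldRange_val] at h
    rw [← h, IntermediateField.adjoin_le_iff]
    rintro x (rfl | rfl)
    · show coeffEmb _ jq ∈ _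
      rw [coeffEmb, ← jqModC_rat, ModularCurve.coeffMap_jqModC]
      exact jqModC_mem_full _ N
    · show coeffEmb _ (qExpand ℚ N jq) ∈ _
      rw [hj N inferInstance]
      exact jqModCd_mem_full _ N dvd_rfl
  · rw [modularFunctionFieldFullC, IntermediateField.adjoin_le_iff]
    rintro x ⟨d, hd, hdN, rfl⟩
    rw [← hj d hd]
    exact coeffEmb_mem_laurentBaseChange _ (jqd_mem_full N hdN)

end Lev

end FLTAgent.Good
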