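import Mathlib

/-!
Facts about Weierstrass `℘`: scaling, equality criterion, row sums.
-/

set_option autoImplicit false

noncomputable section

open Filter Complex
open scoped Topology Real

namespace FLTAgent.Good

open PeriodPair

theorem weierstrassP_scale (L L' : PeriodPair) {c : ℂ} (hc : c ≠ 0)
    (h : ∀ x, x ∈ L.lattice ↔ c * x ∈ L'.lattice) (z : ℂ) :
    ℘[L'] (c * z) = (c ^ 2)⁻¹ * ℘[L] z := by
  let e : L.lattice ≃ L'.lattice :=
    { toFun := fun x => ⟨c * x, (h x).1 x.2⟩
      invFun := fun y => ⟨c⁻¹ * y, (h _).2 (by rw [mul_inv_cancel_left₀ hc]; exact y.2)⟩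
      left_inv := fun x => Subtype.ext (inv_mul_cancel_left₀ hc _)
      right_inv := fun y => Subtype.ext (mul_inv_cancel_left₀ hc _) }
  rw [weierstrassP, weierstrassP, ← e.tsum_eq, ← tsum_mul_left]
  refine tsum_congr fun l => ?_
  show 1 / (c * z - c * (l : ℂ)) ^ 2 - 1 / (c * (l : ℂ)) ^ 2 = _
  rw [← mul_sub, mul_pow, mul_pow, one_div, one_div, one_div, one_div, mul_inv, mul_inv, mul_sub]

variable (L : PeriodPair)

theorem not_eventuallyEq_weierstrassP {g : ℂ → ℂ} (hg : AnalyticAt ℂ g 0) :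
    ¬ ℘[L] =ᶠ[𝓝[≠] 0] g := by
  intro h
  have h1 := L.order_weierstrassP 0 (Submodule.zero_mem _)
  rw [meromorphicOrderAt_congr h] at h1
  have h2 := hg.meromorphicOrderAt_nonneg
  rw [h1] at h2
  exact absurd (show (0 : WithTop ℤ) ≤ ((-2 : ℤ) : WithTop ℤ) from h2)
    (by rw [← WithTop.coe_zero, WithTop.coe_le_coe]; norm_num)

theorem isPreconnected_compl_countable {s : Set ℂ} (hs : s.Countable) : IsPreconnected sᶜ :=
  (hs.isConnected_compl_of_one_lt_rank (by rw [Complex.rank_real_complex]; norm_num)).isPreconnected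

theorem countable_lattice : (L.lattice : Set ℂ).Countable :=
  Set.countable_coe_iff.mp (inferInstanceAs (Countable L.lattice))

theorem compl_mem_punctured : (L.lattice : Set ℂ)ᶜ ∈ 𝓝[≠] (0 : ℂ) := by
  filter_upwards [mem_nhdsWithin_of_mem_nhds (L.compl_lattice_sdiff_singleton_mem_nhds 0),
    self_mem_nhdsWithin] with x hx hx0
  simp_all

theorem deriv_derivWeierstrassP {z : ℂ} (hz : z ∉ L.lattice) :
    deriv ℘'[L] z = 6 * ℘[L] z ^ 2 - L.g₂ / 2 := by
  set D := (L.lattice : Set ℂ)ᶜ
  have hD : IsOpen D := L.isClosed_lattice.isOpen_compl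
  have hy : AnalyticOnNhd ℂ ℘[L] D := L.analyticOnNhd_weierstrassP
  have hf : AnalyticOnNhd ℂ ℘'[L] D := L.analyticOnNhd_derivWeierstrassP
  have hh : AnalyticOnNhd ℂ (fun x => 2 * deriv ℘'[L] x - 12 * ℘[L] x ^ 2 + L.g₂) D :=
    ((analyticOnNhd_const.mul hf.deriv).sub (analyticOnNhd_const.mul (hy.pow 2))).add
      analyticOnNhd_const
  have hprod : ∀ x ∈ D, ℘'[L] x * (2 * deriv ℘'[L] x - 12 * ℘[L] x ^ 2 + L.g₂) = 0 := by
    intro x hx
    have dy : HasDerivAt ℘[L] (℘'[L] x) x := by
      rw [← L.deriv_weierstrassP]; exact (hy x hx).differentiableAt.hasDerivAt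
    have df : HasDerivAt ℘'[L] (deriv ℘'[L] x) x := (hf x hx).differentiableAt.hasDerivAt
    have e : (fun t => ℘'[L] t ^ 2) =ᶠ[𝓝 x] fun t => 4 * ℘[L] t ^ 3 - L.g₂ * ℘[L] t - L.g₃ := by
      filter_upwards [hD.mem_nhds hx] with t ht using L.derivWeierstrassP_sq t ht
    have d1 : HasDerivAt (fun t => ℘'[L] t ^ 2) (2 * ℘'[L] x * deriv ℘'[L] x) x := by
      simpa using df.fun_pow 2
    have d2 : HasDerivAt (fun t => 4 * ℘[L] t ^ 3 - L.g₂ * ℘[L] t - L.g₃)
        (4 * (3 * ℘[L] x ^ 2 * ℘'[L] x) - L.g₂ * ℘'[L] x) x := by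
      simpa using ((dy.fun_pow 3).const_mul (4 : ℂ)).sub (dy.const_mul L.g₂) |>.sub_const L.g₃
    have := d1.unique (d2.congr_of_eventuallyEq e)
    linear_combination this
  rcases AnalyticOnNhd.eq_zero_or_eq_zero_of_mul_eq_zero hf hh hprod
      (isPreconnected_compl_countable (countable_lattice L)) with h | h
  · exfalso
    have hconst : ∀ x ∈ D, ℘[L] x = ℘[L] z := fun x hx =>
      hD.is_const_of_deriv_eq_zero (isPreconnected_compl_countable (countable_lattice L))
        (fun t ht => (hy t ht).differentiableAt.differentiableWithinAt)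
        (fun t ht => by rw [L.deriv_weierstrassP]; exact h t ht) hx hz
    exact not_eventuallyEq_weierstrassP L analyticAt_const
      (Filter.eventuallyEq_of_mem (compl_mem_punctured L) hconst)
  · have := h z hz
    linear_combination this / 2

theorem iteratedDeriv_weierstrassP_congr {z w : ℂ} (hz : z ∉ L.lattice) (hw : w ∉ L.lattice)
    (h0 : ℘[L] z = ℘[L] w) (h1 : ℘'[L] z = ℘'[L] w) (n : ℕ) :
    iteratedDeriv n ℘[L] z = iteratedDeriv n ℘[L] w := by
  induction n using Nat.strong_induction_on with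
  | _ n ih =>
    match n with
    | 0 => simpa using h0
    | 1 => simpa using h1
    | (m + 2) =>
      have key : ∀ x, x ∉ L.lattice → iteratedDeriv (m + 2) ℘[L] x =
          6 * ∑ i ∈ Finset.range (m + 1), (m.choose i : ℂ) * iteratedDeriv i ℘[L] x *
            iteratedDeriv (m - i) ℘[L] x - if m = 0 then L.g₂ / 2 else 0 := by
        intro x hx
        have e : deriv (deriv ℘[L]) =ᶠ[𝓝 x] fun t => 6 * (℘[L] t * ℘[L] t) - L.g₂ / 2 := by
          filter_upwards [L.isClosed_lattice.isOpen_compl.mem_nhds hx] with t ht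
          rw [L.deriv_weierstrassP, deriv_derivWeierstrassP L ht, sq]
        have hc : ∀ k : ℕ, ContDiffAt ℂ k ℘[L] x := fun k =>
          (L.analyticOnNhd_weierstrassP x hx).contDiffAt
        rw [iteratedDeriv_succ', iteratedDeriv_succ', e.iteratedDeriv_eq,
          iteratedDeriv_fun_sub (contDiffAt_const.mul ((hc m).mul (hc m))) contDiffAt_const,
          iteratedDeriv_const_mul_field, iteratedDeriv_fun_mul (hc m) (hc m), iteratedDeriv_const]
      rw [key z hz, key w hw]
      congr 2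
      refine Finset.sum_congr rfl fun i hi => ?_
      rw [Finset.mem_range] at hi
      rw [ih i (by omega), ih (m - i) (by omega)]

theorem weierstrassP_add_period {l : ℂ} (hl : l ∈ L.lattice) (z : ℂ) : ℘[L] (z + l) = ℘[L] z :=
  L.weierstrassP_add_coe z ⟨l, hl⟩

theorem weierstrassP_eq_iff {z w : ℂ} (hz : z ∉ L.lattice) (hw : w ∉ L.lattice) :
    ℘[L] z = ℘[L] w ↔ z - w ∈ L.lattice ∨ z + w ∈ L.lattice := by
  constructor
  · intro h
    have hsq : ℘'[L] z ^ 2 = ℘'[L] w ^ 2 := by
      rw [L.derivWeierstrassP_sq z hz, L.derivWeierstrassP_sq w hw, h]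
    have key : ∀ u : ℂ, u ∉ L.lattice → ℘[L] z = ℘[L] u → ℘'[L] z = ℘'[L] u →
        z - u ∈ L.lattice := by
      intro u hu h0 h1
      by_contra hd
      set d := z - u
      have hgu : AnalyticAt ℂ (fun x => ℘[L] (x + d) - ℘[L] x) u := by
        refine AnalyticAt.sub ?_ (L.analyticOnNhd_weierstrassP u hu)
        exact (L.analyticOnNhd_weierstrassP z hz).comp_of_eq (analyticAt_id.add analyticAt_const)
          (by simp [d])
      have htop : analyticOrderAt (fun x => ℘[L] (x + d) - ℘[L] x) u = ⊤ := by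
        rw [ENat.eq_top_iff_forall_ge]
        intro n
        rw [natCast_le_analyticOrderAt_iff_iteratedDeriv_eq_zero hgu]
        intro i _
        have ha : AnalyticAt ℂ (fun x => ℘[L] (x + d)) u :=
          (L.analyticOnNhd_weierstrassP z hz).comp_of_eq (analyticAt_id.add analyticAt_const)
            (by simp [d])
        rw [iteratedDeriv_fun_sub ha.contDiffAt (L.analyticOnNhd_weierstrassP u hu).contDiffAt,
          iteratedDeriv_comp_add_const]
        simp only
        rw [show u + d = z by simp [d], sub_eq_zero]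
        exact iteratedDeriv_weierstrassP_congr L hz hu h0 h1 i
      set S : Set ℂ := (L.lattice : Set ℂ) ∪ (fun x => x - d) '' (L.lattice : Set ℂ)
      have hS : S.Countable := (countable_lattice L).union ((countable_lattice L).image _)
      have hmem : ∀ x, x ∈ Sᶜ ↔ x ∉ L.lattice ∧ x + d ∉ L.lattice := by
        intro x
        simp only [S, Set.mem_compl_iff, Set.mem_union, Set.mem_image, SetLike.mem_coe, not_or]
        refine and_congr_right fun _ => ⟨fun hh hx => hh ⟨x + d, hx, by ring⟩, ?_⟩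
        rintro hh ⟨y, hy, rfl⟩
        exact hh (by simpa using hy)
      have han : AnalyticOnNhd ℂ (fun x => ℘[L] (x + d) - ℘[L] x) Sᶜ := fun x hx =>
        ((L.analyticOnNhd_weierstrassP (x + d) ((hmem x).1 hx).2).comp_of_eq
          (analyticAt_id.add analyticAt_const) rfl).sub
          (L.analyticOnNhd_weierstrassP x ((hmem x).1 hx).1)
      have huS : u ∈ Sᶜ := (hmem u).2 ⟨hu, by simpa [d] using hz⟩
      have hzero := han.eqOn_zero_of_preconnected_of_eventuallyEq_zero
        (isPreconnected_compl_countable hS) huS (analyticOrderAt_eq_top.mp htop)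
      have hd0 : (fun x : ℂ => x + d) ⁻¹' (L.lattice : Set ℂ)ᶜ ∈ 𝓝[≠] (0 : ℂ) := by
        refine mem_nhdsWithin_of_mem_nhds ((L.isClosed_lattice.isOpen_compl.preimage
          (by fun_prop)).mem_nhds ?_)
        simpa using hd
      refine not_eventuallyEq_weierstrassP L (g := fun x => ℘[L] (x + d)) ?_ ?_
      · exact (L.analyticOnNhd_weierstrassP d hd).comp_of_eq (analyticAt_id.add analyticAt_const)
          (by simp)
      · filter_upwards [compl_mem_punctured L, hd0] with x hx hx'
        have := hzero ((hmem x).2 ⟨hx, hx'⟩)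
        exact (sub_eq_zero.mp this).symm
    rcases sq_eq_sq_iff_eq_or_eq_neg.mp hsq with h1 | h1
    · exact Or.inl (key w hw h h1)
    · refine Or.inr ?_
      have := key (-w) (fun hh => hw (by simpa using neg_mem hh))
        (by rw [L.weierstrassP_neg]; exact h) (by rw [L.derivWeierstrassP_neg]; exact h1)
      simpa using this
  · rintro (h | h)
    · rw [← weierstrassP_add_period L h w]; congr 1; ring
    · rw [← L.weierstrassP_neg w, ← weierstrassP_add_period L h (-w)]; congr 1; ring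

/-- the value of the row sum `∑ₙ 1/(x-n)²`, without the factor `(2πi)²` -/
def rowVal (x : ℂ) : ℂ :=
  Complex.exp (2 * π * Complex.I * x) / (1 - Complex.exp (2 * π * Complex.I * x)) ^ 2

theorem summable_row (x : ℂ) : Summable fun n : ℤ => 1 / (x - n) ^ 2 := by
  have h := EisensteinSeries.linear_right_summable (-x) 1 (k := 2) le_rfl
  refine h.congr fun n => ?_
  rw [one_div, show (x - n : ℂ) ^ 2 = ((1 : ℤ) * (-x) + n) ^ 2 by push_cast; ring]
  norm_cast

theorem rowVal_neg {x : ℂ} : rowVal (-x) = rowVal x := by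
  simp only [rowVal, mul_neg, Complex.exp_neg]
  have h := Complex.exp_ne_zero (2 * π * Complex.I * x)
  field_simp
  rw [show (Complex.exp (2 * π * Complex.I * x) - 1) ^ 2 =
    (1 - Complex.exp (2 * π * Complex.I * x)) ^ 2 by ring]

theorem tsum_row_of_im_pos {x : ℂ} (hx : 0 < x.im) :
    ∑' n : ℤ, 1 / (x - n) ^ 2 = (2 * π * Complex.I) ^ 2 * rowVal x := by
  have h := EisensteinSeries.qExpansion_identity (k := 1) le_rfl ⟨x, hx⟩
  have hr : ‖Complex.exp (2 * π * Complex.I * x)‖ < 1 :=
    UpperHalfPlane.norm_exp_two_pi_I_lt_one ⟨x, hx⟩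
  rw [rowVal, ← tsum_coe_mul_geometric_of_norm_lt_one hr]
  rw [← (Equiv.neg ℤ).tsum_eq]
  simp only [Equiv.neg_apply, Int.cast_neg, sub_neg_eq_add]
  norm_num at h
  simpa using h

theorem tsum_row {x : ℂ} (hx : ∀ n : ℤ, x ≠ n) :
    ∑' n : ℤ, 1 / (x - n) ^ 2 = (2 * π * Complex.I) ^ 2 * rowVal x := by
  have hneg : ∀ y : ℂ, ∑' n : ℤ, 1 / (-y - n) ^ 2 = ∑' n : ℤ, 1 / (y - n) ^ 2 := fun y => by
    rw [← (Equiv.neg ℤ).tsum_eq]
    refine tsum_congr fun n => ?_
    simp only [Equiv.neg_apply, Int.cast_neg]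
    congr 1; ring
  rcases lt_trichotomy x.im 0 with h | h | h
  · rw [← hneg, tsum_row_of_im_pos (by simpa using h), rowVal_neg]
  swap
  · exact tsum_row_of_im_pos h
  -- real `x`: limit from above
  let y : ℕ → ℂ := fun k => x + ((1 / (k + 1) : ℝ) : ℂ) * Complex.I
  have hy : Tendsto y atTop (𝓝 x) := by
    have h0 : Tendsto (fun k : ℕ => ((1 / (k + 1) : ℝ) : ℂ)) atTop (𝓝 0) := by
      have := (Complex.continuous_ofReal.tendsto 0).comp
        (tendsto_one_div_add_atTop_nhds_zero_nat (𝕜 := ℝ))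
      simpa [Function.comp_def] using this
    have h1 := (h0.mul_const Complex.I).const_add x
    simp only [zero_mul, add_zero] at h1
    exact h1
  have hyim : ∀ k, 0 < (y k).im := fun k => by
    have : 0 < (1 / ((k : ℝ) + 1)) := Nat.one_div_pos_of_nat
    simp only [y, Complex.add_im, h, Complex.mul_im, Complex.ofReal_re, Complex.ofReal_im,
      Complex.I_re, Complex.I_im, mul_one, mul_zero, zero_add, add_zero]
    exact this
  have hbound : ∀ (k : ℕ) (n : ℤ), ‖1 / (y k - n) ^ 2‖ ≤ ‖1 / (x - n) ^ 2‖ := by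
    intro k n
    simp only [norm_div, norm_one, norm_pow]
    refine one_div_le_one_div_of_le (pow_pos (norm_pos_iff.mpr (sub_ne_zero.mpr (hx n))) 2) ?_
    refine pow_le_pow_left₀ (norm_nonneg _) ?_ 2
    have e1 : (x - n : ℂ) = ((x.re - n : ℝ) : ℂ) := by apply Complex.ext <;> simp [h]
    have e2 : (y k - n).re = x.re - n := by simp [y]
    rw [e1, Complex.norm_real, Real.norm_eq_abs, ← e2]
    exact Complex.abs_re_le_norm _
  have hlim : Tendsto (fun k => ∑' n : ℤ, 1 / (y k - n) ^ 2) atTop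
      (𝓝 (∑' n : ℤ, 1 / (x - n) ^ 2)) := by
    refine tendsto_tsum_of_dominated_convergence (bound := fun n : ℤ => ‖1 / (x - n) ^ 2‖)
      (summable_row x).norm (fun n => ?_) (Eventually.of_forall hbound)
    exact tendsto_const_nhds.div ((hy.sub_const _).pow 2) (pow_ne_zero 2 (sub_ne_zero.mpr (hx n)))
  refine tendsto_nhds_unique hlim ?_
  simp only [fun k => tsum_row_of_im_pos (hyim k)]
  refine Tendsto.const_mul _ ?_
  have hne : (1 - Complex.exp (2 * π * Complex.I * x)) ^ 2 ≠ 0 := by
    refine pow_ne_zero 2 (sub_ne_zero.mpr fun he => ?_)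
    obtain ⟨n, hn⟩ := Complex.exp_eq_one_iff.mp he.symm
    exact hx n (mul_left_cancel₀ Complex.two_pi_I_ne_zero (hn.trans (mul_comm _ _)))
  have hc : ContinuousAt rowVal x := by
    unfold rowVal
    fun_prop (disch := exact hne)
  exact hc.tendsto.comp hy

theorem hasSum_row {x : ℂ} (hx : ∀ n : ℤ, x ≠ n) :
    HasSum (fun n : ℤ => 1 / (x - n) ^ 2) ((2 * π * Complex.I) ^ 2 * rowVal x) :=
  tsum_row hx ▸ (summable_row x).hasSum

end FLTAgent.Good
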