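import Fermat.Agent.Good.LevelDefs
import Fermat.Agent.Good.LevelWP

/-!
The lattice sum as a series in `t = q^{1/M}`.
-/

set_option autoImplicit false

noncomputable section

open UpperHalfPlane Complex Filter
open scoped MatrixGroups Manifold Topology Real

namespace FLTAgent.Good

theorem mem_lattice_periodPairAt {τ : ℍ} {x : ℂ} :
    x ∈ (periodPairAt τ).lattice ↔ ∃ m n : ℤ, (m : ℂ) * (τ : ℂ) + n = x := by
  rw [PeriodPair.mem_lattice]
  simp [periodPairAt]

theorem lattice_coord_eq {τ : ℍ} {a b : ℝ} {m n : ℤ}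
    (h : (a : ℂ) * (τ : ℂ) + b = (m : ℂ) * (τ : ℂ) + n) : a = m ∧ b = n := by
  have hi := congrArg Complex.im h
  simp at hi
  rcases hi with hi | hi
  · exact ⟨hi, by have := congrArg Complex.re h; simp [hi] at this; exact this⟩
  · exact absurd hi τ.im_ne_zero

variable (M : ℕ) [NeZero M]

theorem M_ne : (M : ℂ) ≠ 0 := Nat.cast_ne_zero.mpr (NeZero.ne M)

/-- `ζ_M` -/
def ζC : ℂ := Complex.exp (2 * π * Complex.I / M)

theorem ζC_prim : IsPrimitiveRoot (ζC M) M := Complex.isPrimitiveRoot_exp M (NeZero.ne M)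

/-- `ζ^b` in the coefficient ring -/
def zp (b : ZMod M) : coeffRing M :=
  ⟨ζC M ^ b.val, pow_mem (Algebra.subset_adjoin (Set.mem_insert _ _)) _⟩

theorem ζC_pow_mod (n : ℕ) : ζC M ^ (n % M) = ζC M ^ n :=
  (pow_eq_pow_mod n (ζC_prim M).pow_eq_one).symm

theorem zp_add (b b' : ZMod M) : zp M (b + b') = zp M b * zp M b' := by
  apply Subtype.ext
  show ζC M ^ (b + b').val = ζC M ^ b.val * ζC M ^ b'.val
  rw [← pow_add, ZMod.val_add, ζC_pow_mod]

theorem zp_zero : zp M 0 = 1 := Subtype.ext (by simp [zp])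

theorem isUnit_zp (b : ZMod M) : IsUnit (zp M b) :=
  IsUnit.of_mul_eq_one (zp M (-b)) (by rw [← zp_add, add_neg_cancel, zp_zero])

theorem zp_pow (b : ZMod M) (k : ℕ) : zp M b ^ k = zp M ((k : ZMod M) * b) := by
  induction k with
  | zero => simp [zp_zero]
  | succ k ih => rw [pow_succ, ih, ← zp_add]; congr 1; push_cast; ring

theorem isUnit_one_sub_zp {b : ZMod M} (hb : b ≠ 0) : IsUnit (1 - zp M b) := by
  have hM : IsUnit ((M : coeffRing M)) := IsUnit.of_mul_eq_one
    (⟨(M : ℂ)⁻¹, Algebra.subset_adjoin (by simp)⟩ : coeffRing M)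
    (Subtype.ext (by simp [M_ne M]))
  obtain ⟨n, hn⟩ := Nat.exists_eq_succ_of_ne_zero (NeZero.ne M)
  have hζ : IsPrimitiveRoot (zp M 1) (n + 1) := by
    have h1 := ζC_prim M
    rcases Nat.eq_zero_or_pos n with rfl | hn0
    · rw [zero_add, IsPrimitiveRoot.one_right_iff]
      subst hn
      rw [Subsingleton.elim (1 : ZMod 1) 0, zp_zero]
    · haveI : Fact (1 < M) := ⟨by omega⟩
      rw [Nat.succ_eq_add_one] at hn
      rw [← hn]
      refine IsPrimitiveRoot.of_map_of_injective (f := (coeffRing M).val) ?_ Subtype.val_injective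
      simpa [zp, ZMod.val_one] using h1
  have hprod := hζ.prod_one_sub_pow_eq_order
  have hbval : b.val ≠ 0 := by rwa [Ne, ZMod.val_eq_zero]
  obtain ⟨i, hi⟩ := Nat.exists_eq_succ_of_ne_zero hbval
  have hmem : i ∈ Finset.range n := Finset.mem_range.mpr (by have := ZMod.val_lt b; omega)
  have hdvd := Finset.dvd_prod_of_mem (fun k => 1 - zp M 1 ^ (k + 1)) hmem
  rw [hprod] at hdvd
  have e : zp M 1 ^ (i + 1) = zp M b := by
    rw [zp_pow, mul_one, show i + 1 = b.val by omega, ZMod.natCast_zmod_val]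
  rw [e] at hdvd
  refine isUnit_of_dvd_unit hdvd ?_
  have e2 : (M : coeffRing M) = (n : coeffRing M) + 1 := by
    conv_lhs => arg 1; rw [hn]
    exact Nat.cast_succ n
  rwa [e2] at hM

/-- constant term of the series of a label -/
def cst (v : Lbl M) : coeffRing M :=
  if v.1 = 0 then zp M v.2 * Ring.inverse (1 - zp M v.2) ^ 2 else 0

/-- exponent attached to a row -/
def eIdx (v : Lbl M) (m : ℤ) : ℤ := (v.1.val : ℤ) - m * M

/-- index of the nonconstant terms -/
abbrev Idx (v : Lbl M) : Type := {p : ℤ × ℕ // p.2 ≠ 0 ∧ eIdx M v p.1 ≠ 0}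

/-- signed label of a row -/
def rowLbl (v : Lbl M) (m : ℤ) : ZMod M := if 0 < eIdx M v m then v.2 else -v.2

/-- coefficient of a term -/
def termC (v : Lbl M) (p : Idx M v) : coeffRing M :=
  (p.1.2 : coeffRing M) * zp M (rowLbl M v p.1.1) ^ p.1.2

/-- exponent of a term -/
def termE (v : Lbl M) (p : Idx M v) : ℕ := p.1.2 * (eIdx M v p.1.1).natAbs

theorem finite_fibre (v : Lbl M) (n : ℕ) : Finite {p : Idx M v // termE M v p = n} := by
  refine Finite.of_injective (β := Set.Icc (-(n : ℤ)) (n + 1) × Set.Iic n) (fun p =>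
    (⟨p.1.1.1, ?_⟩, ⟨p.1.1.2, ?_⟩)) ?_
  · obtain ⟨⟨⟨m, k⟩, hk, he⟩, hp⟩ := p
    simp only [termE] at hp
    have hle : (eIdx M v m).natAbs ≤ n := hp ▸ Nat.le_mul_of_pos_left _ (Nat.pos_of_ne_zero hk)
    have h1 := ZMod.val_lt v.1
    have h2 : (1 : ℤ) ≤ M := by exact_mod_cast Nat.pos_of_ne_zero (NeZero.ne M)
    have h4 : |(v.1.val : ℤ) - m * M| ≤ n := by
      rw [Int.abs_eq_natAbs]; exact_mod_cast hle
    rw [abs_le] at h4
    have h1' : (v.1.val : ℤ) < M := by exact_mod_cast h1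
    simp only [Set.mem_Icc]
    constructor
    · by_contra hc
      nlinarith
    · by_contra hc
      nlinarith
  · obtain ⟨⟨⟨m, k⟩, hk, he⟩, hp⟩ := p
    simp only [termE] at hp
    simp only [Set.mem_Iic]
    exact hp ▸ Nat.le_mul_of_pos_right _ (Int.natAbs_pos.mpr he)
  · rintro ⟨⟨⟨m, k⟩, hp⟩, _⟩ ⟨⟨⟨m', k'⟩, hp'⟩, _⟩ h
    simp only [Prod.mk.injEq, Subtype.mk.injEq] at h
    obtain ⟨rfl, rfl⟩ := h
    rfl

instance fintypeFibre (v : Lbl M) (n : ℕ) : Fintype {p : Idx M v // termE M v p = n} :=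
  haveI := finite_fibre M v n
  Fintype.ofFinite _

/-- the series of a label -/
def lblSeries (v : Lbl M) : PowerSeries (coeffRing M) :=
  PowerSeries.mk fun n =>
    (if n = 0 then cst M v else 0) + ∑ p : {p : Idx M v // termE M v p = n}, termC M v p.1

/-- `q^{1/M}` -/
def tq (τ : ℍ) : ℂ := Function.Periodic.qParam M (τ : ℂ)

theorem norm_tq_lt (τ : ℍ) : ‖tq M τ‖ < 1 :=
  Function.Periodic.norm_qParam_lt_one (by exact_mod_cast Nat.pos_of_ne_zero (NeZero.ne M)) τ.im_pos

theorem tq_ne_zero (τ : ℍ) : tq M τ ≠ 0 := Complex.exp_ne_zero _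

theorem exp_row (v : Lbl M) (τ : ℍ) (m : ℤ) :
    Complex.exp (2 * π * Complex.I * (torsPt M v τ - m * (τ : ℂ))) =
      (zp M v.2 : ℂ) * tq M τ ^ eIdx M v m := by
  show _ = ζC M ^ v.2.val * _
  rw [ζC, tq, Function.Periodic.qParam, ← Complex.exp_nat_mul, ← Complex.exp_int_mul,
    ← Complex.exp_add]
  congr 1
  simp only [eIdx, torsPt]
  push_cast
  field_simp [M_ne M]
  ring

theorem torsPt_sub_ne_int {v : Lbl M} (hv : v ≠ 0) (τ : ℍ) (m n : ℤ) :
    torsPt M v τ - m * (τ : ℂ) ≠ n := by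
  intro h
  have e : (((v.1.val : ℝ) / M : ℝ) : ℂ) * (τ : ℂ) + (((v.2.val : ℝ) / M : ℝ) : ℂ) =
      (m : ℂ) * (τ : ℂ) + n := by
    rw [← h, torsPt]; push_cast; field_simp [M_ne M]; ring
  obtain ⟨e1, e2⟩ := lattice_coord_eq e
  have hM : (0 : ℝ) < M := by exact_mod_cast Nat.pos_of_ne_zero (NeZero.ne M)
  rw [div_eq_iff hM.ne'] at e1 e2
  have key : ∀ (a : ZMod M) (k : ℤ), (a.val : ℝ) = k * M → a = 0 := by
    intro a k ha
    have h1 : ((a.val : ℤ) : ℝ) = ((k * M : ℤ) : ℝ) := by push_cast; exact ha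
    have h2 : (a.val : ℤ) = k * M := Int.cast_injective h1
    have h3 := congrArg (fun z : ℤ => (z : ZMod M)) h2
    simpa using h3
  exact hv (Prod.ext (key _ _ e1) (key _ _ e2))

theorem torsPt_notMem {v : Lbl M} (hv : v ≠ 0) (τ : ℍ) :
    torsPt M v τ ∉ (periodPairAt τ).lattice := by
  rw [mem_lattice_periodPairAt]
  rintro ⟨m, n, h⟩
  exact torsPt_sub_ne_int M hv τ m n (by rw [← h]; ring)

theorem summable_terms (v : Lbl M) (τ : ℍ) :
    Summable fun p : Idx M v => (termC M v p : ℂ) * tq M τ ^ termE M v p := by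
  set r := ‖tq M τ‖ with hr
  have hr0 : 0 < r := norm_pos_iff.mpr (tq_ne_zero M τ)
  have hr1 : r < 1 := norm_tq_lt M τ
  have h1 : Summable fun m : ℤ => r ^ m.natAbs := by
    refine summable_int_iff_summable_nat_and_neg.mpr ⟨?_, ?_⟩
    all_goals simpa using summable_geometric_of_lt_one hr0.le hr1
  have h2 : Summable fun k : ℕ => (k : ℝ) * r ^ k := by
    simpa using (summable_pow_mul_geometric_of_norm_lt_one 1
      (show ‖r‖ < 1 by rwa [Real.norm_eq_abs, abs_of_pos hr0]) : Summable fun k : ℕ => (k : ℝ) ^ 1 * r ^ k)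
  have h3 := ((h1.mul_left (r ^ (M + 1))⁻¹).mul_of_nonneg h2 (fun m => by positivity)
    (fun k => by positivity)).comp_injective (Subtype.val_injective (p := fun p : ℤ × ℕ =>
      p.2 ≠ 0 ∧ eIdx M v p.1 ≠ 0))
  refine Summable.of_norm_bounded h3 ?_
  rintro ⟨⟨m, k⟩, hk, he⟩
  simp only [termC, termE, Function.comp_apply]
  push_cast
  rw [norm_mul, norm_mul, norm_pow, norm_pow]
  have hz : ‖(zp M (rowLbl M v m) : ℂ)‖ = 1 := by
    show ‖ζC M ^ _‖ = 1
    rw [norm_pow, (ζC_prim M).norm'_eq_one (NeZero.ne M), one_pow]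
  rw [hz, one_pow, mul_one, RCLike.norm_natCast, ← hr]
  have hexp : k + m.natAbs ≤ k * (eIdx M v m).natAbs + (M + 1) := by
    have h5 : m.natAbs ≤ (eIdx M v m).natAbs + M := by
      have h1 := ZMod.val_lt v.1
      have hM1 : (1 : ℤ) ≤ M := by exact_mod_cast Nat.pos_of_ne_zero (NeZero.ne M)
      zify
      simp only [eIdx]
      have hle : |m| ≤ |m * (M : ℤ)| := by
        rw [abs_mul]; exact le_mul_of_one_le_right (abs_nonneg _) (by rw [Nat.abs_cast]; exact hM1)
      have h6 := abs_sub_abs_le_abs_sub (m * (M : ℤ)) (v.1.val : ℤ)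
      rw [abs_sub_comm (m * (M : ℤ)) (v.1.val : ℤ), Nat.abs_cast v.1.val] at h6
      have h1' : (v.1.val : ℤ) < M := by exact_mod_cast h1
      omega
    have h6 : k + (eIdx M v m).natAbs ≤ k * (eIdx M v m).natAbs + 1 := by
      simp only at hk he
      obtain ⟨a, ha⟩ := Nat.exists_eq_succ_of_ne_zero hk
      obtain ⟨b, hb⟩ := Nat.exists_eq_succ_of_ne_zero (Int.natAbs_ne_zero.mpr he)
      rw [ha, hb]; simp [Nat.succ_mul, Nat.mul_succ]; omega
    omega
  calc (k : ℝ) * r ^ (k * (eIdx M v m).natAbs)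
      = k * (r ^ (M + 1))⁻¹ * r ^ (k * (eIdx M v m).natAbs + (M + 1)) := by
        rw [pow_add]; field_simp; ring
    _ ≤ k * (r ^ (M + 1))⁻¹ * r ^ (k + m.natAbs) :=
        mul_le_mul_of_nonneg_left (pow_le_pow_of_le_one hr0.le hr1.le hexp) (by positivity)
    _ = _ := by rw [pow_add]; ring

theorem norm_tq_zpow_lt (τ : ℍ) {e : ℕ} (he : e ≠ 0) (b : ZMod M) :
    ‖(zp M b : ℂ) * tq M τ ^ e‖ < 1 := by
  rw [norm_mul, show ‖(zp M b : ℂ)‖ = 1 by
    show ‖ζC M ^ _‖ = 1
    rw [norm_pow, (ζC_prim M).norm'_eq_one (NeZero.ne M), one_pow], one_mul, norm_pow]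
  exact pow_lt_one₀ (norm_nonneg _) (norm_tq_lt M τ) he

/-- one row as a sum of terms -/
theorem hasSum_rowTerms (v : Lbl M) (τ : ℍ) (m : ℤ) (he : eIdx M v m ≠ 0) :
    HasSum (fun k : ℕ => (k : ℂ) * ((zp M (rowLbl M v m) : ℂ) * tq M τ ^ (eIdx M v m).natAbs) ^ k)
      (rowVal (torsPt M v τ - m * (τ : ℂ))) := by
  have h := hasSum_coe_mul_geometric_of_norm_lt_one
    (norm_tq_zpow_lt M τ (Int.natAbs_ne_zero.mpr he) (rowLbl M v m))
  suffices e : rowVal (torsPt M v τ - m * (τ : ℂ)) = _ by rw [e]; exact h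
  rw [rowVal, exp_row]
  unfold rowLbl
  split_ifs with hpos
  · rw [← zpow_natCast (tq M τ) (eIdx M v m).natAbs, Int.natAbs_of_nonneg hpos.le]
  · have hn : eIdx M v m = -((eIdx M v m).natAbs : ℤ) := by omega
    have hmul : (zp M v.2 : ℂ) * (zp M (-v.2) : ℂ) = 1 := by
      have := congrArg Subtype.val ((zp_add M v.2 (-v.2)).symm.trans
        ((congrArg (zp M) (add_neg_cancel v.2)).trans (zp_zero M)))
      simpa using this
    rw [hn, zpow_neg, zpow_natCast, Int.natAbs_neg, Int.natAbs_natCast]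
    set u := (zp M (-v.2) : ℂ) * tq M τ ^ (eIdx M v m).natAbs with hu
    have hu0 : u ≠ 0 := mul_ne_zero (by intro h0; rw [h0, mul_zero] at hmul; exact one_ne_zero hmul.symm)
      (pow_ne_zero _ (tq_ne_zero M τ))
    have e : (zp M v.2 : ℂ) * (tq M τ ^ (eIdx M v m).natAbs)⁻¹ = u⁻¹ := by
      rw [hu, mul_inv, eq_inv_of_mul_eq_one_left hmul]
    rw [e]
    field_simp
    rw [show (u - 1) ^ 2 = (1 - u) ^ 2 by ring]

/-- the row sums add up to the series -/
theorem hasSum_rows {v : Lbl M} (hv : v ≠ 0) (τ : ℍ) :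
    HasSum (fun m : ℤ => rowVal (torsPt M v τ - m * (τ : ℂ)))
      ((cst M v : ℂ) + ∑' p : Idx M v, (termC M v p : ℂ) * tq M τ ^ termE M v p) := by
  classical
  -- extend the terms by zero to `ℤ × ℕ`
  set S : Set (ℤ × ℕ) := {p | p.2 ≠ 0 ∧ eIdx M v p.1 ≠ 0}
  set F : ℤ × ℕ → ℂ := fun p => if eIdx M v p.1 ≠ 0 then
    (p.2 : ℂ) * ((zp M (rowLbl M v p.1) : ℂ) * tq M τ ^ (eIdx M v p.1).natAbs) ^ p.2 else 0 with hF
  have hsupp : Function.support F ⊆ S := by
    rintro ⟨m, k⟩ h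
    simp only [Function.mem_support, hF] at h
    split_ifs at h with hh
    exacts [⟨fun hk => h (by simp [show k = 0 from hk]), hh⟩, absurd rfl h]
  have hFval : (F ∘ (Subtype.val : S → ℤ × ℕ)) =
      fun p : Idx M v => (termC M v p : ℂ) * tq M τ ^ termE M v p := by
    funext p
    simp only [hF, Function.comp_apply, if_pos p.2.2, termC, termE]
    push_cast
    rw [mul_pow, ← pow_mul, mul_comm (eIdx M v p.1.1).natAbs]
    ring
  have hsum : HasSum F (∑' p : Idx M v, (termC M v p : ℂ) * tq M τ ^ termE M v p) := by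
    rw [← hasSum_subtype_iff_of_support_subset hsupp, hFval]
    exact (summable_terms M v τ).hasSum
  have hfib : ∀ m, HasSum (fun k => F (m, k))
      (if eIdx M v m ≠ 0 then rowVal (torsPt M v τ - m * (τ : ℂ)) else 0) := by
    intro m
    by_cases he : eIdx M v m ≠ 0
    · simp only [hF, if_pos he]; exact hasSum_rowTerms M v τ m he
    · simp only [hF, if_neg he]; exact hasSum_zero
  have h1 := hsum.prod_fiberwise hfib
  have h2 : HasSum (fun m : ℤ => if eIdx M v m ≠ 0 then 0 else rowVal (torsPt M v τ - m * (τ : ℂ)))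
      (cst M v : ℂ) := by
    have hiff : ∀ m : ℤ, eIdx M v m = 0 ↔ m = 0 ∧ v.1 = 0 := by
      intro m
      constructor
      · intro h
        have h1 := ZMod.val_lt v.1
        simp only [eIdx] at h
        have hdiv : (v.1.val : ℤ) = m * M := by omega
        have hm : m = 0 := by
          rcases lt_trichotomy m 0 with hm | hm | hm
          · exfalso; nlinarith
          · exact hm
          · exfalso
            have h1' : (v.1.val : ℤ) < M := by exact_mod_cast h1
            nlinarith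
        subst hm
        rw [zero_mul] at hdiv
        exact ⟨rfl, (ZMod.val_eq_zero _).mp (by exact_mod_cast hdiv)⟩
      · rintro ⟨rfl, h⟩; simp [eIdx, h]
    have : (fun m : ℤ => if eIdx M v m ≠ 0 then 0 else rowVal (torsPt M v τ - m * (τ : ℂ))) =
        fun m => if m = 0 then (cst M v : ℂ) else 0 := by
      funext m
      by_cases hm : m = 0 ∧ v.1 = 0
      · rw [if_neg (not_not.mpr ((hiff m).mpr hm)), if_pos hm.1, rowVal, exp_row,
          (hiff m).mpr hm, zpow_zero, mul_one, cst, if_pos hm.2]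
        have hb : v.2 ≠ 0 := fun h => hv (Prod.ext hm.2 h)
        obtain ⟨u, hu⟩ := isUnit_one_sub_zp M hb
        have e : ((u⁻¹ : (coeffRing M)ˣ) : coeffRing M).1 = (1 - (zp M v.2 : ℂ))⁻¹ := by
          refine eq_inv_of_mul_eq_one_left ?_
          have := congrArg Subtype.val u.inv_mul
          rw [hu] at this
          simpa using this
        rw [← hu, Ring.inverse_unit]
        push_cast
        rw [e, inv_pow, div_eq_mul_inv]
      · rw [if_pos fun h => hm ((hiff m).mp h)]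
        split_ifs with h0
        · rw [cst, if_neg fun h => hm ⟨h0, h⟩]; rfl
        · rfl
    rw [this]
    exact hasSum_ite_eq 0 _
  have h3 := h1.add h2
  rw [add_comm] at h3
  convert h3 using 1
  funext m
  split_ifs <;> simp

theorem hasSum_lblSeries (v : Lbl M) (τ : ℍ) :
    HasSum (fun n : ℕ => ((PowerSeries.coeff n (lblSeries M v) : coeffRing M) : ℂ) * tq M τ ^ n)
      ((cst M v : ℂ) + ∑' p : Idx M v, (termC M v p : ℂ) * tq M τ ^ termE M v p) := by
  have h := (Equiv.sigmaFiberEquiv (termE M v)).hasSum_iff.mpr (summable_terms M v τ).hasSum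
  have h1 := h.sigma (fun n => hasSum_fintype _)
  refine ((hasSum_ite_eq 0 (cst M v : ℂ)).add h1).congr_fun fun n => ?_
  simp only [lblSeries, PowerSeries.coeff_mk, Function.comp_apply, Equiv.sigmaFiberEquiv_apply]
  push_cast
  rw [add_mul, Finset.sum_mul]
  congr 1
  · split_ifs with h0
    · simp [h0]
    · simp
  · exact Finset.sum_congr rfl fun p _ => by rw [p.2]

end FLTAgent.Good
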