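import Fermat.Agent.Good.LevelField
import Fermat.Agent.Good.GaloisSystem
import Mathlib.RingTheory.Polynomial.IsIntegral

/-!
Normality: in both fibres an element of the field integral over the image of `A[j]` is the
expansion of an element of the level `M` ring.
-/

set_option autoImplicit false

noncomputable section

open UpperHalfPlane ModularCurve CongruenceSubgroup
open scoped MatrixGroups

namespace FLTAgent.Good

/-- a quotient of two elements, integral over an integrally closed subring, is in it -/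
theorem mem_range_of_integrallyClosed {D L : Type*} [CommRing D] [IsDomain D]
    [IsIntegrallyClosed D] [Field L] (ψ : D →+* L) (hψ : Function.Injective ψ) {t : L} {a b : D}
    (hb : b ≠ 0) (h : t * ψ b = ψ a) {p : Polynomial D} (hp : p.Monic) (ht : p.eval₂ ψ t = 0) :
    t ∈ ψ.range := by
  let Q := FractionRing D
  let χ : Q →+* L := IsFractionRing.lift hψ
  have hχ : ∀ x, χ (algebraMap _ Q x) = ψ x := fun x => IsFractionRing.lift_algebraMap _ x
  set y : Q := algebraMap _ Q a / algebraMap _ Q b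
  have hy : χ y = t := by
    rw [map_div₀, hχ, hχ, ← h, mul_div_cancel_right₀ _ ((map_ne_zero_iff _ hψ).mpr hb)]
  have hint : IsIntegral D y := by
    refine ⟨p, hp, χ.injective ?_⟩
    rw [Polynomial.hom_eval₂, map_zero, show χ.comp (algebraMap _ Q) = ψ from RingHom.ext hχ, hy]
    exact ht
  obtain ⟨Y, hY⟩ := IsIntegrallyClosed.algebraMap_eq_of_integral hint
  exact ⟨Y, by rw [← hχ, hY, hy]⟩

namespace Lev

variable {S : Lev} {F : Type} [Field F] (Φ : S.Fib F)

/-- the image of `A[j]` -/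
def Fib.Aj : Subring (LaurentSeries F) :=
  ((Φ.φ).comp (Polynomial.aeval (R := S.A) S.jL).toRingHom).range

theorem Fib.mem_Aj {x : LaurentSeries F} :
    x ∈ Φ.Aj ↔ ∃ P : Polynomial S.A, Φ.φ (Polynomial.aeval S.jL P) = x := Iff.rfl

theorem smul_aeval_of_smul_eq (g : S.G) {x : S.LF} (hx : g • x = x) (P : Polynomial S.A) :
    g • Polynomial.aeval x P = Polynomial.aeval x P := by
  rw [show g • Polynomial.aeval x P =
    MulSemiringAction.toAlgHom S.A S.LF g (Polynomial.aeval x P) from rfl,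
    ← Polynomial.aeval_algHom_apply]
  exact congrArg (fun v => Polynomial.aeval v P) hx

theorem Fib.isIntegral_smul (g : S.G) {w : ↥Φ.K}
    (hw : IsIntegral ↥Φ.Aj (w : LaurentSeries F)) :
    IsIntegral ↥Φ.Aj ((g • w : ↥Φ.K) : LaurentSeries F) := by
  obtain ⟨p, hp, hev⟩ := hw
  have hc : ∀ i, ((p.coeff i : ↥Φ.Aj) : LaurentSeries F) ∈ Φ.K := fun i => by
    obtain ⟨P, hP⟩ := Φ.mem_Aj.mp (p.coeff i).2
    rw [← hP, ← Fib.coe_toK]
    exact SetLike.coe_mem _
  refine ⟨p, hp, ?_⟩
  rw [Polynomial.eval₂_eq_sum_range] at hev ⊢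
  have h1 : ∑ i ∈ Finset.range (p.natDegree + 1), (⟨_, hc i⟩ : ↥Φ.K) * w ^ i = 0 := by
    refine Subtype.ext ?_
    rw [AddSubmonoidClass.coe_finsetSum, ZeroMemClass.coe_zero]
    exact hev
  have h2 := congrArg (fun v : ↥Φ.K => ((g • v : ↥Φ.K) : LaurentSeries F)) h1
  simp only [Finset.smul_sum, smul_mul', smul_pow', smul_zero, AddSubmonoidClass.coe_finsetSum,
    MulMemClass.coe_mul, SubmonoidClass.coe_pow, ZeroMemClass.coe_zero] at h2
  refine Eq.trans (Finset.sum_congr rfl fun i _ => ?_) h2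
  congr 1
  obtain ⟨P, hP⟩ := Φ.mem_Aj.mp (p.coeff i).2
  have e : (⟨_, hc i⟩ : ↥Φ.K) = Φ.toK (Polynomial.aeval S.jL P) := Subtype.ext hP.symm
  rw [e, Fib.smul_toK, Fib.coe_toK]
  obtain ⟨γ, rfl⟩ := S.mkG_surjective g
  rw [mkG_smul]
  exact hP.symm.trans (congrArg Φ.φ (smul_aeval_of_smul_eq _ (S.smul_jL (S.mkG γ)) P).symm)

theorem Fib.exists_clear (P : Polynomial F) :
    ∃ (a : S.A) (Q : Polynomial S.A), Φ.c a ≠ 0 ∧ Q.map Φ.c = Polynomial.C (Φ.c a) * P := by
  induction P using Polynomial.induction_on' with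
  | add P Q hP hQ =>
    obtain ⟨a, P', ha, hP'⟩ := hP
    obtain ⟨b, Q', hb, hQ'⟩ := hQ
    refine ⟨a * b, Polynomial.C b * P' + Polynomial.C a * Q', by rw [map_mul]; exact mul_ne_zero ha hb, ?_⟩
    rw [Polynomial.map_add, Polynomial.map_mul, Polynomial.map_mul, Polynomial.map_C,
      Polynomial.map_C, hP', hQ', map_mul, map_mul]
    ring
  | monomial n r =>
    obtain ⟨a, b, hb, hab⟩ := Φ.frac r
    refine ⟨b, Polynomial.monomial n a, hb, ?_⟩
    rw [Polynomial.map_monomial, ← hab, Polynomial.C_mul_monomial, mul_comm]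

/-- elements fixed by the stabiliser of `u` and integral over `A[j]` lift -/
theorem Fib.exists_of_fixed_uL (h : Φ.InvPoly)
    (hstab : ∀ g : S.G, g • Φ.toK S.uL = Φ.toK S.uL → g • S.uL = S.uL)
    {R : Type} [CommRing R] [IsDomain R] [IsIntegrallyClosed R] (f : S.A →+* R) (i : R →+* F)
    (hi : Function.Injective i) (hf : Function.Surjective f) (hfi : Φ.c = i.comp f)
    {t : ↥Φ.K} (ht : ∀ g : S.G, g • S.uL = S.uL → g • t = t)
    (hint : IsIntegral ↥Φ.Aj (t : LaurentSeries F)) :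
    ∃ x : S.LF, Φ.φ x = (t : LaurentSeries F) := by
  classical
  obtain ⟨g, hg, -, n, P, hP⟩ := S.exists_base
  set u := Φ.φ S.uL with hu
  set e : Polynomial R →+* LaurentSeries F :=
    Polynomial.eval₂RingHom ((HahnSeries.C : F →+* LaurentSeries F).comp i) u with he
  have heval : ∀ Q : Polynomial S.A, e (Q.map f) = Φ.φ (Polynomial.aeval S.uL Q) := fun Q => by
    rw [he, Polynomial.coe_eval₂RingHom, Polynomial.eval₂_map, Φ.φ_aeval, Polynomial.aeval_def,
      Polynomial.eval₂_map, hfi]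
    congr 1
    refine RingHom.ext fun a => ?_
    simp only [RingHom.comp_apply, algebraMap_laurentSeries_eq_single, HahnSeries.C_apply]
  have hlead : HasLead u ((S.M / S.M0 : ℕ) : ℤ) := S.hasLead_uL.map Φ.c
  have hpos : 0 < u.order := by
    rw [hlead.order_eq]
    exact_mod_cast Nat.div_pos (Nat.le_of_dvd (Nat.pos_of_ne_zero (NeZero.ne S.M)) S.dvd)
      (Nat.pos_of_ne_zero (NeZero.ne S.M0))
  have hei : Function.Injective e := (injective_iff_map_eq_zero _).mpr fun Q hQ => by
    by_contra hne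
    refine eval₂_pos_order_ne_zero hlead.ne_zero hpos
      ((Polynomial.map_ne_zero_iff hi).mpr hne) ?_
    rw [Polynomial.eval₂_map]
    exact hQ
  set gb := g.map f with hgb
  have hgu : IsUnit (e gb) := by rw [heval]; exact hg.map Φ.φ
  have hgb0 : gb ≠ 0 := fun h0 => hgu.ne_zero (by rw [h0, map_zero])
  let Rg := Localization.Away gb
  haveI : IsDomain Rg := IsLocalization.isDomain_localization
    (powers_le_nonZeroDivisors_of_noZeroDivisors hgb0)
  haveI : IsIntegrallyClosed Rg := isIntegrallyClosed_of_isLocalization (R := Polynomial R) Rg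
    (Submonoid.powers gb) (powers_le_nonZeroDivisors_of_noZeroDivisors hgb0)
  let ψ : Rg →+* LaurentSeries F := IsLocalization.Away.lift gb hgu
  have hψe : ∀ Q, ψ (algebraMap _ Rg Q) = e Q := fun Q => IsLocalization.Away.lift_eq gb hgu Q
  have hψi : Function.Injective ψ := (injective_iff_map_eq_zero _).mpr fun x hx => by
    obtain ⟨⟨Q, s⟩, hQs⟩ := IsLocalization.surj (Submonoid.powers gb) x
    have h1 := congrArg ψ hQs
    rw [map_mul, hx, zero_mul, hψe] at h1
    have hQ : Q = 0 := hei (by rw [← h1, map_zero])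
    rw [hQ, map_zero] at hQs
    exact (mul_eq_zero.mp hQs).resolve_right (IsLocalization.map_units Rg s).ne_zero
  obtain ⟨G', hG'⟩ := hg.exists_left_inv
  have hψr : ∀ x : Rg, ∃ y : S.LF, Φ.φ y = ψ x := by
    intro x
    obtain ⟨⟨Q, ⟨s, k, hk⟩⟩, hQs⟩ := IsLocalization.surj (Submonoid.powers gb) x
    obtain ⟨Q', rfl⟩ := Polynomial.map_surjective f hf Q
    refine ⟨Polynomial.aeval S.uL Q' * G' ^ k, ?_⟩
    have h1 := congrArg ψ hQs
    simp only [map_mul, hψe, ← hk, map_pow, hgb, heval] at h1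
    rw [map_mul, map_pow, ← h1, mul_assoc, ← mul_pow, mul_comm (Φ.φ _) (Φ.φ G'), ← map_mul, hG',
      map_one, one_pow, mul_one]
  -- `j` in the localised ring
  have hAj : ∀ x ∈ Φ.Aj, x ∈ ψ.range := by
    have hj : Φ.φ S.jL ∈ ψ.range := by
      refine ⟨algebraMap _ Rg (P.map f) * IsLocalization.Away.invSelf gb ^ n, ?_⟩
      have hinv : ψ (IsLocalization.Away.invSelf gb) * e gb = 1 := by
        rw [← hψe, ← map_mul, mul_comm, IsLocalization.Away.mul_invSelf, map_one]
      rw [map_mul, map_pow, hψe, heval, ← hP, map_mul, map_pow, ← heval g, mul_assoc, ← mul_pow,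
        mul_comm (e _) (ψ _), hinv, one_pow, mul_one]
    rintro x ⟨Q, rfl⟩
    show Φ.φ (Polynomial.aeval S.jL Q) ∈ ψ.range
    induction Q using Polynomial.induction_on' with
    | add A B hA hB => rw [map_add, map_add]; exact add_mem hA hB
    | monomial k a =>
      rw [Polynomial.aeval_monomial, map_mul, map_pow]
      refine mul_mem ⟨algebraMap _ Rg (Polynomial.C (f a)), ?_⟩ (pow_mem hj k)
      rw [hψe, ← Polynomial.map_C, heval, Polynomial.aeval_C]
  -- `t` is rational in `u`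
  have htu : (t : LaurentSeries F) ∈ IntermediateField.adjoin F ({u} : Set (LaurentSeries F)) := by
    have h1 := h.mem_adjoin_pair S.uL (z := t) fun g hg => ht g (hstab g hg)
    refine (IntermediateField.adjoin_le_iff.mpr ?_) h1
    rintro x (rfl | rfl)
    · have hne : Φ.φ (Polynomial.aeval S.uL g) ^ n ≠ 0 := pow_ne_zero _ (hg.map Φ.φ).ne_zero
      have hj : Φ.φ S.jL = Φ.φ (Polynomial.aeval S.uL P) / Φ.φ (Polynomial.aeval S.uL g) ^ n :=
        (eq_div_iff hne).mpr (by rw [← map_pow, ← map_mul, hP])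
      rw [hj, Φ.φ_aeval, Φ.φ_aeval]
      exact div_mem (IntermediateField.algebra_adjoin_le_adjoin F _
          (Polynomial.aeval_mem_adjoin_singleton F _))
        (pow_mem (IntermediateField.algebra_adjoin_le_adjoin F _
          (Polynomial.aeval_mem_adjoin_singleton F _)) n)
    · exact IntermediateField.mem_adjoin_simple_self F u
  obtain ⟨A₀, B₀, hAB⟩ := (IntermediateField.mem_adjoin_simple_iff F _).mp htu
  rcases eq_or_ne (t : LaurentSeries F) 0 with h0 | h0
  · exact ⟨0, by rw [h0, map_zero]⟩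
  have hB₀ : Polynomial.aeval u B₀ ≠ 0 := fun h' => h0 (by rw [hAB, h', div_zero])
  obtain ⟨a, QA, ha, hQA⟩ := Φ.exists_clear A₀
  obtain ⟨b, QB, hb, hQB⟩ := Φ.exists_clear B₀
  have key : (t : LaurentSeries F) * ψ (algebraMap _ Rg ((Polynomial.C a * QB).map f)) =
      ψ (algebraMap _ Rg ((Polynomial.C b * QA).map f)) := by
    rw [hψe, hψe, heval, heval, Φ.φ_aeval, Φ.φ_aeval, Polynomial.map_mul, Polynomial.map_mul, hQA,
      hQB]
    simp only [map_mul, Polynomial.map_C, Polynomial.aeval_C, ← hu]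
    rw [hAB]
    field_simp
  have hden : algebraMap _ Rg ((Polynomial.C a * QB).map f) ≠ 0 := fun h' => by
    have h1 := congrArg ψ h'
    rw [map_zero, hψe, heval, Φ.φ_aeval, Polynomial.map_mul, hQB] at h1
    simp only [map_mul, Polynomial.map_C, Polynomial.aeval_C, ← hu] at h1
    exact mul_ne_zero ((_root_.map_ne_zero _).mpr ha)
      (mul_ne_zero ((_root_.map_ne_zero _).mpr hb) hB₀) h1
  obtain ⟨p, hp, hev⟩ := hint
  have hlift : p.map (algebraMap ↥Φ.Aj (LaurentSeries F)) ∈ Polynomial.lifts ψ :=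
    (Polynomial.lifts_iff_coeff_lifts _).mpr fun k => by
      rw [Polynomial.coeff_map]
      exact hAj _ (p.coeff k).2
  obtain ⟨q, hq, -, hqm⟩ := Polynomial.lifts_and_natDegree_eq_and_monic hlift (hp.map _)
  obtain ⟨x, hx⟩ := mem_range_of_integrallyClosed ψ hψi hden key hqm
    (by rw [Polynomial.eval₂_eq_eval_map, hq, ← Polynomial.eval₂_eq_eval_map]; exact hev)
  obtain ⟨y, hy⟩ := hψr x
  exact ⟨y, hy.trans hx⟩

/-- normality -/
theorem Fib.exists_of_isIntegral (h : Φ.InvPoly)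
    (hstab : ∀ g : S.G, g • Φ.toK S.uL = Φ.toK S.uL → g • S.uL = S.uL)
    {R : Type} [CommRing R] [IsDomain R] [IsIntegrallyClosed R] (f : S.A →+* R) (i : R →+* F)
    (hi : Function.Injective i) (hf : Function.Surjective f) (hfi : Φ.c = i.comp f)
    {z : ↥Φ.K} (hint : IsIntegral ↥Φ.Aj (z : LaurentSeries F)) :
    ∃ x : S.LF, Φ.φ x = (z : LaurentSeries F) := by
  classical
  let SS : Subgroup S.G := MulAction.stabilizer S.G S.uL
  have := Fintype.ofFinite ↥SS
  obtain ⟨m, xs, ys, hsys⟩ := exists_system (S := ↥SS) (L := S.LF) fun g hg => by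
    obtain ⟨γ, hγ⟩ := S.mkG_surjective (g : S.G)
    obtain ⟨r, hr⟩ := S.exists_unit_diff γ (by rw [← mkG_smul, hγ]; exact g.2)
      (fun h1 => hg (Subtype.ext (hγ.symm.trans h1)))
    refine ⟨r, ?_⟩
    show IsUnit (r - (g : S.G) • r)
    rw [← hγ]
    exact hr
  have hsys' : ∀ g : ↥SS, ∑ i, Φ.toK (xs i) * (g • Φ.toK (ys i)) = if g = 1 then 1 else 0 := by
    intro g
    have h1 := congrArg Φ.toK (hsys g)
    simp only [map_sum, map_mul, apply_ite Φ.toK, map_one, map_zero] at h1
    refine Eq.trans (Finset.sum_congr rfl fun i _ => ?_) h1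
    congr 1
    exact Φ.smul_toK (g : S.G) (ys i)
  have hz := eq_sum_trace (S := ↥SS) (L := ↥Φ.K) (x := fun i => Φ.toK (xs i))
    (y := fun i => Φ.toK (ys i)) hsys' z
  have hyint : ∀ i, IsIntegral ↥Φ.Aj (Φ.φ (ys i)) := fun i => by
    refine (S.isIntegral_adjoin_jL (ys i)).map_of_comp_eq
      ({ toFun := fun w => ⟨Φ.φ w.1, by
          obtain ⟨P, hP⟩ := (AlgHom.mem_range _).mp
            ((Algebra.adjoin_singleton_eq_range_aeval S.A S.jL).le w.2)
          exact Φ.mem_Aj.mpr ⟨P, congrArg Φ.φ hP⟩⟩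
         map_one' := Subtype.ext (map_one Φ.φ)
         map_mul' := fun a b => Subtype.ext (map_mul Φ.φ a.1 b.1)
         map_zero' := Subtype.ext (map_zero Φ.φ)
         map_add' := fun a b => Subtype.ext (map_add Φ.φ a.1 b.1) } :
        ↥(Algebra.adjoin S.A ({S.jL} : Set S.LF)) →+* ↥Φ.Aj) Φ.φ (RingHom.ext fun _ => rfl)
  have htr : ∀ l, ∃ w : S.LF,
      Φ.φ w = ((∑ g : ↥SS, g • (Φ.toK (ys l) * z) : ↥Φ.K) : LaurentSeries F) := by
    intro l
    refine Φ.exists_of_fixed_uL h hstab f i hi hf hfi (fun g hg => ?_) ?_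
    · rw [Finset.smul_sum]
      exact Fintype.sum_equiv (Equiv.mulLeft (⟨g, hg⟩ : ↥SS)) _ _ fun h' => by
        simp only [Equiv.coe_mulLeft, Subgroup.smul_def, Subgroup.coe_mul, mul_smul]
    · rw [AddSubmonoidClass.coe_finsetSum]
      refine IsIntegral.sum _ fun g _ => Φ.isIntegral_smul (g : S.G) ?_
      rw [MulMemClass.coe_mul, Fib.coe_toK]
      exact (hyint l).mul hint
  choose w hw using htr
  refine ⟨∑ i, xs i * w i, ?_⟩
  conv_rhs => rw [hz]
  rw [map_sum, AddSubmonoidClass.coe_finsetSum]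
  refine Finset.sum_congr rfl fun i _ => ?_
  rw [map_mul, hw, MulMemClass.coe_mul, Fib.coe_toK]

end Lev

end FLTAgent.Good
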