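import Fermat.Agent.Good.Normal
import Fermat.Agent.Good.NormLemma
import Fermat.Agent.Good.ChartDefs

/-!
The special fibre of level `M`: Galois over `k(j)`, invariant elements lift to invariant elements;
lifting of the finite chart at level `N`.
-/

set_option autoImplicit false
set_option synthInstance.maxHeartbeats 200000
set_option maxHeartbeats 1000000

noncomputable section

open UpperHalfPlane ModularCurve CongruenceSubgroup IntermediateField
open scoped MatrixGroups

namespace FLTAgent.Good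

namespace Lev

variable (S : Lev)

instance algebraFibK : Algebra S.k ↥S.fibK.K := SubalgebraClass.toAlgebra S.fibK.K

instance isAlgClosed_k : IsAlgClosed S.k := by
  refine IsAlgClosed.of_exists_root _ fun p hp hirr => ?_
  obtain ⟨q, hq, hdeg, hqm⟩ := Polynomial.lifts_and_natDegree_eq_and_monic
    (f := IsLocalRing.residue S.A) ((Polynomial.lifts_iff_coeff_lifts p).mpr fun n =>
      IsLocalRing.residue_surjective _) hp
  obtain ⟨x, hx⟩ := IsAlgClosed.exists_eval₂_eq_zero_of_injective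
    (algebraMap S.A (AlgebraicClosure ℚ)) Subtype.val_injective q
    (by
      rw [Polynomial.degree_eq_natDegree hqm.ne_zero, hdeg]
      exact_mod_cast hirr.natDegree_pos.ne')
  obtain ⟨a, ha⟩ := (IsIntegrallyClosed.isIntegral_iff (R := S.A) (x := x)).mp ⟨q, hqm, hx⟩
  refine ⟨IsLocalRing.residue S.A a, ?_⟩
  rw [← hq, Polynomial.eval_map, Polynomial.eval₂_hom]
  have h0 : q.eval a = 0 := by
    have h1 : algebraMap S.A (AlgebraicClosure ℚ) (q.eval a) = 0 := by
      rw [← Polynomial.eval₂_hom, ha, hx]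
    exact (map_eq_zero_iff _ Subtype.val_injective).mp h1
  rw [h0, map_zero]

theorem fibQ_stab (g : S.G) (h : g • S.fibQ.toK S.uL = S.fibQ.toK S.uL) : g • S.uL = S.uL := by
  rw [Fib.smul_toK] at h
  exact S.expQ_injective (congrArg Subtype.val h)

theorem fibK_stab (g : S.G) (h : g • S.fibK.toK S.uL = S.fibK.toK S.uL) : g • S.uL = S.uL := by
  obtain ⟨γ, rfl⟩ := S.mkG_surjective g
  rw [Fib.smul_toK, mkG_smul] at h
  exact S.act_uL_eq_of_res γ fun σ => S.resA_act_congr (congrArg Subtype.val h) σ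

theorem fibK_smul_eq_one (g : S.G) (h : ∀ z : ↥S.fibK.K, g • z = z) : g = 1 := by
  obtain ⟨γ, rfl⟩ := S.mkG_surjective g
  refine S.mkG_eq_one_of_res γ fun σ x => S.resA_act_congr ?_ σ
  have h1 := h (S.fibK.toK x)
  rw [Fib.smul_toK] at h1
  exact congrArg Subtype.val h1

instance faithfulSMul_fibK : FaithfulSMul S.G ↥S.fibK.K :=
  ⟨fun {g h} e => by
    have := S.fibK_smul_eq_one (h⁻¹ * g) fun z => by rw [mul_smul, e z, inv_smul_smul]
    exact (inv_mul_eq_one.mp this).symm⟩

theorem exists_of_isIntegral_fibK {z : ↥S.fibK.K}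
    (hint : IsIntegral ↥S.fibK.Aj (z : LaurentSeries S.k)) :
    ∃ x : S.LF, S.resA x = (z : LaurentSeries S.k) :=
  S.fibK.exists_of_isIntegral invPoly_fibK S.fibK_stab (IsLocalRing.residue S.A) (RingHom.id S.k)
    Function.injective_id IsLocalRing.residue_surjective rfl hint

theorem exists_of_isIntegral_fibQ {z : ↥S.fibQ.K}
    (hint : IsIntegral ↥S.fibQ.Aj (z : LaurentSeries (AlgebraicClosure ℚ))) :
    ∃ x : S.LF, S.expQ x = (z : LaurentSeries (AlgebraicClosure ℚ)) :=
  S.fibQ.exists_of_isIntegral invPoly_fibQ S.fibQ_stab (RingHom.id S.A) S.A.subtype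
    Subtype.val_injective Function.surjective_id rfl hint

/-- `j` in the special fibre -/
def jF : ↥S.fibK.K := S.fibK.toK S.jL

theorem smul_jF (g : S.G) : g • S.jF = S.jF := by
  rw [jF, Fib.smul_toK, smul_jL]

theorem transcendental_jF : Transcendental S.k S.jF := by
  rw [transcendental_iff]
  intro P hP
  by_contra hne
  have h1 : Polynomial.aeval (S.fibK.φ S.jL) P = 0 :=
    (Polynomial.aeval_algHom_apply S.fibK.K.val S.jF P).trans (by rw [hP, map_zero])
  rw [Fib.φ_jL, aeval_qExpand_jq] at h1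
  exact aeval_jq_ne_zero S.k hne (qExpand_injective (R := S.k) S.M (h1.trans (map_zero _).symm))

theorem mem_adjoin_jF_iff (z : ↥S.fibK.K) : z ∈ S.k⟮S.jF⟯ ↔ ∀ g : S.G, g • z = z := by
  refine ⟨fun hz g => ?_, fun hz => ?_⟩
  · induction hz using IntermediateField.adjoin_induction with
    | mem x hx => rw [Set.mem_singleton_iff] at hx; subst hx; exact S.smul_jF g
    | algebraMap a => exact S.fibK.smul_algebraMap g a
    | add x y _ _ hx hy => rw [smul_add, hx, hy]
    | inv x _ hx => rw [smul_inv'', hx]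
    | mul x y _ _ hx hy => rw [smul_mul', hx, hy]
  · have h1 := invPoly_fibK.mem_adjoin_j hz
    have h2 : (S.k⟮S.jF⟯).map S.fibK.K.val =
        IntermediateField.adjoin S.k ({S.fibK.φ S.jL} : Set (LaurentSeries S.k)) := by
      rw [IntermediateField.adjoin_map, Set.image_singleton]
      rfl
    rw [← h2, IntermediateField.mem_map] at h1
    obtain ⟨w, hw, hwz⟩ := h1
    rwa [← Subtype.ext hwz]

/-- the fixed field is `k(j)` -/
def fixedEquiv : ↥(FixedPoints.subfield S.G ↥S.fibK.K) ≃+* ↥(S.k⟮S.jF⟯) where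
  toFun x := ⟨x.1, (S.mem_adjoin_jF_iff x.1).mpr x.2⟩
  invFun x := ⟨x.1, (S.mem_adjoin_jF_iff x.1).mp x.2⟩
  left_inv _ := rfl
  right_inv _ := rfl
  map_mul' _ _ := rfl
  map_add' _ _ := rfl

instance finiteDimensional_fibK : FiniteDimensional ↥(S.k⟮S.jF⟯) ↥S.fibK.K :=
  haveI := Fintype.ofFinite S.G
  Module.Finite.of_equiv_equiv S.fixedEquiv (RingEquiv.refl ↥S.fibK.K) (RingHom.ext fun _ => rfl)

instance isSeparable_fibK : Algebra.IsSeparable ↥(S.k⟮S.jF⟯) ↥S.fibK.K :=
  haveI := Fintype.ofFinite S.G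
  Algebra.IsSeparable.of_equiv_equiv S.fixedEquiv (RingEquiv.refl ↥S.fibK.K)
    (RingHom.ext fun _ => rfl)

theorem isIntegral_Aj_of_adjoin {z : ↥S.fibK.K}
    (hz : IsIntegral (Algebra.adjoin S.k ({S.jF} : Set ↥S.fibK.K)) z) :
    IsIntegral ↥S.fibK.Aj (z : LaurentSeries S.k) := by
  have hmem : ∀ w ∈ Algebra.adjoin S.k ({S.jF} : Set ↥S.fibK.K),
      (w : LaurentSeries S.k) ∈ S.fibK.Aj := by
    intro w hw
    obtain ⟨P, rfl⟩ := (AlgHom.mem_range _).mp
      ((Algebra.adjoin_singleton_eq_range_aeval S.k S.jF).le hw)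
    obtain ⟨Q, rfl⟩ := Polynomial.map_surjective _ IsLocalRing.residue_surjective P
    refine (Fib.mem_Aj S.fibK).mpr ⟨Q, ?_⟩
    rw [Fib.φ_aeval]
    exact (Polynomial.aeval_algHom_apply S.fibK.K.val S.jF _)
  exact hz.map_of_comp_eq
    ({ toFun := fun w => ⟨(w.1 : LaurentSeries S.k), hmem w.1 w.2⟩
       map_one' := rfl, map_mul' := fun _ _ => rfl
       map_zero' := rfl, map_add' := fun _ _ => rfl } :
      ↥(Algebra.adjoin S.k ({S.jF} : Set ↥S.fibK.K)) →+* ↥S.fibK.Aj)
    (algebraMap ↥S.fibK.K (LaurentSeries S.k)) (RingHom.ext fun _ => rfl)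

/-- integral invariant elements of the special fibre lift to invariant elements -/
theorem exists_lift_invariant (H : Subgroup S.G) {z : ↥S.fibK.K}
    (hz : IsIntegral (Algebra.adjoin S.k ({S.jF} : Set ↥S.fibK.K)) z)
    (hzH : ∀ g ∈ H, g • z = z) :
    ∃ x : S.LF, (∀ g ∈ H, g • x = x) ∧ S.fibK.toK x = z := by
  classical
  have := Fintype.ofFinite ↥H
  haveI : SMulCommClass ↥H S.k ↥S.fibK.K :=
    ⟨fun g r w => smul_comm (g : S.G) r w⟩
  haveI : FaithfulSMul ↥H ↥S.fibK.K :=
    ⟨fun {g h} e => Subtype.ext (FaithfulSMul.eq_of_smul_eq_smul (α := ↥S.fibK.K) e)⟩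
  let B : Subalgebra S.k ↥S.fibK.K :=
    { carrier := {w | ∃ x : S.LF, (∀ g ∈ H, g • x = x) ∧ S.fibK.toK x = w}
      mul_mem' := by
        rintro _ _ ⟨x, hx, rfl⟩ ⟨y, hy, rfl⟩
        exact ⟨x * y, fun g hg => by rw [smul_mul', hx g hg, hy g hg], map_mul _ x y⟩
      one_mem' := ⟨1, fun g _ => smul_one g, map_one _⟩
      add_mem' := by
        rintro _ _ ⟨x, hx, rfl⟩ ⟨y, hy, rfl⟩
        exact ⟨x + y, fun g hg => by rw [smul_add, hx g hg, hy g hg], map_add _ x y⟩
      zero_mem' := ⟨0, fun g _ => smul_zero g, map_zero _⟩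
      algebraMap_mem' := fun r => by
        obtain ⟨a, rfl⟩ := IsLocalRing.residue_surjective r
        refine ⟨algebraMap S.A S.LF a, fun g _ => ?_, Subtype.ext (S.fibK.φ_algebraMap a)⟩
        obtain ⟨γ, rfl⟩ := S.mkG_surjective g
        exact S.act_algebraMap γ a }
  exact mem_of_norm_mem (k := S.k) (K := ↥S.fibK.K) S.jF S.transcendental_jF (G := ↥H)
    (fun g => S.smul_jF g) B ⟨S.jL, fun g _ => S.smul_jL g, rfl⟩
    (fun w hw => by
      obtain ⟨x, hx⟩ := S.exists_of_isIntegral_fibK (S.isIntegral_Aj_of_adjoin hw)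
      have hxw : S.fibK.toK x = w := Subtype.ext hx
      refine ⟨∏ g : ↥H, (g : S.G) • x, fun g hg => ?_, ?_⟩
      · rw [Finset.smul_prod']
        exact Fintype.prod_equiv (Equiv.mulLeft (⟨g, hg⟩ : ↥H)) _ _ fun h => by simp [mul_smul]
      · rw [map_prod]
        refine Finset.prod_congr rfl fun g _ => ?_
        rw [← Fib.smul_toK, hxw]
        rfl)
    hz (fun g => hzH g g.2)

end Lev

end FLTAgent.Good
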